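/-
S36 (cluster G), block W-P, seat VAL-IN (helper97; sub-architect helper59).

THE ADAPTER from the outputs of CORE (a valuation ring `O = O_w` of `F` over the disc valuation
`S1.Ov` of `E = ι₁ F0`, with a residue map `ρ`) to the language of the nodal / graph package:
a `ValSetup K F k Fk` with the lattice property.

Setting: fields `K ⊂ E ⊂ F`; `S1 : ValSetup K E k κ1` (the disc valuation); `O` a valuation ring of
`F`, `ρ : O →+* Fk`, `ιk : κ1 →+* Fk`.

* `ValIn S1 ιk O ρ` : the hypotheses = outputs of CORE-COVER: `O` lies over `S1.Ov`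
  (`LiesOverV`), `ρ` is onto with kernel the maximal ideal and extends the residue map of `S1`
  along `ιk`, `scale` (CORE-COVER (d));
* `ValIn.toValSetup` : the `ValSetup K F k Fk` (`A = S1.A`, `Ov = O`, `res = S1.res`, `ρ = ρ`);
  fields `mem_Ov_iff` (`O ∩ K = A`), `ρ_algebraMap`, `ρ_eq_zero_iff`, `scale`;
* `ValIn.hasLattice` : the lattice property, from a generating family `m` of `F / E` in `O` with
  `ιk κ1`-independent reductions (`HPVal.hasLattice_of_tower`, helper75);
* `ValIn.hli_of_resIndep`, `ValIn.hasLattice_of_resIndep` : the same from `ResIndep S1.Ov O m`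
  (the output shape of CORE-NP).
-/
import Mathlib
import Fermat.Agent.Lib.BadRed.HPVal.LatTower
import Fermat.Agent.Lib.BadRed.FundIneq
import Fermat.Agent.Lib.Deuring.Basic

set_option autoImplicit false
set_option linter.style.haveILetI false
set_option linter.unusedSectionVars false
set_option linter.unusedVariables false

noncomputable section
attribute [local instance 10000] SubalgebraClass.toAlgebra HahnSeries.powerSeriesAlgebra

namespace Fermat.Agent.S36G

open AlgebraicCurve Fermat.Agent.RR Fermat.Agent.Deuring Fermat.Agent.BadRed Fermat.Agent.HPVal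

variable {K E F k κ1 Fk : Type*} [Field K] [Field E] [Algebra K E] [Field F] [Algebra K F]
  [Algebra E F] [IsScalarTower K E F]
  [Field k] [Field κ1] [Algebra k κ1] [Field Fk] [Algebra k Fk]

/-- **the input of VAL-IN** (= the outputs of CORE-COVER for `O = O_w`). -/
structure ValIn (S1 : ValSetup K E k κ1) (ιk : κ1 →+* Fk) (O : ValuationSubring F)
    (ρ : O →+* Fk) : Prop where
  /-- `ιk` is a `k`-algebra map -/
  ιk_alg : ∀ c : k, ιk (algebraMap k κ1 c) = algebraMap k Fk c
  /-- `O ∩ E = S1.Ov` -/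
  lies : LiesOverV S1.Ov O
  /-- `ρ` extends the residue map of `S1` -/
  ρ_ι : ∀ (e : E) (he : e ∈ S1.Ov) (he' : algebraMap E F e ∈ O),
    ρ ⟨algebraMap E F e, he'⟩ = ιk (S1.ρ ⟨e, he⟩)
  ρ_surj : Function.Surjective ρ
  /-- the kernel of `ρ` is the maximal ideal of `O` -/
  ρ_ker : ∀ f : O, ρ f = 0 ↔ ¬ IsUnit f
  /-- every `f ≠ 0` is a constant times a unit of `O` (CORE-COVER (d)) -/
  scale : ∀ f : F, f ≠ 0 → ∃ c : K, c ≠ 0 ∧
    f * (algebraMap K F c)⁻¹ ∈ O ∧ (f * (algebraMap K F c)⁻¹)⁻¹ ∈ O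

namespace ValIn

variable {S1 : ValSetup K E k κ1} {ιk : κ1 →+* Fk} {O : ValuationSubring F} {ρ : O →+* Fk}

/-- `O ∩ K = A`. -/
theorem mem_iff (h : ValIn S1 ιk O ρ) (c : K) : algebraMap K F c ∈ O ↔ c ∈ S1.A := by
  rw [IsScalarTower.algebraMap_apply K E F, h.lies.mem_iff, S1.mem_Ov_iff]

/-- `ρ` on the constants is `res`. -/
theorem ρ_const (h : ValIn S1 ιk O ρ) (c : K) (hc : c ∈ S1.A) (hc' : algebraMap K F c ∈ O) :
    ρ ⟨algebraMap K F c, hc'⟩ = algebraMap k Fk (S1.res ⟨c, hc⟩) := by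
  have hcE : algebraMap K E c ∈ S1.Ov := (S1.mem_Ov_iff c).2 hc
  have hcF : algebraMap E F (algebraMap K E c) ∈ O := (h.lies.mem_iff _).2 hcE
  have e1 : (⟨algebraMap K F c, hc'⟩ : O) = ⟨algebraMap E F (algebraMap K E c), hcF⟩ :=
    Subtype.ext (IsScalarTower.algebraMap_apply K E F c)
  rw [e1, h.ρ_ι _ hcE hcF, S1.ρ_algebraMap c hc hcE, h.ιk_alg]

/-- **VAL-IN**: the constant reduction `(O_w, ρ)` of `F / K`. -/
def toValSetup (h : ValIn S1 ιk O ρ) (hF : IsRRField K F) (hFk : IsRRField k Fk) :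
    ValSetup K F k Fk where
  A := S1.A
  Ov := O
  res := S1.res
  ρ := ρ
  hF := hF
  hFk := hFk
  res_surj := S1.res_surj
  ρ_surj := h.ρ_surj
  mem_Ov_iff := h.mem_iff
  ρ_algebraMap := h.ρ_const
  ρ_eq_zero_iff := h.ρ_ker
  scale := h.scale

@[simp] theorem toValSetup_A (h : ValIn S1 ιk O ρ) (hF : IsRRField K F) (hFk : IsRRField k Fk) :
    (h.toValSetup hF hFk).A = S1.A := rfl

@[simp] theorem toValSetup_Ov (h : ValIn S1 ιk O ρ) (hF : IsRRField K F)
    (hFk : IsRRField k Fk) : (h.toValSetup hF hFk).Ov = O := rfl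

@[simp] theorem toValSetup_res (h : ValIn S1 ιk O ρ) (hF : IsRRField K F)
    (hFk : IsRRField k Fk) : (h.toValSetup hF hFk).res = S1.res := rfl

@[simp] theorem toValSetup_ρ (h : ValIn S1 ιk O ρ) (hF : IsRRField K F)
    (hFk : IsRRField k Fk) : (h.toValSetup hF hFk).ρ = ρ := rfl

theorem red_of_mem (h : ValIn S1 ιk O ρ) (hF : IsRRField K F) (hFk : IsRRField k Fk) {f : F}
    (hf : f ∈ O) : (h.toValSetup hF hFk).red f = ρ ⟨f, hf⟩ :=
  ValSetup.red_of_mem (h.toValSetup hF hFk) hf

/-- the reduction of `O_w` extends the reduction of the disc valuation. -/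
theorem red_algebraMap (h : ValIn S1 ιk O ρ) (hF : IsRRField K F) (hFk : IsRRField k Fk)
    {e : E} (he : e ∈ S1.Ov) :
    (h.toValSetup hF hFk).red (algebraMap E F e) = ιk (S1.red e) := by
  have he' : algebraMap E F e ∈ O := (h.lies.mem_iff e).2 he
  rw [h.red_of_mem hF hFk he', h.ρ_ι e he he', ValSetup.red_of_mem S1 he]

/-- **the lattice property of `O_w`**, from a generating family with independent reductions. -/
theorem hasLattice (h : ValIn S1 ιk O ρ) (hF : IsRRField K F) (hFk : IsRRField k Fk)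
    (hL1 : HasLattice S1) {n : ℕ} (m : Fin n → F) (hm : ∀ j, m j ∈ O)
    (hgen : ∀ x : F, ∃ c : Fin n → E, x = ∑ j, algebraMap E F (c j) * m j)
    (hli : ∀ c : Fin n → κ1, ∑ j, ιk (c j) * (h.toValSetup hF hFk).red (m j) = 0 →
      ∀ j, c j = 0) :
    HasLattice (h.toValSetup hF hFk) :=
  hasLattice_of_tower S1 (h.toValSetup hF hFk) hL1 (algebraMap E F) ιk
    (fun c => (IsScalarTower.algebraMap_apply K E F c).symm) h.ιk_alg
    (fun f hf => (h.lies.mem_iff f).2 hf) (fun f hf => h.red_algebraMap hF hFk hf) m hm hgen hli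

/-- residual independence over `S1.Ov` gives the independence of the reductions over `ιk κ1`. -/
theorem hli_of_resIndep (h : ValIn S1 ιk O ρ) (hF : IsRRField K F) (hFk : IsRRField k Fk)
    {n : ℕ} (m : Fin n → F) (hm : ResIndep S1.Ov O m) :
    ∀ c : Fin n → κ1, ∑ j, ιk (c j) * (h.toValSetup hF hFk).red (m j) = 0 → ∀ j, c j = 0 := by
  intro c hc
  -- lift the coefficients
  have hlift : ∀ j, ∃ a : S1.Ov, S1.ρ a = c j := fun j => S1.ρ_surj (c j)
  choose a ha using hlift
  have hmem : ∀ j, algebraMap E F (a j : E) ∈ O := fun j => (h.lies.mem_iff _).2 (a j).2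
  have hsum_mem : (∑ j, algebraMap E F (a j : E) * m j) ∈ O :=
    sum_mem fun j _ => mul_mem (hmem j) (hm.1 j)
  -- the combination reduces to `0`
  have hρ : ρ ⟨∑ j, algebraMap E F (a j : E) * m j, hsum_mem⟩ = 0 := by
    have e1 : (⟨∑ j, algebraMap E F (a j : E) * m j, hsum_mem⟩ : O) =
        ∑ j, (⟨algebraMap E F (a j : E), hmem j⟩ : O) * ⟨m j, hm.1 j⟩ := by
      apply Subtype.ext
      simp
    rw [e1, map_sum, ← hc]
    refine Finset.sum_congr rfl fun j _ => ?_
    rw [map_mul, h.ρ_ι _ (a j).2 (hmem j), h.red_of_mem hF hFk (hm.1 j)]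
    congr 2
    exact ha j
  have hnon : (∑ j, algebraMap E F (a j : E) * m j) ∈ O.nonunits := by
    have h1 := (h.ρ_ker ⟨_, hsum_mem⟩).1 hρ
    rw [ValuationSubring.mem_nonunits_iff_exists_mem_maximalIdeal]
    exact ⟨hsum_mem, (IsLocalRing.mem_maximalIdeal _).2 h1⟩
  intro j
  have h2 := hm.2 (fun l => (a l : E)) (fun l => (a l).2) hnon j
  have h3 : ¬ IsUnit (a j) := by
    intro hu
    have h4 : ((a j : E)) ∈ S1.Ov.nonunits := h2
    rw [ValuationSubring.mem_nonunits_iff_exists_mem_maximalIdeal] at h4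
    obtain ⟨hmemj, hmax⟩ := h4
    exact (IsLocalRing.mem_maximalIdeal _).1 hmax hu
  rw [← ha j]
  exact (S1.ρ_eq_zero_iff (a j)).2 h3

/-- **the lattice property of `O_w`** from a residually independent generating family
(the outputs (a) of CORE-COVER and of CORE-NP). -/
theorem hasLattice_of_resIndep (h : ValIn S1 ιk O ρ) (hF : IsRRField K F)
    (hFk : IsRRField k Fk) (hL1 : HasLattice S1) {n : ℕ} (m : Fin n → F)
    (hm : ResIndep S1.Ov O m)
    (hgen : ∀ x : F, ∃ c : Fin n → E, x = ∑ j, algebraMap E F (c j) * m j) :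
    HasLattice (h.toValSetup hF hFk) :=
  h.hasLattice hF hFk hL1 m hm.1 hgen (h.hli_of_resIndep hF hFk m hm)

end ValIn

end Fermat.Agent.S36G
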