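/-
S36 (cluster G), block W-P, seat VAL-IN, part 2 (helper97; sub-architect helper59).

The residue field of `O_w` is an `HPCurve` field, and `hFk` of the `ValSetup` comes from it.

Setting of `ValIn.lean`: `S1 : ValSetup K E k κ1` (disc valuation, `κ1 = k(y)`), `O = O_w`,
`ρ : O →+* Fk`, `ιk : κ1 →+* Fk`, `h : ValIn S1 ιk O ρ`.  Inputs = the outputs of CORE-NP /
CORE-COVER in the residue field: `W, Z ∈ O` with
`W̄ Z̄ (W̄ - Z̄)^(q-1) = c`, `ιk y = W̄^q + c / W̄`, and a spanning family `m_j` of `Fk` over `ιk κ1`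
inside `k(W̄, Z̄)` (the reductions of the monomials `W^i Z^j`).

* `valIn_ιk_mem`        : `ιk κ1 ⊆ L` for an intermediate field `L ∋ ιk y`, if `κ1 = k(y)`;
* `ValIn.hpCurve`        : the `HPCurve k Fk q` with `X1 = W̄`, `X2 = Z̄`;
* `ValIn.toValSetupHP`   : the `ValSetup K F k Fk` with `hFk := H.isRRField`;
* `ValIn.red_W`, `red_Z`, `red_Y` : `S.red W = H.X1`, `S.red Z = H.X2`, `S.red (ι Y) = H.Yf`
  (the fields (H) of `WPOut`, helper93);
* `ValIn.hasLatticeHP`   : the lattice property of `toValSetupHP`.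
-/
import Mathlib
import Fermat.Agent.S36.HPVal.ValIn
import Fermat.Agent.Lib.HP.OfAdjoin

set_option autoImplicit false
set_option linter.style.haveILetI false
set_option linter.unusedSectionVars false
set_option linter.unusedVariables false

noncomputable section
attribute [local instance 10000] SubalgebraClass.toAlgebra HahnSeries.powerSeriesAlgebra

namespace Fermat.Agent.S36G

open AlgebraicCurve Fermat.Agent.RR Fermat.Agent.Deuring Fermat.Agent.BadRed Fermat.Agent.HPVal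
  Fermat.Agent.HP IntermediateField

variable {K E F k κ1 Fk : Type*} [Field K] [Field E] [Algebra K E] [Field F] [Algebra K F]
  [Algebra E F] [IsScalarTower K E F]
  [Field k] [Field κ1] [Algebra k κ1] [Field Fk] [Algebra k Fk]

/-- `ιk` as a `k`-algebra map. -/
def valInAlgHom (ιk : κ1 →+* Fk) (hιk : ∀ c : k, ιk (algebraMap k κ1 c) = algebraMap k Fk c) :
    κ1 →ₐ[k] Fk :=
  { ιk with commutes' := hιk }

@[simp] theorem valInAlgHom_apply (ιk : κ1 →+* Fk)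
    (hιk : ∀ c : k, ιk (algebraMap k κ1 c) = algebraMap k Fk c) (x : κ1) :
    valInAlgHom ιk hιk x = ιk x := rfl

/-- if `κ1 = k(y)` then `ιk κ1` lies in every intermediate field containing `ιk y`. -/
theorem valIn_ιk_mem (ιk : κ1 →+* Fk)
    (hιk : ∀ c : k, ιk (algebraMap k κ1 c) = algebraMap k Fk c) {y : κ1} (hgen : k⟮y⟯ = ⊤)
    (L : IntermediateField k Fk) (hy : ιk y ∈ L) (x : κ1) : ιk x ∈ L := by
  have h1 : x ∈ k⟮y⟯ := by rw [hgen]; exact IntermediateField.mem_top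
  have h2 : valInAlgHom ιk hιk x ∈ (k⟮y⟯).map (valInAlgHom ιk hιk) := ⟨x, h1, rfl⟩
  rw [IntermediateField.adjoin_map, Set.image_singleton] at h2
  have h3 : k⟮valInAlgHom ιk hιk y⟯ ≤ L := by
    rw [IntermediateField.adjoin_simple_le_iff]
    exact hy
  exact h3 h2

namespace ValIn

variable {S1 : ValSetup K E k κ1} {ιk : κ1 →+* Fk} {O : ValuationSubring F} {ρ : O →+* Fk}

/-- **the curve `H_P`** on the residue field of `O_w`. -/
def hpCurve (h : ValIn S1 ιk O ρ) {q : ℕ} {y : κ1} (hgen : k⟮y⟯ = ⊤) (hy : Transcendental k y)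
    {W Z : F} (hW : W ∈ O) (hZ : Z ∈ O) (c : k) (hc : c ≠ 0) (hq : 2 ≤ q)
    (rel : ρ ⟨W, hW⟩ * ρ ⟨Z, hZ⟩ * (ρ ⟨W, hW⟩ - ρ ⟨Z, hZ⟩) ^ (q - 1) = algebraMap k Fk c)
    (hyW : ιk y = ρ ⟨W, hW⟩ ^ q + algebraMap k Fk c / ρ ⟨W, hW⟩)
    {n : ℕ} (m : Fin n → Fk)
    (hm : ∀ j, m j ∈ IntermediateField.adjoin k {ρ ⟨W, hW⟩, ρ ⟨Z, hZ⟩})
    (hspan : ∀ x : Fk, ∃ a : Fin n → κ1, x = ∑ j, ιk (a j) * m j) : HPCurve k Fk q where
  X1 := ρ ⟨W, hW⟩
  X2 := ρ ⟨Z, hZ⟩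
  c := c
  c_ne := hc
  q_two := hq
  rel := rel
  gen := by
    have hW' : ρ ⟨W, hW⟩ ∈ IntermediateField.adjoin k {ρ ⟨W, hW⟩, ρ ⟨Z, hZ⟩} :=
      IntermediateField.subset_adjoin k _ (Set.mem_insert _ _)
    have hy' : ιk y ∈ IntermediateField.adjoin k {ρ ⟨W, hW⟩, ρ ⟨Z, hZ⟩} := by
      rw [hyW]
      exact add_mem (pow_mem hW' q) (div_mem (IntermediateField.algebraMap_mem _ c) hW')
    rw [eq_top_iff]
    intro x _
    obtain ⟨a, rfl⟩ := hspan x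
    exact sum_mem fun j _ => mul_mem (valIn_ιk_mem ιk h.ιk_alg hgen _ hy' (a j)) (hm j)
  transc := by
    apply hp_transcendental_of_Y (q := q) c
    rw [← hyW]
    intro halg
    apply hy
    have h1 : IsAlgebraic k (valInAlgHom ιk h.ιk_alg y) := halg
    exact (isAlgebraic_algHom_iff (valInAlgHom ιk h.ιk_alg) ιk.injective).1 h1

section HP

variable (h : ValIn S1 ιk O ρ) {q : ℕ} (H : HPCurve k Fk q) [IsAlgClosed k]
  (hq1 : ((q + 1 : ℕ) : k) ≠ 0) (hF : IsRRField K F)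

/-- **VAL-IN**, with `hFk` from the curve `H_P`. -/
def toValSetupHP : ValSetup K F k Fk := h.toValSetup hF (H.isRRField hq1)

@[simp] theorem toValSetupHP_A : (h.toValSetupHP H hq1 hF).A = S1.A := rfl

@[simp] theorem toValSetupHP_Ov : (h.toValSetupHP H hq1 hF).Ov = O := rfl

@[simp] theorem toValSetupHP_res : (h.toValSetupHP H hq1 hF).res = S1.res := rfl

@[simp] theorem toValSetupHP_ρ : (h.toValSetupHP H hq1 hF).ρ = ρ := rfl

theorem redHP_of_mem {f : F} (hf : f ∈ O) : (h.toValSetupHP H hq1 hF).red f = ρ ⟨f, hf⟩ :=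
  h.red_of_mem hF (H.isRRField hq1) hf

theorem redHP_algebraMap {e : E} (he : e ∈ S1.Ov) :
    (h.toValSetupHP H hq1 hF).red (algebraMap E F e) = ιk (S1.red e) :=
  h.red_algebraMap hF (H.isRRField hq1) he

/-- the lattice property of `toValSetupHP`. -/
theorem hasLatticeHP (hL1 : HasLattice S1) {n : ℕ} (m : Fin n → F) (hm : ResIndep S1.Ov O m)
    (hgen : ∀ x : F, ∃ c : Fin n → E, x = ∑ j, algebraMap E F (c j) * m j) :
    HasLattice (h.toValSetupHP H hq1 hF) :=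
  h.hasLattice_of_resIndep hF (H.isRRField hq1) hL1 m hm hgen

end HP

section Red

variable (h : ValIn S1 ιk O ρ) {q : ℕ} [IsAlgClosed k] (hq1 : ((q + 1 : ℕ) : k) ≠ 0)
  (hF : IsRRField K F) {y : κ1} (hgen : k⟮y⟯ = ⊤) (hy : Transcendental k y)
  {W Z : F} (hW : W ∈ O) (hZ : Z ∈ O) (c : k) (hc : c ≠ 0) (hq : 2 ≤ q)
  (rel : ρ ⟨W, hW⟩ * ρ ⟨Z, hZ⟩ * (ρ ⟨W, hW⟩ - ρ ⟨Z, hZ⟩) ^ (q - 1) = algebraMap k Fk c)
  (hyW : ιk y = ρ ⟨W, hW⟩ ^ q + algebraMap k Fk c / ρ ⟨W, hW⟩)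
  {n : ℕ} (m : Fin n → Fk)
  (hm : ∀ j, m j ∈ IntermediateField.adjoin k {ρ ⟨W, hW⟩, ρ ⟨Z, hZ⟩})
  (hspan : ∀ x : Fk, ∃ a : Fin n → κ1, x = ∑ j, ιk (a j) * m j)

/-- `S.red W = H.X1`. -/
theorem red_W :
    (h.toValSetupHP (h.hpCurve hgen hy hW hZ c hc hq rel hyW m hm hspan) hq1 hF).red W =
      (h.hpCurve hgen hy hW hZ c hc hq rel hyW m hm hspan).X1 :=
  h.redHP_of_mem _ hq1 hF hW

/-- `S.red Z = H.X2`. -/
theorem red_Z :
    (h.toValSetupHP (h.hpCurve hgen hy hW hZ c hc hq rel hyW m hm hspan) hq1 hF).red Z =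
      (h.hpCurve hgen hy hW hZ c hc hq rel hyW m hm hspan).X2 :=
  h.redHP_of_mem _ hq1 hF hZ

/-- `S.red (ι Y) = H.Yf` for `Y ∈ S1.Ov` with `S1.red Y = y`. -/
theorem red_Y {Y : E} (hY : Y ∈ S1.Ov) (hYy : S1.red Y = y) :
    (h.toValSetupHP (h.hpCurve hgen hy hW hZ c hc hq rel hyW m hm hspan) hq1 hF).red
        (algebraMap E F Y) =
      (h.hpCurve hgen hy hW hZ c hc hq rel hyW m hm hspan).Yf := by
  rw [h.redHP_algebraMap _ hq1 hF hY, hYy, hyW]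
  rfl

end Red

end ValIn

end Fermat.Agent.S36G
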