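/-
S36, G wave, seat W-P / (KC_t) (helper87): the FORMAL part of the Kronecker congruence modulo `ℓ`
for a series `t` with Frobenius-stable coefficients.

* `kct_prod_sub_of_psum` : (Newton) if all power sums of `x₁, …, x_ℓ` are `ℓ P_m`, then
  `∏ (c - x_b) = c ^ ℓ - P_ℓ + ℓ E`.
* `kct_sum_scaleL`       : `∑_{b<ℓ} f(ζ^b q) = ℓ · proj_ℓ f` (`proj_ℓ` keeps the coefficients of index
  divisible by `ℓ`).
* `kct_frobenius`        : `t ^ ℓ = t(q^ℓ) + ℓ G` when `a_n ^ ℓ ≡ a_n` mod `ℓ` for all coefficients.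
* `kct_formal`           : `W(q^ℓ) = ∏_{b<ℓ} (c - t(ζ^b q))`  ⟹
  `(c - t(q^ℓ)) · W = (c - t^ℓ)(c^ℓ - t) + ℓ E`.
Mathlib + `Lib/Kronecker/Formal.lean` only.
-/
import Mathlib
import Fermat.Agent.Lib.Kronecker.Formal
import Fermat.Prelude.Thm_ModularCurve_coeffMap_qExpand

set_option autoImplicit false
set_option linter.unusedSectionVars false
set_option linter.unusedVariables false
set_option linter.style.haveILetI false

noncomputable section
attribute [local instance 10000] SubalgebraClass.toAlgebra HahnSeries.powerSeriesAlgebra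

namespace Fermat.Agent.S36

open Finset ModularCurve Fermat.Agent.Kronecker

section Newton

variable {S : Type*} [CommRing S]

theorem kct_esymm_zero (s : Multiset S) : s.esymm 0 = 1 := by
  simp [Multiset.esymm]

/-- Newton's identity for a finite family of elements of a commutative ring. -/
theorem kct_newton {ι : Type*} [Fintype ι] (x : ι → S) (k : ℕ) :
    (k : S) * (Finset.univ.val.map x).esymm k =
      (-1) ^ (k + 1) * ∑ a ∈ (antidiagonal k).filter (fun a => a.1 < k),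
        (-1) ^ a.1 * (Finset.univ.val.map x).esymm a.1 * ∑ i, x i ^ a.2 := by
  have h := congrArg (MvPolynomial.aeval (R := ℤ) x) (MvPolynomial.mul_esymm_eq_sum ι ℤ k)
  simp only [map_mul, map_natCast, map_pow, map_neg, map_one, map_sum,
    MvPolynomial.aeval_esymm_eq_multiset_esymm, MvPolynomial.psum, MvPolynomial.aeval_X] at h
  exact h

/-- the elementary symmetric functions of index `0 < i < ℓ` are divisible by `ℓ` when all power
sums are. -/
theorem kct_esymm_mem {ι : Type*} [Fintype ι] (x : ι → S) (ℓ : ℕ)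
    (hunit : ∀ i : ℕ, 0 < i → i < ℓ → IsUnit (i : S))
    (hP : ∀ m : ℕ, 0 < m → ∑ b, x b ^ m ∈ Ideal.span {(ℓ : S)})
    (i : ℕ) (hi0 : 0 < i) (hi : i < ℓ) :
    (Finset.univ.val.map x).esymm i ∈ Ideal.span {(ℓ : S)} := by
  have h := kct_newton x i
  have hmem : (i : S) * (Finset.univ.val.map x).esymm i ∈ Ideal.span {(ℓ : S)} := by
    rw [h]
    refine Ideal.mul_mem_left _ _ (Ideal.sum_mem _ fun a ha => ?_)
    rw [mem_filter, HasAntidiagonal.mem_antidiagonal] at ha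
    exact Ideal.mul_mem_left _ _ (hP a.2 (by omega))
  obtain ⟨u, hu⟩ := hunit i hi0 hi
  have : (Finset.univ.val.map x).esymm i =
      ((u⁻¹ : Sˣ) : S) * ((i : S) * (Finset.univ.val.map x).esymm i) := by
    rw [← mul_assoc, ← hu, Units.inv_mul, one_mul]
  rw [this]
  exact Ideal.mul_mem_left _ _ hmem

/-- **Kronecker, symmetric function form.**  If all power sums of `x₁, …, x_ℓ` (`ℓ` prime) are
divisible by `ℓ`, `p_m = ℓ P_m`, then `∏ (c - x_b) ≡ c ^ ℓ - P_ℓ` modulo `ℓ`. -/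
theorem kct_prod_sub_of_psum {ι : Type*} [Fintype ι] (x : ι → S) (ℓ : ℕ) (hℓ : ℓ.Prime)
    (hcard : Fintype.card ι = ℓ)
    (hunit : ∀ i : ℕ, 0 < i → i < ℓ → IsUnit (i : S))
    (htor : ∀ y : S, (ℓ : S) * y = 0 → y = 0)
    (P : ℕ → S) (hP : ∀ m : ℕ, 0 < m → ∑ b, x b ^ m = (ℓ : S) * P m) (c : S) :
    ∃ E : S, ∏ b, (c - x b) = c ^ ℓ - P ℓ + (ℓ : S) * E := by
  classical
  set s : Multiset S := Finset.univ.val.map x with hs
  have hscard : Multiset.card s = ℓ := by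
    rw [hs, Multiset.card_map]
    exact hcard
  have hPmem : ∀ m : ℕ, 0 < m → ∑ b, x b ^ m ∈ Ideal.span {(ℓ : S)} := fun m hm => by
    rw [hP m hm]
    exact Ideal.mul_mem_right _ _ (Ideal.subset_span rfl)
  have hmid : ∀ i : ℕ, 0 < i → i < ℓ → s.esymm i ∈ Ideal.span {(ℓ : S)} :=
    fun i hi0 hi => kct_esymm_mem x ℓ hunit hPmem i hi0 hi
  -- the top symmetric function
  have htop : ∃ D : S, s.esymm ℓ = (-1) ^ (ℓ + 1) * (P ℓ + (ℓ : S) * D) := by
    have h := kct_newton x ℓ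
    have h0 : ((0 : ℕ), ℓ) ∈ (antidiagonal ℓ).filter (fun a => a.1 < ℓ) := by
      rw [mem_filter, HasAntidiagonal.mem_antidiagonal]
      exact ⟨by simp, hℓ.pos⟩
    rw [← Finset.add_sum_erase _ _ h0] at h
    simp only [pow_zero, kct_esymm_zero, one_mul] at h
    have hrest : ∑ a ∈ ((antidiagonal ℓ).filter (fun a => a.1 < ℓ)).erase ((0 : ℕ), ℓ),
        (-1) ^ a.1 * s.esymm a.1 * ∑ i, x i ^ a.2 ∈ Ideal.span {(ℓ : S) * (ℓ : S)} := by
      refine Ideal.sum_mem _ fun a ha => ?_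
      rw [mem_erase, mem_filter, HasAntidiagonal.mem_antidiagonal] at ha
      have ha1 : 0 < a.1 := by
        rcases Nat.eq_zero_or_pos a.1 with h1 | h1
        · exfalso
          apply ha.1
          have h2 : a.2 = ℓ := by omega
          exact Prod.ext h1 h2
        · exact h1
      have h1 := hmid a.1 ha1 ha.2.2
      have h2 := hPmem a.2 (by omega)
      rw [← Ideal.span_singleton_mul_span_singleton, mul_assoc]
      exact Ideal.mul_mem_left _ _ (Ideal.mul_mem_mul h1 h2)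
    obtain ⟨D, hD⟩ := Ideal.mem_span_singleton'.mp hrest
    refine ⟨D, ?_⟩
    have key : (ℓ : S) * (s.esymm ℓ - (-1) ^ (ℓ + 1) * (P ℓ + (ℓ : S) * D)) = 0 := by
      rw [mul_sub, h, ← hD, hP ℓ hℓ.pos]
      ring
    exact sub_eq_zero.mp (htor _ key)
  obtain ⟨D, hD⟩ := htop
  -- Vieta
  have hprod : ∏ b, (c - x b) =
      ∑ j ∈ Finset.range (ℓ + 1), (-1) ^ j * (s.esymm j * c ^ (ℓ - j)) := by
    have h := congrArg (Polynomial.eval c) (Multiset.prod_X_sub_X_eq_sum_esymm s)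
    rw [hscard, Polynomial.eval_finsetSum] at h
    simp only [Polynomial.eval_mul, Polynomial.eval_pow, Polynomial.eval_neg, Polynomial.eval_one,
      Polynomial.eval_C, Polynomial.eval_X] at h
    rw [← h, hs, Multiset.map_map, Polynomial.eval_multiset_prod, Multiset.map_map]
    simp only [Function.comp_apply, Polynomial.eval_sub, Polynomial.eval_X, Polynomial.eval_C]
    rfl
  obtain ⟨n, rfl⟩ : ∃ n, ℓ = n + 1 := ⟨ℓ - 1, by have := hℓ.pos; omega⟩
  rw [hprod, Finset.sum_range_succ, Finset.sum_range_succ']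
  simp only [pow_zero, kct_esymm_zero, one_mul, Nat.sub_zero, Nat.sub_self, mul_one]
  have hmidsum : ∑ j ∈ Finset.range n,
      (-1) ^ (j + 1) * (s.esymm (j + 1) * c ^ (n + 1 - (j + 1))) ∈
        Ideal.span {((n + 1 : ℕ) : S)} := by
    refine Ideal.sum_mem _ fun j hj => ?_
    rw [Finset.mem_range] at hj
    exact Ideal.mul_mem_left _ _ (Ideal.mul_mem_right _ _ (hmid (j + 1) (by omega) (by omega)))
  obtain ⟨E, hE⟩ := Ideal.mem_span_singleton'.mp hmidsum
  refine ⟨E - D, ?_⟩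
  rw [← hE, hD]
  have hsign : ((-1 : S) ^ (n + 1)) * (-1) ^ (n + 1 + 1) = -1 := by
    rw [← pow_add]
    have : n + 1 + (n + 1 + 1) = 2 * (n + 1) + 1 := by ring
    rw [this, pow_succ, pow_mul]
    simp
  linear_combination (P (n + 1) + ((n + 1 : ℕ) : S) * D) * hsign

end Newton

section Series

variable {A : Type*} [CommRing A]

theorem kct_natCast_eq (ℓ : ℕ) : ((ℓ : ℕ) : LaurentSeries A) = HahnSeries.C (ℓ : A) :=
  (map_natCast (HahnSeries.C : A →+* LaurentSeries A) ℓ).symm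

theorem kct_coeff_natCast_mul (ℓ : ℕ) (G : LaurentSeries A) (n : ℤ) :
    (((ℓ : ℕ) : LaurentSeries A) * G).coeff n = (ℓ : A) * G.coeff n := by
  rw [kct_natCast_eq, HahnSeries.C_mul_eq_smul, HahnSeries.coeff_smul, smul_eq_mul]

/-- a series all of whose coefficients are divisible by `ℓ` is `ℓ` times a series. -/
theorem kct_exists_mul (ℓ : ℕ) (z : LaurentSeries A) (hz : ∀ n, ∃ a : A, z.coeff n = (ℓ : A) * a) :
    ∃ G : LaurentSeries A, z = ((ℓ : ℕ) : LaurentSeries A) * G := by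
  classical
  choose g hg using hz
  have hsupp : (Function.support fun n => if z.coeff n = 0 then (0 : A) else g n) ⊆ z.support := by
    intro n hn
    rw [Function.mem_support] at hn
    rw [HahnSeries.mem_support]
    intro h
    exact hn (if_pos h)
  refine ⟨⟨fun n => if z.coeff n = 0 then 0 else g n, z.isPWO_support.mono hsupp⟩, ?_⟩
  ext n
  rw [kct_coeff_natCast_mul]
  show z.coeff n = (ℓ : A) * (if z.coeff n = 0 then 0 else g n)
  split_ifs with h
  · rw [h, mul_zero]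
  · exact hg n

/-- the projection onto the coefficients of index divisible by `ℓ`. -/
def kctProj (ℓ : ℕ) (f : LaurentSeries A) : LaurentSeries A where
  coeff n := by
    classical
    exact if (ℓ : ℤ) ∣ n then f.coeff n else 0
  isPWO_support' := f.isPWO_support.mono (fun n hn => by
    classical
    rw [Function.mem_support] at hn
    rw [HahnSeries.mem_support]
    intro h
    apply hn
    show (if (ℓ : ℤ) ∣ n then f.coeff n else 0) = 0
    rw [h, ite_self])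

theorem kctProj_coeff_of_dvd (ℓ : ℕ) (f : LaurentSeries A) {n : ℤ} (hn : (ℓ : ℤ) ∣ n) :
    (kctProj ℓ f).coeff n = f.coeff n := by
  classical
  show (if (ℓ : ℤ) ∣ n then f.coeff n else 0) = _
  rw [if_pos hn]

theorem kctProj_coeff_of_not_dvd (ℓ : ℕ) (f : LaurentSeries A) {n : ℤ} (hn : ¬ (ℓ : ℤ) ∣ n) :
    (kctProj ℓ f).coeff n = 0 := by
  classical
  show (if (ℓ : ℤ) ∣ n then f.coeff n else 0) = _
  rw [if_neg hn]

theorem kctProj_add (ℓ : ℕ) (f g : LaurentSeries A) :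
    kctProj ℓ (f + g) = kctProj ℓ f + kctProj ℓ g := by
  ext n
  by_cases hn : (ℓ : ℤ) ∣ n
  · rw [HahnSeries.coeff_add, kctProj_coeff_of_dvd ℓ _ hn, kctProj_coeff_of_dvd ℓ _ hn,
      kctProj_coeff_of_dvd ℓ _ hn, HahnSeries.coeff_add]
  · rw [HahnSeries.coeff_add, kctProj_coeff_of_not_dvd ℓ _ hn, kctProj_coeff_of_not_dvd ℓ _ hn,
      kctProj_coeff_of_not_dvd ℓ _ hn, add_zero]

theorem kctProj_natCast_mul (ℓ : ℕ) (G : LaurentSeries A) :
    kctProj ℓ (((ℓ : ℕ) : LaurentSeries A) * G) = ((ℓ : ℕ) : LaurentSeries A) * kctProj ℓ G := by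
  ext n
  by_cases hn : (ℓ : ℤ) ∣ n
  · rw [kctProj_coeff_of_dvd ℓ _ hn, kct_coeff_natCast_mul, kct_coeff_natCast_mul,
      kctProj_coeff_of_dvd ℓ _ hn]
  · rw [kctProj_coeff_of_not_dvd ℓ _ hn, kct_coeff_natCast_mul,
      kctProj_coeff_of_not_dvd ℓ _ hn, mul_zero]

theorem kctProj_qExpand (ℓ : ℕ) [NeZero ℓ] (f : LaurentSeries A) :
    kctProj ℓ (qExpand A ℓ f) = qExpand A ℓ f := by
  ext n
  by_cases hn : (ℓ : ℤ) ∣ n
  · rw [kctProj_coeff_of_dvd ℓ _ hn]
  · rw [kctProj_coeff_of_not_dvd ℓ _ hn, qExpand_coeff_of_not_dvd ℓ _ hn]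

/-- a series supported on the multiples of `ℓ` is a series in `q ^ ℓ`. -/
theorem kct_exists_qExpand (ℓ : ℕ) [NeZero ℓ] (P : LaurentSeries A)
    (hP : ∀ n : ℤ, ¬ (ℓ : ℤ) ∣ n → P.coeff n = 0) : ∃ W : LaurentSeries A, qExpand A ℓ W = P := by
  have hℓ : (0 : ℤ) < ℓ := by exact_mod_cast Nat.pos_of_ne_zero (NeZero.ne ℓ)
  have hbdd : BddBelow (Function.support fun m : ℤ => P.coeff ((ℓ : ℤ) * m)) := by
    by_cases hP0 : P = 0
    · subst hP0
      refine ⟨0, fun m hm => ?_⟩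
      simp at hm
    · refine ⟨min P.order 0, fun m hm => ?_⟩
      rw [Function.mem_support] at hm
      have h1 : P.order ≤ (ℓ : ℤ) * m := HahnSeries.order_le_of_coeff_ne_zero hm
      by_cases hm0 : 0 ≤ m
      · exact le_trans (min_le_right _ _) hm0
      · rw [not_le] at hm0
        have h2 : (ℓ : ℤ) * m ≤ m := by nlinarith
        exact le_trans (min_le_left _ _) (le_trans h1 h2)
  refine ⟨⟨fun m => P.coeff ((ℓ : ℤ) * m), hbdd.isWF.isPWO⟩, ?_⟩
  ext n
  by_cases hn : (ℓ : ℤ) ∣ n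
  · obtain ⟨m, rfl⟩ := hn
    rw [qExpand_coeff_mul]
  · rw [qExpand_coeff_of_not_dvd ℓ _ hn, hP n hn]

theorem kct_scaleL_single_zero (z : Aˣ) (c : A) :
    scaleL z (HahnSeries.single 0 c : LaurentSeries A) = HahnSeries.single 0 c := by
  ext n
  rw [scaleL_coeff]
  rcases eq_or_ne n 0 with rfl | hn
  · rw [zpow_zero, Units.val_one, one_mul]
  · rw [HahnSeries.coeff_single_of_ne hn, mul_zero]

/-- **power sums of the conjugates**: `∑_{b<ℓ} f(ζ^b q) = ℓ · proj_ℓ f`. -/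
theorem kct_sum_scaleL [IsDomain A] (ℓ : ℕ) [NeZero ℓ] (ζ : Aˣ) (hζ : IsPrimitiveRoot ζ ℓ)
    (f : LaurentSeries A) :
    ∑ b ∈ Finset.range ℓ, scaleL (ζ ^ b) f = ((ℓ : ℕ) : LaurentSeries A) * kctProj ℓ f := by
  ext n
  rw [kct_coeff_natCast_mul]
  have hsum : (∑ b ∈ Finset.range ℓ, scaleL (ζ ^ b) f).coeff n =
      ∑ b ∈ Finset.range ℓ, (scaleL (ζ ^ b) f).coeff n := by
    simp only [← HahnSeries.coeff.addMonoidHom_apply]
    exact map_sum _ _ _
  rw [hsum]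
  simp only [scaleL_coeff]
  rw [← Finset.sum_mul]
  have hpow : ∀ b : ℕ, (((ζ ^ b) ^ n : Aˣ) : A) = (((ζ ^ n : Aˣ) : A)) ^ b := by
    intro b
    rw [← Units.val_pow_eq_pow_val, ← zpow_natCast, ← zpow_natCast, ← zpow_mul, ← zpow_mul,
      mul_comm]
  simp only [hpow]
  by_cases hn : (ℓ : ℤ) ∣ n
  · rw [kctProj_coeff_of_dvd ℓ _ hn]
    have h1 : (ζ ^ n : Aˣ) = 1 := (hζ.zpow_eq_one_iff_dvd n).mpr hn
    rw [h1, Units.val_one]
    simp
  · rw [kctProj_coeff_of_not_dvd ℓ _ hn, mul_zero]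
    have h1 : (ζ ^ n : Aˣ) ≠ 1 := fun h => hn ((hζ.zpow_eq_one_iff_dvd n).mp h)
    have h2 : (((ζ ^ n : Aˣ) : A)) ≠ 1 := fun h => h1 (Units.ext (by rw [h, Units.val_one]))
    have h3 : (((ζ ^ n : Aˣ) : A)) ^ ℓ = 1 := by
      rw [← Units.val_pow_eq_pow_val, ← zpow_natCast, ← zpow_mul, mul_comm, zpow_mul,
        zpow_natCast, hζ.pow_eq_one, one_zpow, Units.val_one]
    have h4 := mul_geom_sum (((ζ ^ n : Aˣ) : A)) ℓ
    rw [h3, sub_self] at h4
    rcases mul_eq_zero.mp h4 with h5 | h5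
    · exact absurd (sub_eq_zero.mp h5) h2
    · rw [h5, zero_mul]

/-- **Frobenius congruence**: `t ^ ℓ = t(q^ℓ) + ℓ G` when the coefficients of `t` are
Frobenius-stable modulo `ℓ`. -/
theorem kct_frobenius (ℓ : ℕ) [NeZero ℓ] [Fact ℓ.Prime] (hnu : (ℓ : A) ∈ nonunits A)
    (t : LaurentSeries A) (ht : ∀ n, ∃ a : A, t.coeff n ^ ℓ - t.coeff n = (ℓ : A) * a) :
    ∃ G : LaurentSeries A, t ^ ℓ = qExpand A ℓ t + ((ℓ : ℕ) : LaurentSeries A) * G := by
  haveI : CharP (A ⧸ (Ideal.span ({(ℓ : A)} : Set A) : Ideal A)) ℓ := CharP.quotient A ℓ hnu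
  set π : A →+* A ⧸ (Ideal.span ({(ℓ : A)} : Set A) : Ideal A) := Ideal.Quotient.mk _ with hπ
  have hfrob : coeffMap (frobenius (A ⧸ (Ideal.span ({(ℓ : A)} : Set A) : Ideal A)) ℓ)
      (coeffMap π t) = coeffMap π t := by
    ext n
    rw [coeffMap_coeff, coeffMap_coeff, frobenius_def, ← map_pow]
    obtain ⟨a, ha⟩ := ht n
    rw [← sub_eq_zero, ← map_sub, ha, hπ]
    exact Ideal.Quotient.eq_zero_iff_mem.mpr (Ideal.mul_mem_right _ _ (Ideal.subset_span rfl))
  have h1 : coeffMap π (t ^ ℓ - qExpand A ℓ t) = 0 := by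
    rw [map_sub, map_pow, pow_char_eq_qExpand_frobenius ℓ, hfrob, coeffMap_qExpand, sub_self]
  obtain ⟨G, hG⟩ := kct_exists_mul ℓ (t ^ ℓ - qExpand A ℓ t) (fun n => by
    have h2 := congrArg (fun z => z.coeff n) h1
    simp only [coeffMap_coeff, HahnSeries.coeff_zero] at h2
    have h3 := Ideal.Quotient.eq_zero_iff_mem.mp h2
    obtain ⟨a, ha⟩ := Ideal.mem_span_singleton'.mp h3
    exact ⟨a, by rw [← ha, mul_comm]⟩)
  exact ⟨G, by rw [← hG]; ring⟩

theorem kct_natCast_mul_eq_zero [IsDomain A] (ℓ : ℕ) (hℓ0 : (ℓ : A) ≠ 0) (y : LaurentSeries A)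
    (hy : ((ℓ : ℕ) : LaurentSeries A) * y = 0) : y = 0 := by
  ext n
  have h := congrArg (fun z => z.coeff n) hy
  simp only [kct_coeff_natCast_mul, HahnSeries.coeff_zero] at h
  rcases mul_eq_zero.mp h with h1 | h1
  · exact absurd h1 hℓ0
  · exact h1

/-- **Kronecker congruence modulo `ℓ`, formal form.**  If `W(q^ℓ) = ∏_{b<ℓ} (c - t(ζ^b q))` and the
coefficients of `t` are Frobenius-stable modulo `ℓ`, then
`(c - t(q^ℓ)) · W = (c - t^ℓ)(c^ℓ - t) + ℓ E`. -/
theorem kct_formal [IsDomain A] (ℓ : ℕ) [NeZero ℓ] [Fact ℓ.Prime] (hnu : (ℓ : A) ∈ nonunits A)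
    (hℓ0 : (ℓ : A) ≠ 0) (hunit : ∀ i : ℕ, 0 < i → i < ℓ → IsUnit (i : A))
    (ζ : Aˣ) (hζ : IsPrimitiveRoot ζ ℓ)
    (t : LaurentSeries A) (ht : ∀ n, ∃ a : A, t.coeff n ^ ℓ - t.coeff n = (ℓ : A) * a)
    (c : A) (W : LaurentSeries A)
    (hW : qExpand A ℓ W =
      ∏ b ∈ Finset.range ℓ, scaleL (ζ ^ b) ((HahnSeries.single 0 c : LaurentSeries A) - t)) :
    ∃ E : LaurentSeries A,
      qExpand A ℓ ((HahnSeries.single 0 c : LaurentSeries A) - t) * W =
        ((HahnSeries.single 0 c : LaurentSeries A) - t ^ ℓ) *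
          ((HahnSeries.single 0 (c ^ ℓ) : LaurentSeries A) - t) +
        ((ℓ : ℕ) : LaurentSeries A) * E := by
  classical
  have hℓp : ℓ.Prime := Fact.out
  set cc : LaurentSeries A := HahnSeries.single 0 c with hcc
  have hccpow : cc ^ ℓ = (HahnSeries.single 0 (c ^ ℓ) : LaurentSeries A) := by
    rw [hcc, ← HahnSeries.C_apply, ← HahnSeries.C_apply, map_pow]
  -- the product as a product over `Fin ℓ`
  have hprod : ∏ b ∈ Finset.range ℓ, scaleL (ζ ^ b) (cc - t) =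
      ∏ b : Fin ℓ, (cc - scaleL (ζ ^ (b : ℕ)) t) := by
    rw [Finset.prod_range]
    refine Finset.prod_congr rfl fun b _ => ?_
    rw [map_sub, hcc, kct_scaleL_single_zero]
  have hpsum : ∀ m : ℕ, 0 < m → ∑ b : Fin ℓ, (scaleL (ζ ^ (b : ℕ)) t) ^ m =
      ((ℓ : ℕ) : LaurentSeries A) * kctProj ℓ (t ^ m) := by
    intro m _
    rw [← kct_sum_scaleL ℓ ζ hζ (t ^ m), Finset.sum_range]
    refine Finset.sum_congr rfl fun b _ => ?_
    rw [map_pow]
  have hunitS : ∀ i : ℕ, 0 < i → i < ℓ → IsUnit ((i : ℕ) : LaurentSeries A) := by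
    intro i hi0 hi
    rw [kct_natCast_eq]
    exact (hunit i hi0 hi).map (HahnSeries.C : A →+* LaurentSeries A)
  obtain ⟨E1, hE1⟩ := kct_prod_sub_of_psum (fun b : Fin ℓ => scaleL (ζ ^ (b : ℕ)) t) ℓ hℓp
    (Fintype.card_fin ℓ) hunitS (kct_natCast_mul_eq_zero ℓ hℓ0)
    (fun m => kctProj ℓ (t ^ m)) hpsum cc
  obtain ⟨G, hG⟩ := kct_frobenius ℓ hnu t ht
  have hproj : kctProj ℓ (t ^ ℓ) = qExpand A ℓ t + ((ℓ : ℕ) : LaurentSeries A) * kctProj ℓ G := by
    rw [hG, kctProj_add, kctProj_qExpand, kctProj_natCast_mul]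
  -- the remainder is a series in `q ^ ℓ`
  have hrem : ((ℓ : ℕ) : LaurentSeries A) * (E1 - kctProj ℓ G) =
      qExpand A ℓ (W - (HahnSeries.single 0 (c ^ ℓ) : LaurentSeries A) + t) := by
    have hq : qExpand A ℓ (HahnSeries.single 0 (c ^ ℓ) : LaurentSeries A) =
        (HahnSeries.single 0 (c ^ ℓ) : LaurentSeries A) := by
      rw [qExpand_single, mul_zero]
    rw [map_add, map_sub, hW, hprod, hE1, hproj, hccpow, hq]
    ring
  have hzero : ∀ n : ℤ, ¬ (ℓ : ℤ) ∣ n → (E1 - kctProj ℓ G).coeff n = 0 := by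
    intro n hn
    have h := congrArg (fun z => z.coeff n) hrem
    simp only [kct_coeff_natCast_mul] at h
    rw [qExpand_coeff_of_not_dvd ℓ _ hn] at h
    rcases mul_eq_zero.mp h with h1 | h1
    · exact absurd h1 hℓ0
    · exact h1
  obtain ⟨E2, hE2⟩ := kct_exists_qExpand ℓ (E1 - kctProj ℓ G) hzero
  have hWeq : W = (HahnSeries.single 0 (c ^ ℓ) : LaurentSeries A) - t +
      ((ℓ : ℕ) : LaurentSeries A) * E2 := by
    apply qExpand_injective (R := A) ℓ
    have h1 : qExpand A ℓ W = qExpand A ℓ (W - (HahnSeries.single 0 (c ^ ℓ) : LaurentSeries A) + t)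
        + qExpand A ℓ ((HahnSeries.single 0 (c ^ ℓ) : LaurentSeries A) - t) := by
      rw [← map_add]
      congr 1
      ring
    rw [h1, ← hrem, ← hE2, map_add (qExpand A ℓ) _ (_ * _), map_mul, map_natCast]
    ring
  refine ⟨G * ((HahnSeries.single 0 (c ^ ℓ) : LaurentSeries A) - t +
      ((ℓ : ℕ) : LaurentSeries A) * E2) + (cc - t ^ ℓ) * E2, ?_⟩
  have hq1 : qExpand A ℓ (cc - t) = cc - qExpand A ℓ t := by
    rw [map_sub, hcc, qExpand_single, mul_zero]
  rw [hq1, hWeq]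
  linear_combination ((HahnSeries.single 0 (c ^ ℓ) : LaurentSeries A) - t +
      ((ℓ : ℕ) : LaurentSeries A) * E2) * hG

end Series

end Fermat.Agent.S36
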