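/-
S36, G wave, seat W-P / (KC_t) (helper87): the **Kronecker congruence modulo `ℓ`** for the
characteristic polynomial of `t(q^ℓ)` over `F_N`, for a modular function `t` of level `N` whose
`q`-expansion has `A`-integral, Frobenius-stable coefficients (e.g. coefficients in `ℤ_(ℓ)`):

  `charpoly_{α}(β t) = (X - t^ℓ)(X^ℓ - t) + ℓ · R`,   `R` with coefficients in the Gauss ring.

(T's `kroneckerCharpoly` is the case `t = j`, modulo the maximal ideal only.)

* `kct_heckeFun_const_sub` : `Norm_α (β (c - t)) = (c - t^ℓ)(c^ℓ - t) + ℓ E`, `E ∈ A((q))`, for every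
  constant `c ∈ A`.
* `kct_charpoly`           : the congruence for the characteristic polynomial.
-/
import Mathlib
import Fermat.Agent.S36.HPVal.KCtFormal
import Fermat.Agent.Lib.BadRed.KroneckerCharpoly

set_option autoImplicit false
set_option linter.style.haveILetI false
set_option linter.unusedSectionVars false
set_option linter.unusedVariables false

noncomputable section
attribute [local instance 10000] SubalgebraClass.toAlgebra HahnSeries.powerSeriesAlgebra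

namespace Fermat.Agent.S36

open ModularCurve AlgebraicCurve Fermat.Agent.GaussInt Polynomial Fermat.Agent.Kronecker
  Fermat.Agent.F3G Fermat.Agent.S24 Fermat.Agent.BadRed

variable (N ℓ : ℕ) [NeZero N] [NeZero ℓ]

/-- Frobenius-stable coefficients modulo `ℓ`. -/
def KctFrobStable (A : ValuationSubring Qb) (z : LaurentSeries A) : Prop :=
  ∀ n, ∃ a : A, z.coeff n ^ ℓ - z.coeff n = (ℓ : A) * a

section Values

variable (A : ValuationSubring Qb)

theorem kct_natCast_unit (hℓ : ℓ.Prime) (hA : A.LiesOverPrime ℓ) (i : ℕ) (hi0 : 0 < i)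
    (hi : i < ℓ) : IsUnit (i : A) := by
  haveI : CharP (IsLocalRing.ResidueField A) ℓ := charP_residueField_of_liesOverPrime A ℓ hℓ hA
  by_contra hnu
  have h1 : IsLocalRing.residue A (i : A) = 0 :=
    (IsLocalRing.residue_eq_zero_iff _).mpr ((IsLocalRing.mem_maximalIdeal _).mpr hnu)
  rw [map_natCast, CharP.cast_eq_zero_iff (IsLocalRing.ResidueField A) ℓ] at h1
  exact absurd (Nat.le_of_dvd hi0 h1) (not_le.mpr hi)

theorem kct_natCast_nonunit (hA : A.LiesOverPrime ℓ) : (ℓ : A) ∈ nonunits A := by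
  have h1 : ((ℓ : A) : Qb) ∈ A.nonunits := by
    have : ((ℓ : A) : Qb) = (ℓ : Qb) := by simp
    rw [this]
    exact hA
  exact ValuationSubring.coe_mem_nonunits_iff.mp h1

theorem kct_natCast_ne_zero : (ℓ : A) ≠ 0 := by
  intro h
  have h1 : ((ℓ : A) : Qb) = 0 := by rw [h]; rfl
  have h2 : (ℓ : Qb) = 0 := by simpa using h1
  exact NeZero.ne ℓ (by exact_mod_cast h2)

theorem kct_natCast_ne_zero_L : ((ℓ : ℕ) : LaurentSeries Qb) ≠ 0 := by
  rw [← map_natCast (algebraMap Qb (LaurentSeries Qb))]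
  intro h
  have h2 : ((ℓ : ℕ) : Qb) = 0 := (algebraMap Qb (LaurentSeries Qb)).injective (by rw [h, map_zero])
  exact NeZero.ne ℓ (by exact_mod_cast h2)

/-- the series `c - t` -/
theorem kct_emb_sub_mem (z : LaurentSeries A) (hz : emb A z ∈ modularFunctionFieldBar N) (c : A) :
    emb A (constA A c - z) ∈ modularFunctionFieldBar N := by
  rw [map_sub, emb_constA]
  exact sub_mem ((modularFunctionFieldBar N).algebraMap_mem _) hz

theorem kct_sub_eq (z : LaurentSeries A) (hz : emb A z ∈ modularFunctionFieldBar N) (c : A) :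
    (⟨emb A (constA A c - z), kct_emb_sub_mem N A z hz c⟩ : ↥(modularFunctionFieldBar N)) =
      algebraMap Qb ↥(modularFunctionFieldBar N) (c : Qb) - ⟨emb A z, hz⟩ := by
  apply Subtype.ext
  show emb A (constA A c - z) = _
  rw [map_sub, emb_constA]
  rfl

/-- **values of the charpoly at constants, modulo `ℓ`**:
`Norm(β (c - t)) = (c - t^ℓ)(c^ℓ - t) + ℓ E` with `E` integral. -/
theorem kct_heckeFun_const_sub (hℓ : ℓ.Prime) (hℓN : ¬ ℓ ∣ N) (hA : A.LiesOverPrime ℓ)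
    (z : LaurentSeries A) (hz : emb A z ∈ modularFunctionFieldBar N)
    (hfrob : KctFrobStable ℓ A z) (c : A) :
    ∃ E : LaurentSeries A,
      ((heckeFun Qb N ℓ (algebraMap Qb ↥(modularFunctionFieldBar N) (c : Qb) - ⟨emb A z, hz⟩) :
        ↥(modularFunctionFieldBar N)) : LaurentSeries Qb) =
      emb A ((constA A c - z ^ ℓ) * (constA A (c ^ ℓ) - z) + ((ℓ : ℕ) : LaurentSeries A) * E) := by
  have : Fact ℓ.Prime := ⟨hℓ⟩
  obtain ⟨ζ, hζ, hform⟩ := normProductFormula N ℓ hℓ hℓN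
  have hℓpos : 0 < ℓ := hℓ.pos
  have hζpow : ((ζ : Qbˣ) : Qb) ^ ℓ = 1 := by
    rw [← Units.val_pow_eq_pow_val, hζ.pow_eq_one, Units.val_one]
  have hζinv : ((ζ⁻¹ : Qbˣ) : Qb) ^ ℓ = 1 := by
    rw [← Units.val_pow_eq_pow_val, inv_pow, hζ.pow_eq_one, inv_one, Units.val_one]
  have hmem : (ζ : Qb) ∈ A := mem_valuationSubring_of_pow_eq_one A hℓpos hζpow
  have hmem' : ((ζ⁻¹ : Qbˣ) : Qb) ∈ A := mem_valuationSubring_of_pow_eq_one A hℓpos hζinv
  let ζA : (↥A)ˣ := ⟨⟨ζ, hmem⟩, ⟨((ζ⁻¹ : Qbˣ) : Qb), hmem'⟩,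
    Subtype.ext (by simp), Subtype.ext (by simp)⟩
  have hmap : Units.map (A.subtype : ↥A →* Qb) ζA = ζ := Units.ext rfl
  have hinj : Function.Injective (Units.map (A.subtype : ↥A →* Qb)) :=
    Units.map_injective Subtype.val_injective
  have hζA : IsPrimitiveRoot ζA ℓ :=
    IsPrimitiveRoot.of_map_of_injective (f := Units.map (A.subtype : ↥A →* Qb))
      (by rw [hmap]; exact hζ) hinj
  set y : LaurentSeries A := constA A c - z with hy
  have hymem : emb A y ∈ modularFunctionFieldBar N := kct_emb_sub_mem N A z hz c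
  obtain ⟨W, hW⟩ := exists_qExpand_eq_of_scaleL_eq ℓ ζA hζA
    (∏ b ∈ Finset.range ℓ, scaleL (ζA ^ b) y) (scaleL_prod_scaleL ℓ ζA hζA.pow_eq_one y)
  have hemb : emb A (qExpand ↥A ℓ y * W) =
      ((heckeFun Qb N ℓ ⟨emb A y, hymem⟩ : ↥(modularFunctionFieldBar N)) : LaurentSeries Qb) := by
    apply qExpand_injective (R := Qb) ℓ
    rw [hform ⟨emb A y, hymem⟩, map_mul, map_mul, ← coeffMap_qExpand, ← coeffMap_qExpand,
      ← coeffMap_qExpand, qExpand_qExpand, hW, map_prod]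
    congr 1
    refine Finset.prod_congr rfl fun b _ => ?_
    rw [coeffMap_scaleL, map_pow]
    show scaleL (Units.map (A.subtype : ↥A →* Qb) ζA ^ b) _ = _
    rw [hmap]
  obtain ⟨E, hE⟩ := kct_formal (A := ↥A) ℓ (kct_natCast_nonunit ℓ A hA) (kct_natCast_ne_zero ℓ A)
    (kct_natCast_unit ℓ A hℓ hA) ζA hζA z hfrob c W hW
  refine ⟨E, ?_⟩
  rw [← kct_sub_eq N A z hz c, ← hemb]
  congr 1

end Values

section KC

variable {ℓ}

/-- the main term `(X - t^ℓ)(X^ℓ - t)`. -/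
def kctMain (t : ↥(modularFunctionFieldBar N)) : Polynomial ↥(modularFunctionFieldBar N) :=
  (X - Polynomial.C (t ^ ℓ)) * (X ^ ℓ - Polynomial.C t)

theorem kctMain_monic (t : ↥(modularFunctionFieldBar N)) : (kctMain (ℓ := ℓ) N t).Monic :=
  (Polynomial.monic_X_sub_C _).mul (Polynomial.monic_X_pow_sub_C _ (NeZero.ne ℓ))

theorem kctMain_natDegree (t : ↥(modularFunctionFieldBar N)) :
    (kctMain (ℓ := ℓ) N t).natDegree = ℓ + 1 := by
  rw [kctMain, ((Polynomial.monic_X_sub_C _).natDegree_mul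
    (Polynomial.monic_X_pow_sub_C _ (NeZero.ne ℓ))), Polynomial.natDegree_X_sub_C,
    Polynomial.natDegree_X_pow_sub_C, add_comm]

theorem kct_finiteAlong (hℓ : ℓ.Prime) (hℓN : ¬ ℓ ∣ N) :
    FiniteAlong Qb (heckeAlphaBar Qb N ℓ) :=
  (finrank_heckeAlphaBar N ℓ hℓ hℓN).1

/-- the characteristic polynomial `Ψ_t` of `β t = t(q^ℓ)` over `F_N` (along `α`). -/
def kctPsi (hℓ : ℓ.Prime) (hℓN : ¬ ℓ ∣ N) (t : ↥(modularFunctionFieldBar N)) :
    Polynomial ↥(modularFunctionFieldBar N) :=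
  charpolyAlong (heckeAlphaBar Qb N ℓ) (kct_finiteAlong N hℓ hℓN) (heckeBetaBar Qb N ℓ t)

/-- the remainder `R_t = (Ψ_t - (X - t^ℓ)(X^ℓ - t)) / ℓ`. -/
def kctR (hℓ : ℓ.Prime) (hℓN : ¬ ℓ ∣ N) (t : ↥(modularFunctionFieldBar N)) :
    Polynomial ↥(modularFunctionFieldBar N) :=
  Polynomial.C (((ℓ : ℕ) : ↥(modularFunctionFieldBar N))⁻¹) *
    (kctPsi N hℓ hℓN t - kctMain (ℓ := ℓ) N t)

theorem kctPsi_monic (hℓ : ℓ.Prime) (hℓN : ¬ ℓ ∣ N) (t : ↥(modularFunctionFieldBar N)) :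
    (kctPsi N hℓ hℓN t).Monic := charpolyAlong_monic _ _ _

theorem kctPsi_natDegree (hℓ : ℓ.Prime) (hℓN : ¬ ℓ ∣ N) (t : ↥(modularFunctionFieldBar N)) :
    (kctPsi N hℓ hℓN t).natDegree = ℓ + 1 := by
  rw [kctPsi, charpolyAlong_natDegree]
  exact (finrank_heckeAlphaBar N ℓ hℓ hℓN).2

/-- `β t` is a root of `Ψ_t` (coefficients through `α`). -/
theorem kctPsi_root (hℓ : ℓ.Prime) (hℓN : ¬ ℓ ∣ N) (t : ↥(modularFunctionFieldBar N)) :
    Polynomial.eval₂ ((heckeAlphaBar (AlgebraicClosure ℚ) N ℓ : ↥(modularFunctionFieldBar N) →+*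
        ↥(modularFunctionFieldBar (N * ℓ))))
      (heckeBetaBar (AlgebraicClosure ℚ) N ℓ t) (kctPsi N hℓ hℓN t) = 0 :=
  aeval_charpolyAlong (heckeAlphaBar Qb N ℓ) _ _

theorem kct_natCast_ne_zero_F : ((ℓ : ℕ) : ↥(modularFunctionFieldBar N)) ≠ 0 := by
  exact_mod_cast (NeZero.ne ℓ)

/-- `Ψ_t = (X - t^ℓ)(X^ℓ - t) + ℓ R_t`. -/
theorem kctPsi_eq (hℓ : ℓ.Prime) (hℓN : ¬ ℓ ∣ N) (t : ↥(modularFunctionFieldBar N)) :
    kctPsi N hℓ hℓN t = kctMain (ℓ := ℓ) N t +
      Polynomial.C ((ℓ : ℕ) : ↥(modularFunctionFieldBar N)) * kctR N hℓ hℓN t := by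
  rw [kctR, ← mul_assoc, ← Polynomial.C_mul, mul_inv_cancel₀ (kct_natCast_ne_zero_F N), Polynomial.C_1,
    one_mul]
  ring

theorem kctR_natDegree_le (hℓ : ℓ.Prime) (hℓN : ¬ ℓ ∣ N) (t : ↥(modularFunctionFieldBar N)) :
    (kctR N hℓ hℓN t).natDegree ≤ ℓ := by
  have hCm := kctPsi_monic N hℓ hℓN t
  have hCd := kctPsi_natDegree N hℓ hℓN t
  have hDdeg : (kctPsi N hℓ hℓN t - kctMain (ℓ := ℓ) N t).natDegree ≤ ℓ := by
    have h1 : (kctPsi N hℓ hℓN t - kctMain (ℓ := ℓ) N t).degree < (kctPsi N hℓ hℓN t).degree := by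
      apply Polynomial.degree_sub_lt_left
      · rw [Polynomial.degree_eq_natDegree hCm.ne_zero,
          Polynomial.degree_eq_natDegree (kctMain_monic N t).ne_zero, hCd, kctMain_natDegree]
      · exact hCm.ne_zero
      · rw [hCm.leadingCoeff, (kctMain_monic N t).leadingCoeff]
    rw [Polynomial.degree_eq_natDegree hCm.ne_zero, hCd] at h1
    by_cases h0 : kctPsi N hℓ hℓN t - kctMain (ℓ := ℓ) N t = 0
    · rw [h0, Polynomial.natDegree_zero]; exact Nat.zero_le _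
    · rw [Polynomial.degree_eq_natDegree h0] at h1
      have h2 : (kctPsi N hℓ hℓN t - kctMain (ℓ := ℓ) N t).natDegree < ℓ + 1 := by
        exact_mod_cast h1
      omega
  rw [kctR]
  exact le_trans (Polynomial.natDegree_C_mul_le _ _) hDdeg

/-- the values of `R_t` at constants `c ∈ A` are integral series in `F_N`. -/
theorem kctR_eval_const (hℓ : ℓ.Prime) (A : ValuationSubring Qb) (hA : A.LiesOverPrime ℓ)
    (hℓN : ¬ ℓ ∣ N) (z : LaurentSeries A)
    (hz : emb A z ∈ modularFunctionFieldBar N) (hfrob : KctFrobStable ℓ A z) (c : A) :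
    ∃ E : LaurentSeries A,
      (((kctR N hℓ hℓN ⟨emb A z, hz⟩).eval
        (algebraMap Qb ↥(modularFunctionFieldBar N) (c : Qb)) : ↥(modularFunctionFieldBar N)) :
          LaurentSeries Qb) = emb A E := by
  set t : ↥(modularFunctionFieldBar N) := ⟨emb A z, hz⟩ with ht
  obtain ⟨E, hE⟩ := kct_heckeFun_const_sub N ℓ A hℓ hℓN hA z hz hfrob c
  refine ⟨E, ?_⟩
  set cF := algebraMap Qb ↥(modularFunctionFieldBar N) (c : Qb) with hcF
  have hCev : (kctPsi N hℓ hℓN t).eval cF = heckeFun Qb N ℓ (cF - t) := by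
    rw [kctPsi, eval_charpolyAlong_const]
    rfl
  have hP₀ev : (((kctMain (ℓ := ℓ) N t).eval cF : ↥(modularFunctionFieldBar N)) :
      LaurentSeries Qb) = emb A ((constA A c - z ^ ℓ) * (constA A (c ^ ℓ) - z)) := by
    rw [kctMain, Polynomial.eval_mul, Polynomial.eval_sub, Polynomial.eval_sub,
      Polynomial.eval_X, Polynomial.eval_pow, Polynomial.eval_X, Polynomial.eval_C,
      Polynomial.eval_C, map_mul, map_sub, map_sub, map_pow, emb_constA, emb_constA]
    have hpow : algebraMap Qb (LaurentSeries Qb) ((c ^ ℓ : A) : Qb) =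
        (algebraMap Qb (LaurentSeries Qb) ((c : A) : Qb)) ^ ℓ := by
      rw [← map_pow]; rfl
    rw [hpow]
    rfl
  have hℓL : ((ℓ : ℕ) : LaurentSeries Qb) ≠ 0 := kct_natCast_ne_zero_L ℓ
  have h2 : (((kctR N hℓ hℓN t).eval cF : ↥(modularFunctionFieldBar N)) : LaurentSeries Qb) =
      (((ℓ : ℕ) : LaurentSeries Qb))⁻¹ *
      ((((kctPsi N hℓ hℓN t).eval cF : ↥(modularFunctionFieldBar N)) : LaurentSeries Qb) -
        (((kctMain (ℓ := ℓ) N t).eval cF : ↥(modularFunctionFieldBar N)) : LaurentSeries Qb)) := by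
    rw [kctR, Polynomial.eval_mul, Polynomial.eval_C, Polynomial.eval_sub]
    rfl
  rw [h2, hCev, hE, hP₀ev, map_add, add_sub_cancel_left, map_mul, map_natCast,
    ← mul_assoc, inv_mul_cancel₀ hℓL, one_mul]

set_option maxHeartbeats 1000000 in
set_option synthInstance.maxHeartbeats 400000 in
/-- **(KC_t)**: the coefficients of `R_t` lie in the Gauss ring. -/
theorem kctR_coeff_mem (hℓ : ℓ.Prime) (A : ValuationSubring Qb) (hA : A.LiesOverPrime ℓ)
    (hℓN : ¬ ℓ ∣ N) (z : LaurentSeries A)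
    (hz : emb A z ∈ modularFunctionFieldBar N) (hfrob : KctFrobStable ℓ A z) (i : ℕ) :
    (kctR N hℓ hℓN ⟨emb A z, hz⟩).coeff i ∈ gaussOv N hℓ A hA := by
  classical
  set t : ↥(modularFunctionFieldBar N) := ⟨emb A z, hz⟩ with ht
  set R := kctR N hℓ hℓN t with hR
  have hRdeg : R.natDegree ≤ ℓ := kctR_natDegree_le N hℓ hℓN t
  -- the nodes
  obtain ⟨a, ha⟩ := exists_nodes A (ℓ + 1)
  set O := gaussOvS N hℓ A hA with hO
  let c : Fin (ℓ + 1) → ↥(modularFunctionFieldBar N) :=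
    fun i => algebraMap Qb ↥(modularFunctionFieldBar N) ((a i : A) : Qb)
  have hcO : ∀ i, c i ∈ O := fun i => const_mem_gaussOvS N hℓ A hA (a i)
  have hcinj : Function.Injective c := by
    intro i j hij
    apply ha
    have h1 : ((a i : A) : Qb) = ((a j : A) : Qb) :=
      (algebraMap Qb ↥(modularFunctionFieldBar N)).injective hij
    show IsLocalRing.residue A (a i) = IsLocalRing.residue A (a j)
    rw [Subtype.ext h1]
  have hunit : ∀ i j, i ≠ j → (c i - c j)⁻¹ ∈ O := by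
    intro i j hij
    have hne : IsLocalRing.residue A (a i - a j) ≠ 0 := by
      rw [map_sub, sub_ne_zero]
      exact fun h => hij (ha h)
    have hu : IsUnit (a i - a j) := by
      by_contra hnu
      exact hne ((IsLocalRing.residue_eq_zero_iff _).mpr ((IsLocalRing.mem_maximalIdeal _).mpr hnu))
    obtain ⟨u, hu⟩ := hu
    have h1 : (c i - c j)⁻¹ =
        algebraMap Qb ↥(modularFunctionFieldBar N) (((u⁻¹ : (↥A)ˣ) : A) : Qb) := by
      rw [← map_sub, ← map_inv₀]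
      congr 1
      have h2 : ((u : A) : Qb) * (((u⁻¹ : (↥A)ˣ) : A) : Qb) = 1 := by
        rw [← MulMemClass.coe_mul, Units.mul_inv]; rfl
      have h3 : ((a i : A) : Qb) - ((a j : A) : Qb) = ((u : A) : Qb) := by
        rw [hu]; rfl
      rw [h3]
      exact (eq_inv_of_mul_eq_one_right h2).symm
    rw [h1]
    exact const_mem_gaussOvS N hℓ A hA _
  -- values
  have hval : ∀ i, R.eval (c i) ∈ O := by
    intro i
    obtain ⟨E, hE⟩ := kctR_eval_const N hℓ A hA hℓN z hz hfrob (a i)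
    exact mem_gaussOvS_of_emb N hℓ A hA (z := E) hE.symm
  obtain ⟨P, hP⟩ := exists_lift_of_eval_mem O R ℓ hRdeg c hcinj hcO hunit hval
  rw [← hP, Polynomial.coeff_map]
  exact (P.coeff i).2

/-- **(KC_t)** Kronecker congruence modulo `ℓ` for the characteristic polynomial of `t(q^ℓ)` over
`F_N`, `t` with `A`-integral Frobenius-stable `q`-expansion: the polynomial
`R := (charpoly - (X - t^ℓ)(X^ℓ - t)) / ℓ` has degree `≤ ℓ` and coefficients in the Gauss ring. -/
theorem kct_charpoly (hℓ : ℓ.Prime) (A : ValuationSubring Qb) (hA : A.LiesOverPrime ℓ)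
    (hℓN : ¬ ℓ ∣ N) (z : LaurentSeries A)
    (hz : emb A z ∈ modularFunctionFieldBar N) (hfrob : KctFrobStable ℓ A z) :
    ∃ C R : Polynomial ↥(modularFunctionFieldBar N),
      C.Monic ∧ C.natDegree = ℓ + 1 ∧ R.natDegree ≤ ℓ ∧
      (∀ i, R.coeff i ∈ gaussOv N hℓ A hA) ∧
      C = kctMain (ℓ := ℓ) N ⟨emb A z, hz⟩ +
        Polynomial.C ((ℓ : ℕ) : ↥(modularFunctionFieldBar N)) * R ∧
      Polynomial.eval₂ ((heckeAlphaBar (AlgebraicClosure ℚ) N ℓ : ↥(modularFunctionFieldBar N) →+*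
          ↥(modularFunctionFieldBar (N * ℓ))))
        (heckeBetaBar (AlgebraicClosure ℚ) N ℓ ⟨emb A z, hz⟩) C = 0 :=
  ⟨kctPsi N hℓ hℓN ⟨emb A z, hz⟩, kctR N hℓ hℓN ⟨emb A z, hz⟩, kctPsi_monic N hℓ hℓN _,
    kctPsi_natDegree N hℓ hℓN _, kctR_natDegree_le N hℓ hℓN _,
    kctR_coeff_mem N hℓ A hA hℓN z hz hfrob, kctPsi_eq N hℓ hℓN _, kctPsi_root N hℓ hℓN _⟩

end KC

end Fermat.Agent.S36
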