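import Mathlib
import Fermat.Agent.Lib.Deuring.Basic
import Fermat.Agent.Lib.HP.Gal
import Fermat.Agent.S36.G.InertAbs
import Fermat.Prelude.Def_AlgebraicCurve_BaseChangeGalois

set_option autoImplicit false
set_option linter.style.haveILetI false
set_option linter.unusedSectionVars false

/-!
# S36 (cluster G), block W-P, seat WP-INERT, abstract part  (helper71)

`S : ValSetup K F k Fk` a constant reduction of `F / K`, `t : SemilinearAut K F` a semilinear
automorphism which

* preserves the valuation ring of `S` (`WpiStable S t`: for `w_P` this is the uniqueness of the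
  extension), and
* is INERTIAL (`WpiInertial S t`): it preserves `A` and acts trivially on the residue field `k`.

Then `t` induces a `k`-algebra automorphism `wpiEquiv S t _ _` of the residue field `Fk` with
`red (t • f) = wpiEquiv (red f)` for `f ∈ O` (`wpiEquiv_red`); it is multiplicative in `t`
(`wpiEquiv_mul_apply`), and on an element `W ∈ O` with `t • W = c • W`, `c ∈ A`, it is the
multiplication by `res c` (`wpiEquiv_red_of_smul`).

For the component `H_P` (`H : HPCurve k Fk q`, `Lib/HP/*`): if `red W = X₁`, `red Z = X₂` and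
`t • W = c • W`, `t • Z = c • Z`, then the induced automorphism is `σ_η`, `η = res c`
(`wpi_red_smul_eq_autEquiv`); `η ^ (q + 1) = 1` is automatic (`wpi_res_pow_eq_one`).
This is the shape of `GraphSetup.Act` (`π P = P`, `e P = σ_η`).

In the modular case `W = t₀ / ϖ`, `Z = t₂ / ϖ` with `t₀, t₂` fixed by `t` and `t ϖ = u ϖ`:
`wpi_smul_div` gives `t • W = u⁻¹ • W`.
-/

noncomputable section
attribute [local instance 10000] SubalgebraClass.toAlgebra HahnSeries.powerSeriesAlgebra

namespace Fermat.Agent.S36G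

open AlgebraicCurve Fermat.Agent.Deuring Fermat.Agent.HP

variable {K F k Fk : Type*} [Field K] [Field F] [Algebra K F] [Field k]
  [Field Fk] [Algebra k Fk]

/-- `t` is inertial for `S`: it preserves the valuation ring `A` of the constants and acts
trivially on the residue field. -/
def WpiInertial (S : ValSetup K F k Fk) (t : SemilinearAut K F) : Prop :=
  ∀ (a : K) (ha : a ∈ S.A), ∃ ha' : SemilinearAut.baseAut t a ∈ S.A,
    S.res ⟨SemilinearAut.baseAut t a, ha'⟩ = S.res ⟨a, ha⟩

/-- `t` preserves the valuation ring of `S`. -/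
def WpiStable (S : ValSetup K F k Fk) (t : SemilinearAut K F) : Prop :=
  ∀ f : F, f ∈ S.Ov ↔ t • f ∈ S.Ov

variable (S : ValSetup K F k Fk)

theorem WpiStable.one : WpiStable S (1 : SemilinearAut K F) := fun f => by rw [one_smul]

theorem WpiInertial.one : WpiInertial S (1 : SemilinearAut K F) := fun _ ha => ⟨ha, rfl⟩

variable {S}

theorem WpiStable.inv {t : SemilinearAut K F} (h : WpiStable S t) : WpiStable S t⁻¹ := fun f => by
  rw [h (t⁻¹ • f), smul_inv_smul]

theorem WpiStable.mul {t t' : SemilinearAut K F} (h : WpiStable S t) (h' : WpiStable S t') :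
    WpiStable S (t * t') := fun f => by
  rw [mul_smul, ← h, ← h']

/-- it is enough to know that `t` and `t⁻¹` map the valuation ring into itself. -/
theorem WpiStable.of_le {t : SemilinearAut K F} (h : ∀ f ∈ S.Ov, t • f ∈ S.Ov)
    (h' : ∀ f ∈ S.Ov, t⁻¹ • f ∈ S.Ov) : WpiStable S t := fun f =>
  ⟨h f, fun hf => by
    have := h' _ hf
    rwa [inv_smul_smul] at this⟩

theorem WpiInertial.mul {t t' : SemilinearAut K F} (h : WpiInertial S t)
    (h' : WpiInertial S t') : WpiInertial S (t * t') := fun a ha => by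
  obtain ⟨h1, h2⟩ := h' a ha
  obtain ⟨h3, h4⟩ := h _ h1
  exact ⟨h3, h4.trans h2⟩

theorem WpiInertial.inv {t : SemilinearAut K F} (h : WpiInertial S t)
    (hA : ∀ a : K, SemilinearAut.baseAut t a ∈ S.A → a ∈ S.A) : WpiInertial S t⁻¹ := fun a ha => by
  have e : SemilinearAut.baseAut t (SemilinearAut.baseAut t⁻¹ a) = a := by
    rw [SemilinearAut.baseAut_inv]
    exact (SemilinearAut.baseAut t).apply_symm_apply a
  have h1 : SemilinearAut.baseAut t⁻¹ a ∈ S.A := hA _ (by rw [e]; exact ha)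
  obtain ⟨h2, h3⟩ := h _ h1
  refine ⟨h1, ?_⟩
  rw [← h3]
  congr 1
  exact Subtype.ext e

/-- a stable automorphism respects the fibres of the reduction. -/
theorem wpi_red_smul_eq {t : SemilinearAut K F} (hst : WpiStable S t) {f g : F}
    (hf : f ∈ S.Ov) (hg : g ∈ S.Ov) (h : S.red f = S.red g) :
    S.red (t • f) = S.red (t • g) := by
  have hf' : t • f ∈ S.Ov := (hst f).mp hf
  have hg' : t • g ∈ S.Ov := (hst g).mp hg
  by_cases hfg : f - g = 0
  · rw [sub_eq_zero.mp hfg]
  · have h1 : S.red (f - g) = 0 := by rw [S.red_sub hf hg, h, sub_self]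
    have h2 : (f - g)⁻¹ ∉ S.Ov := (S.red_eq_zero_iff (sub_mem hf hg) hfg).mp h1
    have h3 : (t • (f - g))⁻¹ ∉ S.Ov := by
      rw [← smul_inv'']
      exact fun hc => h2 ((hst _).mpr hc)
    have hne : t • (f - g) ≠ 0 := by
      rw [Ne, smul_eq_zero_iff_eq]
      exact hfg
    have h4 : S.red (t • (f - g)) = 0 :=
      (S.red_eq_zero_iff ((hst _).mp (sub_mem hf hg)) hne).mpr h3
    rw [smul_sub, S.red_sub hf' hg', sub_eq_zero] at h4
    exact h4

/-- the induced map of the residue field. -/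
def wpiFun (S : ValSetup K F k Fk) (t : SemilinearAut K F) (y : Fk) : Fk :=
  S.red (t • Classical.choose (inert_red_surj S y))

theorem wpiFun_red {t : SemilinearAut K F} (hst : WpiStable S t) {f : F} (hf : f ∈ S.Ov) :
    wpiFun S t (S.red f) = S.red (t • f) := by
  have h := Classical.choose_spec (inert_red_surj S (S.red f))
  exact wpi_red_smul_eq hst h.1 hf h.2

/-- the induced ring homomorphism of the residue field. -/
def wpiHom (S : ValSetup K F k Fk) (t : SemilinearAut K F) (hst : WpiStable S t) :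
    Fk →+* Fk where
  toFun := wpiFun S t
  map_one' := by
    have h := wpiFun_red hst (S.Ov.one_mem)
    rw [S.red_one, smul_one, S.red_one] at h
    exact h
  map_zero' := by
    have h := wpiFun_red hst (S.Ov.zero_mem)
    rw [S.red_zero, smul_zero, S.red_zero] at h
    exact h
  map_mul' x y := by
    obtain ⟨f, hf, rfl⟩ := inert_red_surj S x
    obtain ⟨g, hg, rfl⟩ := inert_red_surj S y
    rw [← S.red_mul hf hg, wpiFun_red hst (mul_mem hf hg), wpiFun_red hst hf,
      wpiFun_red hst hg, smul_mul', S.red_mul ((hst f).mp hf) ((hst g).mp hg)]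
  map_add' x y := by
    obtain ⟨f, hf, rfl⟩ := inert_red_surj S x
    obtain ⟨g, hg, rfl⟩ := inert_red_surj S y
    rw [← S.red_add hf hg, wpiFun_red hst (add_mem hf hg), wpiFun_red hst hf,
      wpiFun_red hst hg, smul_add, S.red_add ((hst f).mp hf) ((hst g).mp hg)]

theorem wpiHom_red {t : SemilinearAut K F} (hst : WpiStable S t) {f : F} (hf : f ∈ S.Ov) :
    wpiHom S t hst (S.red f) = S.red (t • f) :=
  wpiFun_red hst hf

theorem wpiHom_inv_comp {t : SemilinearAut K F} (hst : WpiStable S t) (y : Fk) :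
    wpiHom S t⁻¹ hst.inv (wpiHom S t hst y) = y := by
  obtain ⟨f, hf, rfl⟩ := inert_red_surj S y
  rw [wpiHom_red hst hf, wpiHom_red hst.inv ((hst f).mp hf), inv_smul_smul]

theorem wpiHom_comp_inv {t : SemilinearAut K F} (hst : WpiStable S t) (y : Fk) :
    wpiHom S t hst (wpiHom S t⁻¹ hst.inv y) = y := by
  obtain ⟨f, hf, rfl⟩ := inert_red_surj S y
  rw [wpiHom_red hst.inv hf, wpiHom_red hst ((hst.inv f).mp hf), smul_inv_smul]

theorem wpiHom_algebraMap {t : SemilinearAut K F} (hst : WpiStable S t)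
    (hin : WpiInertial S t) (c : k) :
    wpiHom S t hst (algebraMap k Fk c) = algebraMap k Fk c := by
  obtain ⟨a, rfl⟩ := S.res_surj c
  obtain ⟨ha', hres⟩ := hin (a : K) a.2
  have h1 : S.red (algebraMap K F (a : K)) = algebraMap k Fk (S.res a) := S.red_algebraMap a.2
  rw [← h1, wpiHom_red hst (S.algebraMap_mem a.2), SemilinearAut.smul_algebraMap,
    S.red_algebraMap ha', hres]
  exact h1.symm

/-- **the automorphism of the residue field** induced by a stable inertial automorphism. -/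
def wpiEquiv (S : ValSetup K F k Fk) (t : SemilinearAut K F) (hst : WpiStable S t)
    (hin : WpiInertial S t) : Fk ≃ₐ[k] Fk :=
  AlgEquiv.ofRingEquiv
    (f := RingEquiv.ofRingHom (wpiHom S t hst) (wpiHom S t⁻¹ hst.inv)
      (RingHom.ext fun y => wpiHom_comp_inv hst y)
      (RingHom.ext fun y => wpiHom_inv_comp hst y))
    (fun c => wpiHom_algebraMap hst hin c)

/-- **(WP-INERT, abstract)** `red (t • f) = e (red f)`. -/
theorem wpiEquiv_red {t : SemilinearAut K F} (hst : WpiStable S t) (hin : WpiInertial S t)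
    {f : F} (hf : f ∈ S.Ov) : wpiEquiv S t hst hin (S.red f) = S.red (t • f) :=
  wpiHom_red hst hf

/-- existence form (the fields `mem`, `red` of `GraphSetup.Act` at a fixed component). -/
theorem wpi_exists_resEquiv {t : SemilinearAut K F} (hst : WpiStable S t)
    (hin : WpiInertial S t) :
    ∃ e : Fk ≃ₐ[k] Fk, ∀ f ∈ S.Ov, t • f ∈ S.Ov ∧ S.red (t • f) = e (S.red f) :=
  ⟨wpiEquiv S t hst hin, fun f hf => ⟨(hst f).mp hf, (wpiEquiv_red hst hin hf).symm⟩⟩

theorem wpiEquiv_one_apply (y : Fk) :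
    wpiEquiv S 1 (WpiStable.one S) (WpiInertial.one S) y = y := by
  obtain ⟨f, hf, rfl⟩ := inert_red_surj S y
  rw [wpiEquiv_red _ _ hf, one_smul]

theorem wpiEquiv_mul_apply {t t' : SemilinearAut K F} (hst : WpiStable S t)
    (hin : WpiInertial S t) (hst' : WpiStable S t') (hin' : WpiInertial S t') (y : Fk) :
    wpiEquiv S (t * t') (hst.mul hst') (hin.mul hin') y =
      wpiEquiv S t hst hin (wpiEquiv S t' hst' hin' y) := by
  obtain ⟨f, hf, rfl⟩ := inert_red_surj S y
  rw [wpiEquiv_red _ _ hf, wpiEquiv_red hst' hin' hf, wpiEquiv_red hst hin ((hst' f).mp hf),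
    mul_smul]

/-- on an eigenvector `W` of `t` with eigenvalue `c ∈ A` the induced automorphism is the
multiplication by `res c`. -/
theorem wpiEquiv_red_of_smul {t : SemilinearAut K F} (hst : WpiStable S t)
    (hin : WpiInertial S t) {W : F} (hW : W ∈ S.Ov) {c : K} (hc : c ∈ S.A)
    (h : t • W = c • W) :
    wpiEquiv S t hst hin (S.red W) = algebraMap k Fk (S.res ⟨c, hc⟩) * S.red W := by
  rw [wpiEquiv_red hst hin hW, h, S.red_smul hc hW, Algebra.smul_def]

/-- the action on a quotient `x / ϖ`, `x` fixed by `t`, `t ϖ = u ϖ`. -/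
theorem wpi_smul_div (t : SemilinearAut K F) {x : F} (hx : t • x = x) {ϖ u : K}
    (hϖ : SemilinearAut.baseAut t ϖ = u * ϖ) :
    t • (x / algebraMap K F ϖ) = u⁻¹ • (x / algebraMap K F ϖ) := by
  rw [div_eq_mul_inv, smul_mul', smul_inv'', hx, SemilinearAut.smul_algebraMap, hϖ, map_mul,
    mul_inv, Algebra.smul_def, map_inv₀]
  ring

/-- the same with a power of `ϖ`. -/
theorem wpi_smul_div_pow (t : SemilinearAut K F) {x : F} (hx : t • x = x) {ϖ u : K}
    (hϖ : SemilinearAut.baseAut t ϖ = u * ϖ) (n : ℕ) :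
    t • (x / algebraMap K F (ϖ ^ n)) = (u ^ n)⁻¹ • (x / algebraMap K F (ϖ ^ n)) :=
  wpi_smul_div t hx (by rw [map_pow, hϖ, mul_pow])

/-! ### the component `H_P` -/

section HP

variable [IsAlgClosed k] {q : ℕ} (H : HPCurve k Fk q) (hq1 : ((q + 1 : ℕ) : k) ≠ 0)

include H in
/-- the eigenvalue of `t` on the coordinates reduces to a `(q+1)`-th root of unity. -/
theorem wpi_res_pow_eq_one {t : SemilinearAut K F} (hst : WpiStable S t)
    (hin : WpiInertial S t) {W Z : F} (hW : W ∈ S.Ov) (hZ : Z ∈ S.Ov)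
    (hX1 : S.red W = H.X1) (hX2 : S.red Z = H.X2) {c : K} (hc : c ∈ S.A)
    (hcW : t • W = c • W) (hcZ : t • Z = c • Z) : S.res ⟨c, hc⟩ ^ (q + 1) = 1 := by
  refine H.eta_pow_eq_one ((wpiEquiv S t hst hin : Fk ≃ₐ[k] Fk) : Fk →ₐ[k] Fk) _ ?_ ?_
  · rw [← hX1]
    exact wpiEquiv_red_of_smul hst hin hW hc hcW
  · rw [← hX2]
    exact wpiEquiv_red_of_smul hst hin hZ hc hcZ

/-- **(WP-INERT, `H_P` form)**: the automorphism of `k(H_P)` induced by `t` is `σ_η`,
`η = res c`. -/
theorem wpiEquiv_eq_autEquiv {t : SemilinearAut K F} (hst : WpiStable S t)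
    (hin : WpiInertial S t) {W Z : F} (hW : W ∈ S.Ov) (hZ : Z ∈ S.Ov)
    (hX1 : S.red W = H.X1) (hX2 : S.red Z = H.X2) {c : K} (hc : c ∈ S.A)
    (hcW : t • W = c • W) (hcZ : t • Z = c • Z) :
    wpiEquiv S t hst hin = H.autEquiv hq1 (S.res ⟨c, hc⟩)
      (wpi_res_pow_eq_one H hst hin hW hZ hX1 hX2 hc hcW hcZ) := by
  refine H.algEquiv_eq_autEquiv hq1 _ _ _ ?_ ?_
  · rw [← hX1]
    exact wpiEquiv_red_of_smul hst hin hW hc hcW
  · rw [← hX2]
    exact wpiEquiv_red_of_smul hst hin hZ hc hcZ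

/-- **(WP-INERT, `H_P` form)**, on functions: `red (t • f) = σ_η (red f)`. -/
theorem wpi_red_smul_eq_autEquiv {t : SemilinearAut K F} (hst : WpiStable S t)
    (hin : WpiInertial S t) {W Z : F} (hW : W ∈ S.Ov) (hZ : Z ∈ S.Ov)
    (hX1 : S.red W = H.X1) (hX2 : S.red Z = H.X2) {c : K} (hc : c ∈ S.A)
    (hcW : t • W = c • W) (hcZ : t • Z = c • Z) {f : F} (hf : f ∈ S.Ov) :
    S.red (t • f) = H.autEquiv hq1 (S.res ⟨c, hc⟩)
      (wpi_res_pow_eq_one H hst hin hW hZ hX1 hX2 hc hcW hcZ) (S.red f) := by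
  rw [← wpiEquiv_eq_autEquiv H hq1 hst hin hW hZ hX1 hX2 hc hcW hcZ, wpiEquiv_red hst hin hf]

end HP

end Fermat.Agent.S36G
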