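import Fermat.Agent.Lib.FFL.FB.FieldTeich
import Fermat.Agent.Lib.Deuring.Basic

set_option autoImplicit false
set_option linter.unusedSectionVars false
set_option linter.unusedVariables false
set_option linter.style.haveILetI false

/-!
# S36 (cluster G), block W-P, seat TEICH+SHIFT, part (T1): Teichmüller lifts  (helper65)

`A` a valuation subring of `ℚ̄` over the prime `q`, `I` its inertia group.

* `wps_teich` : **Teichmüller lift with prescribed period**: if `x ∈ A` and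
  `x ^ (q ^ f) ≡ x` modulo the maximal ideal (`f > 0`), then there is `a ∈ A` with `a ≡ x`,
  `a ^ (q ^ f) = a` and `σ a = a` for all `σ ∈ I` (`a` is `0` or a root of unity of order
  `q ^ f - 1`);
* `wps_teich_pow` : then `a ^ q` is a Teichmüller lift of `x ^ q` (same period, inertia-fixed);
* `wps_teich_res` : the same for a constant reduction `S : ValSetup ℚ̄ F k Fk` with `S.A` over
  `q`: every `c ∈ k` with `c ^ (q ^ f) = c` has a lift `a ∈ S.A`, `res a = c`,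
  `a ^ (q ^ f) = a`, fixed by the inertia group;
* `wps_teich_exists` : every `c ∈ k` has such a lift for SOME `f > 0`.
-/

noncomputable section
attribute [local instance 10000] SubalgebraClass.toAlgebra HahnSeries.powerSeriesAlgebra

namespace Fermat.Agent.S36G

open Fermat.Agent.FFL Fermat.Agent.FFL.FB Fermat.Agent.Cyclo Polynomial Fermat.Agent.Deuring

local notation "Qb" => AlgebraicClosure ℚ

variable {q : ℕ} {A : ValuationSubring Qb}

/-- **Teichmüller lift with prescribed period.** -/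
theorem wps_teich (hq : q.Prime) (hA : A.LiesOverPrime q) {x : Qb} (hx : x ∈ A) {f : ℕ}
    (hf : 0 < f) (hxf : x ^ (q ^ f) - x ∈ A.nonunits) :
    ∃ a : Qb, a ∈ A ∧ (∀ σ ∈ A.inertiaSubgroupIn ℚ, σ a = a) ∧ x - a ∈ A.nonunits ∧
      a ^ (q ^ f) = a := by
  classical
  have hqf0 : q ^ f ≠ 0 := pow_ne_zero f hq.ne_zero
  by_cases hxm : x ∈ A.nonunits
  · exact ⟨0, A.zero_mem, fun σ _ => map_zero σ, by rwa [sub_zero], zero_pow hqf0⟩
  have hxv : A.valuation x = 1 := by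
    rw [ValuationSubring.mem_nonunits_iff, not_lt] at hxm
    exact le_antisymm ((A.valuation_le_one_iff x).2 hx) hxm
  set n := q ^ f - 1 with hn
  have hq1 : 1 < q ^ f := Nat.one_lt_pow (Nat.pos_iff_ne_zero.1 hf) hq.one_lt
  have hnpos : 0 < n := by omega
  have hnp : ¬ q ∣ n := by
    intro h
    have h1 : q ∣ q ^ f := dvd_pow_self q (Nat.pos_iff_ne_zero.1 hf)
    have h2 : q ∣ q ^ f - n := Nat.dvd_sub h1 h
    have h3 : q ^ f - n = 1 := by omega
    rw [h3] at h2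
    exact hq.one_lt.ne' (Nat.dvd_one.1 h2)
  have hqfn : q ^ f = n + 1 := by omega
  -- `x ^ n - 1` is a nonunit
  have hxn : x ^ n - 1 ∈ A.nonunits := by
    have h1 : x ^ (q ^ f) - x = x * (x ^ n - 1) := by
      rw [hqfn, pow_succ]
      ring
    rw [h1, ValuationSubring.mem_nonunits_iff, map_mul, hxv, one_mul] at hxf
    exact (ValuationSubring.mem_nonunits_iff A).2 hxf
  -- factor `x ^ n - 1`
  have hn0 : ((n : ℕ) : Qb) ≠ 0 := Nat.cast_ne_zero.2 hnpos.ne'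
  have hNZ : NeZero ((n : ℕ) : Qb) := ⟨hn0⟩
  obtain ⟨ζ, hζ⟩ := HasEnoughRootsOfUnity.exists_primitiveRoot Qb n
  have hprod : x ^ n - 1 = ∏ μ ∈ nthRootsFinset n (1 : Qb), (x - μ) := by
    have h1 := hζ.pow_sub_pow_eq_prod_sub_mul x 1 hnpos
    simpa using h1
  have hex : ∃ μ ∈ nthRootsFinset n (1 : Qb), x - μ ∈ A.nonunits := by
    by_contra hcon
    push Not at hcon
    have hall : ∀ μ ∈ nthRootsFinset n (1 : Qb), A.valuation (x - μ) = 1 := by
      intro μ hμ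
      have hμn : μ ^ n = 1 := (mem_nthRootsFinset hnpos 1).1 hμ
      have hμP : μ ∈ A := pow_eq_one_mem A hnpos.ne' hμn
      have h1 := hcon μ hμ
      rw [ValuationSubring.mem_nonunits_iff, not_lt] at h1
      exact le_antisymm ((A.valuation_le_one_iff _).2 (sub_mem hx hμP)) h1
    have h2 : A.valuation (x ^ n - 1) = 1 := by
      rw [hprod, map_prod]
      exact Finset.prod_eq_one hall
    rw [ValuationSubring.mem_nonunits_iff, h2] at hxn
    exact lt_irrefl _ hxn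
  obtain ⟨μ, hμ, hxμ⟩ := hex
  have hμn : μ ^ n = 1 := (mem_nthRootsFinset hnpos 1).1 hμ
  refine ⟨μ, pow_eq_one_mem A hnpos.ne' hμn,
    fun σ hσ => root_fixed_of_inertia hq hA hnp hμn hσ, hxμ, ?_⟩
  rw [hqfn, pow_succ, hμn, one_mul]

/-- the `q`-th power of a Teichmüller lift is a Teichmüller lift of the `q`-th power. -/
theorem wps_teich_pow {x a : Qb} (hx : x ∈ A) (ha : a ∈ A)
    (hfix : ∀ σ ∈ A.inertiaSubgroupIn ℚ, σ a = a) (hxa : x - a ∈ A.nonunits) {f : ℕ}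
    (haf : a ^ (q ^ f) = a) (m : ℕ) :
    a ^ m ∈ A ∧ (∀ σ ∈ A.inertiaSubgroupIn ℚ, σ (a ^ m) = a ^ m) ∧
      x ^ m - a ^ m ∈ A.nonunits ∧ (a ^ m) ^ (q ^ f) = a ^ m := by
  refine ⟨pow_mem ha m, fun σ hσ => by rw [map_pow, hfix σ hσ],
    pow_sub_pow_mem_nonunits hx ha hxa m, ?_⟩
  rw [← pow_mul, mul_comm, pow_mul, haf]

section ValSetup

variable {F k Fk : Type*} [Field F] [Algebra Qb F] [Field k] [Field Fk] [Algebra k Fk]

/-- an element of `S.A` with residue `0` is a non-unit. -/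
theorem wps_mem_nonunits_of_res (S : ValSetup Qb F k Fk) {a : Qb} (ha : a ∈ S.A)
    (h : S.res ⟨a, ha⟩ = 0) : a ∈ S.A.nonunits := by
  rw [ValuationSubring.mem_nonunits_iff_or]
  by_cases ha0 : a = 0
  · exact Or.inl ha0
  · right
    intro hinv
    have h1 : S.res ⟨a, ha⟩ * S.res ⟨a⁻¹, hinv⟩ = 1 := by
      rw [← map_mul]
      have e : (⟨a, ha⟩ : S.A) * ⟨a⁻¹, hinv⟩ = 1 := Subtype.ext (mul_inv_cancel₀ ha0)
      rw [e, map_one]
    rw [h, zero_mul] at h1
    exact zero_ne_one h1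

/-- the residue of a non-unit vanishes. -/
theorem wps_res_of_mem_nonunits (S : ValSetup Qb F k Fk) {a : Qb} (ha : a ∈ S.A)
    (h : a ∈ S.A.nonunits) : S.res ⟨a, ha⟩ = 0 := by
  rw [ValuationSubring.mem_nonunits_iff_or] at h
  rcases h with h0 | h0
  · have e : (⟨a, ha⟩ : S.A) = 0 := Subtype.ext h0
    rw [e, map_zero]
  · obtain ⟨h', h1⟩ := S.res_inv_eq_zero h0
    have e : (⟨(a⁻¹)⁻¹, h'⟩ : S.A) = ⟨a, ha⟩ := Subtype.ext (inv_inv a)
    rw [← e]
    exact h1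

/-- **Teichmüller lifts for a constant reduction**: `c ∈ k` with `c ^ (q ^ f) = c` has a lift
`a ∈ S.A` with `a ^ (q ^ f) = a`, fixed by the inertia group. -/
theorem wps_teich_res (S : ValSetup Qb F k Fk) (hq : q.Prime) (hA : S.A.LiesOverPrime q)
    {c : k} {f : ℕ} (hf : 0 < f) (hc : c ^ (q ^ f) = c) :
    ∃ (a : Qb) (ha : a ∈ S.A), S.res ⟨a, ha⟩ = c ∧ a ^ (q ^ f) = a ∧
      ∀ σ ∈ S.A.inertiaSubgroupIn ℚ, σ a = a := by
  obtain ⟨x, hx⟩ := S.res_surj c
  have hxf : (x : Qb) ^ (q ^ f) - x ∈ S.A.nonunits := by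
    have hmem : (x : Qb) ^ (q ^ f) - x ∈ S.A := sub_mem (pow_mem x.2 _) x.2
    apply wps_mem_nonunits_of_res S hmem
    have e : (⟨(x : Qb) ^ (q ^ f) - x, hmem⟩ : S.A) = x ^ (q ^ f) - x := Subtype.ext (by simp)
    rw [e, map_sub, map_pow, hx, hc, sub_self]
  obtain ⟨a, ha, hfix, hxa, haf⟩ := wps_teich hq hA x.2 hf hxf
  refine ⟨a, ha, ?_, haf, hfix⟩
  have hsub : (x : Qb) - a ∈ S.A := sub_mem x.2 ha
  have h0 := wps_res_of_mem_nonunits S hsub hxa
  have e : (⟨(x : Qb) - a, hsub⟩ : S.A) = x - ⟨a, ha⟩ := Subtype.ext (by simp)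
  rw [e, map_sub, hx, sub_eq_zero] at h0
  exact h0.symm

/-- every `c ∈ k` has a Teichmüller lift (for some period `f > 0`). -/
theorem wps_teich_exists (S : ValSetup Qb F k Fk) (hq : q.Prime) (hA : S.A.LiesOverPrime q)
    (c : k) :
    ∃ (f : ℕ) (a : Qb) (ha : a ∈ S.A), 0 < f ∧ S.res ⟨a, ha⟩ = c ∧ a ^ (q ^ f) = a ∧
      ∀ σ ∈ S.A.inertiaSubgroupIn ℚ, σ a = a := by
  obtain ⟨x, hx⟩ := S.res_surj c
  obtain ⟨f, hf, hxf⟩ := exists_pow_sub_mem hq hA x.2
  obtain ⟨a, ha, hfix, hxa, haf⟩ := wps_teich hq hA x.2 hf hxf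
  refine ⟨f, a, ha, hf, ?_, haf, hfix⟩
  have hsub : (x : Qb) - a ∈ S.A := sub_mem x.2 ha
  have h0 := wps_res_of_mem_nonunits S hsub hxa
  have e : (⟨(x : Qb) - a, hsub⟩ : S.A) = x - ⟨a, ha⟩ := Subtype.ext (by simp)
  rw [e, map_sub, hx, sub_eq_zero] at h0
  exact h0.symm

end ValSetup

end Fermat.Agent.S36G
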