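import Mathlib
import Fermat.Agent.S36.HPVal.InertOnto
import Fermat.Agent.S36.HPVal.Teich
import Fermat.Agent.S36.G.InertArith
import Fermat.Agent.S36.G.Defs

set_option autoImplicit false
set_option linter.style.haveILetI false
set_option linter.unusedSectionVars false
set_option linter.unusedVariables false

/-!
# S36 (cluster G), W-P seat INERT-MOD: the inertia group at a supersingular vertex  (helper71)

`M` a level, `S : ValSetup ℚ̄ (FBar M) k Fk` a constant reduction of `X₀(M)` over the place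
`A = S.A` of `ℚ̄` over `q`, `H : HPCurve k Fk q` the curve `H_P` on the residue field.  The inertia
group `I_A = A.inertiaSubgroupIn ℚ` acts on `FBar M` coefficientwise (`galFun M τ`).

* `wpmInertia M A` : the image of `I_A` in `SemilinearAut ℚ̄ (FBar M)`.
* `wpm_inertial` : every `t ∈ wpmInertia M S.A` is inertial for `S` (`WpiInertial`): GENERIC.
* `wpm_tame` : the tame character `t ↦ t ϖ / ϖ` (`ϖ ^ (q + 1) = q`) maps `wpmInertia M A` ONTO
  `μ_{q+1}`: GENERIC (from `inert_exists_tame`).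
* `wpm_stable_of_le`, `wpm_stable_of_unique` : stability (`WpiStable`) from `τ Ov ⊆ Ov` for all
  `τ ∈ I_A`, resp. from a UNIQUENESS statement for the valuation ring `S.Ov`.
* `wpm_hinv` : **the hypothesis `hinv` of Step 2** at the vertex `w_P` for a Kummer generator `g`
  whose class is fixed by inertia (`InertiaFixedFun`).
-/

noncomputable section
attribute [local instance 10000] SubalgebraClass.toAlgebra HahnSeries.powerSeriesAlgebra

namespace Fermat.Agent.S36G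

open ModularCurve AlgebraicCurve Fermat.Agent.F3 Fermat.Agent.F3G Fermat.Agent.Deuring
  Fermat.Agent.HP

local notation "Qb" => AlgebraicClosure ℚ

variable {M : ℕ} {k Fk : Type*} [Field k] [Field Fk] [Algebra k Fk]

/-- the image of the inertia group of `A` in the semilinear automorphisms of `FBar M`. -/
def wpmInertia (M : ℕ) (A : ValuationSubring Qb) : Set (SemilinearAut Qb (FBar M)) :=
  {t | ∃ τ ∈ A.inertiaSubgroupIn ℚ, t = arithmeticGalois (modularFunctionFieldFull M) τ}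

theorem wpm_mem_inertia {A : ValuationSubring Qb} {τ : Qb ≃ₐ[ℚ] Qb}
    (hτ : τ ∈ A.inertiaSubgroupIn ℚ) :
    arithmeticGalois (modularFunctionFieldFull M) τ ∈ wpmInertia M A :=
  ⟨τ, hτ, rfl⟩

theorem wpm_smul_eq_galFun (τ : Qb ≃ₐ[ℚ] Qb) (f : FBar M) :
    arithmeticGalois (modularFunctionFieldFull M) τ • f = galFun M τ f :=
  rfl

theorem wpm_baseAut (τ : Qb ≃ₐ[ℚ] Qb) (a : Qb) :
    SemilinearAut.baseAut (arithmeticGalois (modularFunctionFieldFull M) τ) a = τ a := by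
  rw [baseAut_arithmeticGalois]
  rfl

/-- **inertial**: the inertia group preserves `A` and acts trivially on the residue field. -/
theorem wpm_inertial (S : ValSetup Qb (FBar M) k Fk) {τ : Qb ≃ₐ[ℚ] Qb}
    (hτ : τ ∈ S.A.inertiaSubgroupIn ℚ) :
    WpiInertial S (arithmeticGalois (modularFunctionFieldFull M) τ) := by
  intro a ha
  have h1 : τ a - a ∈ S.A.nonunits := Fermat.Agent.Cyclo.inertia_sub_mem_nonunits S.A hτ ha
  have h2 : τ a - a ∈ S.A := S.A.nonunits_le h1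
  have h3 : τ a ∈ S.A := by
    have e : τ a = (τ a - a) + a := by ring
    rw [e]
    exact S.A.add_mem _ _ h2 ha
  have hb : SemilinearAut.baseAut (arithmeticGalois (modularFunctionFieldFull M) τ) a = τ a :=
    wpm_baseAut τ a
  have h3' : SemilinearAut.baseAut (arithmeticGalois (modularFunctionFieldFull M) τ) a ∈ S.A := by
    rw [hb]
    exact h3
  refine ⟨h3', ?_⟩
  have h4 : S.res ⟨τ a - a, h2⟩ = 0 := wps_res_of_mem_nonunits S h2 h1
  have e : (⟨τ a - a, h2⟩ : S.A) = ⟨τ a, h3⟩ - ⟨a, ha⟩ := Subtype.ext rfl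
  rw [e, map_sub, sub_eq_zero] at h4
  have e' : (⟨SemilinearAut.baseAut (arithmeticGalois (modularFunctionFieldFull M) τ) a, h3'⟩ :
      S.A) = ⟨τ a, h3⟩ := Subtype.ext hb
  rw [e', h4]

theorem wpm_inertial_of_mem (S : ValSetup Qb (FBar M) k Fk) :
    ∀ t ∈ wpmInertia M S.A, WpiInertial S t := by
  rintro t ⟨τ, hτ, rfl⟩
  exact wpm_inertial S hτ

/-- **the tame character is onto** `μ_n` (`ϖ ^ n = q`, `q ∤ n`). -/
theorem wpm_tame {q : ℕ} (hq : q.Prime) (A : ValuationSubring Qb) (hA : A.LiesOverPrime q)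
    {n : ℕ} (hn : ¬ q ∣ n) {ϖ : Qb} (hϖ : ϖ ^ n = (q : Qb)) :
    ∀ ζ : Qb, ζ ^ n = 1 → ∃ t ∈ wpmInertia M A, SemilinearAut.baseAut t ϖ = ζ * ϖ := by
  intro ζ hζ
  haveI : Fact q.Prime := ⟨hq⟩
  obtain ⟨σ, hσ, hσϖ⟩ := inert_exists_tame q A hA hn hϖ hζ
  exact ⟨_, wpm_mem_inertia hσ, (wpm_baseAut σ ϖ).trans hσϖ⟩

/-- `q ∤ q + 1`. -/
theorem wpm_not_dvd_succ {q : ℕ} (hq : q.Prime) : ¬ q ∣ q + 1 := by
  intro h
  have h1 : q ∣ 1 := (Nat.dvd_add_right (dvd_refl q)).mp h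
  exact hq.one_lt.ne' (Nat.dvd_one.mp h1)

/-- **stability** from `τ Ov ⊆ Ov` for all `τ` in the inertia group. -/
theorem wpm_stable_of_le (S : ValSetup Qb (FBar M) k Fk)
    (hle : ∀ τ ∈ S.A.inertiaSubgroupIn ℚ, ∀ f ∈ S.Ov, galFun M τ f ∈ S.Ov) :
    ∀ t ∈ wpmInertia M S.A, WpiStable S t := by
  rintro t ⟨τ, hτ, rfl⟩
  refine WpiStable.of_le (fun f hf => hle τ hτ f hf) (fun f hf => ?_)
  have h := hle τ⁻¹ ((S.A.inertiaSubgroupIn ℚ).inv_mem hτ) f hf
  have e : (arithmeticGalois (modularFunctionFieldFull M) τ)⁻¹ • f = galFun M τ⁻¹ f := by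
    rw [← map_inv]
  rw [e]
  exact h

/-- **stability** from a UNIQUENESS statement: if `S.Ov` is the only valuation ring of `FBar M`
with the property `C`, and the transforms of `S.Ov` under the inertia group have the property
`C`, then the inertia group preserves `S.Ov`. -/
theorem wpm_stable_of_unique (S : ValSetup Qb (FBar M) k Fk)
    (C : ValuationSubring (FBar M) → Prop)
    (huniq : ∀ O' : ValuationSubring (FBar M), C O' → O' = S.Ov)
    (hC : ∀ τ ∈ S.A.inertiaSubgroupIn ℚ, ∀ O' : ValuationSubring (FBar M),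
      (∀ f : FBar M, f ∈ O' ↔ galFun M τ f ∈ S.Ov) → C O') :
    ∀ t ∈ wpmInertia M S.A, WpiStable S t := by
  rintro t ⟨τ, hτ, rfl⟩
  intro f
  let φ : FBar M →+* FBar M :=
    (SemilinearAut.toRingAut (arithmeticGalois (modularFunctionFieldFull M) τ) :
      FBar M ≃+* FBar M).toRingHom
  have hφ : ∀ f : FBar M, φ f = galFun M τ f := fun f => rfl
  have h1 : ∀ f : FBar M, f ∈ S.Ov.comap φ ↔ galFun M τ f ∈ S.Ov := fun f => by
    rw [ValuationSubring.mem_comap, hφ]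
  have h2 : S.Ov.comap φ = S.Ov := huniq _ (hC τ hτ _ h1)
  rw [wpm_smul_eq_galFun, ← h1 f, h2]

section Hinv

variable [IsAlgClosed k] {q : ℕ} {S : ValSetup Qb (FBar M) k Fk} (H : HPCurve k Fk q)
  (hq1 : ((q + 1 : ℕ) : k) ≠ 0)

include hq1 in
/-- **the hypothesis `hinv` of Step 2 at the vertex `w_P`** (`HPCurve.pow_eq_of_inv`,
`HPCurve.pow_eq_of_norms`), for a function `g = c f` (`f` a unit of `w_P`) whose class modulo
constants and `n`-th powers is fixed by the inertia group of `A = S.A`.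

Inputs from W-P (`VAL`): `ϖ ^ (q + 1) = q`; `x₀, x₂` fixed by inertia with `W = x₀ / ϖ`,
`Z = x₂ / ϖ` integral and reducing to the coordinates `X₁, X₂` of `H_P`; stability `hst`. -/
theorem wpm_hinv (hq : q.Prime) (hA : S.A.LiesOverPrime q)
    (hst : ∀ t ∈ wpmInertia M S.A, WpiStable S t)
    {x0 x2 : FBar M} {ϖ : Qb} (hϖ : ϖ ^ (q + 1) = (q : Qb))
    (hW : x0 / algebraMap Qb (FBar M) ϖ ∈ S.Ov) (hZ : x2 / algebraMap Qb (FBar M) ϖ ∈ S.Ov)
    (hX1 : S.red (x0 / algebraMap Qb (FBar M) ϖ) = H.X1)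
    (hX2 : S.red (x2 / algebraMap Qb (FBar M) ϖ) = H.X2)
    (hx0 : ∀ τ ∈ S.A.inertiaSubgroupIn ℚ, galFun M τ x0 = x0)
    (hx2 : ∀ τ ∈ S.A.inertiaSubgroupIn ℚ, galFun M τ x2 = x2)
    (n : ℕ) {g : FBar M} (hg : g ≠ 0)
    (hfix : ∀ τ ∈ S.A.inertiaSubgroupIn ℚ, ∃ (u : FBar M) (a : Qb),
      galFun M τ g = algebraMap Qb (FBar M) a * u ^ n * g)
    {f : FBar M} (hf : f ∈ S.Ov) (hf' : f⁻¹ ∈ S.Ov) {c : Qb}
    (hfg : g = algebraMap Qb (FBar M) c * f) :
    ∀ σ ∈ H.galK, ∃ (b : k) (v : Fk), σ (S.red f) = algebraMap k Fk b * v ^ n * S.red f := by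
  refine wpi_hinv_of_tame H hq1 (wpmInertia M S.A) hst (wpm_inertial_of_mem S) hW hZ hX1 hX2
    ?_ ?_ (wpm_tame hq S.A hA (wpm_not_dvd_succ hq) hϖ) n hg ?_ hf hf' hfg
  · rintro t ⟨τ, hτ, rfl⟩
    exact hx0 τ hτ
  · rintro t ⟨τ, hτ, rfl⟩
    exact hx2 τ hτ
  · rintro t ⟨τ, hτ, rfl⟩
    exact hfix τ hτ

include hq1 in
/-- `wpm_hinv` with the hypothesis in the form `InertiaFixedFun` of `S36/G/Defs.lean`. -/
theorem wpm_hinv_of_fixedFun [NeZero M] (hq : q.Prime) (hA : S.A.LiesOverPrime q)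
    (hst : ∀ t ∈ wpmInertia M S.A, WpiStable S t)
    {x0 x2 : FBar M} {ϖ : Qb} (hϖ : ϖ ^ (q + 1) = (q : Qb))
    (hW : x0 / algebraMap Qb (FBar M) ϖ ∈ S.Ov) (hZ : x2 / algebraMap Qb (FBar M) ϖ ∈ S.Ov)
    (hX1 : S.red (x0 / algebraMap Qb (FBar M) ϖ) = H.X1)
    (hX2 : S.red (x2 / algebraMap Qb (FBar M) ϖ) = H.X2)
    (hx0 : ∀ τ ∈ S.A.inertiaSubgroupIn ℚ, galFun M τ x0 = x0)
    (hx2 : ∀ τ ∈ S.A.inertiaSubgroupIn ℚ, galFun M τ x2 = x2)
    (n : ℕ) {g : FBar M} (hg : g ≠ 0) (hfix : InertiaFixedFun M S.A n g)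
    {f : FBar M} (hf : f ∈ S.Ov) (hf' : f⁻¹ ∈ S.Ov) {c : Qb}
    (hfg : g = algebraMap Qb (FBar M) c * f) :
    ∀ σ ∈ H.galK, ∃ (b : k) (v : Fk), σ (S.red f) = algebraMap k Fk b * v ^ n * S.red f :=
  wpm_hinv H hq1 hq hA hst hϖ hW hZ hX1 hX2 hx0 hx2 n hg
    (fun τ hτ => by
      obtain ⟨u, a, -, h⟩ := hfix τ hτ
      exact ⟨u, a, h⟩) hf hf' hfg

end Hinv

end Fermat.Agent.S36G
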