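import Mathlib
import Fermat.Agent.S18.KeyBasic
import Fermat.Agent.Lib.RR.RRI
import Fermat.Agent.Lib.BadRed.HPVal.DiscTaylor
import Fermat.Prelude.Def_AlgebraicCurve_BaseChangeGalois

set_option autoImplicit false
set_option linter.style.haveILetI false
set_option linter.unusedSectionVars false
set_option linter.unusedVariables false

/-!
# S36 (cluster G), W-P seat INERT-MOD, abstract part: the reduction map of places is CANONICAL
(helper71)

`S : S18Key.RedSetup K F k Fk` a reduction package (valuation ring `Ov`, residue map `red`,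
reduction map of places `r` with `push`), `t` a semilinear automorphism of `F / K` which
preserves `Ov` and acts TRIVIALLY on the residues (`red (t f) = red f`: the inertia group).

* `WpmTriv S t`      : `t` preserves `Ov` and acts trivially on the residues;
* `WpmLattice S`     : the lattice property of `(Ov, red)` (= `Deuring.HasLattice`);
* `wpm_exists_nonconst` : for every place `x` a function of `Ov` with poles only at `x` and
  NON-CONSTANT reduction (Riemann's inequality + lattice);
* `wpm_r_smul`       : **`r (t • x) = r x`** (from `push` only: no genus equality, no (GR));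
* `wpm_smul_mem_discRing` : `t` preserves `R_P = discRing S P`;
* `wpm_valAt_smul`   : `t` preserves the values at `P` of the reductions.
-/

noncomputable section
attribute [local instance 10000] SubalgebraClass.toAlgebra HahnSeries.powerSeriesAlgebra

namespace Fermat.Agent.S36G

open AlgebraicCurve Fermat.Agent.RR Fermat.Agent.S18Key Fermat.Agent.HPVal

variable {K F k Fk : Type*} [Field K] [Field F] [Algebra K F] [Field k] [Field Fk]
  [Algebra k Fk]

/-- `t` preserves the valuation ring of `S` and acts trivially on the residues. -/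
structure WpmTriv (S : RedSetup K F k Fk) (t : SemilinearAut K F) : Prop where
  mem : ∀ f ∈ S.Ov, t • f ∈ S.Ov
  mem_inv : ∀ f ∈ S.Ov, t⁻¹ • f ∈ S.Ov
  red : ∀ f ∈ S.Ov, S.red (t • f) = S.red f

/-- the lattice property of the valuation ring of a reduction package. -/
def WpmLattice (S : RedSetup K F k Fk) : Prop :=
  ∀ W : Submodule K F, FiniteDimensional K W →
    ∃ (n : ℕ) (w : Fin n → F), (∀ i, w i ∈ W) ∧ (∀ i, w i ∈ S.Ov) ∧
      Submodule.span K (Set.range w) = W ∧ LinearIndependent k (fun i => S.red (w i))

variable {S : RedSetup K F k Fk} {t : SemilinearAut K F}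

theorem WpmTriv.inv (h : WpmTriv S t) : WpmTriv S t⁻¹ where
  mem := h.mem_inv
  mem_inv := fun f hf => by
    rw [inv_inv]
    exact h.mem f hf
  red := fun f hf => by
    have h1 := h.red (t⁻¹ • f) (h.mem_inv f hf)
    rw [smul_inv_smul] at h1
    exact h1.symm

theorem WpmTriv.isU (h : WpmTriv S t) {f : F} (hf : S.IsU f) : S.IsU (t • f) :=
  isU_of_red_ne_zero (h.mem f hf.mem) (by
    rw [h.red f hf.mem]
    exact hf.red_ne_zero)

/-- two linearly independent vectors are not both multiples of a third one. -/
theorem wpm_not_both_const {V : Type*} [AddCommGroup V] [Module k V] {a b e : V}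
    (hab : LinearIndependent k ![a, b]) (ha : ∃ c : k, a = c • e) (hb : ∃ c : k, b = c • e) :
    False := by
  obtain ⟨c, rfl⟩ := ha
  obtain ⟨d, rfl⟩ := hb
  rw [LinearIndependent.pair_iff] at hab
  have h := hab d (-c) (by
    rw [smul_smul, smul_smul, neg_mul, neg_smul, mul_comm d c]
    exact add_neg_cancel _)
  have hd : d = 0 := h.1
  have hc : c = 0 := neg_eq_zero.mp h.2
  have h0 := hab 1 0 (by rw [hc, zero_smul, smul_zero, zero_smul, add_zero])
  exact one_ne_zero h0.1

/-- for every place `x` there is an integral function with poles only at `x` whose reduction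
is not a constant. -/
theorem wpm_exists_nonconst (hlat : WpmLattice S) (x : Place K F) :
    ∃ f : F, f ∈ S.Ov ∧ (∀ y : Place K F, y ≠ x → 0 ≤ y.ord f) ∧
      ∀ c : k, S.red f ≠ algebraMap k Fk c := by
  classical
  set n : ℤ := (genusFF K F : ℤ) + 1 with hn
  set D : Divisor K F := Finsupp.single x n with hD
  haveI hfin : Module.Finite K (riemannRochSpace D) := finite_riemannRochSpace S.hF D
  have hell : (2 : ℤ) ≤ (ell D : ℤ) := by
    have h1 := riemann_inequality S.hF D
    rw [hD, degree_single_one S.hF x n] at h1
    rw [hD]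
    omega
  obtain ⟨m, w, hwW, hwO, hspan, hli⟩ := hlat (riemannRochSpace D) hfin
  have hm : 2 ≤ m := by
    have h1 : Module.finrank K (riemannRochSpace D) ≤ m := by
      have h2 : Module.finrank K (Submodule.span K (Set.range w)) ≤ (Finset.univ : Finset (Fin m)).card := by
        have := finrank_span_le_card (R := K) (Set.range w)
        calc Module.finrank K (Submodule.span K (Set.range w))
            ≤ (Set.range w).toFinset.card := this
          _ ≤ (Finset.univ : Finset (Fin m)).card := by
              rw [Set.toFinset_range]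
              exact Finset.card_image_le
      rw [hspan] at h2
      simpa using h2
    have h3 : (2 : ℤ) ≤ (m : ℤ) := by
      have : ((ell D : ℕ) : ℤ) ≤ (m : ℤ) := by exact_mod_cast h1
      omega
    exact_mod_cast h3
  have hpoles : ∀ i, ∀ y : Place K F, y ≠ x → 0 ≤ y.ord (w i) := by
    intro i y hy
    rcases (mem_riemannRochSpace_iff.mp (hwW i)) y with h0 | h0
    · rw [h0, Place.ord_zero]
    · rw [hD, Finsupp.single_eq_of_ne hy, neg_zero] at h0
      exact h0
  set i0 : Fin m := ⟨0, by omega⟩ with hi0
  set i1 : Fin m := ⟨1, by omega⟩ with hi1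
  have hne : i0 ≠ i1 := by
    intro h
    have := congrArg Fin.val h
    simp [hi0, hi1] at this
  have hpair : LinearIndependent k ![S.red (w i0), S.red (w i1)] := by
    have hinj : Function.Injective ![i0, i1] := by
      intro a b hab
      fin_cases a <;> fin_cases b <;> simp_all
    have := hli.comp ![i0, i1] hinj
    convert this using 1
    ext j
    fin_cases j <;> rfl
  by_cases h0 : ∃ c : k, S.red (w i0) = algebraMap k Fk c
  swap
  · exact ⟨w i0, hwO i0, hpoles i0, fun c hc => h0 ⟨c, hc⟩⟩
  by_cases h1 : ∃ c : k, S.red (w i1) = algebraMap k Fk c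
  swap
  · exact ⟨w i1, hwO i1, hpoles i1, fun c hc => h1 ⟨c, hc⟩⟩
  exfalso
  obtain ⟨c0, hc0⟩ := h0
  obtain ⟨c1, hc1⟩ := h1
  exact wpm_not_both_const (e := (1 : Fk)) hpair
    ⟨c0, by rw [hc0, Algebra.algebraMap_eq_smul_one]⟩
    ⟨c1, by rw [hc1, Algebra.algebraMap_eq_smul_one]⟩

/-- **the reduction map of places is canonical**: an automorphism which preserves the valuation
ring and acts trivially on the residues commutes with the reduction of places. -/
theorem wpm_r_smul (hFk : IsRRField k Fk) (hlat : WpmLattice S) (ht : WpmTriv S t)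
    (x : Place K F) : S.r (t • x) = S.r x := by
  by_contra hne
  obtain ⟨f, hfO, hpoles, hnc⟩ := wpm_exists_nonconst hlat x
  have hred0 : S.red f ≠ 0 := by
    intro h
    exact hnc 0 (by rw [h, map_zero])
  have hU : S.IsU f := isU_of_red_ne_zero hfO hred0
  have hU' : S.IsU (t • f) := ht.isU hU
  have hall : ∀ Q : Place k Fk, 0 ≤ Q.ord (S.red f) := by
    intro Q
    by_cases hQ : Q = S.r x
    · -- use `t • f`
      rw [← ht.red f hfO]
      refine push_nonneg hU' Q (fun y hy => ?_)
      have hy' : t⁻¹ • y ≠ x := by
        intro h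
        apply hne
        rw [← h, smul_inv_smul, hy, hQ, ← h]
      have h1 := SemilinearAut.ord_smul t (t⁻¹ • y) f
      rw [smul_inv_smul] at h1
      rw [h1]
      exact hpoles _ hy'
    · refine push_nonneg hU Q (fun y hy => hpoles y ?_)
      rintro rfl
      exact hQ hy.symm
  have hmem : S.red f ∈ riemannRochSpace (0 : Divisor k Fk) := by
    rw [mem_riemannRochSpace_iff]
    intro Q
    right
    simpa using hall Q
  obtain ⟨c, hc⟩ := (mem_riemannRochSpace_zero_iff hFk (S.red f)).mp hmem
  exact hnc c hc.symm

/-- the inertia group preserves the residue discs. -/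
theorem wpm_r_inv_smul (hFk : IsRRField k Fk) (hlat : WpmLattice S) (ht : WpmTriv S t)
    (x : Place K F) : S.r (t⁻¹ • x) = S.r x :=
  wpm_r_smul hFk hlat ht.inv x

/-- **the ring `R_P` is stable**. -/
theorem wpm_smul_mem_discRing (hFk : IsRRField k Fk) (hlat : WpmLattice S) (ht : WpmTriv S t)
    {P : Place k Fk} {g : F} (hg : g ∈ discRing S P) : t • g ∈ discRing S P := by
  refine ⟨ht.mem g hg.1, fun y hy => ?_⟩
  have h1 := SemilinearAut.ord_smul t (t⁻¹ • y) g
  rw [smul_inv_smul] at h1
  rw [h1]
  exact hg.2 _ ((wpm_r_inv_smul hFk hlat ht y).trans hy)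

theorem wpm_smul_mem_discRing_iff (hFk : IsRRField k Fk) (hlat : WpmLattice S)
    (ht : WpmTriv S t) {P : Place k Fk} {g : F} : t • g ∈ discRing S P ↔ g ∈ discRing S P := by
  constructor
  · intro h
    have := wpm_smul_mem_discRing hFk hlat ht.inv h
    rwa [inv_smul_smul] at this
  · exact wpm_smul_mem_discRing hFk hlat ht

end Fermat.Agent.S36G
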