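import Mathlib
import Fermat.Agent.S36.HPVal.InertR
import Fermat.Agent.S36.HPVal.InertMod
import Fermat.Agent.S36.HPVal.Defs
import Fermat.Agent.Lib.GaussInt.ModularInst
import Fermat.Agent.Lib.GaussInt.Galois
import Fermat.Agent.F3.Galois.HeckeComm
import Fermat.Agent.Lib.BadRed.Nodal.Gluing.Values

set_option autoImplicit false
set_option linter.style.haveILetI false
set_option linter.unusedSectionVars false
set_option linter.unusedVariables false
set_option synthInstance.maxHeartbeats 400000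

/-!
# S36 (cluster G), W-P seat INERT-MOD, part 2: the inertia group and the Gauss reduction of
`F_{M₀}`; STABILITY of `w_P`  (helper71)

`S0` the Gauss reduction package of `F_{M₀}` at `A ∣ q` (`IsGaussRed M₀ A S0`), `τ ∈ I_A`.

* `wpm_galFun_mem_Ov`, `wpm_red_galFun`, `wpm_triv_of_gaussRed` : `τ` preserves the Gauss ring and
  acts trivially on the reductions;
* `wpm_lattice_of_gaussRed` : the lattice property of `S0` (`q ∤ M₀`);
* `wpm_r_galPlace` : **`r (τ x) = r x`**; `wpm_galFun_mem_discRing` : `τ (R_P) ⊆ R_P`;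
* `wpm_galFun_iota0/1/2` : `τ` commutes with the three old copies of `F_{M₀}` in `F_{M₀ q²}`;
* `wpm_mem_iff_comap`, `wpm_centred_comap` : the transform `τ⁻¹ (O_w)` lies over `A` and is centred
  at `P'` along `ι₁`;
* `wpm_stable_of_generic` : **stability of `w_P`** (`WpiStable`) from `WPOut.uniq`, given that `Y` is
  generic for the transforms (seat `InertGen.lean`, helper50).
-/

noncomputable section
attribute [local instance 10000] SubalgebraClass.toAlgebra HahnSeries.powerSeriesAlgebra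

namespace Fermat.Agent.S36G

open ModularCurve AlgebraicCurve Fermat.Agent.F3 Fermat.Agent.F3G Fermat.Agent.GaussInt
  Fermat.Agent.Deuring Fermat.Agent.BadRed Fermat.Agent.HPVal Fermat.Agent.HP Fermat.Agent.RR

local notation "Qb" => AlgebraicClosure ℚ

section GaussRed

variable {M₀ : ℕ} [NeZero M₀] {A : ValuationSubring Qb}
  {S0 : Fermat.Agent.S18Key.RedSetup Qb (FBar M₀) (IsLocalRing.ResidueField A)
    ↥(modularFunctionFieldFullC (IsLocalRing.ResidueField A) M₀)}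

theorem wpm_coeffMap_stab (τ : Qb ≃ₐ[ℚ] Qb) :
    ∀ y ∈ modularFunctionFieldBar M₀,
      coeffMap ((τ : Qb ≃ₐ[ℚ] Qb) : Qb →+* Qb) y ∈ modularFunctionFieldBar M₀ :=
  fun y hy => coeffMap_mem_laurentBaseChange τ hy

/-- the inertia group preserves the Gauss ring. -/
theorem wpm_galFun_mem_Ov (hS0 : IsGaussRed M₀ A S0) {τ : Qb ≃ₐ[ℚ] Qb}
    (hτ : τ ∈ A.inertiaSubgroupIn ℚ) {f : FBar M₀} (hf : f ∈ S0.Ov) :
    galFun M₀ τ f ∈ S0.Ov := by
  rw [hS0.mem_iff] at hf ⊢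
  have e : ((galFun M₀ τ f : FBar M₀) : LaurentSeries Qb) =
      coeffMap ((τ : Qb ≃ₐ[ℚ] Qb) : Qb →+* Qb) (f : LaurentSeries Qb) :=
    coe_arithmeticGalois_smul _ τ f
  rw [e]
  exact coeffMap_mem_gaussSub_of_inertia τ hτ (wpm_coeffMap_stab τ) hf

/-- the inertia group acts trivially on the Gauss reductions. -/
theorem wpm_red_galFun (hS0 : IsGaussRed M₀ A S0) {τ : Qb ≃ₐ[ℚ] Qb}
    (hτ : τ ∈ A.inertiaSubgroupIn ℚ) {f : FBar M₀} (hf : f ∈ S0.Ov) :
    S0.red (galFun M₀ τ f) = S0.red f := by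
  apply Subtype.ext
  have e : ((galFun M₀ τ f : FBar M₀) : LaurentSeries Qb) =
      coeffMap ((τ : Qb ≃ₐ[ℚ] Qb) : Qb →+* Qb) (f : LaurentSeries Qb) :=
    coe_arithmeticGalois_smul _ τ f
  rw [hS0.coe_red _ (wpm_galFun_mem_Ov hS0 hτ hf), hS0.coe_red _ hf, e]
  exact gaussResFun_inertia τ hτ (wpm_coeffMap_stab τ) ((hS0.mem_iff f).mp hf)

/-- the inertia group is trivial on the Gauss reduction package. -/
theorem wpm_triv_of_gaussRed (hS0 : IsGaussRed M₀ A S0) {τ : Qb ≃ₐ[ℚ] Qb}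
    (hτ : τ ∈ A.inertiaSubgroupIn ℚ) :
    WpmTriv S0 (arithmeticGalois (modularFunctionFieldFull M₀) τ) where
  mem := fun f hf => wpm_galFun_mem_Ov hS0 hτ hf
  mem_inv := fun f hf => by
    rw [← map_inv]
    exact wpm_galFun_mem_Ov hS0 ((A.inertiaSubgroupIn ℚ).inv_mem hτ) hf
  red := fun f hf => wpm_red_galFun hS0 hτ hf

/-- the lattice property of the Gauss reduction package (`q ∤ M₀`). -/
theorem wpm_lattice_of_gaussRed {q : ℕ} (hq : q.Prime) (hA : A.LiesOverPrime q)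
    (hqM : ¬ q ∣ M₀) (hS0 : IsGaussRed M₀ A S0) : WpmLattice S0 := by
  intro W hW
  obtain ⟨n, w, hwW, hwO, hspan, hli⟩ := hasLattice_modularValSetup A q M₀ hq hA hqM W hW
  have hmem : ∀ i, w i ∈ S0.Ov := fun i =>
    (hS0.mem_iff _).mpr ((mem_modularValSetup_Ov_iff A q M₀ hq hA hqM (w i)).mp (hwO i))
  refine ⟨n, w, hwW, hmem, hspan, ?_⟩
  have e : (fun i => S0.red (w i)) =
      fun i => (modularValSetup A q M₀ hq hA hqM).red (w i) := by
    funext i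
    apply Subtype.ext
    rw [hS0.coe_red _ (hmem i), coe_modularValSetup_red A q M₀ hq hA hqM
      ((mem_modularValSetup_Ov_iff A q M₀ hq hA hqM (w i)).mp (hwO i))]
  rw [e]
  exact hli

/-- the Riemann–Roch package of the special fibre. -/
theorem wpm_hFk (A : ValuationSubring Qb) (M₀ : ℕ) [NeZero M₀] :
    IsRRField (IsLocalRing.ResidueField A)
      ↥(modularFunctionFieldFullC (IsLocalRing.ResidueField A) M₀) :=
  haveI := isAlgClosed_residue A
  Fermat.Agent.RRMod.isRRField_fullC' (IsLocalRing.ResidueField A) M₀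

/-- **the inertia group preserves the residue discs**: `r (τ x) = r x`. -/
theorem wpm_r_galPlace {q : ℕ} (hq : q.Prime) (hA : A.LiesOverPrime q) (hqM : ¬ q ∣ M₀)
    (hS0 : IsGaussRed M₀ A S0) {τ : Qb ≃ₐ[ℚ] Qb} (hτ : τ ∈ A.inertiaSubgroupIn ℚ)
    (x : Place Qb (FBar M₀)) :
    S0.r (arithmeticGalois (modularFunctionFieldFull M₀) τ • x) = S0.r x :=
  wpm_r_smul (wpm_hFk A M₀) (wpm_lattice_of_gaussRed hq hA hqM hS0)
    (wpm_triv_of_gaussRed hS0 hτ) x

/-- **the inertia group preserves `R_P`**. -/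
theorem wpm_galFun_mem_discRing {q : ℕ} (hq : q.Prime) (hA : A.LiesOverPrime q)
    (hqM : ¬ q ∣ M₀) (hS0 : IsGaussRed M₀ A S0) {τ : Qb ≃ₐ[ℚ] Qb}
    (hτ : τ ∈ A.inertiaSubgroupIn ℚ)
    {P : Place (IsLocalRing.ResidueField A)
      ↥(modularFunctionFieldFullC (IsLocalRing.ResidueField A) M₀)}
    {g : FBar M₀} (hg : g ∈ discRing S0 P) : galFun M₀ τ g ∈ discRing S0 P :=
  wpm_smul_mem_discRing (wpm_hFk A M₀) (wpm_lattice_of_gaussRed hq hA hqM hS0)
    (wpm_triv_of_gaussRed hS0 hτ) hg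

end GaussRed

section Iota

variable (M₀ q : ℕ) [NeZero M₀] [NeZero q]

theorem wpm_galFun_alpha (N ℓ : ℕ) [NeZero N] [NeZero ℓ] (τ : Qb ≃ₐ[ℚ] Qb) (g : FBar N) :
    galFun (N * ℓ) τ (heckeAlphaBar Qb N ℓ g) = heckeAlphaBar Qb N ℓ (galFun N τ g) :=
  intertwines_heckeAlphaBar (L := Qb) (N := N) (ℓ := ℓ) τ g

theorem wpm_galFun_beta (N ℓ : ℕ) [NeZero N] [NeZero ℓ] (τ : Qb ≃ₐ[ℚ] Qb) (g : FBar N) :
    galFun (N * ℓ) τ (heckeBetaBar Qb N ℓ g) = heckeBetaBar Qb N ℓ (galFun N τ g) :=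
  intertwines_heckeBetaBar (L := Qb) (N := N) (ℓ := ℓ) τ g

theorem wpm_galFun_iota0 (τ : Qb ≃ₐ[ℚ] Qb) (g : FBar M₀) :
    galFun (M₀ * q * q) τ (wpIota0 M₀ q g) = wpIota0 M₀ q (galFun M₀ τ g) := by
  rw [wpIota0, AlgHom.comp_apply, AlgHom.comp_apply, wpm_galFun_alpha, wpm_galFun_alpha]

theorem wpm_galFun_iota1 (τ : Qb ≃ₐ[ℚ] Qb) (g : FBar M₀) :
    galFun (M₀ * q * q) τ (wpdIota1 M₀ q g) = wpdIota1 M₀ q (galFun M₀ τ g) := by
  rw [wpdIota1, AlgHom.comp_apply, AlgHom.comp_apply, wpm_galFun_alpha, wpm_galFun_beta]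

theorem wpm_galFun_iota2 (τ : Qb ≃ₐ[ℚ] Qb) (g : FBar M₀) :
    galFun (M₀ * q * q) τ (wpIota2 M₀ q g) = wpIota2 M₀ q (galFun M₀ τ g) := by
  rw [wpIota2, AlgHom.comp_apply, AlgHom.comp_apply, wpm_galFun_beta, wpm_galFun_beta]

end Iota

section Out

variable {M₀ q : ℕ} [NeZero M₀] [NeZero q] {A : ValuationSubring Qb}
  {S0 : Fermat.Agent.S18Key.RedSetup Qb (FBar M₀) (IsLocalRing.ResidueField A)
    ↥(modularFunctionFieldFullC (IsLocalRing.ResidueField A) M₀)}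
  {P : Place (IsLocalRing.ResidueField A)
    ↥(modularFunctionFieldFullC (IsLocalRing.ResidueField A) M₀)}
  {FkP : Type} [Field FkP] [Algebra (IsLocalRing.ResidueField A) FkP]
  (O : WPOut M₀ q A S0 P FkP)

/-- the transform of `O_w` under the inertia group lies over `A`. -/
theorem wpm_mem_iff_comap {τ : Qb ≃ₐ[ℚ] Qb} (hτ : τ ∈ A.inertiaSubgroupIn ℚ)
    {O' : ValuationSubring (FBar (M₀ * q * q))}
    (hO' : ∀ f, f ∈ O' ↔ galFun (M₀ * q * q) τ f ∈ O.S.Ov) (c : Qb) :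
    algebraMap Qb (FBar (M₀ * q * q)) c ∈ O' ↔ c ∈ A := by
  have e : galFun (M₀ * q * q) τ (algebraMap Qb (FBar (M₀ * q * q)) c) =
      algebraMap Qb (FBar (M₀ * q * q)) (τ c) :=
    (SemilinearAut.smul_algebraMap _ c).trans (by rw [wpm_baseAut])
  rw [hO', e, O.S.mem_Ov_iff, O.A_eq]
  exact S05H5.inertiaIn_apply_mem_iff A τ hτ

/-- a function of `O_w` with reduction `0` is a non-unit. -/
theorem wpm_mem_nonunits_of_red {K F k Fk : Type*} [Field K] [Field F] [Algebra K F] [Field k]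
    [Field Fk] [Algebra k Fk] (S : ValSetup K F k Fk) {f : F} (hf : f ∈ S.Ov)
    (h : S.red f = 0) : f ∈ S.Ov.nonunits := by
  rw [ValuationSubring.mem_nonunits_iff_or]
  by_cases hf0 : f = 0
  · exact Or.inl hf0
  · exact Or.inr ((S.red_eq_zero_iff hf hf0).mp h)

/-- the transform of `O_w` under the inertia group is centred at `P'` along `ι₁`. -/
theorem wpm_centred_comap (hq : q.Prime) (hA : A.LiesOverPrime q) (hqM : ¬ q ∣ M₀)
    (hS0 : IsGaussRed M₀ A S0) {τ : Qb ≃ₐ[ℚ] Qb} (hτ : τ ∈ A.inertiaSubgroupIn ℚ)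
    {O' : ValuationSubring (FBar (M₀ * q * q))}
    (hO' : ∀ f, f ∈ O' ↔ galFun (M₀ * q * q) τ f ∈ O.S.Ov) :
    WPCentred S0 O.P' (wpdIota1 M₀ q) O' := by
  intro g hg
  have hτg : galFun M₀ τ g ∈ discRing S0 O.P' := wpm_galFun_mem_discRing hq hA hqM hS0 hτ hg
  have hred : S0.red (galFun M₀ τ g) = S0.red g := wpm_red_galFun hS0 hτ hg.1
  obtain ⟨c, hc⟩ := Fermat.Agent.BadRed.Gluing.exists_valAt (wpm_hFk A M₀) O.P'
    (ord_red_nonneg_of_mem hg)
  have hc' : ValAt O.P' (S0.red (galFun M₀ τ g)) c := by rw [hred]; exact hc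
  obtain ⟨h1, h2⟩ := O.old1 _ hτg c hc'
  have hmem : wpdIota1 M₀ q g ∈ O' := by
    rw [hO', wpm_galFun_iota1]
    exact h1
  refine ⟨hmem, fun h0 => ?_⟩
  have h0' : ValAt O.P' (S0.red (galFun M₀ τ g)) 0 := by rw [hred]; exact h0
  obtain ⟨h3, h4⟩ := O.old1 _ hτg 0 h0'
  rw [map_zero] at h4
  have h5 : wpdIota1 M₀ q (galFun M₀ τ g) ∈ O.S.Ov.nonunits := wpm_mem_nonunits_of_red O.S h3 h4
  rw [ValuationSubring.mem_nonunits_iff_or] at h5 ⊢
  rcases h5 with h5 | h5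
  · left
    rw [← wpm_galFun_iota1] at h5
    by_contra hne
    exact galFun_ne_zero τ hne h5
  · right
    intro hinv
    apply h5
    rw [hO', galFun_eq_ringAut, map_inv₀, ← galFun_eq_ringAut, wpm_galFun_iota1] at hinv
    exact hinv

/-- **STABILITY of `w_P` under the inertia group**, from the uniqueness export `WPOut.uniq`,
given that `Y` is generic for the transforms of `O_w`. -/
theorem wpm_stable_of_generic (hq : q.Prime) (hA : A.LiesOverPrime q) (hqM : ¬ q ∣ M₀)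
    (hS0 : IsGaussRed M₀ A S0)
    (hgen : ∀ τ ∈ A.inertiaSubgroupIn ℚ, ∀ O' : ValuationSubring (FBar (M₀ * q * q)),
      (∀ f, f ∈ O' ↔ galFun (M₀ * q * q) τ f ∈ O.S.Ov) →
      WPGeneric A O' (wpY M₀ q O.t O.a O.ϖ)) :
    ∀ t ∈ wpmInertia (M₀ * q * q) O.S.A, WpiStable O.S t := by
  refine wpm_stable_of_unique O.S
    (fun O' => (∀ c : Qb, algebraMap Qb (FBar (M₀ * q * q)) c ∈ O' ↔ c ∈ A) ∧
      WPCentred S0 O.P' (wpdIota1 M₀ q) O' ∧ WPGeneric A O' (wpY M₀ q O.t O.a O.ϖ))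
    (fun O' h => O.uniq O' h.1 h.2.1 h.2.2) ?_
  intro τ hτ O' hO'
  have hτ' : τ ∈ A.inertiaSubgroupIn ℚ := by rw [← O.A_eq]; exact hτ
  exact ⟨wpm_mem_iff_comap O hτ' hO', wpm_centred_comap O hq hA hqM hS0 hτ' hO',
    hgen τ hτ' O' hO'⟩

end Out

end Fermat.Agent.S36G
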