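/-
Cluster G (S36), block W-P, seat INERT-MOD, sub-seat INERT-GEN (helper50; owner of INERT-MOD:
helper71; sub-architect helper59).

What the modular wiring of the inertia action on `w_P` (`S36/HPVal/InertMod.lean`) consumes about
the DATUM `(t, a, ϖ)` of a `WPOut`:

* (G1) `wpg_galFun_iota0/1/2` : the coefficientwise Galois action commutes with the three old copies
  `ι₀, ι₁, ι₂ : F_{M₀} → F_{M₀ q q}`;
* (G2) `wpg_a_fixed` : a Teichmüller element (`a ^ (q ^ 2) = a`) is fixed by the inertia group;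
* (G3) `wpg_x0_fixed`, `wpg_x1_fixed`, `wpg_x2_fixed` : `ι₀ t - a`, `ι₁ t - a ^ q`, `ι₂ t - a` are
  fixed by the inertia group;
* (G4) `wpg_generic` : `Y` is generic for `O_{w_P}` (its residue `H.Yf` is transcendental);
* (G5) `wpg_generic_comap` : `Y` is generic for the transform of `O_{w_P}` under an inertia element
  (`τ Y = u • Y` with `u` a root of unity).
-/
import Mathlib
import Fermat.Agent.S36.HPVal.Defs
import Fermat.Agent.Lib.FFL.FB.FieldTame
import Fermat.Agent.F3.Galois.HeckeComm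
import Fermat.Agent.Lib.GaussInt.ModularInst
import Fermat.Agent.Lib.FrobTrace.Residue

set_option autoImplicit false
set_option linter.style.haveILetI false
set_option linter.unusedSectionVars false
set_option synthInstance.maxHeartbeats 400000

noncomputable section

namespace Fermat.Agent.S36G

open ModularCurve AlgebraicCurve IntermediateField Polynomial Fermat.Agent.F3 Fermat.Agent.F3G
  Fermat.Agent.GaussInt Fermat.Agent.Deuring Fermat.Agent.BadRed Fermat.Agent.HPVal Fermat.Agent.HP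

local notation "Qb" => AlgebraicClosure ℚ

attribute [local instance 10000] SubalgebraClass.toAlgebra HahnSeries.powerSeriesAlgebra

/-! ### (G1) the Galois action commutes with the old copies -/

section G1

variable (M₀ q : ℕ) [NeZero M₀] [NeZero q]

/-- the Galois action commutes with `ι₀`. -/
theorem wpg_galFun_iota0 (τ : Qb ≃ₐ[ℚ] Qb) (g : FBar M₀) :
    galFun (M₀ * q * q) τ (wpIota0 M₀ q g) = wpIota0 M₀ q (galFun M₀ τ g) := by
  apply Subtype.ext
  rw [coe_arithmeticGalois_smul, coe_wpIota0, coe_wpIota0, coe_arithmeticGalois_smul]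

/-- the Galois action commutes with `ι₁`. -/
theorem wpg_galFun_iota1 (τ : Qb ≃ₐ[ℚ] Qb) (g : FBar M₀) :
    galFun (M₀ * q * q) τ (wpdIota1 M₀ q g) = wpdIota1 M₀ q (galFun M₀ τ g) := by
  apply Subtype.ext
  rw [coe_arithmeticGalois_smul, coe_wpdIota1, coe_wpdIota1, coe_arithmeticGalois_smul]
  exact coeffMap_qExpand _ q _

/-- the Galois action commutes with `ι₂`. -/
theorem wpg_galFun_iota2 (τ : Qb ≃ₐ[ℚ] Qb) (g : FBar M₀) :
    galFun (M₀ * q * q) τ (wpIota2 M₀ q g) = wpIota2 M₀ q (galFun M₀ τ g) := by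
  apply Subtype.ext
  rw [coe_arithmeticGalois_smul, coe_wpIota2, coe_wpIota2, coe_arithmeticGalois_smul,
    coeffMap_qExpand, coeffMap_qExpand]

end G1

/-! ### (G2) Teichmüller elements are inertia-fixed -/

/-- a Teichmüller element is fixed by the inertia group. -/
theorem wpg_a_fixed {q : ℕ} (hq : q.Prime) {A : ValuationSubring Qb} (hA : A.LiesOverPrime q)
    {a : Qb} (ha : a ^ (q ^ 2) = a) {τ : Qb ≃ₐ[ℚ] Qb} (hτ : τ ∈ A.inertiaSubgroupIn ℚ) :
    τ a = a := by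
  by_cases h0 : a = 0
  · rw [h0, map_zero]
  · have hq2 : 1 ≤ q ^ 2 := Nat.one_le_pow _ _ hq.pos
    have h1 : a ^ (q ^ 2 - 1) = 1 := by
      have h2 : a ^ (q ^ 2 - 1) * a = 1 * a := by
        rw [← pow_succ, Nat.sub_add_cancel hq2, one_mul]
        exact ha
      exact mul_right_cancel₀ h0 h2
    have hn : ¬ q ∣ q ^ 2 - 1 := by
      intro hd
      have h3 : q ∣ q ^ 2 := dvd_pow_self q (by norm_num)
      have h4 : q ∣ q ^ 2 - (q ^ 2 - 1) := Nat.dvd_sub h3 hd
      rw [Nat.sub_sub_self hq2] at h4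
      exact hq.one_lt.ne' (Nat.dvd_one.mp h4)
    exact Fermat.Agent.FFL.FB.root_fixed_of_inertia hq hA hn h1 hτ

/-! ### abstract: evaluation of integral polynomials at an integral element -/

section Abs

variable {K F k Fk : Type*} [Field K] [Field F] [Algebra K F] [Field k] [Field Fk] [Algebra k Fk]
  (S : ValSetup K F k Fk)

/-- evaluation of an `A`-integral polynomial at an integral element is integral, and its residue
is the evaluation of the reduced polynomial at the residue. -/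
theorem wpg_eval_red {y : F} (hy : y ∈ S.Ov) (G : (↥S.A)[X]) :
    eval₂ ((algebraMap K F).comp S.A.subtype) y G ∈ S.Ov ∧
      S.red (eval₂ ((algebraMap K F).comp S.A.subtype) y G) =
        eval₂ ((algebraMap k Fk).comp S.res) (S.red y) G := by
  induction G using Polynomial.induction_on' with
  | add p r hp hr =>
    rw [eval₂_add, eval₂_add]
    exact ⟨add_mem hp.1 hr.1, by rw [S.red_add hp.1 hr.1, hp.2, hr.2]⟩
  | monomial n a =>
    rw [eval₂_monomial, eval₂_monomial]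
    have h1 : (algebraMap K F).comp S.A.subtype a ∈ S.Ov := S.algebraMap_mem a.2
    have h2 : y ^ n ∈ S.Ov := pow_mem hy n
    refine ⟨mul_mem h1 h2, ?_⟩
    rw [S.red_mul h1 h2, S.red_pow hy]
    congr 1
    exact S.red_algebraMap a.2

/-- the residue of a unit of `A` is not zero. -/
theorem wpg_res_ne_zero {c : K} (hc : c ∈ S.A) (hc0 : c ≠ 0) (hinv : c⁻¹ ∈ S.A) :
    S.res ⟨c, hc⟩ ≠ 0 := by
  intro h0
  have h1 : S.red (algebraMap K F c) ≠ 0 := by
    refine S.red_ne_zero (S.algebraMap_mem hc) ?_ ?_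
    · rw [← map_inv₀]
      exact S.algebraMap_mem hinv
    · exact (map_ne_zero_iff _ (algebraMap K F).injective).mpr hc0
  rw [S.red_algebraMap hc, h0, map_zero] at h1
  exact h1 rfl

/-- **genericity from transcendence of the residue**: if `y` is integral with residue
transcendental over `k`, every `A`-integral polynomial with a unit coefficient takes a unit value
at `y`. -/
theorem wpg_generic_abs {y : F} (hy : y ∈ S.Ov) (htr : Transcendental k (S.red y)) :
    WPGeneric S.A S.Ov y := by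
  intro G hG hu
  obtain ⟨i₀, hne, hinv⟩ := hu
  have hlift : G ∈ Polynomial.lifts S.A.subtype := by
    rw [Polynomial.lifts_iff_coeff_lifts]
    intro n
    exact ⟨⟨G.coeff n, hG n⟩, rfl⟩
  obtain ⟨GA, hGA⟩ := (Polynomial.mem_lifts G).mp hlift
  have haev : Polynomial.aeval y G = eval₂ ((algebraMap K F).comp S.A.subtype) y GA := by
    rw [Polynomial.aeval_def, ← hGA, Polynomial.eval₂_map]
  obtain ⟨hmem, hred⟩ := wpg_eval_red S hy GA
  have hcoeff : (GA.coeff i₀ : K) = G.coeff i₀ := by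
    rw [← hGA, Polynomial.coeff_map]
    rfl
  have hmap0 : GA.map S.res ≠ 0 := by
    intro h0
    have h1 : (GA.map S.res).coeff i₀ = 0 := by rw [h0, Polynomial.coeff_zero]
    rw [Polynomial.coeff_map] at h1
    have h2 : S.res ⟨G.coeff i₀, hG i₀⟩ ≠ 0 := wpg_res_ne_zero S (hG i₀) hne hinv
    apply h2
    have h3 : GA.coeff i₀ = ⟨G.coeff i₀, hG i₀⟩ := Subtype.ext hcoeff
    rw [← h3]
    exact h1
  have hne0 : S.red (Polynomial.aeval y G) ≠ 0 := by
    rw [haev, hred, ← Polynomial.eval₂_map, ← Polynomial.aeval_def]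
    exact fun h => hmap0 ((transcendental_iff.mp htr) _ h)
  exact ⟨haev ▸ hmem, S.inv_mem_of_red_ne_zero hne0⟩

end Abs

/-! ### (G3), (G4), (G5): the datum of a `WPOut` -/

section Datum

variable {M₀ q : ℕ} [NeZero M₀] [NeZero q] {A : ValuationSubring Qb}
  {S0 : Fermat.Agent.S18Key.RedSetup Qb (FBar M₀) (IsLocalRing.ResidueField A)
    ↥(modularFunctionFieldFullC (IsLocalRing.ResidueField A) M₀)}
  {P : Place (IsLocalRing.ResidueField A)
    ↥(modularFunctionFieldFullC (IsLocalRing.ResidueField A) M₀)}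
  {FkP : Type} [Field FkP] [Algebra (IsLocalRing.ResidueField A) FkP]
  (O : WPOut M₀ q A S0 P FkP)

/-- **(G3)** `x₀ = ι₀ t - a` is fixed by the inertia group. -/
theorem wpg_x0_fixed (hq : q.Prime) (hA : A.LiesOverPrime q) {τ : Qb ≃ₐ[ℚ] Qb}
    (hτ : τ ∈ A.inertiaSubgroupIn ℚ) :
    galFun (M₀ * q * q) τ (wpIota0 M₀ q O.t - algebraMap Qb (FBar (M₀ * q * q)) O.a) =
      wpIota0 M₀ q O.t - algebraMap Qb (FBar (M₀ * q * q)) O.a := by
  rw [galFun_eq_ringAut, map_sub, ← galFun_eq_ringAut, wpg_galFun_iota0, O.t_rat,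
    arithmeticRingAut_algebraMap, wpg_a_fixed hq hA O.a_pow hτ]

/-- **(G3)** `x₂ = ι₂ t - a` is fixed by the inertia group. -/
theorem wpg_x2_fixed (hq : q.Prime) (hA : A.LiesOverPrime q) {τ : Qb ≃ₐ[ℚ] Qb}
    (hτ : τ ∈ A.inertiaSubgroupIn ℚ) :
    galFun (M₀ * q * q) τ (wpIota2 M₀ q O.t - algebraMap Qb (FBar (M₀ * q * q)) O.a) =
      wpIota2 M₀ q O.t - algebraMap Qb (FBar (M₀ * q * q)) O.a := by
  rw [galFun_eq_ringAut, map_sub, ← galFun_eq_ringAut, wpg_galFun_iota2, O.t_rat,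
    arithmeticRingAut_algebraMap, wpg_a_fixed hq hA O.a_pow hτ]

/-- **(G3)** `x₁ = ι₁ t - a ^ q` is fixed by the inertia group. -/
theorem wpg_x1_fixed (hq : q.Prime) (hA : A.LiesOverPrime q) {τ : Qb ≃ₐ[ℚ] Qb}
    (hτ : τ ∈ A.inertiaSubgroupIn ℚ) :
    galFun (M₀ * q * q) τ (wpdIota1 M₀ q O.t - algebraMap Qb (FBar (M₀ * q * q)) (O.a ^ q)) =
      wpdIota1 M₀ q O.t - algebraMap Qb (FBar (M₀ * q * q)) (O.a ^ q) := by
  rw [galFun_eq_ringAut, map_sub, ← galFun_eq_ringAut, wpg_galFun_iota1, O.t_rat,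
    arithmeticRingAut_algebraMap, map_pow, wpg_a_fixed hq hA O.a_pow hτ]

/-- the residue field has characteristic `q`, so `q + 1 ≠ 0` in it. -/
theorem wpg_hq1 (hq : q.Prime) (hA : A.LiesOverPrime q) :
    ((q + 1 : ℕ) : IsLocalRing.ResidueField A) ≠ 0 := by
  haveI : Fact q.Prime := ⟨hq⟩
  haveI : CharP (IsLocalRing.ResidueField A) q := Fermat.Agent.FrobTrace.charP_residueField A hA
  rw [Nat.cast_add, CharP.cast_eq_zero, zero_add, Nat.cast_one]
  exact one_ne_zero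

/-- the residue of `Y` is transcendental over the residue field. -/
theorem wpg_red_Y_transcendental (hq : q.Prime) (hA : A.LiesOverPrime q) :
    Transcendental (IsLocalRing.ResidueField A) (O.S.red (wpY M₀ q O.t O.a O.ϖ)) := by
  haveI : IsAlgClosed (IsLocalRing.ResidueField A) := Fermat.Agent.GaussInt.isAlgClosed_residue A
  rw [O.red_Y]
  exact O.H.Yf_transcendental (wpg_hq1 hq hA)

/-- **(G4)** `Y` is generic for `O_{w_P}`. -/
theorem wpg_generic (hq : q.Prime) (hA : A.LiesOverPrime q) :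
    WPGeneric A O.S.Ov (wpY M₀ q O.t O.a O.ϖ) := by
  have h := wpg_generic_abs O.S O.Y_mem (wpg_red_Y_transcendental O hq hA)
  intro G hG hu
  exact h G (fun i => by rw [O.A_eq]; exact hG i)
    (by
      obtain ⟨i, h1, h2⟩ := hu
      exact ⟨i, h1, by rw [O.A_eq]; exact h2⟩)

/-- the tame multiplier `u = ϖ ^ q / τ (ϖ ^ q)` of `Y` is a `(q + 1)`-st root of unity. -/
theorem wpg_tame_pow (hq : q.Prime) (τ : Qb ≃ₐ[ℚ] Qb) :
    (O.ϖ ^ q / τ (O.ϖ ^ q)) ^ (q + 1) = 1 := by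
  have hq0 : ((q : Qb)) ≠ 0 := Nat.cast_ne_zero.mpr hq.ne_zero
  have h1 : (O.ϖ ^ q) ^ (q + 1) = (q : Qb) ^ q := by
    rw [← pow_mul, mul_comm, pow_mul, O.ϖ_pow]
  have h2 : (τ (O.ϖ ^ q)) ^ (q + 1) = (q : Qb) ^ q := by
    rw [← map_pow, h1, map_pow, map_natCast]
  rw [div_pow, h1, h2]
  exact div_self (pow_ne_zero q hq0)

/-- the tame multiplier lies in `A`. -/
theorem wpg_tame_mem (hq : q.Prime) (τ : Qb ≃ₐ[ℚ] Qb) : O.ϖ ^ q / τ (O.ϖ ^ q) ∈ A :=
  Fermat.Agent.Cyclo.pow_eq_one_mem A (Nat.succ_ne_zero q) (wpg_tame_pow O hq τ)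

/-- the inverse of the tame multiplier lies in `A`. -/
theorem wpg_tame_inv_mem (hq : q.Prime) (τ : Qb ≃ₐ[ℚ] Qb) : (O.ϖ ^ q / τ (O.ϖ ^ q))⁻¹ ∈ A :=
  Fermat.Agent.Cyclo.pow_eq_one_mem A (Nat.succ_ne_zero q)
    (by rw [inv_pow, wpg_tame_pow O hq τ, inv_one])

/-- `τ Y = u • Y` for an inertia element `τ`, `u` the tame multiplier. -/
theorem wpg_galFun_Y (hq : q.Prime) (hA : A.LiesOverPrime q) {τ : Qb ≃ₐ[ℚ] Qb}
    (hτ : τ ∈ A.inertiaSubgroupIn ℚ) :
    galFun (M₀ * q * q) τ (wpY M₀ q O.t O.a O.ϖ) =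
      algebraMap Qb (FBar (M₀ * q * q)) (O.ϖ ^ q / τ (O.ϖ ^ q)) * wpY M₀ q O.t O.a O.ϖ := by
  have hϖ : O.ϖ ^ q ≠ 0 := pow_ne_zero q (O.ϖ_ne hq)
  have hτϖ : τ (O.ϖ ^ q) ≠ 0 := (map_ne_zero_iff _ τ.injective).mpr hϖ
  have h1 : algebraMap Qb (FBar (M₀ * q * q)) (O.ϖ ^ q) ≠ 0 :=
    (map_ne_zero_iff _ (algebraMap Qb (FBar (M₀ * q * q))).injective).mpr hϖ
  have h2 : algebraMap Qb (FBar (M₀ * q * q)) (τ (O.ϖ ^ q)) ≠ 0 :=
    (map_ne_zero_iff _ (algebraMap Qb (FBar (M₀ * q * q))).injective).mpr hτϖ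
  unfold wpY
  rw [galFun_div, wpg_x1_fixed O hq hA hτ, galFun_eq_ringAut, arithmeticRingAut_algebraMap,
    map_div₀]
  field_simp

/-- the Galois action on a polynomial value: `τ (G (y)) = (τ G) (τ y)`. -/
theorem wpg_galFun_aeval (N : ℕ) (τ : Qb ≃ₐ[ℚ] Qb) (y : FBar N) (G : Polynomial Qb) :
    galFun N τ (Polynomial.aeval y G) =
      Polynomial.aeval (galFun N τ y) (G.map (τ : Qb →+* Qb)) := by
  rw [galFun_eq_ringAut, galFun_eq_ringAut, Polynomial.aeval_def, Polynomial.aeval_def,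
    Polynomial.eval₂_map]
  have h := Polynomial.hom_eval₂ G (algebraMap Qb (FBar N))
    ((arithmeticRingAut (modularFunctionFieldFull N) τ : FBar N ≃+* FBar N) : FBar N →+* FBar N) y
  have hcomp : ((arithmeticRingAut (modularFunctionFieldFull N) τ : FBar N ≃+* FBar N) :
      FBar N →+* FBar N).comp (algebraMap Qb (FBar N)) =
      (algebraMap Qb (FBar N)).comp (τ : Qb →+* Qb) := by
    exact RingHom.ext fun c => arithmeticRingAut_algebraMap (modularFunctionFieldFull N) τ c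
  rw [hcomp] at h
  exact h

/-- **(G5)** `Y` is generic for the transform of `O_{w_P}` under an inertia element. -/
theorem wpg_generic_comap (hq : q.Prime) (hA : A.LiesOverPrime q) {τ : Qb ≃ₐ[ℚ] Qb}
    (hτ : τ ∈ A.inertiaSubgroupIn ℚ) (O' : ValuationSubring (FBar (M₀ * q * q)))
    (hO' : ∀ f, f ∈ O' ↔ galFun (M₀ * q * q) τ f ∈ O.S.Ov) :
    WPGeneric A O' (wpY M₀ q O.t O.a O.ϖ) := by
  intro G hG hu
  obtain ⟨i₀, hne, hinv⟩ := hu
  have hdec : τ ∈ A.decompositionSubgroup ℚ := by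
    obtain ⟨τ', _, rfl⟩ := hτ
    exact τ'.2
  set u : Qb := O.ϖ ^ q / τ (O.ϖ ^ q) with hu_def
  have huA : u ∈ A := wpg_tame_mem O hq τ
  have huA' : u⁻¹ ∈ A := wpg_tame_inv_mem O hq τ
  have hu0 : u ≠ 0 := by
    intro h0
    have h1 := wpg_tame_pow O hq τ
    rw [← hu_def, h0, zero_pow (Nat.succ_ne_zero q)] at h1
    exact zero_ne_one h1
  -- the transformed polynomial
  set G' : Polynomial Qb := (G.map (τ : Qb →+* Qb)).comp (Polynomial.C u * Polynomial.X)
    with hG'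
  have hcoeff : ∀ i, G'.coeff i = τ (G.coeff i) * u ^ i := by
    intro i
    rw [hG', Polynomial.comp_C_mul_X_coeff, Polynomial.coeff_map]
    rfl
  have hG'A : ∀ i, G'.coeff i ∈ A := by
    intro i
    rw [hcoeff]
    exact mul_mem (Fermat.Agent.FFL.FB.mem_of_decomp hdec (hG i)) (pow_mem huA i)
  have hG'u : ∃ i, G'.coeff i ≠ 0 ∧ (G'.coeff i)⁻¹ ∈ A := by
    refine ⟨i₀, ?_, ?_⟩
    · rw [hcoeff]
      exact mul_ne_zero ((map_ne_zero_iff _ τ.injective).mpr hne) (pow_ne_zero _ hu0)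
    · rw [hcoeff, mul_inv, ← map_inv₀, ← inv_pow]
      exact mul_mem (Fermat.Agent.FFL.FB.mem_of_decomp hdec hinv) (pow_mem huA' i₀)
  have key : galFun (M₀ * q * q) τ (Polynomial.aeval (wpY M₀ q O.t O.a O.ϖ) G) =
      Polynomial.aeval (wpY M₀ q O.t O.a O.ϖ) G' := by
    rw [wpg_galFun_aeval, wpg_galFun_Y O hq hA hτ, hG', Polynomial.aeval_comp, map_mul,
      Polynomial.aeval_C, Polynomial.aeval_X]
  obtain ⟨h1, h2⟩ := wpg_generic O hq hA G' hG'A hG'u
  refine ⟨(hO' _).mpr (key ▸ h1), (hO' _).mpr ?_⟩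
  rw [galFun_eq_ringAut, map_inv₀, ← galFun_eq_ringAut, key]
  exact h2

end Datum

end Fermat.Agent.S36G
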