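import Mathlib
import Fermat.Agent.S36.HPVal.InertGauss
import Fermat.Agent.S36.HPVal.InertGen

set_option autoImplicit false
set_option linter.style.haveILetI false
set_option linter.unusedSectionVars false
set_option linter.unusedVariables false
set_option synthInstance.maxHeartbeats 400000

/-!
# S36 (cluster G), W-P seat INERT-MOD, FINAL: the inertia group at the vertex `w_P`  (helper71)

`O : WPOut M₀ q A S0 P FkP` the output of block W-P at the supersingular place `P`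
(`S0` the Gauss reduction package of `F_{M₀}` at `A ∣ q`, `q ∤ M₀`), `τ ∈ I_A`.  UNCONDITIONAL:

* `wpm_stable_out`  : `galFun τ` preserves the valuation ring of `w_P` (`WpiStable`);
* `wpm_mem_out`, `wpm_mem_out_iff` : the same in terms of `galFun`;
* `wpmEquiv O .. τ hτ : FkP ≃ₐ[k] FkP` : the induced automorphism of the residue field `k(H_P)`,
  `wpm_red_out : red (galFun τ f) = wpmEquiv τ (red f)` (= the fields `mem`, `red` of
  `GraphSetup.Act` / `GraphSeed.IsPermAutW` at the vertex `hor P`);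
* `wpmEquiv_X1`, `wpmEquiv_X2` : `wpmEquiv τ` multiplies `X₁`, `X₂` by the residue of `ϖ / τ ϖ`;
* `wpm_hinv_out`    : **the hypothesis `hinv` of `step2_final`** at the vertex `hor P`.
-/

noncomputable section
attribute [local instance 10000] SubalgebraClass.toAlgebra HahnSeries.powerSeriesAlgebra

namespace Fermat.Agent.S36G

open ModularCurve AlgebraicCurve Fermat.Agent.F3 Fermat.Agent.F3G Fermat.Agent.GaussInt
  Fermat.Agent.Deuring Fermat.Agent.BadRed Fermat.Agent.HPVal Fermat.Agent.HP Fermat.Agent.RR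

local notation "Qb" => AlgebraicClosure ℚ

variable {M₀ q : ℕ} [NeZero M₀] [NeZero q] {A : ValuationSubring Qb}
  {S0 : Fermat.Agent.S18Key.RedSetup Qb (FBar M₀) (IsLocalRing.ResidueField A)
    ↥(modularFunctionFieldFullC (IsLocalRing.ResidueField A) M₀)}
  {P : Place (IsLocalRing.ResidueField A)
    ↥(modularFunctionFieldFullC (IsLocalRing.ResidueField A) M₀)}
  {FkP : Type} [Field FkP] [Algebra (IsLocalRing.ResidueField A) FkP]
  (O : WPOut M₀ q A S0 P FkP)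

/-- **STABILITY of `w_P` under the inertia group.** -/
theorem wpm_stable_out (hq : q.Prime) (hA : A.LiesOverPrime q) (hqM : ¬ q ∣ M₀)
    (hS0 : IsGaussRed M₀ A S0) :
    ∀ t ∈ wpmInertia (M₀ * q * q) O.S.A, WpiStable O.S t :=
  wpm_stable_of_generic O hq hA hqM hS0
    (fun τ hτ O' hO' => wpg_generic_comap O hq hA hτ O' hO')

theorem wpm_mem_inertia_out {τ : Qb ≃ₐ[ℚ] Qb} (hτ : τ ∈ A.inertiaSubgroupIn ℚ) :
    arithmeticGalois (modularFunctionFieldFull (M₀ * q * q)) τ ∈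
      wpmInertia (M₀ * q * q) O.S.A :=
  wpm_mem_inertia (by rw [O.A_eq]; exact hτ)

theorem wpm_stable_at (hq : q.Prime) (hA : A.LiesOverPrime q) (hqM : ¬ q ∣ M₀)
    (hS0 : IsGaussRed M₀ A S0) {τ : Qb ≃ₐ[ℚ] Qb} (hτ : τ ∈ A.inertiaSubgroupIn ℚ) :
    WpiStable O.S (arithmeticGalois (modularFunctionFieldFull (M₀ * q * q)) τ) :=
  wpm_stable_out O hq hA hqM hS0 _ (wpm_mem_inertia_out O hτ)

theorem wpm_inertial_at {τ : Qb ≃ₐ[ℚ] Qb} (hτ : τ ∈ A.inertiaSubgroupIn ℚ) :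
    WpiInertial O.S (arithmeticGalois (modularFunctionFieldFull (M₀ * q * q)) τ) :=
  wpm_inertial_of_mem O.S _ (wpm_mem_inertia_out O hτ)

/-- the inertia group preserves the valuation ring of `w_P`. -/
theorem wpm_mem_out_iff (hq : q.Prime) (hA : A.LiesOverPrime q) (hqM : ¬ q ∣ M₀)
    (hS0 : IsGaussRed M₀ A S0) {τ : Qb ≃ₐ[ℚ] Qb} (hτ : τ ∈ A.inertiaSubgroupIn ℚ)
    (f : FBar (M₀ * q * q)) : galFun (M₀ * q * q) τ f ∈ O.S.Ov ↔ f ∈ O.S.Ov :=
  (wpm_stable_at O hq hA hqM hS0 hτ f).symm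

theorem wpm_mem_out (hq : q.Prime) (hA : A.LiesOverPrime q) (hqM : ¬ q ∣ M₀)
    (hS0 : IsGaussRed M₀ A S0) {τ : Qb ≃ₐ[ℚ] Qb} (hτ : τ ∈ A.inertiaSubgroupIn ℚ)
    {f : FBar (M₀ * q * q)} (hf : f ∈ O.S.Ov) : galFun (M₀ * q * q) τ f ∈ O.S.Ov :=
  (wpm_mem_out_iff O hq hA hqM hS0 hτ f).mpr hf

/-- the automorphism of the residue field `k(H_P)` induced by an element of the inertia
group. -/
def wpmEquiv (hq : q.Prime) (hA : A.LiesOverPrime q) (hqM : ¬ q ∣ M₀)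
    (hS0 : IsGaussRed M₀ A S0) (τ : Qb ≃ₐ[ℚ] Qb) (hτ : τ ∈ A.inertiaSubgroupIn ℚ) :
    FkP ≃ₐ[IsLocalRing.ResidueField A] FkP :=
  wpiEquiv O.S (arithmeticGalois (modularFunctionFieldFull (M₀ * q * q)) τ)
    (wpm_stable_at O hq hA hqM hS0 hτ) (wpm_inertial_at O hτ)

/-- `red (τ f) = e_τ (red f)`. -/
theorem wpm_red_out (hq : q.Prime) (hA : A.LiesOverPrime q) (hqM : ¬ q ∣ M₀)
    (hS0 : IsGaussRed M₀ A S0) {τ : Qb ≃ₐ[ℚ] Qb} (hτ : τ ∈ A.inertiaSubgroupIn ℚ)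
    {f : FBar (M₀ * q * q)} (hf : f ∈ O.S.Ov) :
    O.S.red (galFun (M₀ * q * q) τ f) = wpmEquiv O hq hA hqM hS0 τ hτ (O.S.red f) :=
  (wpiEquiv_red (wpm_stable_at O hq hA hqM hS0 hτ) (wpm_inertial_at O hτ) hf).symm

/-- `red (τ f) = e_τ (red f)`, total form. -/
theorem wpm_red_out' (hq : q.Prime) (hA : A.LiesOverPrime q) (hqM : ¬ q ∣ M₀)
    (hS0 : IsGaussRed M₀ A S0) {τ : Qb ≃ₐ[ℚ] Qb} (hτ : τ ∈ A.inertiaSubgroupIn ℚ)
    (f : FBar (M₀ * q * q)) :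
    O.S.red (galFun (M₀ * q * q) τ f) = wpmEquiv O hq hA hqM hS0 τ hτ (O.S.red f) := by
  by_cases hf : f ∈ O.S.Ov
  · exact wpm_red_out O hq hA hqM hS0 hτ hf
  · rw [O.S.red_of_not_mem hf,
      O.S.red_of_not_mem (fun h => hf ((wpm_mem_out_iff O hq hA hqM hS0 hτ f).mp h)), map_zero]

/-- **the hypothesis `hinv` of Step 2 (`step2_final`) at the vertex `w_P`**: for a function `g`
whose class modulo constants and `n`-th powers is fixed by the inertia group of `A`. -/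
theorem wpm_hinv_out (hq : q.Prime) (hA : A.LiesOverPrime q) (hqM : ¬ q ∣ M₀)
    (hS0 : IsGaussRed M₀ A S0) (n : ℕ) {g : FBar (M₀ * q * q)} (hg : g ≠ 0)
    (hfix : ∀ τ ∈ A.inertiaSubgroupIn ℚ, ∃ (u : FBar (M₀ * q * q)) (a : Qb),
      galFun (M₀ * q * q) τ g = algebraMap Qb (FBar (M₀ * q * q)) a * u ^ n * g) :
    ∀ (f : FBar (M₀ * q * q)) (a : Qb), f ∈ O.S.Ov → f⁻¹ ∈ O.S.Ov →
      g = algebraMap Qb (FBar (M₀ * q * q)) a * f →
      ∀ σ ∈ O.H.galK, ∃ (b : IsLocalRing.ResidueField A) (v : FkP),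
        σ (O.S.red f) = algebraMap (IsLocalRing.ResidueField A) FkP b * v ^ n * O.S.red f := by
  intro f a hf hf' hfg
  haveI : IsAlgClosed (IsLocalRing.ResidueField A) := isAlgClosed_residue A
  have hA' : O.S.A.LiesOverPrime q := by rw [O.A_eq]; exact hA
  have hτA : ∀ τ : Qb ≃ₐ[ℚ] Qb, τ ∈ O.S.A.inertiaSubgroupIn ℚ → τ ∈ A.inertiaSubgroupIn ℚ :=
    fun τ hτ => by rw [← O.A_eq]; exact hτ
  exact wpm_hinv O.H (wpg_hq1 hq hA) hq hA' (wpm_stable_out O hq hA hqM hS0) O.ϖ_pow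
    O.W_mem O.Z_mem O.red_W O.red_Z
    (fun τ hτ => wpg_x0_fixed O hq hA (hτA τ hτ))
    (fun τ hτ => wpg_x2_fixed O hq hA (hτA τ hτ)) n hg
    (fun τ hτ => hfix τ (hτA τ hτ)) hf hf' hfg

/-- `wpm_hinv_out` for `InertiaFixedFun` (`S36/G/Defs.lean`). -/
theorem wpm_hinv_out_of_fixedFun (hq : q.Prime) (hA : A.LiesOverPrime q) (hqM : ¬ q ∣ M₀)
    (hS0 : IsGaussRed M₀ A S0) (n : ℕ) {g : FBar (M₀ * q * q)} (hg : g ≠ 0)
    (hfix : InertiaFixedFun (M₀ * q * q) A n g) :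
    ∀ (f : FBar (M₀ * q * q)) (a : Qb), f ∈ O.S.Ov → f⁻¹ ∈ O.S.Ov →
      g = algebraMap Qb (FBar (M₀ * q * q)) a * f →
      ∀ σ ∈ O.H.galK, ∃ (b : IsLocalRing.ResidueField A) (v : FkP),
        σ (O.S.red f) = algebraMap (IsLocalRing.ResidueField A) FkP b * v ^ n * O.S.red f :=
  wpm_hinv_out O hq hA hqM hS0 n hg (fun τ hτ => by
    obtain ⟨u, a, -, h⟩ := hfix τ hτ
    exact ⟨u, a, h⟩)

end Fermat.Agent.S36G
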