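/-
S36, G wave, block W-P, seat (SWAP) (helper87; requested by helper48 for Step 2).

`w` a `ℚ̄`-automorphism of `F = F_{M₀ q q}` which FIXES the middle old copy `ι₁ F₀` and SWAPS the
two outer copies `ι₀ F₀ ↔ ι₂ F₀` (for `w = w_{q²}`, the Atkin–Lehner involution).  Then, for the
output `O : WPOut …` of block W-P at a supersingular place `P`:

* `wpsw_generic`  : `Y` is generic for `O_{w_P}` (`WPGeneric`);
* `wpsw_stable`   : `w (O_{w_P}) = O_{w_P}` (by the UNIQUENESS export `O.uniq`);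
* `wpsw_exists`   : there is a `k`-automorphism `σ` of the residue field `k(H_P)` with
  `red (w f) = σ (red f)` for `f ∈ O_{w_P}`, and `σ X₁ = X₂`, `σ X₂ = X₁`, `σ Y = Y`.

With this, (N3') follows from (N3) (helper48, Step 2).
-/
import Mathlib
import Fermat.Agent.S36.HPVal.Defs
import Fermat.Agent.S36.HPVal.Inert
import Fermat.Agent.Lib.BadRed.Nodal.Gluing.Values
import Fermat.Agent.Lib.GaussInt.TwoValSetup

set_option autoImplicit false
set_option linter.style.haveILetI false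
set_option linter.unusedSectionVars false
set_option linter.unusedVariables false
set_option synthInstance.maxHeartbeats 400000

noncomputable section
attribute [local instance 10000] SubalgebraClass.toAlgebra HahnSeries.powerSeriesAlgebra

namespace Fermat.Agent.S36G

open ModularCurve AlgebraicCurve IntermediateField Fermat.Agent.F3 Fermat.Agent.F3G
  Fermat.Agent.GaussInt Fermat.Agent.Deuring Fermat.Agent.BadRed Fermat.Agent.HPVal Fermat.Agent.HP

local notation "Qb" => AlgebraicClosure ℚ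

/-- the hypotheses on `w` (true for the Atkin–Lehner involution `w_{q²}`). -/
structure WpswHyp (M₀ q : ℕ) [NeZero M₀] [NeZero q]
    (w : FBar (M₀ * q * q) ≃ₐ[Qb] FBar (M₀ * q * q)) : Prop where
  fix1 : ∀ g : FBar M₀, w (wpdIota1 M₀ q g) = wpdIota1 M₀ q g
  swap0 : ∀ g : FBar M₀, w (wpIota0 M₀ q g) = wpIota2 M₀ q g
  swap2 : ∀ g : FBar M₀, w (wpIota2 M₀ q g) = wpIota0 M₀ q g

section Abstract

variable {M₀ q : ℕ} [NeZero M₀] [NeZero q] {A : ValuationSubring Qb}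
  {S0 : Fermat.Agent.S18Key.RedSetup Qb (FBar M₀) (IsLocalRing.ResidueField A)
    ↥(modularFunctionFieldFullC (IsLocalRing.ResidueField A) M₀)}
  {P : Place (IsLocalRing.ResidueField A)
    ↥(modularFunctionFieldFullC (IsLocalRing.ResidueField A) M₀)}
  {FkP : Type} [Field FkP] [Algebra (IsLocalRing.ResidueField A) FkP]
  (O : WPOut M₀ q A S0 P FkP)

/-- `w` fixes `Y`, swaps `W` and `Zc`. -/
theorem WpswHyp.map_Y {w : FBar (M₀ * q * q) ≃ₐ[Qb] FBar (M₀ * q * q)} (hw : WpswHyp M₀ q w)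
    (t : FBar M₀) (a ϖ : Qb) : w (wpY M₀ q t a ϖ) = wpY M₀ q t a ϖ := by
  rw [wpY, map_div₀, map_sub, hw.fix1, AlgEquiv.commutes, AlgEquiv.commutes]

theorem WpswHyp.map_W {w : FBar (M₀ * q * q) ≃ₐ[Qb] FBar (M₀ * q * q)} (hw : WpswHyp M₀ q w)
    (t : FBar M₀) (a ϖ : Qb) : w (wpW M₀ q t a ϖ) = wpZ M₀ q t a ϖ := by
  rw [wpW, wpZ, map_div₀, map_sub, hw.swap0, AlgEquiv.commutes, AlgEquiv.commutes]

theorem WpswHyp.map_Z {w : FBar (M₀ * q * q) ≃ₐ[Qb] FBar (M₀ * q * q)} (hw : WpswHyp M₀ q w)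
    (t : FBar M₀) (a ϖ : Qb) : w (wpZ M₀ q t a ϖ) = wpW M₀ q t a ϖ := by
  rw [wpW, wpZ, map_div₀, map_sub, hw.swap2, AlgEquiv.commutes, AlgEquiv.commutes]

/-- **`Y` is generic for `O_{w_P}`**: a polynomial in `Y` with coefficients in `A`, one of them a
unit, is a unit of `O_{w_P}` (its reduction is a non-zero polynomial in the transcendental `Ȳ`). -/
theorem wpsw_generic (hY : Transcendental (IsLocalRing.ResidueField A) O.H.Yf) :
    WPGeneric A O.S.Ov (wpY M₀ q O.t O.a O.ϖ) := by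
  intro G hG hGu
  set Y := wpY M₀ q O.t O.a O.ϖ with hYdef
  have hGS : ∀ i, G.coeff i ∈ O.S.A := fun i => by rw [O.A_eq]; exact hG i
  have hpow : ∀ i : ℕ, Y ^ i ∈ O.S.Ov := fun i => pow_mem O.Y_mem i
  have haev : Polynomial.aeval Y G = ∑ i ∈ Finset.range (G.natDegree + 1), G.coeff i • Y ^ i := by
    rw [Polynomial.aeval_eq_sum_range]
  have hmem : Polynomial.aeval Y G ∈ O.S.Ov := by
    rw [haev]
    exact sum_smul_mem_Ov O.S _ _ _ hGS hpow
  -- the reduced polynomial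
  set Gb : Polynomial (IsLocalRing.ResidueField A) :=
    ∑ i ∈ Finset.range (G.natDegree + 1),
      Polynomial.monomial i (O.S.res ⟨G.coeff i, hGS i⟩) with hGb
  have hred : O.S.red (Polynomial.aeval Y G) = Polynomial.aeval O.H.Yf Gb := by
    rw [haev, red_sum_smul O.S _ _ _ hGS hpow, hGb, map_sum]
    refine Finset.sum_congr rfl fun i _ => ?_
    rw [Polynomial.aeval_monomial, O.S.red_pow O.Y_mem, O.red_Y, Algebra.smul_def]
  have hGb0 : Gb ≠ 0 := by
    obtain ⟨i, hi0, hiu⟩ := hGu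
    intro h0
    have hcoef : Gb.coeff i = O.S.res ⟨G.coeff i, hGS i⟩ := by
      rw [hGb, Polynomial.finsetSum_coeff]
      have hi : i ∈ Finset.range (G.natDegree + 1) := by
        rw [Finset.mem_range]
        exact Nat.lt_succ_of_le (Polynomial.le_natDegree_of_ne_zero hi0)
      rw [Finset.sum_eq_single i]
      · rw [Polynomial.coeff_monomial, if_pos rfl]
      · intro j _ hj
        rw [Polynomial.coeff_monomial, if_neg hj]
      · intro h
        exact absurd hi h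
    rw [h0, Polynomial.coeff_zero] at hcoef
    -- the residue of a unit is not zero
    have hiuS : (G.coeff i)⁻¹ ∈ O.S.A := by rw [O.A_eq]; exact hiu
    have h1 : O.S.res ⟨G.coeff i, hGS i⟩ * O.S.res ⟨(G.coeff i)⁻¹, hiuS⟩ = 1 := by
      rw [← map_mul]
      have : (⟨G.coeff i, hGS i⟩ : O.S.A) * ⟨(G.coeff i)⁻¹, hiuS⟩ = 1 :=
        Subtype.ext (mul_inv_cancel₀ hi0)
      rw [this, map_one]
    rw [← hcoef, zero_mul] at h1
    exact zero_ne_one h1
  have hne : O.S.red (Polynomial.aeval Y G) ≠ 0 := by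
    rw [hred]
    exact fun h => hGb0 ((transcendental_iff.mp hY) Gb h)
  exact ⟨hmem, O.S.inv_mem_of_red_ne_zero hne⟩

/-- the transported valuation ring `w⁻¹ (O_{w_P})`. -/
def wpswOv (w : FBar (M₀ * q * q) ≃ₐ[Qb] FBar (M₀ * q * q)) :
    ValuationSubring (FBar (M₀ * q * q)) :=
  O.S.Ov.comap (w : FBar (M₀ * q * q) →+* FBar (M₀ * q * q))

theorem mem_wpswOv (w : FBar (M₀ * q * q) ≃ₐ[Qb] FBar (M₀ * q * q)) (f : FBar (M₀ * q * q)) :
    f ∈ wpswOv O w ↔ w f ∈ O.S.Ov := Iff.rfl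

/-- **`w` stabilises `O_{w_P}`** (uniqueness export). -/
theorem wpsw_comap_eq (hFk0 : Fermat.Agent.RR.IsRRField (IsLocalRing.ResidueField A)
      ↥(modularFunctionFieldFullC (IsLocalRing.ResidueField A) M₀))
    (hY : Transcendental (IsLocalRing.ResidueField A) O.H.Yf)
    {w : FBar (M₀ * q * q) ≃ₐ[Qb] FBar (M₀ * q * q)} (hw : WpswHyp M₀ q w) :
    wpswOv O w = O.S.Ov := by
  apply O.uniq
  · intro c
    rw [mem_wpswOv, AlgEquiv.commutes, O.S.mem_Ov_iff, O.A_eq]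
  · intro g hg
    have hreg : 0 ≤ O.P'.ord (S0.red g) := ord_red_nonneg_of_mem hg
    refine ⟨?_, ?_⟩
    · obtain ⟨c, hc⟩ := Fermat.Agent.BadRed.Gluing.exists_valAt hFk0 O.P' hreg
      rw [mem_wpswOv, hw.fix1]
      exact (O.old1 g hg c hc).1
    · intro h0
      have h1 := O.old1 g hg 0 h0
      rw [map_zero] at h1
      rw [ValuationSubring.mem_nonunits_iff_or]
      by_cases hz : wpdIota1 M₀ q g = 0
      · exact Or.inl hz
      · refine Or.inr ?_
        rw [mem_wpswOv, map_inv₀, hw.fix1]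
        exact (O.S.red_eq_zero_iff h1.1 hz).mp h1.2
  · intro G hG hGu
    have h := wpsw_generic O hY G hG hGu
    have hfix : w (Polynomial.aeval (wpY M₀ q O.t O.a O.ϖ) G) =
        Polynomial.aeval (wpY M₀ q O.t O.a O.ϖ) G := by
      have h2 := Polynomial.aeval_algHom_apply
        (w : FBar (M₀ * q * q) →ₐ[Qb] FBar (M₀ * q * q)) (wpY M₀ q O.t O.a O.ϖ) G
      have h3 : (w : FBar (M₀ * q * q) →ₐ[Qb] FBar (M₀ * q * q)) (wpY M₀ q O.t O.a O.ϖ) =
          wpY M₀ q O.t O.a O.ϖ := hw.map_Y O.t O.a O.ϖ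
      rw [h3] at h2
      exact h2.symm
    refine ⟨?_, ?_⟩
    · rw [mem_wpswOv, hfix]; exact h.1
    · rw [mem_wpswOv, map_inv₀, hfix]; exact h.2

/-- `w`, as a semilinear automorphism, is stable for `w_P`. -/
theorem wpsw_stable (hFk0 : Fermat.Agent.RR.IsRRField (IsLocalRing.ResidueField A)
      ↥(modularFunctionFieldFullC (IsLocalRing.ResidueField A) M₀))
    (hY : Transcendental (IsLocalRing.ResidueField A) O.H.Yf)
    {w : FBar (M₀ * q * q) ≃ₐ[Qb] FBar (M₀ * q * q)} (hw : WpswHyp M₀ q w) :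
    WpiStable O.S (SemilinearAut.ofAlgAut w) := by
  intro f
  have h := wpsw_comap_eq O hFk0 hY hw
  have h1 : f ∈ O.S.Ov ↔ f ∈ wpswOv O w := by rw [h]
  rw [h1, mem_wpswOv]
  rfl

theorem wpsw_inertial (w : FBar (M₀ * q * q) ≃ₐ[Qb] FBar (M₀ * q * q)) :
    WpiInertial O.S (SemilinearAut.ofAlgAut w) := by
  intro a ha
  exact ⟨ha, rfl⟩

/-- **(SWAP)**: `w` induces a `k`-automorphism `σ` of the residue field `k(H_P)` with
`red (w f) = σ (red f)` on `O_{w_P}`, `σ X₁ = X₂`, `σ X₂ = X₁`, `σ Y = Y`. -/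
theorem wpsw_exists (hFk0 : Fermat.Agent.RR.IsRRField (IsLocalRing.ResidueField A)
      ↥(modularFunctionFieldFullC (IsLocalRing.ResidueField A) M₀))
    (hY : Transcendental (IsLocalRing.ResidueField A) O.H.Yf)
    {w : FBar (M₀ * q * q) ≃ₐ[Qb] FBar (M₀ * q * q)} (hw : WpswHyp M₀ q w) :
    ∃ σ : FkP ≃ₐ[IsLocalRing.ResidueField A] FkP,
      (∀ f ∈ O.S.Ov, w f ∈ O.S.Ov ∧ O.S.red (w f) = σ (O.S.red f)) ∧
      σ O.H.X1 = O.H.X2 ∧ σ O.H.X2 = O.H.X1 ∧ σ O.H.Yf = O.H.Yf := by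
  obtain ⟨σ, hσ⟩ := wpi_exists_resEquiv (wpsw_stable O hFk0 hY hw) (wpsw_inertial O w)
  have hσ' : ∀ f ∈ O.S.Ov, w f ∈ O.S.Ov ∧ O.S.red (w f) = σ (O.S.red f) := fun f hf => hσ f hf
  refine ⟨σ, hσ', ?_, ?_, ?_⟩
  · rw [← O.red_W, ← (hσ' _ O.W_mem).2, hw.map_W, O.red_Z]
  · rw [← O.red_Z, ← (hσ' _ O.Z_mem).2, hw.map_Z, O.red_W]
  · rw [← O.red_Y, ← (hσ' _ O.Y_mem).2, hw.map_Y]

end Abstract

end Fermat.Agent.S36G
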