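/-
Cluster G (S36), block W-P, seat SWAP, modular part (helper2; sub-architect helper59; the abstract
part on `WPOut` is `S36/HPVal/Swap.lean`, helper87; consumer helper48).

The Atkin–Lehner involution `w = w_{q²}` of `F = F_{M₀ q²}` (`wAt D hM`, `D.Q = q * q`,
`D.R = M₀`) and the three old copies `ι₀ f = f(z)`, `ι₁ f = f(qz)`, `ι₂ f = f(q² z)` of
`F₀ = F_{M₀}`:

  `w ∘ ι₀ = ι₂`,   `w ∘ ι₁ = ι₁`,   `w ∘ ι₂ = ι₀`,

hence on the coordinates of a datum `(t, a, ϖ)`: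

  `w W = Zc`,   `w Zc = W`,   `w Y = Y`.

* `swapMod_iota0`, `swapMod_iota1`, `swapMod_iota2`;
* `swapMod_W`, `swapMod_Z`, `swapMod_Y`;
* `swapMod_exists` : for `q` prime, `q ∤ M₀`, an involution `w` of `F` over `ℚ̄`, commuting with
  the Galois action on the coefficients, with all of the above.
-/
import Fermat.Agent.S36.HPVal.Defs
import Fermat.Agent.Lib.BadRed.Bridge.NormAt

set_option autoImplicit false
set_option linter.style.haveILetI false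
set_option linter.unusedSectionVars false

noncomputable section
attribute [local instance 10000] SubalgebraClass.toAlgebra HahnSeries.powerSeriesAlgebra

namespace Fermat.Agent.S36G

open ModularCurve AlgebraicCurve Fermat.Agent.F3 Fermat.Agent.F3G Fermat.Agent.GaussInt
  Fermat.Agent.AtkinLehner Fermat.Agent.Kronecker Fermat.Agent.BadRed Fermat.Agent.HeckeComm

local notation "Qb" => AlgebraicClosure ℚ

set_option synthInstance.maxHeartbeats 400000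

section AL

variable {M₀ q : ℕ} [NeZero M₀] [NeZero q]

/-- **`w_{q²} ∘ ι₀ = ι₂`** on `F_{M₀}`. -/
theorem swapMod_iota0 (D : ALData) (hQ : D.Q = q * q) (hR : D.R = M₀)
    (hM : M₀ * q * q = D.Q * D.R) (x : FBar M₀) :
    wAt D hM (wpIota0 M₀ q x) = wpIota2 M₀ q x := by
  let Φ₁ : FBar M₀ →+* FBar (M₀ * q * q) :=
    ((wAt D hM : FBar (M₀ * q * q) ≃ₐ[Qb] FBar (M₀ * q * q)) :
      FBar (M₀ * q * q) →+* FBar (M₀ * q * q)).comp (wpIota0 M₀ q).toRingHom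
  let Φ₂ : FBar M₀ →+* FBar (M₀ * q * q) := (wpIota2 M₀ q).toRingHom
  have key : Φ₁ = Φ₂ := by
    apply ringHom_ext_FBar
    · intro c
      show wAt D hM (wpIota0 M₀ q (algebraMap Qb _ c)) = wpIota2 M₀ q (algebraMap Qb _ c)
      rw [AlgHom.commutes, AlgEquiv.commutes, AlgHom.commutes]
    · intro d hdne hd
      show wAt D hM (wpIota0 M₀ q (jdBar M₀ d hd)) = wpIota2 M₀ q (jdBar M₀ d hd)
      obtain ⟨f₂, hf₂⟩ := hd
      haveI : NeZero (1 * d) := ⟨by rw [one_mul]; exact NeZero.ne d⟩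
      haveI : NeZero (q * q * d) :=
        ⟨mul_ne_zero (mul_ne_zero (NeZero.ne q) (NeZero.ne q)) (NeZero.ne d)⟩
      haveI : NeZero (q * d) := ⟨mul_ne_zero (NeZero.ne q) (NeZero.ne d)⟩
      apply Subtype.ext
      have h := coe_wAt_of_coe_gen D hM 1 (q * q) d f₂ (by rw [one_mul, hQ]) (by rw [hR, hf₂])
        (wpIota0 M₀ q (jdBar M₀ d ⟨f₂, hf₂⟩))
        (by rw [coe_wpIota0, coe_jdBar]; exact qExpand_congr (one_mul d).symm _)
      rw [h, coe_wpIota2, coe_jdBar, qExpand_qExpand, qExpand_qExpand]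
  exact RingHom.congr_fun key x

/-- **`w_{q²} ∘ ι₂ = ι₀`** on `F_{M₀}`. -/
theorem swapMod_iota2 (D : ALData) (hQ : D.Q = q * q) (hR : D.R = M₀)
    (hM : M₀ * q * q = D.Q * D.R) (x : FBar M₀) :
    wAt D hM (wpIota2 M₀ q x) = wpIota0 M₀ q x := by
  rw [← swapMod_iota0 D hQ hR hM x, wAt_wAt]

/-- **`w_{q²} ∘ ι₁ = ι₁`** on `F_{M₀}`. -/
theorem swapMod_iota1 (D : ALData) (hQ : D.Q = q * q) (hR : D.R = M₀)
    (hM : M₀ * q * q = D.Q * D.R) (x : FBar M₀) :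
    wAt D hM (wpdIota1 M₀ q x) = wpdIota1 M₀ q x := by
  let Φ₁ : FBar M₀ →+* FBar (M₀ * q * q) :=
    ((wAt D hM : FBar (M₀ * q * q) ≃ₐ[Qb] FBar (M₀ * q * q)) :
      FBar (M₀ * q * q) →+* FBar (M₀ * q * q)).comp (wpdIota1 M₀ q).toRingHom
  let Φ₂ : FBar M₀ →+* FBar (M₀ * q * q) := (wpdIota1 M₀ q).toRingHom
  have key : Φ₁ = Φ₂ := by
    apply ringHom_ext_FBar
    · intro c
      show wAt D hM (wpdIota1 M₀ q (algebraMap Qb _ c)) = wpdIota1 M₀ q (algebraMap Qb _ c)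
      rw [AlgHom.commutes, AlgEquiv.commutes]
    · intro d hdne hd
      show wAt D hM (wpdIota1 M₀ q (jdBar M₀ d hd)) = wpdIota1 M₀ q (jdBar M₀ d hd)
      obtain ⟨f₂, hf₂⟩ := hd
      haveI : NeZero (q * d) := ⟨mul_ne_zero (NeZero.ne q) (NeZero.ne d)⟩
      apply Subtype.ext
      have h := coe_wAt_of_coe_gen D hM q q d f₂ (by rw [hQ]) (by rw [hR, hf₂])
        (wpdIota1 M₀ q (jdBar M₀ d ⟨f₂, hf₂⟩))
        (by rw [coe_wpdIota1, coe_jdBar, qExpand_qExpand])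
      rw [h, coe_wpdIota1, coe_jdBar, qExpand_qExpand]
  exact RingHom.congr_fun key x

/-- `w W = Zc`. -/
theorem swapMod_W (D : ALData) (hQ : D.Q = q * q) (hR : D.R = M₀)
    (hM : M₀ * q * q = D.Q * D.R) (t : FBar M₀) (a ϖ : Qb) :
    wAt D hM (wpW M₀ q t a ϖ) = wpZ M₀ q t a ϖ := by
  unfold wpW wpZ
  rw [map_div₀, map_sub, AlgEquiv.commutes, AlgEquiv.commutes, swapMod_iota0 D hQ hR hM]

/-- `w Zc = W`. -/
theorem swapMod_Z (D : ALData) (hQ : D.Q = q * q) (hR : D.R = M₀)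
    (hM : M₀ * q * q = D.Q * D.R) (t : FBar M₀) (a ϖ : Qb) :
    wAt D hM (wpZ M₀ q t a ϖ) = wpW M₀ q t a ϖ := by
  unfold wpW wpZ
  rw [map_div₀, map_sub, AlgEquiv.commutes, AlgEquiv.commutes, swapMod_iota2 D hQ hR hM]

/-- `w Y = Y`. -/
theorem swapMod_Y (D : ALData) (hQ : D.Q = q * q) (hR : D.R = M₀)
    (hM : M₀ * q * q = D.Q * D.R) (t : FBar M₀) (a ϖ : Qb) :
    wAt D hM (wpY M₀ q t a ϖ) = wpY M₀ q t a ϖ := by
  unfold wpY
  rw [map_div₀, map_sub, AlgEquiv.commutes, AlgEquiv.commutes, swapMod_iota1 D hQ hR hM]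

end AL

section Exists

variable (M₀ q : ℕ) [NeZero M₀] [NeZero q]

/-- **SWAP, modular part**: for `q` prime, `q ∤ M₀`, there is an involution `w` of
`F = F_{M₀ q²}` over `ℚ̄`, commuting with the Galois action on the coefficients, which fixes
`ι₁`, exchanges `ι₀` and `ι₂`, fixes `Y` and exchanges `W` and `Zc` (for every datum). -/
theorem swapMod_exists (hq : q.Prime) (hqM : ¬ q ∣ M₀) :
    ∃ w : FBar (M₀ * q * q) ≃ₐ[Qb] FBar (M₀ * q * q),
      (∀ x, w (w x) = x) ∧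
      (∀ (σ : Qb ≃ₐ[ℚ] Qb) (x : FBar (M₀ * q * q)),
        w (galFun (M₀ * q * q) σ x) = galFun (M₀ * q * q) σ (w x)) ∧
      (∀ g : FBar M₀, w (wpIota0 M₀ q g) = wpIota2 M₀ q g) ∧
      (∀ g : FBar M₀, w (wpdIota1 M₀ q g) = wpdIota1 M₀ q g) ∧
      (∀ g : FBar M₀, w (wpIota2 M₀ q g) = wpIota0 M₀ q g) ∧
      (∀ (t : FBar M₀) (a ϖ : Qb), w (wpW M₀ q t a ϖ) = wpZ M₀ q t a ϖ) ∧
      (∀ (t : FBar M₀) (a ϖ : Qb), w (wpZ M₀ q t a ϖ) = wpW M₀ q t a ϖ) ∧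
      (∀ (t : FBar M₀) (a ϖ : Qb), w (wpY M₀ q t a ϖ) = wpY M₀ q t a ϖ) := by
  have hcop : Nat.Coprime (q * q) M₀ :=
    Nat.Coprime.mul_left ((Nat.Prime.coprime_iff_not_dvd hq).mpr hqM)
      ((Nat.Prime.coprime_iff_not_dvd hq).mpr hqM)
  obtain ⟨D, hQ, hR⟩ := ALData.exists_of_coprime (Q := q * q) (R := M₀)
    (Nat.mul_pos hq.pos hq.pos) (Nat.pos_of_ne_zero (NeZero.ne M₀)) hcop
  have hM : M₀ * q * q = D.Q * D.R := by rw [hQ, hR]; ring
  exact ⟨wAt D hM, wAt_wAt D hM, wAt_galFun D hM, swapMod_iota0 D hQ hR hM,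
    swapMod_iota1 D hQ hR hM, swapMod_iota2 D hQ hR hM, swapMod_W D hQ hR hM,
    swapMod_Z D hQ hR hM, swapMod_Y D hQ hR hM⟩

end Exists

end Fermat.Agent.S36G
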