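/-
Cluster G (S36), block W-P, seat SWAP, the wiring (helper2; abstract part: `S36/HPVal/Swap.lean`,
helper87; modular part: `S36/HPVal/SwapMod.lean`; consumer helper48, Step 2).

`w = wAt D hM`, `D.Q = q * q`, `D.R = M₀`, the Atkin–Lehner involution `w_{q²}` of
`F = F_{M₀ q²}`, `A` a valuation ring of `ℚ̄` over the prime `q`, `O : WPOut M₀ q A S0 P FkP`.

* `wpswHyp_wAt`          : `WpswHyp M₀ q (wAt D hM)`;
* `swapWire_transc`      : `Ȳ = O.H.Yf` is transcendental over `k`;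
* `swapWire_isRRField`   : `IsRRField k (F_{M₀} mod q)`;
* `swapWire_generic`     : `Y` is generic for `O_{w_P}`;
* `swapWire_mem_iff`     : `w f ∈ O_{w_P} ↔ f ∈ O_{w_P}`;
* `swapWire_final`       : **(SWAP)**, hypothesis-free: a `k`-automorphism `σ` of `k(H_P)` with
  `red (w f) = σ (red f)` on `O_{w_P}`, `σ X₁ = X₂`, `σ X₂ = X₁`, `σ Ȳ = Ȳ`;
* `swapWire_exists`      : the same with `w` existentially quantified (involution, commuting with
  the Galois action on the coefficients, `w ι₀ = ι₂`, `w ι₁ = ι₁`).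
-/
import Fermat.Agent.S36.HPVal.Swap
import Fermat.Agent.S36.HPVal.SwapMod
import Fermat.Agent.Lib.RR.OfModularCFinal
import Fermat.Agent.Lib.GaussInt.ModularInst
import Fermat.Agent.Lib.GaussInt.FrobFormal

set_option autoImplicit false
set_option linter.style.haveILetI false
set_option linter.unusedSectionVars false
set_option linter.unusedVariables false
set_option synthInstance.maxHeartbeats 400000

noncomputable section
attribute [local instance 10000] SubalgebraClass.toAlgebra HahnSeries.powerSeriesAlgebra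

namespace Fermat.Agent.S36G

open ModularCurve AlgebraicCurve IntermediateField Fermat.Agent.F3 Fermat.Agent.F3G
  Fermat.Agent.GaussInt Fermat.Agent.Deuring Fermat.Agent.BadRed Fermat.Agent.HPVal Fermat.Agent.HP
  Fermat.Agent.AtkinLehner

local notation "Qb" => AlgebraicClosure ℚ

section Wire

variable {M₀ q : ℕ} [NeZero M₀] [NeZero q] {A : ValuationSubring Qb}
  {S0 : Fermat.Agent.S18Key.RedSetup Qb (FBar M₀) (IsLocalRing.ResidueField A)
    ↥(modularFunctionFieldFullC (IsLocalRing.ResidueField A) M₀)}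
  {P : Place (IsLocalRing.ResidueField A)
    ↥(modularFunctionFieldFullC (IsLocalRing.ResidueField A) M₀)}
  {FkP : Type} [Field FkP] [Algebra (IsLocalRing.ResidueField A) FkP]

/-- the Atkin–Lehner involution `w_{q²}` satisfies the hypotheses of (SWAP). -/
theorem wpswHyp_wAt (D : ALData) (hQ : D.Q = q * q) (hR : D.R = M₀)
    (hM : M₀ * q * q = D.Q * D.R) : WpswHyp M₀ q (wAt D hM) where
  fix1 := swapMod_iota1 D hQ hR hM
  swap0 := swapMod_iota0 D hQ hR hM
  swap2 := swapMod_iota2 D hQ hR hM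

/-- `Ȳ` is transcendental over the residue field. -/
theorem swapWire_transc (hq : q.Prime) (hA : A.LiesOverPrime q) (O : WPOut M₀ q A S0 P FkP) :
    Transcendental (IsLocalRing.ResidueField A) O.H.Yf := by
  haveI : IsAlgClosed (IsLocalRing.ResidueField A) := isAlgClosed_residue A
  haveI : CharP (IsLocalRing.ResidueField A) q :=
    Fermat.Agent.GaussIntFP.charP_residue_of_liesOver A hq hA
  have hq1 : ((q + 1 : ℕ) : IsLocalRing.ResidueField A) ≠ 0 := by
    rw [Nat.cast_add, CharP.cast_eq_zero, zero_add, Nat.cast_one]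
    exact one_ne_zero
  exact O.H.Yf_transcendental hq1

/-- the Riemann–Roch library applies to `F_{M₀}` mod `q`. -/
theorem swapWire_isRRField (M₀ : ℕ) [NeZero M₀] (A : ValuationSubring Qb) :
    Fermat.Agent.RR.IsRRField (IsLocalRing.ResidueField A)
      ↥(modularFunctionFieldFullC (IsLocalRing.ResidueField A) M₀) := by
  haveI : IsAlgClosed (IsLocalRing.ResidueField A) := isAlgClosed_residue A
  exact Fermat.Agent.RRMod.isRRField_fullC' (IsLocalRing.ResidueField A) M₀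

/-- `Y` is generic for `O_{w_P}`. -/
theorem swapWire_generic (hq : q.Prime) (hA : A.LiesOverPrime q) (O : WPOut M₀ q A S0 P FkP) :
    WPGeneric A O.S.Ov (wpY M₀ q O.t O.a O.ϖ) :=
  wpsw_generic O (swapWire_transc hq hA O)

/-- **`w_{q²}` stabilises `O_{w_P}`**. -/
theorem swapWire_mem_iff (hq : q.Prime) (hA : A.LiesOverPrime q) (O : WPOut M₀ q A S0 P FkP)
    (D : ALData) (hQ : D.Q = q * q) (hR : D.R = M₀) (hM : M₀ * q * q = D.Q * D.R)
    (f : FBar (M₀ * q * q)) : wAt D hM f ∈ O.S.Ov ↔ f ∈ O.S.Ov := by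
  have h := wpsw_comap_eq O (swapWire_isRRField M₀ A) (swapWire_transc hq hA O)
    (wpswHyp_wAt D hQ hR hM)
  rw [← mem_wpswOv O (wAt D hM) f, h]

/-- **(SWAP)** for `w = w_{q²}`: `w` induces a `k`-automorphism `σ` of the residue field
`k(H_P)` with `red (w f) = σ (red f)` on `O_{w_P}`, `σ X₁ = X₂`, `σ X₂ = X₁`, `σ Ȳ = Ȳ`. -/
theorem swapWire_final (hq : q.Prime) (hA : A.LiesOverPrime q) (O : WPOut M₀ q A S0 P FkP)
    (D : ALData) (hQ : D.Q = q * q) (hR : D.R = M₀) (hM : M₀ * q * q = D.Q * D.R) :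
    ∃ σ : FkP ≃ₐ[IsLocalRing.ResidueField A] FkP,
      (∀ f ∈ O.S.Ov, wAt D hM f ∈ O.S.Ov ∧ O.S.red (wAt D hM f) = σ (O.S.red f)) ∧
      σ O.H.X1 = O.H.X2 ∧ σ O.H.X2 = O.H.X1 ∧ σ O.H.Yf = O.H.Yf :=
  wpsw_exists O (swapWire_isRRField M₀ A) (swapWire_transc hq hA O) (wpswHyp_wAt D hQ hR hM)

/-- **(SWAP)**, with the involution existentially quantified. -/
theorem swapWire_exists (hq : q.Prime) (hqM : ¬ q ∣ M₀) (hA : A.LiesOverPrime q)
    (O : WPOut M₀ q A S0 P FkP) :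
    ∃ (w : FBar (M₀ * q * q) ≃ₐ[Qb] FBar (M₀ * q * q))
      (σ : FkP ≃ₐ[IsLocalRing.ResidueField A] FkP),
      (∀ x, w (w x) = x) ∧
      (∀ (τ : Qb ≃ₐ[ℚ] Qb) (x : FBar (M₀ * q * q)),
        w (galFun (M₀ * q * q) τ x) = galFun (M₀ * q * q) τ (w x)) ∧
      WpswHyp M₀ q w ∧
      (∀ f, w f ∈ O.S.Ov ↔ f ∈ O.S.Ov) ∧
      (∀ f ∈ O.S.Ov, O.S.red (w f) = σ (O.S.red f)) ∧
      σ O.H.X1 = O.H.X2 ∧ σ O.H.X2 = O.H.X1 ∧ σ O.H.Yf = O.H.Yf := by
  have hcop : Nat.Coprime (q * q) M₀ :=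
    Nat.Coprime.mul_left ((Nat.Prime.coprime_iff_not_dvd hq).mpr hqM)
      ((Nat.Prime.coprime_iff_not_dvd hq).mpr hqM)
  obtain ⟨D, hQ, hR⟩ := ALData.exists_of_coprime (Q := q * q) (R := M₀)
    (Nat.mul_pos hq.pos hq.pos) (Nat.pos_of_ne_zero (NeZero.ne M₀)) hcop
  have hM : M₀ * q * q = D.Q * D.R := by rw [hQ, hR]; ring
  obtain ⟨σ, h1, h2, h3, h4⟩ := swapWire_final hq hA O D hQ hR hM
  exact ⟨wAt D hM, σ, wAt_wAt D hM, wAt_galFun D hM, wpswHyp_wAt D hQ hR hM,
    swapWire_mem_iff hq hA O D hQ hR hM, fun f hf => (h1 f hf).2, h2, h3, h4⟩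

end Wire

end Fermat.Agent.S36G
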