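import Mathlib
import Fermat.Agent.S36.HPVal.InertFinal
import Fermat.Agent.S36.G.InertEnds

set_option autoImplicit false
set_option linter.style.haveILetI false
set_option linter.unusedSectionVars false
set_option linter.unusedVariables false
set_option synthInstance.maxHeartbeats 400000

/-!
# S36 (cluster G), INERT: the fields of `InertVertexData` (hF3) supplied by block W-P  (helper71)

* `wpm_hor` : **the field `hor` of `InertVertexData`** at a supersingular vertex, from a `WPOut`: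
  `e_P := wpmEquiv`;
* `wpm_scaled_const_div`, `wpm_scaled_div_const` : `InertScaled S t (ϖ / u)`, `InertScaled S t (u / ϖ)`
  for `t = arithmeticGalois τ`, `τ u = u`, `ϖ ^ n` fixed by `τ` (the multiplier `τ ϖ / ϖ` is a root
  of unity, hence a unit of every valuation ring);
* `wpm_scaled_of_fixed` : `InertScaled S t u` for `τ u = u`.
-/

noncomputable section
attribute [local instance 10000] SubalgebraClass.toAlgebra HahnSeries.powerSeriesAlgebra

namespace Fermat.Agent.S36G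

open ModularCurve AlgebraicCurve Fermat.Agent.F3 Fermat.Agent.F3G Fermat.Agent.GaussInt
  Fermat.Agent.Deuring Fermat.Agent.BadRed Fermat.Agent.HPVal Fermat.Agent.HP Fermat.Agent.RR

local notation "Qb" => AlgebraicClosure ℚ

section Hor

variable {M₀ q : ℕ} [NeZero M₀] [NeZero q] {A : ValuationSubring Qb}
  {S0 : Fermat.Agent.S18Key.RedSetup Qb (FBar M₀) (IsLocalRing.ResidueField A)
    ↥(modularFunctionFieldFullC (IsLocalRing.ResidueField A) M₀)}
  {P : Place (IsLocalRing.ResidueField A)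
    ↥(modularFunctionFieldFullC (IsLocalRing.ResidueField A) M₀)}
  {FkP : Type} [Field FkP] [Algebra (IsLocalRing.ResidueField A) FkP]
  (O : WPOut M₀ q A S0 P FkP)

/-- **the field `hor` of `InertVertexData`** at the vertex `w_P`. -/
theorem wpm_hor (hq : q.Prime) (hA : A.LiesOverPrime q) (hqM : ¬ q ∣ M₀)
    (hS0 : IsGaussRed M₀ A S0) {τ : Qb ≃ₐ[ℚ] Qb} (hτ : τ ∈ A.inertiaSubgroupIn ℚ) :
    ∃ eP : FkP ≃ₐ[IsLocalRing.ResidueField A] FkP,
      ∀ f, f ∈ O.S.Ov →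
        arithmeticGalois (modularFunctionFieldFull (M₀ * q * q)) τ • f ∈ O.S.Ov ∧
          O.S.red (arithmeticGalois (modularFunctionFieldFull (M₀ * q * q)) τ • f) =
            eP (O.S.red f) :=
  ⟨wpmEquiv O hq hA hqM hS0 τ hτ, fun f hf =>
    ⟨wpm_mem_out O hq hA hqM hS0 hτ hf, wpm_red_out O hq hA hqM hS0 hτ hf⟩⟩

end Hor

section Scaled

variable {M : ℕ} [NeZero M] {k : Type*} [Field k] {κ : Type*} {Fk : κ → Type*} [∀ c, Field (Fk c)]
  [∀ c, Algebra k (Fk c)]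

/-- a fixed function is scaled (by `1`). -/
theorem wpm_scaled_of_fixed (S : ∀ c : κ, ValSetup Qb (FBar M) k (Fk c)) {τ : Qb ≃ₐ[ℚ] Qb}
    {u : FBar M} (hu : galFun M τ u = u) :
    InertScaled S (arithmeticGalois (modularFunctionFieldFull M) τ) u :=
  inertScaled_of_smul_eq S hu

/-- the tame multiplier `τ ϖ / ϖ` is a root of unity. -/
theorem wpm_tame_mult_pow {τ : Qb ≃ₐ[ℚ] Qb} {ϖ : Qb} (hϖ : ϖ ≠ 0) {n : ℕ}
    (hfix : τ (ϖ ^ n) = ϖ ^ n) : (τ ϖ / ϖ) ^ n = 1 := by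
  rw [div_pow, ← map_pow, hfix]
  exact div_self (pow_ne_zero n hϖ)

/-- `ϖ / u` is scaled by the tame multiplier. -/
theorem wpm_scaled_const_div (S : ∀ c : κ, ValSetup Qb (FBar M) k (Fk c)) {τ : Qb ≃ₐ[ℚ] Qb}
    {u : FBar M} (hu : galFun M τ u = u) {ϖ : Qb} (hϖ : ϖ ≠ 0) {n : ℕ} (hn : 0 < n)
    (hfix : τ (ϖ ^ n) = ϖ ^ n) :
    InertScaled S (arithmeticGalois (modularFunctionFieldFull M) τ)
      (algebraMap Qb (FBar M) ϖ / u) := by
  have hτϖ : τ ϖ ≠ 0 := (map_ne_zero_iff τ τ.injective).mpr hϖ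
  have h1 : (τ ϖ / ϖ) ^ n = 1 := wpm_tame_mult_pow hϖ hfix
  have h2 : ((τ ϖ / ϖ)⁻¹) ^ n = 1 := by rw [inv_pow, h1, inv_one]
  refine ⟨τ ϖ / ϖ, div_ne_zero hτϖ hϖ, fun c => wpi_root_mem (S c).A hn h1,
    fun c => wpi_root_mem (S c).A hn h2, ?_⟩
  have e : arithmeticGalois (modularFunctionFieldFull M) τ • (algebraMap Qb (FBar M) ϖ / u) =
      galFun M τ (algebraMap Qb (FBar M) ϖ / u) := rfl
  have e2 : galFun M τ (algebraMap Qb (FBar M) ϖ) = algebraMap Qb (FBar M) (τ ϖ) :=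
    (SemilinearAut.smul_algebraMap _ ϖ).trans (by rw [wpm_baseAut])
  rw [e, galFun_div, hu, e2, map_div₀]
  have hϖF : algebraMap Qb (FBar M) ϖ ≠ 0 :=
    (map_ne_zero_iff _ (algebraMap Qb (FBar M)).injective).mpr hϖ
  field_simp

/-- `u / ϖ` is scaled by the inverse of the tame multiplier. -/
theorem wpm_scaled_div_const (S : ∀ c : κ, ValSetup Qb (FBar M) k (Fk c)) {τ : Qb ≃ₐ[ℚ] Qb}
    {u : FBar M} (hu : galFun M τ u = u) {ϖ : Qb} (hϖ : ϖ ≠ 0) {n : ℕ} (hn : 0 < n)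
    (hfix : τ (ϖ ^ n) = ϖ ^ n) :
    InertScaled S (arithmeticGalois (modularFunctionFieldFull M) τ)
      (u / algebraMap Qb (FBar M) ϖ) := by
  have hτϖ : τ ϖ ≠ 0 := (map_ne_zero_iff τ τ.injective).mpr hϖ
  have h1 : (τ ϖ / ϖ) ^ n = 1 := wpm_tame_mult_pow hϖ hfix
  have h2 : ((τ ϖ / ϖ)⁻¹) ^ n = 1 := by rw [inv_pow, h1, inv_one]
  refine ⟨(τ ϖ / ϖ)⁻¹, inv_ne_zero (div_ne_zero hτϖ hϖ), fun c => wpi_root_mem (S c).A hn h2,
    fun c => by rw [inv_inv]; exact wpi_root_mem (S c).A hn h1, ?_⟩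
  have e : arithmeticGalois (modularFunctionFieldFull M) τ • (u / algebraMap Qb (FBar M) ϖ) =
      galFun M τ (u / algebraMap Qb (FBar M) ϖ) := rfl
  have e2 : galFun M τ (algebraMap Qb (FBar M) ϖ) = algebraMap Qb (FBar M) (τ ϖ) :=
    (SemilinearAut.smul_algebraMap _ ϖ).trans (by rw [wpm_baseAut])
  rw [e, galFun_div, hu, e2, map_inv₀, map_div₀]
  have hϖF : algebraMap Qb (FBar M) ϖ ≠ 0 :=
    (map_ne_zero_iff _ (algebraMap Qb (FBar M)).injective).mpr hϖ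
  have hτϖF : algebraMap Qb (FBar M) (τ ϖ) ≠ 0 :=
    (map_ne_zero_iff _ (algebraMap Qb (FBar M)).injective).mpr hτϖ
  field_simp

/-- a rational power: `τ (ϖ ^ n) = ϖ ^ n` if `ϖ ^ n` is a natural number. -/
theorem wpm_fix_of_pow_natCast (τ : Qb ≃ₐ[ℚ] Qb) {ϖ : Qb} {n m : ℕ} (h : ϖ ^ n = (m : Qb)) :
    τ (ϖ ^ n) = ϖ ^ n := by
  rw [h, map_natCast]

end Scaled

end Fermat.Agent.S36G
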