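import Mathlib
import Fermat.Agent.S36.HPVal.InertHor
import Fermat.Agent.S36.Seed.Main

set_option autoImplicit false
set_option linter.style.haveILetI false
set_option linter.unusedSectionVars false
set_option linter.unusedVariables false
set_option synthInstance.maxHeartbeats 400000

/-!
# S36 (cluster G), INERT: the four `sc` fields of `InertVertexData` in the shapes of the modular
`ModEndsInput` (`modEndsOfLeaves`: `u2 = u1 / ϖ1`)  (helper71)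

* `wpmsc_of_pow_one` : `t • f = a f` with `a ^ n = 1` gives `InertScaled S t f` (any `K`, `F`);
* `wpmsc_const_div_div` : `InertScaled S t (ϖ2 / (u / ϖ1))` for `τ u = u`, `ϖ1 ^ n`, `ϖ2 ^ n` fixed;
* `wpmsc_pow_fix` : `τ ((ϖ ^ j) ^ n) = (ϖ ^ j) ^ n` if `ϖ ^ n` is a natural number;
* `wpmsc_fields` : **the four fields `sc_u1`, `sc_u2'`, `sc_u1'`, `sc_u2`** for an `E : ModEndsInput`
  over `FBar M` with `E.u2 = E.u1 / ϖ1`, `τ u1 = u1`, `ϖ1 ^ n`, `ϖ2 ^ n` fixed by `τ`;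
* `wpmsc_fields_of_pow` : the same with `ϖ1 = ϖ ^ j1`, `ϖ2 = ϖ ^ j2`, `ϖ ^ n = m` a natural number.
-/

noncomputable section
attribute [local instance 10000] SubalgebraClass.toAlgebra HahnSeries.powerSeriesAlgebra

namespace Fermat.Agent.S36G

open ModularCurve AlgebraicCurve Fermat.Agent.F3 Fermat.Agent.F3G Fermat.Agent.GaussInt
  Fermat.Agent.Deuring Fermat.Agent.BadRed Fermat.Agent.HPVal Fermat.Agent.HP Fermat.Agent.RR
  Fermat.Agent.BadRedG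

local notation "Qb" => AlgebraicClosure ℚ

section Abs

variable {K F k : Type*} [Field K] [Field F] [Algebra K F] [Field k] {κ : Type*} {Fk : κ → Type*}
  [∀ c, Field (Fk c)] [∀ c, Algebra k (Fk c)]

/-- a function multiplied by a root of unity is scaled. -/
theorem wpmsc_of_pow_one (S : ∀ c : κ, ValSetup K F k (Fk c)) {t : SemilinearAut K F} {f : F}
    {a : K} {n : ℕ} (hn : 0 < n) (ha : a ^ n = 1) (h : t • f = algebraMap K F a * f) :
    InertScaled S t f := by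
  have ha0 : a ≠ 0 := by
    rintro rfl
    rw [zero_pow hn.ne'] at ha
    exact zero_ne_one ha
  have h2 : (a⁻¹) ^ n = 1 := by rw [inv_pow, ha, inv_one]
  exact ⟨a, ha0, fun c => wpi_root_mem (S c).A hn ha, fun c => wpi_root_mem (S c).A hn h2, h⟩

end Abs

section Mod

variable {M : ℕ} [NeZero M] {k : Type*} [Field k] {κ : Type*} {Fk : κ → Type*} [∀ c, Field (Fk c)]
  [∀ c, Algebra k (Fk c)]

/-- the Galois action on a constant. -/
theorem wpmsc_galFun_const (τ : Qb ≃ₐ[ℚ] Qb) (c : Qb) :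
    galFun M τ (algebraMap Qb (FBar M) c) = algebraMap Qb (FBar M) (τ c) :=
  (SemilinearAut.smul_algebraMap _ c).trans (by rw [wpm_baseAut])

/-- `ϖ2 / (u / ϖ1)` is scaled by the product of the two tame multipliers. -/
theorem wpmsc_const_div_div (S : ∀ c : κ, ValSetup Qb (FBar M) k (Fk c)) {τ : Qb ≃ₐ[ℚ] Qb}
    {u : FBar M} (hu : galFun M τ u = u) {ϖ1 ϖ2 : Qb} (hϖ1 : ϖ1 ≠ 0) (hϖ2 : ϖ2 ≠ 0) {n : ℕ}
    (hn : 0 < n) (hfix1 : τ (ϖ1 ^ n) = ϖ1 ^ n) (hfix2 : τ (ϖ2 ^ n) = ϖ2 ^ n) :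
    InertScaled S (arithmeticGalois (modularFunctionFieldFull M) τ)
      (algebraMap Qb (FBar M) ϖ2 / (u / algebraMap Qb (FBar M) ϖ1)) := by
  have hτ1 : τ ϖ1 ≠ 0 := (map_ne_zero_iff τ τ.injective).mpr hϖ1
  have hτ2 : τ ϖ2 ≠ 0 := (map_ne_zero_iff τ τ.injective).mpr hϖ2
  have h1 : (τ ϖ1 / ϖ1) ^ n = 1 := wpm_tame_mult_pow hϖ1 hfix1
  have h2 : (τ ϖ2 / ϖ2) ^ n = 1 := wpm_tame_mult_pow hϖ2 hfix2
  have h12 : ((τ ϖ2 / ϖ2) * (τ ϖ1 / ϖ1)) ^ n = 1 := by rw [mul_pow, h1, h2, one_mul]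
  refine wpmsc_of_pow_one S hn h12 ?_
  have e : arithmeticGalois (modularFunctionFieldFull M) τ •
      (algebraMap Qb (FBar M) ϖ2 / (u / algebraMap Qb (FBar M) ϖ1)) =
      galFun M τ (algebraMap Qb (FBar M) ϖ2 / (u / algebraMap Qb (FBar M) ϖ1)) := rfl
  rw [e, galFun_div, galFun_div, hu, wpmsc_galFun_const, wpmsc_galFun_const, map_mul, map_div₀,
    map_div₀]
  have hϖ1F : algebraMap Qb (FBar M) ϖ1 ≠ 0 :=
    (map_ne_zero_iff _ (algebraMap Qb (FBar M)).injective).mpr hϖ1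
  have hϖ2F : algebraMap Qb (FBar M) ϖ2 ≠ 0 :=
    (map_ne_zero_iff _ (algebraMap Qb (FBar M)).injective).mpr hϖ2
  have hτ1F : algebraMap Qb (FBar M) (τ ϖ1) ≠ 0 :=
    (map_ne_zero_iff _ (algebraMap Qb (FBar M)).injective).mpr hτ1
  by_cases hu0 : u = 0
  · subst hu0
    simp
  field_simp

/-- powers of a root of a natural number have a fixed power. -/
theorem wpmsc_pow_fix (τ : Qb ≃ₐ[ℚ] Qb) {ϖ : Qb} {n m : ℕ} (h : ϖ ^ n = (m : Qb)) (j : ℕ) :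
    τ ((ϖ ^ j) ^ n) = (ϖ ^ j) ^ n := by
  rw [← pow_mul, mul_comm, pow_mul, h, ← Nat.cast_pow, map_natCast]

end Mod

section Fields

variable {M : ℕ} [NeZero M] {k : Type} [Field k]
  {Mid SS : Type} [Fintype Mid] [Fintype SS]
  {Fk0 : Type} [Field Fk0] [Algebra k Fk0]
  {FkM : Mid → Type} [∀ m, Field (FkM m)] [∀ m, Algebra k (FkM m)]
  {FkP : SS → Type} [∀ P, Field (FkP P)] [∀ P, Algebra k (FkP P)]

/-- **the four `sc` fields of `InertVertexData`** for a modular `ModEndsInput` with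
`u2 = u1 / ϖ1`. -/
theorem wpmsc_fields (E : ModEndsInput Qb (FBar M) k Mid SS Fk0 FkM FkP) {τ : Qb ≃ₐ[ℚ] Qb}
    (hu1 : galFun M τ E.u1 = E.u1) (hu2 : E.u2 = E.u1 / algebraMap Qb (FBar M) E.ϖ1)
    (hϖ1 : E.ϖ1 ≠ 0) (hϖ2 : E.ϖ2 ≠ 0) {n : ℕ} (hn : 0 < n)
    (hfix1 : τ (E.ϖ1 ^ n) = E.ϖ1 ^ n) (hfix2 : τ (E.ϖ2 ^ n) = E.ϖ2 ^ n) :
    InertScaled E.S (arithmeticGalois (modularFunctionFieldFull M) τ) E.u1 ∧
    InertScaled E.S (arithmeticGalois (modularFunctionFieldFull M) τ)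
      (algebraMap Qb (FBar M) E.ϖ2 / E.u2) ∧
    InertScaled E.S (arithmeticGalois (modularFunctionFieldFull M) τ)
      (algebraMap Qb (FBar M) E.ϖ1 / E.u1) ∧
    InertScaled E.S (arithmeticGalois (modularFunctionFieldFull M) τ) E.u2 := by
  refine ⟨wpm_scaled_of_fixed E.S hu1, ?_, wpm_scaled_const_div E.S hu1 hϖ1 hn hfix1, ?_⟩
  · rw [hu2]
    exact wpmsc_const_div_div E.S hu1 hϖ1 hϖ2 hn hfix1 hfix2
  · rw [hu2]
    exact wpm_scaled_div_const E.S hu1 hϖ1 hn hfix1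

/-- the same with `ϖ1`, `ϖ2` powers of one root `ϖ` of a natural number. -/
theorem wpmsc_fields_of_pow (E : ModEndsInput Qb (FBar M) k Mid SS Fk0 FkM FkP) {τ : Qb ≃ₐ[ℚ] Qb}
    (hu1 : galFun M τ E.u1 = E.u1) (hu2 : E.u2 = E.u1 / algebraMap Qb (FBar M) E.ϖ1)
    {ϖ : Qb} (hϖ : ϖ ≠ 0) {n m : ℕ} (hn : 0 < n) (h : ϖ ^ n = (m : Qb)) {j1 j2 : ℕ}
    (h1 : E.ϖ1 = ϖ ^ j1) (h2 : E.ϖ2 = ϖ ^ j2) :
    InertScaled E.S (arithmeticGalois (modularFunctionFieldFull M) τ) E.u1 ∧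
    InertScaled E.S (arithmeticGalois (modularFunctionFieldFull M) τ)
      (algebraMap Qb (FBar M) E.ϖ2 / E.u2) ∧
    InertScaled E.S (arithmeticGalois (modularFunctionFieldFull M) τ)
      (algebraMap Qb (FBar M) E.ϖ1 / E.u1) ∧
    InertScaled E.S (arithmeticGalois (modularFunctionFieldFull M) τ) E.u2 :=
  wpmsc_fields E hu1 hu2 (by rw [h1]; exact pow_ne_zero _ hϖ) (by rw [h2]; exact pow_ne_zero _ hϖ)
    hn (by rw [h1]; exact wpmsc_pow_fix τ h j1) (by rw [h2]; exact wpmsc_pow_fix τ h j2)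

/-- the same with `ϖ2 = c / ϖ1`, `c` fixed by `τ` (shape of `mn2_data_mod`: `c = q ^ 12`). -/
theorem wpmsc_fields_of_div (E : ModEndsInput Qb (FBar M) k Mid SS Fk0 FkM FkP) {τ : Qb ≃ₐ[ℚ] Qb}
    (hu1 : galFun M τ E.u1 = E.u1) (hu2 : E.u2 = E.u1 / algebraMap Qb (FBar M) E.ϖ1)
    (hϖ1 : E.ϖ1 ≠ 0) {c : Qb} (hc : c ≠ 0) (hτc : τ c = c) (h2 : E.ϖ2 = c / E.ϖ1) {n : ℕ}
    (hn : 0 < n) (hfix1 : τ (E.ϖ1 ^ n) = E.ϖ1 ^ n) :
    InertScaled E.S (arithmeticGalois (modularFunctionFieldFull M) τ) E.u1 ∧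
    InertScaled E.S (arithmeticGalois (modularFunctionFieldFull M) τ)
      (algebraMap Qb (FBar M) E.ϖ2 / E.u2) ∧
    InertScaled E.S (arithmeticGalois (modularFunctionFieldFull M) τ)
      (algebraMap Qb (FBar M) E.ϖ1 / E.u1) ∧
    InertScaled E.S (arithmeticGalois (modularFunctionFieldFull M) τ) E.u2 :=
  wpmsc_fields E hu1 hu2 hϖ1 (by rw [h2]; exact div_ne_zero hc hϖ1) hn hfix1
    (by rw [h2, div_pow, map_div₀, hfix1, map_pow, hτc])

/-- the same with `ϖ1 = ϖ ^ j`, `ϖ ^ n = m` a natural number, `ϖ2 = c / ϖ1`, `c` a natural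
number (`c = q ^ 12`). -/
theorem wpmsc_fields_of_pow_div (E : ModEndsInput Qb (FBar M) k Mid SS Fk0 FkM FkP)
    {τ : Qb ≃ₐ[ℚ] Qb}
    (hu1 : galFun M τ E.u1 = E.u1) (hu2 : E.u2 = E.u1 / algebraMap Qb (FBar M) E.ϖ1)
    {ϖ : Qb} (hϖ : ϖ ≠ 0) {n m : ℕ} (hn : 0 < n) (h : ϖ ^ n = (m : Qb)) {j : ℕ}
    (h1 : E.ϖ1 = ϖ ^ j) {c : ℕ} (hc : c ≠ 0) (h2 : E.ϖ2 = (c : Qb) / E.ϖ1) :
    InertScaled E.S (arithmeticGalois (modularFunctionFieldFull M) τ) E.u1 ∧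
    InertScaled E.S (arithmeticGalois (modularFunctionFieldFull M) τ)
      (algebraMap Qb (FBar M) E.ϖ2 / E.u2) ∧
    InertScaled E.S (arithmeticGalois (modularFunctionFieldFull M) τ)
      (algebraMap Qb (FBar M) E.ϖ1 / E.u1) ∧
    InertScaled E.S (arithmeticGalois (modularFunctionFieldFull M) τ) E.u2 :=
  wpmsc_fields_of_div E hu1 hu2 (by rw [h1]; exact pow_ne_zero _ hϖ)
    (Nat.cast_ne_zero.mpr hc) (map_natCast τ c) h2 hn (by rw [h1]; exact wpmsc_pow_fix τ h j)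

/-- **the four `sc` fields in terms of the seed data** `hb : E.ϖ1 ^ nn = b`,
`h12 : E.ϖ1 * E.ϖ2 = b` (names of `ModEndsInput.ymodSeed`), `b ≠ 0` fixed by `τ`. -/
theorem wpmsc_fields_seed (E : ModEndsInput Qb (FBar M) k Mid SS Fk0 FkM FkP) {τ : Qb ≃ₐ[ℚ] Qb}
    (hu1 : galFun M τ E.u1 = E.u1) (hu2 : E.u2 = E.u1 / algebraMap Qb (FBar M) E.ϖ1)
    {b : Qb} {nn : ℕ} (hnn : 0 < nn) (hb : E.ϖ1 ^ nn = b) (h12 : E.ϖ1 * E.ϖ2 = b)
    (hb0 : b ≠ 0) (hτb : τ b = b) :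
    InertScaled E.S (arithmeticGalois (modularFunctionFieldFull M) τ) E.u1 ∧
    InertScaled E.S (arithmeticGalois (modularFunctionFieldFull M) τ)
      (algebraMap Qb (FBar M) E.ϖ2 / E.u2) ∧
    InertScaled E.S (arithmeticGalois (modularFunctionFieldFull M) τ)
      (algebraMap Qb (FBar M) E.ϖ1 / E.u1) ∧
    InertScaled E.S (arithmeticGalois (modularFunctionFieldFull M) τ) E.u2 := by
  have hϖ1 : E.ϖ1 ≠ 0 := by
    intro h0
    rw [h0, zero_pow hnn.ne'] at hb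
    exact hb0 hb.symm
  have h2 : E.ϖ2 = b / E.ϖ1 := by
    rw [← h12, mul_div_cancel_left₀ _ hϖ1]
  exact wpmsc_fields_of_div E hu1 hu2 hϖ1 hb0 hτb h2 hnn (by rw [hb, hτb])

end Fields

section Seed

variable {K F k : Type} [Field K] [Field F] [Algebra K F] [Field k]
  {Mid SS : Type} [Fintype Mid] [Fintype SS]
  {Fk0 : Type} [Field Fk0] [Algebra k Fk0]
  {FkM : Mid → Type} [∀ m, Field (FkM m)] [∀ m, Algebra k (FkM m)]
  {FkP : SS → Type} [∀ P, Field (FkP P)] [∀ P, Algebra k (FkP P)]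

/-- the seed function `x = u₁ + b / u₁ + y` is fixed by a semilinear automorphism fixing `u₁`
and the constant `b`. -/
theorem wpmsc_ymodX_fixed (E : ModEndsInput K F k Mid SS Fk0 FkM FkP) (t : SemilinearAut K F)
    (hu : t • E.u1 = E.u1) {b : K} (hb : t • algebraMap K F b = algebraMap K F b) (n : ℕ) :
    t • E.ymodX b n = E.ymodX b n := by
  rw [E.ymodX_eq, ymodY_def]
  simp only [smul_add, smul_div₀', smul_mul', smul_pow', smul_sub, hu, hb]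

end Seed

section SeedMod

variable {M : ℕ} [NeZero M] {k : Type} [Field k]
  {Mid SS : Type} [Fintype Mid] [Fintype SS]
  {Fk0 : Type} [Field Fk0] [Algebra k Fk0]
  {FkM : Mid → Type} [∀ m, Field (FkM m)] [∀ m, Algebra k (FkM m)]
  {FkP : SS → Type} [∀ P, Field (FkP P)] [∀ P, Algebra k (FkP P)]

/-- the modular seed function is fixed by `τ` if `u₁` and `b` are. -/
theorem wpmsc_ymodX_fixed_mod (E : ModEndsInput Qb (FBar M) k Mid SS Fk0 FkM FkP)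
    {τ : Qb ≃ₐ[ℚ] Qb} (hu1 : galFun M τ E.u1 = E.u1) {b : Qb} (hτb : τ b = b) (n : ℕ) :
    arithmeticGalois (modularFunctionFieldFull M) τ • E.ymodX b n = E.ymodX b n :=
  wpmsc_ymodX_fixed E _ hu1 ((wpmsc_galFun_const τ b).trans (by rw [hτb])) n

end SeedMod

end Fermat.Agent.S36G
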