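/-
Cluster G (S36, bad reduction at `q² ∥ M`), block W-P, seat DIST-FINAL (helper19; sub-architect
helper59; split with helper68, `S36/G/ModIndep.lean`): **the four pairs of `GraphCore.indep` with a
horizontal vertex**, from the output `WPOut` of block W-P.

`O : WPOut M₀ q A S0 P FkP` the constant reduction `w_P` of `F = F_{M₀ q q}` (`S36/HPVal/Defs.lean`),
`W = (ι₀ t - a) / ϖ` a unit of `w_P`, `ϖ ^ (q + 1) = q`.  The function `u = ι₀ (t - a)` is OLD and
`t - a` is a unit of the Gauss valuation of level `M₀` (its reduction `t̄ - ā` is a uniformiser at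
`P`), so `u` is a unit of every valuation ring `T` of `F` which contains the old functions of the
Gauss-integral functions of level `M₀`; as `u / ϖ` is a unit of `w_P` and `v (ϖ) ≠ 1`, `T` and
`w_P` are incomparable.  No SEED-UP input is needed.

* `distFinal_of_old`   : ABSTRACT in `T`: `T ⊇ ι₀ (Gauss ring of level M₀)`  ⟹  `T`, `w_P` incomparable;
* `distFinal_inf_hor`  : `(∞, P)`, `T = S_∞` ANY Gauss setup of level `M₀ q q`;
* `distFinal_zero_hor` : `(0, P)`, `T = valSetupZeroAt D hM S_∞` (`v_0 = v_∞ ∘ w_{q²}`);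
* `distFinal_mid_hor`  : `(m, P)`, `T = Sz` with `Sz.Ov = expOv ε A`, `ε` a middle expansion;
* `distFinal_hor_hor`  : `(P, P')`, `P ≠ P'` supersingular: an integral old function with cuspidal
  poles and values `1`, `0` at `P`, `P'` (`seedOld_exists_sep`) lies in `R_P ∩ R_P'`
  (helper10's `IsGaussRed.mem_discRing`), `WPOut.old0` at `P` and at `P'`.
  ANY Gauss reduction package `S0` (`IsGaussRed`), all `q` (`AuxLevelOK`).
-/
import Mathlib
import Fermat.Agent.S36.HPVal.Defs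
import Fermat.Agent.S36.HPVal.Dist
import Fermat.Agent.S36.HPVal.DiscModG
import Fermat.Agent.S36.Seed.OldZero
import Fermat.Agent.S36.Seed.OldSep
import Fermat.Agent.S36.Val.Restr

set_option autoImplicit false
set_option linter.style.haveILetI false
set_option linter.unusedSectionVars false
set_option synthInstance.maxHeartbeats 400000

noncomputable section
attribute [local instance 10000] SubalgebraClass.toAlgebra HahnSeries.powerSeriesAlgebra

namespace Fermat.Agent.S36G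

open ModularCurve AlgebraicCurve IntermediateField Fermat.Agent.F3 Fermat.Agent.F3G
  Fermat.Agent.GaussInt Fermat.Agent.Deuring Fermat.Agent.BadRed Fermat.Agent.HPVal
  Fermat.Agent.HP Fermat.Agent.AtkinLehner

local notation "Qb" => AlgebraicClosure ℚ

/-! ### the unit `t - a` of the Gauss valuation of level `M₀` -/

section Unit

variable {M₀ q : ℕ} [NeZero M₀] [NeZero q] {A : ValuationSubring Qb}
  {S0 : Fermat.Agent.S18Key.RedSetup Qb (FBar M₀) (IsLocalRing.ResidueField A)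
    ↥(modularFunctionFieldFullC (IsLocalRing.ResidueField A) M₀)}
  {P : Place (IsLocalRing.ResidueField A)
    ↥(modularFunctionFieldFullC (IsLocalRing.ResidueField A) M₀)}
  {FkP : Type} [Field FkP] [Algebra (IsLocalRing.ResidueField A) FkP]
  (O : WPOut M₀ q A S0 P FkP)

/-- `t` is Gauss-integral. -/
theorem distFinal_t_mem : O.t ∈ S0.Ov := (O.t_mem O.P' O.ss').1

/-- `a ∈ S0.A`. -/
theorem distFinal_a_mem (hS0 : IsGaussRed M₀ A S0) : O.a ∈ S0.A := by
  rw [hS0.A_eq]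
  exact O.a_mem

/-- `t - a` is a unit of the Gauss valuation ring of level `M₀`. -/
theorem distFinal_isU (hS0 : IsGaussRed M₀ A S0) :
    S0.IsU (O.t - algebraMap Qb (FBar M₀) O.a) := by
  have hmem : O.t - algebraMap Qb (FBar M₀) O.a ∈ S0.Ov :=
    sub_mem (distFinal_t_mem O)
      ((Fermat.Agent.S18Key.const_mem_iff _).mpr (distFinal_a_mem O hS0))
  refine Fermat.Agent.S18Key.isU_of_red_ne_zero hmem ?_
  rw [Fermat.Agent.S18Key.red_sub (distFinal_t_mem O)
      ((Fermat.Agent.S18Key.const_mem_iff _).mpr (distFinal_a_mem O hS0)),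
    Fermat.Agent.S18Key.red_const (distFinal_a_mem O hS0),
    hS0.res_eq O.a (distFinal_a_mem O hS0) O.a_mem]
  intro h0
  have h1 := O.ord_t
  rw [h0, Place.ord_zero] at h1
  exact absurd h1 (by norm_num)

/-- the expansion of `t - a` is Gauss-integral. -/
theorem distFinal_coe_mem (hS0 : IsGaussRed M₀ A S0) :
    ((O.t - algebraMap Qb (FBar M₀) O.a : FBar M₀) : LaurentSeries Qb) ∈
      gaussSub A (modularFunctionFieldBar M₀) :=
  (hS0.mem_iff _).mp (distFinal_isU O hS0).mem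

/-- the expansion of `(t - a)⁻¹` is Gauss-integral. -/
theorem distFinal_coe_inv_mem (hS0 : IsGaussRed M₀ A S0) :
    (((O.t - algebraMap Qb (FBar M₀) O.a)⁻¹ : FBar M₀) : LaurentSeries Qb) ∈
      gaussSub A (modularFunctionFieldBar M₀) :=
  (hS0.mem_iff _).mp (distFinal_isU O hS0).inv_mem

/-- `ι₀ (t - a) / ϖ = W`. -/
theorem distFinal_div_eq :
    wpIota0 M₀ q (O.t - algebraMap Qb (FBar M₀) O.a) /
        algebraMap Qb (FBar (M₀ * q * q)) O.ϖ = wpW M₀ q O.t O.a O.ϖ := by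
  unfold wpW
  rw [map_sub, AlgHom.commutes]

/-- **ABSTRACT FORM**: a constant reduction `T` of `F_{M₀ q q}` over `A` whose valuation ring
contains the old functions `ι₀ g₀`, `g₀` Gauss-integral of level `M₀`, is incomparable with
`w_P`. -/
theorem distFinal_of_old (hS0 : IsGaussRed M₀ A S0) (hA : A.LiesOverPrime q)
    {FkT : Type*} [Field FkT] [Algebra (IsLocalRing.ResidueField A) FkT]
    (T : ValSetup Qb (FBar (M₀ * q * q)) (IsLocalRing.ResidueField A) FkT) (hTA : T.A = A)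
    (hold : ∀ g₀ : FBar M₀,
      (g₀ : LaurentSeries Qb) ∈ gaussSub A (modularFunctionFieldBar M₀) →
        wpIota0 M₀ q g₀ ∈ T.Ov) :
    ¬ T.Ov ≤ O.S.Ov ∧ ¬ O.S.Ov ≤ T.Ov := by
  have hU := distFinal_isU O hS0
  have h1 : wpIota0 M₀ q (O.t - algebraMap Qb (FBar M₀) O.a) ∈ T.Ov :=
    hold _ (distFinal_coe_mem O hS0)
  have h2 : (wpIota0 M₀ q (O.t - algebraMap Qb (FBar M₀) O.a))⁻¹ ∈ T.Ov := by
    rw [← map_inv₀]
    exact hold _ (distFinal_coe_inv_mem O hS0)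
  have h0 : wpIota0 M₀ q (O.t - algebraMap Qb (FBar M₀) O.a) ≠ 0 :=
    (map_ne_zero (wpIota0 M₀ q)).mpr hU.ne_zero
  have hT : T.red (wpIota0 M₀ q (O.t - algebraMap Qb (FBar M₀) O.a) /
      algebraMap Qb (FBar (M₀ * q * q)) 1) ≠ 0 := by
    rw [map_one, div_one]
    exact T.red_ne_zero h1 h2 h0
  have hW : O.S.red (wpIota0 M₀ q (O.t - algebraMap Qb (FBar M₀) O.a) /
      algebraMap Qb (FBar (M₀ * q * q)) O.ϖ) ≠ 0 := by
    rw [distFinal_div_eq, O.red_W]
    exact O.H.X1_ne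
  have hB : (q : Qb) ∈ T.A.nonunits := by
    rw [hTA]
    exact hA
  have hϖ : T.A.valuation O.ϖ ≠ 1 := by
    refine dist_val_ne_one T.A hB (n := q + 1) (m := 1) Nat.one_pos ?_
    rw [← map_pow, O.ϖ_pow, pow_one]
  refine dist_of_scale T O.S (hTA.trans O.A_eq.symm) _ 1 O.ϖ hT hW ?_
  rw [map_one]
  exact hϖ.symm

end Unit

/-! ### the three vertical types -/

section Vert

variable {M₀ q : ℕ} [NeZero M₀] [NeZero q] {A : ValuationSubring Qb}
  {S0 : Fermat.Agent.S18Key.RedSetup Qb (FBar M₀) (IsLocalRing.ResidueField A)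
    ↥(modularFunctionFieldFullC (IsLocalRing.ResidueField A) M₀)}
  {P : Place (IsLocalRing.ResidueField A)
    ↥(modularFunctionFieldFullC (IsLocalRing.ResidueField A) M₀)}
  {FkP : Type} [Field FkP] [Algebra (IsLocalRing.ResidueField A) FkP]
  (O : WPOut M₀ q A S0 P FkP)

/-- `F_{M₀} ≤ F_{M₀ q q}`. -/
theorem distFinal_level_le (M₀ q : ℕ) [NeZero M₀] [NeZero q] :
    modularFunctionFieldBar M₀ ≤ modularFunctionFieldBar (M₀ * q * q) :=
  (le_level_mul_right M₀ q).trans (le_level_mul_right (M₀ * q) q)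

/-- `ι₀ g₀` is the old function of `g₀`. -/
theorem distFinal_isOldOf (g₀ : FBar M₀) : IsOldOf (wpIota0 M₀ q g₀) g₀ :=
  isOldOf_oldFun2 M₀ q g₀

/-- **the pair `(∞, P)`**: `v_∞` (ANY Gauss setup of level `M₀ q q`) and `w_P` are
incomparable. -/
theorem distFinal_inf_hor (hS0 : IsGaussRed M₀ A S0) (hA : A.LiesOverPrime q)
    {N₂ : ℕ} [NeZero N₂]
    {S₂ : ValSetup Qb (FBar (M₀ * q * q)) (IsLocalRing.ResidueField A)
      (modularFunctionFieldFullC (IsLocalRing.ResidueField A) N₂)}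
    (hS₂ : IsGaussSetup (M₀ * q * q) N₂ A S₂) :
    ¬ S₂.Ov ≤ O.S.Ov ∧ ¬ O.S.Ov ≤ S₂.Ov :=
  distFinal_of_old O hS0 hA S₂ hS₂.A_eq fun g₀ hg₀ =>
    isOldOf_mem_gauss hS₂ (distFinal_level_le M₀ q) (distFinal_isOldOf g₀) hg₀

/-- **the pair `(0, P)`**: `v_0 = v_∞ ∘ w_{q²}` and `w_P` are incomparable. -/
theorem distFinal_zero_hor (hS0 : IsGaussRed M₀ A S0) (hA : A.LiesOverPrime q)
    {N₂ : ℕ} [NeZero N₂]
    {S₂ : ValSetup Qb (FBar (M₀ * q * q)) (IsLocalRing.ResidueField A)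
      (modularFunctionFieldFullC (IsLocalRing.ResidueField A) N₂)}
    (hS₂ : IsGaussSetup (M₀ * q * q) N₂ A S₂)
    (D : ALData) [NeZero D.Q] [NeZero D.R] [NeZero (D.Q * D.R)]
    (hM : M₀ * q * q = D.Q * D.R) (hR : M₀ = D.R) :
    ¬ (valSetupZeroAt D hM S₂).Ov ≤ O.S.Ov ∧ ¬ O.S.Ov ≤ (valSetupZeroAt D hM S₂).Ov :=
  distFinal_of_old O hS0 hA (valSetupZeroAt D hM S₂)
    ((valSetupZeroAt_A D hM S₂).trans hS₂.A_eq) fun g₀ hg₀ =>
      isOldTwist_mem_zero hS₂ (wAt D hM) D.Q (qExpand_mem_of_level_eq D hM hR)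
        (isOldTwist_wAt D hM hR (distFinal_isOldOf g₀)) hg₀

/-- **the pair `(m, P)`**: a middle valuation `v_z` (valuation ring `expOv ε A`, `ε` a middle
expansion) and `w_P` are incomparable. -/
theorem distFinal_mid_hor (hS0 : IsGaussRed M₀ A S0) (hA : A.LiesOverPrime q)
    {Fkz : Type*} [Field Fkz] [Algebra (IsLocalRing.ResidueField A) Fkz]
    (Sz : ValSetup Qb (FBar (M₀ * q * q)) (IsLocalRing.ResidueField A) Fkz) (hAz : Sz.A = A)
    {z : Qbˣ} {ε : ↥(modularFunctionFieldBar (M₀ * q * q)) →ₐ[Qb] LaurentSeries Qb}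
    (hε : IsMidExp M₀ q z ε) (hSz : ∀ f : FBar (M₀ * q * q), f ∈ Sz.Ov ↔ f ∈ expOv ε A) :
    ¬ Sz.Ov ≤ O.S.Ov ∧ ¬ O.S.Ov ≤ Sz.Ov :=
  distFinal_of_old O hS0 hA Sz hAz fun g₀ hg₀ =>
    (hSz _).mpr (isOldOf_mem_expOv M₀ q hε (distFinal_isOldOf g₀) hg₀)

/-- the same for a middle setup in the sense of `IsMidSetup`. -/
theorem distFinal_midSetup_hor (hS0 : IsGaussRed M₀ A S0) (hA : A.LiesOverPrime q)
    {Sz : ValSetup Qb ↥(modularFunctionFieldBar (M₀ * q * q)) (IsLocalRing.ResidueField A)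
      ↥(igField (IsLocalRing.ResidueField A) M₀)}
    {z : Qbˣ} {ε : ↥(modularFunctionFieldBar (M₀ * q * q)) →ₐ[Qb] LaurentSeries Qb}
    (hε : IsMidExp M₀ q z ε) (hSz : IsMidSetup M₀ q A ε Sz) :
    ¬ Sz.Ov ≤ O.S.Ov ∧ ¬ O.S.Ov ≤ Sz.Ov :=
  distFinal_mid_hor O hS0 hA Sz hSz.A_eq hε hSz.mem_iff

end Vert

/-! ### the pair `(P, P')` -/

section HorHor

variable {M₀ q : ℕ} [NeZero M₀] [NeZero q] {A : ValuationSubring Qb}
  {S0 : Fermat.Agent.S18Key.RedSetup Qb (FBar M₀) (IsLocalRing.ResidueField A)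
    ↥(modularFunctionFieldFullC (IsLocalRing.ResidueField A) M₀)}
  {P P' : Place (IsLocalRing.ResidueField A)
    ↥(modularFunctionFieldFullC (IsLocalRing.ResidueField A) M₀)}
  {FkP : Type} [Field FkP] [Algebra (IsLocalRing.ResidueField A) FkP]
  {FkP' : Type} [Field FkP'] [Algebra (IsLocalRing.ResidueField A) FkP']

/-- **the pair `(P, P')`**, `P ≠ P'` supersingular: `w_P` and `w_P'` are incomparable. -/
theorem distFinal_hor_hor (hS0 : IsGaussRed M₀ A S0) (hq : q.Prime) (hqM : ¬ q ∣ M₀)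
    (haux : AuxLevelOK q M₀) (hA : A.LiesOverPrime q)
    (hP : IsSSPlace (IsLocalRing.ResidueField A) M₀ q P)
    (hP' : IsSSPlace (IsLocalRing.ResidueField A) M₀ q P') (hne : P ≠ P')
    (O : WPOut M₀ q A S0 P FkP) (O' : WPOut M₀ q A S0 P' FkP') :
    ¬ O.S.Ov ≤ O'.S.Ov ∧ ¬ O'.S.Ov ≤ O.S.Ov := by
  obtain ⟨g₀, h1, h2, -, h4, h5⟩ := seedOld_exists_sep M₀ hq hqM haux hA hP hP' hne
  rw [← hS0.red_eq hq hA hqM] at h4 h5
  obtain ⟨a1, a2⟩ := O.old0 g₀
    (hS0.mem_discRing hq hA hqM h1 h2 (seedOld_ord_jC_nonneg M₀ hq hA hP)) 1 h4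
  obtain ⟨b1, b2⟩ := O'.old0 g₀
    (hS0.mem_discRing hq hA hqM h1 h2 (seedOld_ord_jC_nonneg M₀ hq hA hP')) 0 h5
  refine dist_of_red_ne O.S O'.S (O.A_eq.trans O'.A_eq.symm) (fun x h h' => ?_) _ a1 b1 1 0
    a2 b2 one_ne_zero
  have hx : x ∈ A := O.A_eq ▸ h
  rw [O.res_eq x h hx, O'.res_eq x h' hx]

end HorHor

end Fermat.Agent.S36G
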