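/-
Cluster G (S36), block W-P, seat S1-MOD (helper6; sub-architect helper59, batch 2 item 12).

**The disc valuation `S₁` of `F₀ = ℚ̄ · F_{M}` around a non-cuspidal point `P` of the special
fibre, as a constant reduction with the lattice property** -- the modular instance of
DISC-SETUP (helper75, `Lib/BadRed/HPVal/DiscSetup.lean`) + DISC-LAT (helper29, helper51,
`DiscLatAsm.lean`, `DiscLatWrap.lean`) on top of DISC-MOD (helper10, `DiscMod.lean`).

ABSTRACT part (`S : S18Key.RedSetup K F k Fk`, `D : DiscPoint S P Pt t`, radius `π ∈ m_A`):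

* `d1mAbs`              : the constant reduction `S₁ : ValSetup K F k (RatFunc k)` of the disc
                          `|t| ≤ |π|` around `Pt`;
* `d1mAbs_hasLattice`   : `HasLattice S₁`;
* `d1mAbs_isDiscVal`, `d1mAbs_unique`, `d1mAbs_mem`, `d1mAbs_red_mem`, `d1mAbs_red_valAt`,
  `d1mAbs_red_W`, `d1mAbs_red_W'` : `S₁.Ov` is THE disc valuation ring; `R_P ⊆ S₁.Ov` and the
                          reduction of `b ∈ R_P` is the CONSTANT `(red b)(P)`; `red (t / π) = X`.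

MODULAR part (`A ∣ q`, `q ∤ M`, `S0 = wpdSetup`, any radius `π ∈ m_A`, `π ≠ 0`; for W-P the
radius is `π = ϖ ^ q`, `ϖ ^ (q + 1) = q`):

* `d1m_pow_props`       : `ϖ ^ n ≠ 0`, `ϖ ^ n ∈ A`, `(ϖ ^ n)⁻¹ ∉ A` for `n ≠ 0`;
* `d1mSetup`            : the constant reduction `S₁` at `P` for a `DiscPoint`;
* `d1m_A`, `d1m_res_eq`, `d1m_hasLattice`, `d1m_discData`, `d1m_isDiscVal`, `d1m_unique`,
  `d1m_mem`, `d1m_red_valAt`, `d1m_red_W` : its properties;
* `d1m_exists`          : **S1-MOD**, existence form, from `t ∈ R_P` with `t̄` a uniformiser at `P`;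
* `d1m_exists_of_exT`   : the same from the datum of EX_t (`ExTDatum`).
-/
import Mathlib
import Fermat.Agent.S36.HPVal.DiscMod
import Fermat.Agent.Lib.BadRed.HPVal.DiscSetup
import Fermat.Agent.Lib.BadRed.HPVal.DiscLatAsm
import Fermat.Agent.Lib.BadRed.HPVal.DiscLatWrap

set_option autoImplicit false
set_option linter.style.haveILetI false
set_option linter.unusedSectionVars false
set_option linter.unusedVariables false
set_option synthInstance.maxHeartbeats 400000

noncomputable section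

namespace Fermat.Agent.S36G

open ModularCurve AlgebraicCurve Fermat.Agent.Deuring Fermat.Agent.GaussInt Fermat.Agent.FF
  Fermat.Agent.HPVal Fermat.Agent.S18Key Fermat.Agent.RR Fermat.Agent.BadRed

local notation "Qb" => AlgebraicClosure ℚ

attribute [local instance 10000] SubalgebraClass.toAlgebra HahnSeries.powerSeriesAlgebra

/-! ### the abstract part -/

section Abs

variable {K F k Fk : Type*} [Field K] [Field F] [Algebra K F] [Field k] [Field Fk] [Algebra k Fk]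
  {S : RedSetup K F k Fk} {P : Place k Fk} {Pt : Place K F} {t : F}

/-- **the constant reduction of the disc `|t| ≤ |π|` around `Pt`.** -/
def d1mAbs (D : DiscPoint S P Pt t) (hFk : IsRRField k Fk) {π : K} (hπ0 : π ≠ 0)
    (hπA : π ∈ S.A) (hπ : S.res ⟨π, hπA⟩ = 0)
    (harch : ∀ c : K, c ≠ 0 → ∃ N : ℕ, S.A.valuation (π ^ N) < S.A.valuation c)
    (hres : Function.Surjective S.res) (hFk1 : IsRRField k (RatFunc k)) :
    ValSetup K F k (RatFunc k) :=
  (D.discData' hFk hπ0 hπA hπ harch).setup hres S.hF hFk1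

variable (D : DiscPoint S P Pt t) (hFk : IsRRField k Fk) {π : K} (hπ0 : π ≠ 0)
  (hπA : π ∈ S.A) (hπ : S.res ⟨π, hπA⟩ = 0)
  (harch : ∀ c : K, c ≠ 0 → ∃ N : ℕ, S.A.valuation (π ^ N) < S.A.valuation c)
  (hres : Function.Surjective S.res) (hFk1 : IsRRField k (RatFunc k))

theorem d1mAbs_A : (d1mAbs D hFk hπ0 hπA hπ harch hres hFk1).A = S.A := rfl

theorem d1mAbs_res : (d1mAbs D hFk hπ0 hπA hπ harch hres hFk1).res = S.res := rfl

/-- the valuation ring of `S₁` is THE disc valuation ring. -/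
theorem d1mAbs_isDiscVal :
    IsDiscVal S.A (discRing S P) π t (discEv S P hFk)
      (d1mAbs D hFk hπ0 hπA hπ harch hres hFk1).Ov :=
  (D.discData' hFk hπ0 hπA hπ harch).setup_isDiscVal hres S.hF hFk1

/-- uniqueness: every disc valuation ring is the valuation ring of `S₁`. -/
theorem d1mAbs_unique {V : ValuationSubring F}
    (hV : IsDiscVal S.A (discRing S P) π t (discEv S P hFk) V) :
    V = (d1mAbs D hFk hπ0 hπA hπ harch hres hFk1).Ov :=
  (D.discData' hFk hπ0 hπA hπ harch).setup_Ov_unique hres S.hF hFk1 hV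

/-- `R_P ⊆ S₁.Ov`. -/
theorem d1mAbs_mem {b : F} (hb : b ∈ discRing S P) :
    b ∈ (d1mAbs D hFk hπ0 hπA hπ harch hres hFk1).Ov :=
  (D.discData' hFk hπ0 hπA hπ harch).setup_mem_of_mem_B hres S.hF hFk1 hb

/-- the reduction of `b ∈ R_P` is the constant `ev b`. -/
theorem d1mAbs_red_mem {b : F} (hb : b ∈ discRing S P) :
    (d1mAbs D hFk hπ0 hπA hπ harch hres hFk1).red b =
      algebraMap k (RatFunc k) (discEv S P hFk ⟨b, hb⟩) :=
  (D.discData' hFk hπ0 hπA hπ harch).setup_red_B hres S.hF hFk1 ⟨b, hb⟩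

/-- the reduction of `b ∈ R_P` is the constant `(red b)(P)`, in the `ValAt` form. -/
theorem d1mAbs_red_valAt {b : F} (hb : b ∈ discRing S P) {c : k}
    (hc : ValAt P (S.red b) c) :
    (d1mAbs D hFk hπ0 hπA hπ harch hres hFk1).red b = algebraMap k (RatFunc k) c := by
  rw [d1mAbs_red_mem D hFk hπ0 hπA hπ harch hres hFk1 hb, discEv_apply]
  congr 1
  have hmem : S.red b ∈ P.toValuationSubring :=
    Fermat.Agent.S24Res.mem_of_ord_nonneg P (ord_red_nonneg_of_mem hb)
  exact (Fermat.Agent.FF.valueAt_eq_iff hFk P hmem c).mpr hc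

/-- `t / π ∈ S₁.Ov`. -/
theorem d1mAbs_W_mem :
    t * (algebraMap K F π)⁻¹ ∈ (d1mAbs D hFk hπ0 hπA hπ harch hres hFk1).Ov :=
  (D.discData' hFk hπ0 hπA hπ harch).setup_W_mem hres S.hF hFk1

/-- `red (t / π) = X`. -/
theorem d1mAbs_red_W :
    (d1mAbs D hFk hπ0 hπA hπ harch hres hFk1).red (t * (algebraMap K F π)⁻¹) = RatFunc.X :=
  (D.discData' hFk hπ0 hπA hπ harch).setup_red_W hres S.hF hFk1

/-- `red (t / π) = X`, division form. -/
theorem d1mAbs_red_W' :
    (d1mAbs D hFk hπ0 hπA hπ harch hres hFk1).red (t / algebraMap K F π) = RatFunc.X := by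
  rw [div_eq_mul_inv]
  exact d1mAbs_red_W D hFk hπ0 hπA hπ harch hres hFk1

/-- the inverse of `t / π` is in `S₁.Ov`: `t / π` is a unit. -/
theorem d1mAbs_W_inv_mem :
    (t * (algebraMap K F π)⁻¹)⁻¹ ∈ (d1mAbs D hFk hπ0 hπA hπ harch hres hFk1).Ov := by
  apply (d1mAbs D hFk hπ0 hπA hπ harch hres hFk1).inv_mem_of_red_ne_zero
  rw [d1mAbs_red_W D hFk hπ0 hπA hπ harch hres hFk1]
  exact RatFunc.X_ne_zero

/-- **the lattice property of `S₁`.** -/
theorem d1mAbs_hasLattice : HasLattice (d1mAbs D hFk hπ0 hπA hπ harch hres hFk1) := by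
  have hV := d1mAbs_isDiscVal D hFk hπ0 hπA hπ harch hres hFk1
  have hspec := (D.discData' hFk hπ0 hπA hπ harch).discRho_spec hres
  have hL : DiscLatData S.A ((D.discData' hFk hπ0 hπA hπ harch).discRingV hres) S.res
      ((D.discData' hFk hπ0 hπA hπ harch).discRho hres) (discRing S P) t π
      (Fermat.Agent.FF.valueAt S.hF Pt) :=
    D.discLatData_of hFk hπ0 hπA hπ harch hspec.1 hspec.2.2.1 hspec.2.2.2.1 hspec.2.2.2.2.2.1
  exact hasLattice_of_discLat (d1mAbs D hFk hπ0 hπA hπ harch hres hFk1) hL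

end Abs

/-! ### the constants -/

section Const

variable {A : ValuationSubring Qb}

/-- powers of a non-zero element of `m_A` are non-zero elements of `m_A`. -/
theorem d1m_pow_props {ϖ : Qb} (hϖ0 : ϖ ≠ 0) (hϖA : ϖ ∈ A) (hϖ : ϖ⁻¹ ∉ A) {n : ℕ}
    (hn : n ≠ 0) : ϖ ^ n ≠ 0 ∧ ϖ ^ n ∈ A ∧ (ϖ ^ n)⁻¹ ∉ A := by
  refine ⟨pow_ne_zero n hϖ0, pow_mem hϖA n, fun h => hϖ ?_⟩
  rw [← inv_pow] at h
  exact wpd_mem_of_pow_mem hn h

end Const

/-! ### the modular part -/

section Mod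

variable (A : ValuationSubring Qb) (q M : ℕ) [NeZero M]
  (hq : q.Prime) (hA : A.LiesOverPrime q) (hqM : ¬ q ∣ M)
  (hg : genusFF Qb (modularFunctionFieldBar M) =
    genusFF (IsLocalRing.ResidueField A)
      (modularFunctionFieldFullC (IsLocalRing.ResidueField A) M))
  {P : Place (IsLocalRing.ResidueField A)
    (modularFunctionFieldFullC (IsLocalRing.ResidueField A) M)}
  {Pt : Place Qb (modularFunctionFieldBar M)} {t : modularFunctionFieldBar M}

/-- the residue map of the modular reduction package is onto. -/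
theorem d1m_res_surjective : Function.Surjective (wpdSetup A q M hq hA hqM hg).res :=
  IsLocalRing.residue_surjective

/-- **S1-MOD**: the constant reduction of the disc `|t| ≤ |π|` around `Pt` (the centre over
`P`), `π ∈ m_A`, `π ≠ 0`.  For W-P: `π = ϖ ^ q`. -/
def d1mSetup (D : DiscPoint (wpdSetup A q M hq hA hqM hg) P Pt t) {π : Qb}
    (hπ0 : π ≠ 0) (hπA : π ∈ A) (hπ : π⁻¹ ∉ A) :
    ValSetup Qb (modularFunctionFieldBar M) (IsLocalRing.ResidueField A)
      (RatFunc (IsLocalRing.ResidueField A)) :=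
  d1mAbs D (wpd_hFk A M) hπ0 hπA (wpd_res_eq_zero A q M hq hA hqM hg hπA hπ)
    (wpd_arch hq hA hπ0 hπ) (d1m_res_surjective A q M hq hA hqM hg)
    (@isRRField_ratFunc (IsLocalRing.ResidueField A) _ (isAlgClosed_residue A))

variable (D : DiscPoint (wpdSetup A q M hq hA hqM hg) P Pt t) {π : Qb}
  (hπ0 : π ≠ 0) (hπA : π ∈ A) (hπ : π⁻¹ ∉ A)

theorem d1m_A : (d1mSetup A q M hq hA hqM hg D hπ0 hπA hπ).A = A := rfl

theorem d1m_res_eq (c : Qb) (h : c ∈ (d1mSetup A q M hq hA hqM hg D hπ0 hπA hπ).A)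
    (h' : c ∈ A) :
    (d1mSetup A q M hq hA hqM hg D hπ0 hπA hπ).res ⟨c, h⟩ = IsLocalRing.residue A ⟨c, h'⟩ :=
  rfl

/-- **(L)** the lattice property. -/
theorem d1m_hasLattice : HasLattice (d1mSetup A q M hq hA hqM hg D hπ0 hπA hπ) :=
  d1mAbs_hasLattice D _ hπ0 hπA _ _ _ _

include D hπ0 hπA hπ in
/-- the `DiscData` of the disc (what the uniqueness export `DiscData.unq_*` consumes). -/
theorem d1m_discData :
    DiscData (wpdSetup A q M hq hA hqM hg).A (wpdSetup A q M hq hA hqM hg).res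
      (wpdSetup A q M hq hA hqM hg).Ov.toSubring (discRing (wpdSetup A q M hq hA hqM hg) P) π t
      (discEv (wpdSetup A q M hq hA hqM hg) P (wpd_hFk A M)) :=
  D.discData' (wpd_hFk A M) hπ0 hπA (wpd_res_eq_zero A q M hq hA hqM hg hπA hπ)
    (wpd_arch hq hA hπ0 hπ)

/-- the valuation ring of `S₁` is THE disc valuation ring. -/
theorem d1m_isDiscVal :
    IsDiscVal (wpdSetup A q M hq hA hqM hg).A (discRing (wpdSetup A q M hq hA hqM hg) P) π t
      (discEv (wpdSetup A q M hq hA hqM hg) P (wpd_hFk A M))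
      (d1mSetup A q M hq hA hqM hg D hπ0 hπA hπ).Ov :=
  d1mAbs_isDiscVal D _ hπ0 hπA _ _ _ _

/-- **uniqueness**: every disc valuation ring is `S₁.Ov`. -/
theorem d1m_unique {V : ValuationSubring (modularFunctionFieldBar M)}
    (hV : IsDiscVal (wpdSetup A q M hq hA hqM hg).A
      (discRing (wpdSetup A q M hq hA hqM hg) P) π t
      (discEv (wpdSetup A q M hq hA hqM hg) P (wpd_hFk A M)) V) :
    V = (d1mSetup A q M hq hA hqM hg D hπ0 hπA hπ).Ov :=
  d1mAbs_unique D _ hπ0 hπA _ _ _ _ hV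

/-- `R_P ⊆ S₁.Ov`. -/
theorem d1m_mem {b : modularFunctionFieldBar M}
    (hb : b ∈ discRing (wpdSetup A q M hq hA hqM hg) P) :
    b ∈ (d1mSetup A q M hq hA hqM hg D hπ0 hπA hπ).Ov :=
  d1mAbs_mem D _ hπ0 hπA _ _ _ _ hb

/-- **(OLD) for `S₁`**: the reduction of `b ∈ R_P` is the constant `(red b)(P)`. -/
theorem d1m_red_valAt {b : modularFunctionFieldBar M}
    (hb : b ∈ discRing (wpdSetup A q M hq hA hqM hg) P) {c : IsLocalRing.ResidueField A}
    (hc : ValAt P ((wpdSetup A q M hq hA hqM hg).red b) c) :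
    (d1mSetup A q M hq hA hqM hg D hπ0 hπA hπ).red b =
      algebraMap (IsLocalRing.ResidueField A) (RatFunc (IsLocalRing.ResidueField A)) c :=
  d1mAbs_red_valAt D _ hπ0 hπA _ _ _ _ hb hc

/-- `t / π ∈ S₁.Ov`. -/
theorem d1m_W_mem :
    t * (algebraMap Qb (modularFunctionFieldBar M) π)⁻¹ ∈
      (d1mSetup A q M hq hA hqM hg D hπ0 hπA hπ).Ov :=
  d1mAbs_W_mem D _ hπ0 hπA _ _ _ _

/-- `red (t / π) = X`. -/
theorem d1m_red_W :
    (d1mSetup A q M hq hA hqM hg D hπ0 hπA hπ).red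
      (t * (algebraMap Qb (modularFunctionFieldBar M) π)⁻¹) = RatFunc.X :=
  d1mAbs_red_W D _ hπ0 hπA _ _ _ _

/-- `red (t / π) = X`, division form. -/
theorem d1m_red_W' :
    (d1mSetup A q M hq hA hqM hg D hπ0 hπA hπ).red
      (t / algebraMap Qb (modularFunctionFieldBar M) π) = RatFunc.X :=
  d1mAbs_red_W' D _ hπ0 hπA _ _ _ _

/-- `t / π` is a unit of `S₁.Ov`. -/
theorem d1m_W_inv_mem :
    (t * (algebraMap Qb (modularFunctionFieldBar M) π)⁻¹)⁻¹ ∈
      (d1mSetup A q M hq hA hqM hg D hπ0 hπA hπ).Ov :=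
  d1mAbs_W_inv_mem D _ hπ0 hπA _ _ _ _

end Mod

/-! ### the existence statements -/

section Exists

variable (A : ValuationSubring Qb) (q M : ℕ) [NeZero M]
  (hq : q.Prime) (hA : A.LiesOverPrime q) (hqM : ¬ q ∣ M)
  (hg : genusFF Qb (modularFunctionFieldBar M) =
    genusFF (IsLocalRing.ResidueField A)
      (modularFunctionFieldFullC (IsLocalRing.ResidueField A) M))
  {P : Place (IsLocalRing.ResidueField A)
    (modularFunctionFieldFullC (IsLocalRing.ResidueField A) M)}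

/-- **S1-MOD, existence form**: for `t ∈ R_P` whose reduction is a uniformiser at `P` and every
radius `π ∈ m_A`, `π ≠ 0`, there is a constant reduction `S₁` of `F₀` over `A`, with residue
field `k(X)` and the lattice property, whose valuation ring is THE disc valuation ring of
`|t| ≤ |π|`: `red (t / π) = X`, the functions of `R_P` reduce to the constants `(red b)(P)`. -/
theorem d1m_exists {t : modularFunctionFieldBar M}
    (ht : t ∈ discRing (wpdSetup A q M hq hA hqM hg) P)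
    (hord : P.ord ((wpdSetup A q M hq hA hqM hg).red t) = 1) {π : Qb}
    (hπ0 : π ≠ 0) (hπA : π ∈ A) (hπ : π⁻¹ ∉ A) :
    ∃ S₁ : ValSetup Qb (modularFunctionFieldBar M) (IsLocalRing.ResidueField A)
        (RatFunc (IsLocalRing.ResidueField A)),
      HasLattice S₁ ∧ S₁.A = A ∧
      (∀ (c : Qb) (h : c ∈ S₁.A) (h' : c ∈ A),
        S₁.res ⟨c, h⟩ = IsLocalRing.residue A ⟨c, h'⟩) ∧
      DiscData (wpdSetup A q M hq hA hqM hg).A (wpdSetup A q M hq hA hqM hg).res
        (wpdSetup A q M hq hA hqM hg).Ov.toSubring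
        (discRing (wpdSetup A q M hq hA hqM hg) P) π t
        (discEv (wpdSetup A q M hq hA hqM hg) P (wpd_hFk A M)) ∧
      IsDiscVal (wpdSetup A q M hq hA hqM hg).A (discRing (wpdSetup A q M hq hA hqM hg) P) π t
        (discEv (wpdSetup A q M hq hA hqM hg) P (wpd_hFk A M)) S₁.Ov ∧
      t / algebraMap Qb (modularFunctionFieldBar M) π ∈ S₁.Ov ∧
      S₁.red (t / algebraMap Qb (modularFunctionFieldBar M) π) = RatFunc.X ∧
      (∀ b ∈ discRing (wpdSetup A q M hq hA hqM hg) P, b ∈ S₁.Ov ∧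
        ∀ c : IsLocalRing.ResidueField A, ValAt P ((wpdSetup A q M hq hA hqM hg).red b) c →
          S₁.red b =
            algebraMap (IsLocalRing.ResidueField A) (RatFunc (IsLocalRing.ResidueField A)) c) ∧
      ∀ V : ValuationSubring (modularFunctionFieldBar M),
        IsDiscVal (wpdSetup A q M hq hA hqM hg).A
          (discRing (wpdSetup A q M hq hA hqM hg) P) π t
          (discEv (wpdSetup A q M hq hA hqM hg) P (wpd_hFk A M)) V → V = S₁.Ov := by
  obtain ⟨Pt, D⟩ := exists_discPoint ht hord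
  refine ⟨d1mSetup A q M hq hA hqM hg D hπ0 hπA hπ, d1m_hasLattice A q M hq hA hqM hg D hπ0 hπA hπ,
    rfl, fun _ _ _ => rfl, d1m_discData A q M hq hA hqM hg D hπ0 hπA hπ,
    d1m_isDiscVal A q M hq hA hqM hg D hπ0 hπA hπ, ?_,
    d1m_red_W' A q M hq hA hqM hg D hπ0 hπA hπ,
    fun b hb => ⟨d1m_mem A q M hq hA hqM hg D hπ0 hπA hπ hb,
      fun c hc => d1m_red_valAt A q M hq hA hqM hg D hπ0 hπA hπ hb hc⟩,
    fun V hV => d1m_unique A q M hq hA hqM hg D hπ0 hπA hπ hV⟩
  rw [div_eq_mul_inv]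
  exact d1m_W_mem A q M hq hA hqM hg D hπ0 hπA hπ

/-- **S1-MOD from EX_t**, at the radius `ϖ ^ q`, `ϖ ^ (q + 1) = q`. -/
theorem d1m_exists_of_exT {t0 : LaurentSeries ℚ}
    (hP : 0 ≤ P.ord (Fermat.Agent.RRMod.jC (IsLocalRing.ResidueField A) M))
    (E : ExTDatum A q M hq hA hqM P t0) {ϖ : Qb} (hϖ : ϖ ^ (q + 1) = (q : Qb)) :
    ∃ S₁ : ValSetup Qb (modularFunctionFieldBar M) (IsLocalRing.ResidueField A)
        (RatFunc (IsLocalRing.ResidueField A)),
      HasLattice S₁ ∧ S₁.A = A ∧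
      (∀ (c : Qb) (h : c ∈ S₁.A) (h' : c ∈ A),
        S₁.res ⟨c, h⟩ = IsLocalRing.residue A ⟨c, h'⟩) ∧
      DiscData (wpdSetup A q M hq hA hqM hg).A (wpdSetup A q M hq hA hqM hg).res
        (wpdSetup A q M hq hA hqM hg).Ov.toSubring
        (discRing (wpdSetup A q M hq hA hqM hg) P) (ϖ ^ q) (wpdT M t0 E.mem)
        (discEv (wpdSetup A q M hq hA hqM hg) P (wpd_hFk A M)) ∧
      IsDiscVal (wpdSetup A q M hq hA hqM hg).A (discRing (wpdSetup A q M hq hA hqM hg) P)
        (ϖ ^ q) (wpdT M t0 E.mem)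
        (discEv (wpdSetup A q M hq hA hqM hg) P (wpd_hFk A M)) S₁.Ov ∧
      wpdT M t0 E.mem / algebraMap Qb (modularFunctionFieldBar M) (ϖ ^ q) ∈ S₁.Ov ∧
      S₁.red (wpdT M t0 E.mem / algebraMap Qb (modularFunctionFieldBar M) (ϖ ^ q)) =
        RatFunc.X ∧
      (∀ b ∈ discRing (wpdSetup A q M hq hA hqM hg) P, b ∈ S₁.Ov ∧
        ∀ c : IsLocalRing.ResidueField A, ValAt P ((wpdSetup A q M hq hA hqM hg).red b) c →
          S₁.red b =
            algebraMap (IsLocalRing.ResidueField A) (RatFunc (IsLocalRing.ResidueField A)) c) ∧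
      ∀ V : ValuationSubring (modularFunctionFieldBar M),
        IsDiscVal (wpdSetup A q M hq hA hqM hg).A
          (discRing (wpdSetup A q M hq hA hqM hg) P) (ϖ ^ q) (wpdT M t0 E.mem)
          (discEv (wpdSetup A q M hq hA hqM hg) P (wpd_hFk A M)) V → V = S₁.Ov := by
  have hq0 : (q : Qb) ≠ 0 := Nat.cast_ne_zero.mpr hq.ne_zero
  have hϖ0 : ϖ ≠ 0 := by
    rintro rfl
    rw [zero_pow (Nat.succ_ne_zero q)] at hϖ
    exact hq0 hϖ.symm
  have hqA : (q : Qb) ∈ A := natCast_mem A q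
  have hqinv : (q : Qb)⁻¹ ∉ A := by
    have h2 : (q : Qb) ∈ A.nonunits := hA
    rw [ValuationSubring.mem_nonunits_iff_or] at h2
    exact h2.resolve_left hq0
  have hϖA : ϖ ∈ A := wpd_mem_of_pow_mem (Nat.succ_ne_zero q) (hϖ ▸ hqA)
  have hϖinv : ϖ⁻¹ ∉ A := fun hinv => hqinv (by
    rw [← hϖ, ← inv_pow]
    exact pow_mem hinv _)
  obtain ⟨h0, hA', hinv'⟩ := d1m_pow_props hϖ0 hϖA hϖinv hq.ne_zero
  exact d1m_exists A q M hq hA hqM hg (wpd_exT_mem_discRing A q M hq hA hqM hg hP E)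
    (E.unif _) h0 hA' hinv'

end Exists

end Fermat.Agent.S36G
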