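/-
Cluster G (S36), block W-P, seat CORE-MOD (helper16; sub-architect helper59).

**Modular wiring of the CORE input**: the hypothesis bundle of `Lib/BadRed/HPVal/Core.lean`
(`CoreScale.CscData` + `CoreNP.CnpHyp`) for the tower `ι₁ F₀ ⊂ F`, `F₀ = F_{M₀}`,
`F = F_{M₀ q q}`, `ι₁ f = f(q z)`.

* `E := F₀` with `Algebra E F` along `ι₁ = wpdIota1 M₀ q`;
* `O₁ := V`, the disc valuation `|t| ≤ |ϖ ^ q|` at the centre `P'` (DISC-ASM / DISC-RES), with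
  its residue map `ρ : V → k(X)`, `ρ (t / ϖ ^ q) = X`;
* `Ψ := kctPsi M₀ hq hqM t = charpolyAlong α (β t) = (X - t ^ q) (X ^ q - t) + q R_t` (KC_t),
  `R_t` with coefficients in `R_{P'} = discRing S0 P'` (KC_t + KCtPole: hypothesis `hR`);
* the roots `x = ι₀ t`, `z = ι₂ t` of `Ψ^{ι₁}` (DEG), `x ≠ z`;
* `c₀ = (R_t (0))‾ (P') ≠ 0` (REG: hypothesis `hreg`).

Abstract part (Mathlib + `CoreScale` only):
* `cmodLift`, `cmodCsc` : the `CscData V q` of `(ϖ, Y, R)` with `u = 1`;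
* `cmodCsc_psi`, `cmodCsc_scaled_map` : its Kronecker form and the reduction of the scaled form.

Modular part:
* `CoreModIn S0 P' hFk hq hqM t ϖ c₀ V ρ D` : THE BUNDLE (a `Prop`-structure);
* `coreMod_of_discVal` : the bundle for a GIVEN disc valuation `(V, ρ)`, ANY reduction package
                      `S0` of `F₀` with a `DiscPoint S0 P' Pt t`;
* `coreMod_exists`  : existence form `∃ V ρ D`;
* `coreMod_d1mAbs`  : the bundle at `S₁ = d1mAbs` (S1-MOD / DISC-SETUP), `V = S₁.Ov`, `ρ = S₁.ρ`;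
* `CoreModIn.ρ_uinv_mul`, `aeval_iota0`, `aeval_iota2`, `div_eq_wpW`, `div_eq_wpZ`,
  `algebraMap_Y`, `cmod_isScalarTower` : the inputs of `core_main` (`Core.lean`) in its shapes;
* `cmod_kctR_mem_discRing` : (KC_t) + (KCtPole) `⟹` `R_t ∈ R_{P'}[X]` at the datum of EX_t;
* `coreMod_d1mSetup` : **the bundle at the datum** `S0 = wpdSetup`, `t = wpdT M₀ t0 E.mem`,
                      `S₁ = d1mSetup` of radius `ϖ ^ q`; the ONLY open input is (REG) `hreg`.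
-/
import Mathlib
import Fermat.Agent.Lib.BadRed.HPVal.DiscLatAsm
import Fermat.Agent.Lib.BadRed.HPVal.CoreScale
import Fermat.Agent.Lib.BadRed.HPVal.CoreNP
import Fermat.Agent.S36.HPVal.KCtRat
import Fermat.Agent.S36.HPVal.Deg
import Fermat.Agent.S36.HPVal.Defs
import Fermat.Agent.S36.HPVal.DiscMod
import Fermat.Agent.S36.HPVal.Disc1Mod
import Fermat.Agent.S36.HPVal.KCtPole

set_option autoImplicit false
set_option linter.style.haveILetI false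
set_option linter.unusedSectionVars false
set_option linter.unusedVariables false
set_option synthInstance.maxHeartbeats 400000

noncomputable section

namespace Fermat.Agent.S36G

open ModularCurve AlgebraicCurve Fermat.Agent.F3 Fermat.Agent.F3G Fermat.Agent.GaussInt
  Fermat.Agent.Deuring Fermat.Agent.BadRed Fermat.Agent.HPVal Fermat.Agent.S18Key
  Fermat.Agent.RR Fermat.Agent.S36

local notation "Qb" => AlgebraicClosure ℚ

attribute [local instance 10000] SubalgebraClass.toAlgebra HahnSeries.powerSeriesAlgebra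

/-! ### abstract part: the `CscData` of `(ϖ, Y, R)` -/

section Abs

variable {E : Type*} [Field E] (V : ValuationSubring E)

/-- a polynomial over `E` with coefficients in `V`, as a polynomial over `V`. -/
def cmodLift (R : Polynomial E) (hR : ∀ i, R.coeff i ∈ V) : Polynomial V :=
  ∑ i ∈ Finset.range (R.natDegree + 1), Polynomial.monomial i (⟨R.coeff i, hR i⟩ : V)

theorem cmodLift_coeff (R : Polynomial E) (hR : ∀ i, R.coeff i ∈ V) (n : ℕ) :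
    (cmodLift V R hR).coeff n = ⟨R.coeff n, hR n⟩ := by
  classical
  rw [cmodLift, Polynomial.finsetSum_coeff]
  simp only [Polynomial.coeff_monomial]
  rw [Finset.sum_ite_eq']
  split_ifs with h
  · rfl
  · apply Subtype.ext
    rw [Finset.mem_range, not_lt] at h
    exact (Polynomial.coeff_eq_zero_of_natDegree_lt (Nat.lt_of_succ_le h)).symm

theorem cmodLift_map (R : Polynomial E) (hR : ∀ i, R.coeff i ∈ V) :
    (cmodLift V R hR).map V.subtype = R := by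
  ext n
  rw [Polynomial.coeff_map, cmodLift_coeff]
  rfl

theorem cmodLift_natDegree_le (R : Polynomial E) (hR : ∀ i, R.coeff i ∈ V) :
    (cmodLift V R hR).natDegree ≤ R.natDegree := by
  rw [Polynomial.natDegree_le_iff_coeff_eq_zero]
  intro n hn
  rw [cmodLift_coeff]
  apply Subtype.ext
  exact Polynomial.coeff_eq_zero_of_natDegree_lt hn

/-- **the `CscData` of `(ϖ, Y, R)`** with `u = 1`: `ϖ ^ (q + 1) = q`, `Y, ϖ ∈ V`, `R ∈ V[X]` of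
degree `≤ q`. -/
def cmodCsc (q : ℕ) (hq : 2 ≤ q) (ϖ Y : E) (R : Polynomial E) (hϖV : ϖ ∈ V) (hϖ0 : ϖ ≠ 0)
    (hϖq : ϖ ^ (q + 1) = (q : E)) (hY : Y ∈ V) (hRV : ∀ i, R.coeff i ∈ V)
    (hRdeg : R.natDegree ≤ q) : CscData V q where
  ϖ := ⟨ϖ, hϖV⟩
  u := 1
  uinv := 1
  Y := ⟨Y, hY⟩
  R := cmodLift V R hRV
  hq := hq
  hu := mul_one 1
  hϖ := by
    apply Subtype.ext
    rw [mul_one]
    push_cast
    exact hϖq
  hϖ0 := fun h => hϖ0 (congrArg Subtype.val h)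
  hR := (cmodLift_natDegree_le V R hRV).trans hRdeg

variable {V} {q : ℕ} {hq : 2 ≤ q} {ϖ Y : E} {R : Polynomial E} {hϖV : ϖ ∈ V} {hϖ0 : ϖ ≠ 0}
  {hϖq : ϖ ^ (q + 1) = (q : E)} {hY : Y ∈ V} {hRV : ∀ i, R.coeff i ∈ V} {hRdeg : R.natDegree ≤ q}

theorem cmodCsc_x₁ : (cmodCsc V q hq ϖ Y R hϖV hϖ0 hϖq hY hRV hRdeg).x₁ = ϖ ^ q * Y := rfl

theorem cmodCsc_map_R :
    (cmodCsc V q hq ϖ Y R hϖV hϖ0 hϖq hY hRV hRdeg).R.map V.subtype = R :=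
  cmodLift_map V R hRV

/-- the Kronecker form of `cmodCsc`. -/
theorem cmodCsc_psi :
    (cmodCsc V q hq ϖ Y R hϖV hϖ0 hϖq hY hRV hRdeg).psi =
      (Polynomial.X - Polynomial.C ((ϖ ^ q * Y) ^ q)) *
          (Polynomial.X ^ q - Polynomial.C (ϖ ^ q * Y)) + Polynomial.C (q : E) * R := by
  rw [CscData.psi, cmodCsc_x₁, cmodCsc_map_R]

/-- the reduction of the scaled Kronecker form of `cmodCsc`. -/
theorem cmodCsc_scaled_map {κ : Type*} [CommRing κ] (ρ : V →+* κ) (hρ : ρ ⟨ϖ, hϖV⟩ = 0) :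
    (cmodCsc V q hq ϖ Y R hϖV hϖ0 hϖq hY hRV hRdeg).scaled.map ρ =
      Polynomial.X ^ (q + 1) - Polynomial.C (ρ ⟨Y, hY⟩) * Polynomial.X +
        Polynomial.C (ρ ⟨R.coeff 0, hRV 0⟩) := by
  rw [csc_scaled_map_res _ ρ hρ]
  have h1 : (cmodCsc V q hq ϖ Y R hϖV hϖ0 hϖq hY hRV hRdeg).uinv = 1 := rfl
  have h2 : (cmodCsc V q hq ϖ Y R hϖV hϖ0 hϖq hY hRV hRdeg).R.coeff 0 = ⟨R.coeff 0, hRV 0⟩ :=
    cmodLift_coeff V R hRV 0
  have h3 : (cmodCsc V q hq ϖ Y R hϖV hϖ0 hϖq hY hRV hRdeg).Y = ⟨Y, hY⟩ := rfl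
  rw [h1, h2, h3, map_one, one_mul]

end Abs

/-! ### the bundle -/

section Bundle

variable {M₀ q : ℕ} [NeZero M₀] [NeZero q] {k Fk0 : Type*} [Field k] [Field Fk0] [Algebra k Fk0]

/-- **THE HYPOTHESIS BUNDLE OF CORE, modular instance** (`E = F_{M₀}` along `ι₁`, `O₁ = V` the
disc valuation `|t| ≤ |ϖ ^ q|` at `P'` with residue map `ρ : V → k(X)`, `D : CscData V q` the
Kronecker datum of `Ψ_t`, `c₀ ≠ 0` the constant of `H_P`). -/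
structure CoreModIn (S0 : RedSetup Qb (FBar M₀) k Fk0) (P' : Place k Fk0)
    (hFk : IsRRField k Fk0) (hq : q.Prime) (hqM : ¬ q ∣ M₀) (t : FBar M₀) (ϖ : Qb) (c₀ : k)
    (V : ValuationSubring (FBar M₀)) (ρ : V →+* RatFunc k) (D : CscData V q) : Prop where
  /-- `V` is THE disc valuation `|t| ≤ |ϖ ^ q|` at `P'` -/
  isDiscVal : IsDiscVal S0.A (discRing S0 P') (ϖ ^ q) t (discEv S0 P' hFk) V
  /-- the lattice data of `V` (input of DISC-LAT) -/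
  lat : ∃ Pt : Place Qb (FBar M₀), DiscPoint S0 P' Pt t ∧
    DiscLatData S0.A V S0.res ρ (discRing S0 P') t (ϖ ^ q) (Fermat.Agent.FF.valueAt S0.hF Pt)
  ρ_surj : Function.Surjective ρ
  ρ_ker : ∀ f : V, ρ f = 0 ↔ ¬ IsUnit f
  ρ_const : ∀ (c : Qb) (hc : c ∈ S0.A) (hc' : algebraMap Qb (FBar M₀) c ∈ V),
    ρ ⟨algebraMap Qb (FBar M₀) c, hc'⟩ = algebraMap k (RatFunc k) (S0.res ⟨c, hc⟩)
  disc_le : ∀ b ∈ discRing S0 P', b ∈ V
  ρ_disc : ∀ (b : discRing S0 P') (hb : (b : FBar M₀) ∈ V),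
    ρ ⟨(b : FBar M₀), hb⟩ = algebraMap k (RatFunc k) (discEv S0 P' hFk b)
  scale : ∀ f : FBar M₀, f ≠ 0 → ∃ c : Qb, c ≠ 0 ∧
    f * (algebraMap Qb (FBar M₀) c)⁻¹ ∈ V ∧ (f * (algebraMap Qb (FBar M₀) c)⁻¹)⁻¹ ∈ V
  /-- the Kronecker datum: `ϖ`, `u = 1`, `Y = t / ϖ ^ q`, `R = R_t` -/
  coe_ϖ : (D.ϖ : FBar M₀) = algebraMap Qb (FBar M₀) ϖ
  u_eq : D.u = 1
  uinv_eq : D.uinv = 1
  coe_Y : (D.Y : FBar M₀) = t * (algebraMap Qb (FBar M₀) (ϖ ^ q))⁻¹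
  map_R : D.R.map V.subtype = kctR M₀ hq hqM t
  /-- `Ψ = charpolyAlong α (β t)` -/
  psi_eq : D.psi = kctPsi M₀ hq hqM t
  ρ_ϖ : ρ D.ϖ = 0
  ρ_Y : ρ D.Y = RatFunc.X
  ρ_R0 : ρ (D.R.coeff 0) = algebraMap k (RatFunc k) c₀
  /-- (REG) -/
  c_ne : c₀ ≠ 0
  char : (q : RatFunc k) = 0
  chark : (q : k) = 0
  /-- the reduction of the scaled Kronecker form: `T ^ (q + 1) - X T + c₀` -/
  red : D.scaled.map ρ = Polynomial.X ^ (q + 1) - Polynomial.C RatFunc.X * Polynomial.X +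
    Polynomial.C (algebraMap k (RatFunc k) c₀)
  /-- (DEG) the two roots `ι₀ t ≠ ι₂ t` of `Ψ ^ ι₁` -/
  root0 : (kctPsi M₀ hq hqM t).eval₂ (wpdIota1 M₀ q).toRingHom (wpIota0 M₀ q t) = 0
  root2 : (kctPsi M₀ hq hqM t).eval₂ (wpdIota1 M₀ q).toRingHom (wpIota2 M₀ q t) = 0
  ne : wpIota0 M₀ q t ≠ wpIota2 M₀ q t
  /-- the two roots `W = ι₀ t / ϖ ≠ Z = ι₂ t / ϖ` of the scaled form -/
  rootW : D.scaled.eval₂ ((wpdIota1 M₀ q).toRingHom.comp V.subtype) (wpW M₀ q t 0 ϖ) = 0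
  rootZ : D.scaled.eval₂ ((wpdIota1 M₀ q).toRingHom.comp V.subtype) (wpZ M₀ q t 0 ϖ) = 0
  neWZ : wpW M₀ q t 0 ϖ ≠ wpZ M₀ q t 0 ϖ
  /-- (DEG) `[F : ι₁ F₀] = q (q + 1)` -/
  finrank : letI := algebraAlong (wpdIota1 M₀ q)
    FiniteDimensional (FBar M₀) (FBar (M₀ * q * q)) ∧
      Module.finrank (FBar M₀) (FBar (M₀ * q * q)) = q * (q + 1)

/-- the powers of `ϖ ^ n` are cofinal if the powers of `ϖ` are. -/
theorem cmod_arch_pow {K : Type*} [Field K] (A : ValuationSubring K) {ϖ : K} (hϖA : ϖ ∈ A)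
    (n : ℕ) (hn : 1 ≤ n)
    (harch : ∀ c : K, c ≠ 0 → ∃ N : ℕ, A.valuation (ϖ ^ N) < A.valuation c) (c : K)
    (hc : c ≠ 0) : ∃ N : ℕ, A.valuation ((ϖ ^ n) ^ N) < A.valuation c := by
  obtain ⟨N, hN⟩ := harch c hc
  refine ⟨N, lt_of_le_of_lt ?_ hN⟩
  have h1 : (ϖ ^ n) ^ N = ϖ ^ N * ϖ ^ ((n - 1) * N) := by
    rw [← pow_mul, ← pow_add]
    congr 1
    obtain ⟨m, rfl⟩ : ∃ m, n = m + 1 := ⟨n - 1, by omega⟩
    rw [Nat.add_sub_cancel]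
    ring
  have h2 : A.valuation (ϖ ^ ((n - 1) * N)) ≤ 1 :=
    (A.valuation_le_one_iff _).mpr (pow_mem hϖA _)
  rw [h1, map_mul]
  exact mul_le_of_le_one_right' h2

/-- the parameter of a `DiscPoint` is not a constant. -/
theorem cmod_t_ne_const {S0 : RedSetup Qb (FBar M₀) k Fk0} {P' : Place k Fk0}
    {Pt : Place Qb (FBar M₀)} {t : FBar M₀} (Dp : DiscPoint S0 P' Pt t) (c : Qb) :
    t ≠ algebraMap Qb (FBar M₀) c := by
  intro h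
  have h1 := Dp.ord_t_eq_one
  rw [h, Fermat.Agent.S24Res.ord_algebraMap] at h1
  exact zero_ne_one h1

/-- **CORE-MOD for a given disc valuation** `(V, ρ)` (e.g. `V = S₁.Ov`, `ρ = S₁.ρ` of
DISC-SETUP): the Kronecker datum `D : CscData V q` with the whole bundle; inputs
(KC_t + KCtPole) `hR` and (REG) `hreg`. -/
theorem coreMod_of_discVal (S0 : RedSetup Qb (FBar M₀) k Fk0) (P' : Place k Fk0)
    (hFk : IsRRField k Fk0) (hq : q.Prime) (hqM : ¬ q ∣ M₀) {t : FBar M₀} {ϖ : Qb}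
    {Pt : Place Qb (FBar M₀)} (Dp : DiscPoint S0 P' Pt t)
    (hϖq : ϖ ^ (q + 1) = (q : Qb)) (hϖA : ϖ ∈ S0.A) (hϖres : S0.res ⟨ϖ, hϖA⟩ = 0)
    (harch : ∀ c : Qb, c ≠ 0 → ∃ N : ℕ, S0.A.valuation (ϖ ^ N) < S0.A.valuation c)
    (hR : ∀ i, (kctR M₀ hq hqM t).coeff i ∈ discRing S0 P')
    (hreg : discEv S0 P' hFk ⟨(kctR M₀ hq hqM t).coeff 0, hR 0⟩ ≠ 0)
    {V : ValuationSubring (FBar M₀)} {ρ : V →+* RatFunc k}
    (hV : IsDiscVal S0.A (discRing S0 P') (ϖ ^ q) t (discEv S0 P' hFk) V)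
    (hsurj : Function.Surjective ρ) (hker : ∀ f : V, ρ f = 0 ↔ ¬ IsUnit f)
    (hconst : ∀ (c : Qb) (hc : c ∈ S0.A) (hc' : algebraMap Qb (FBar M₀) c ∈ V),
      ρ ⟨algebraMap Qb (FBar M₀) c, hc'⟩ = algebraMap k (RatFunc k) (S0.res ⟨c, hc⟩))
    (hb : ∀ (b : discRing S0 P') (hb : (b : FBar M₀) ∈ V),
      ρ ⟨(b : FBar M₀), hb⟩ = algebraMap k (RatFunc k) (discEv S0 P' hFk b))
    (hY : ∀ h : t * (algebraMap Qb (FBar M₀) (ϖ ^ q))⁻¹ ∈ V,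
      ρ ⟨t * (algebraMap Qb (FBar M₀) (ϖ ^ q))⁻¹, h⟩ = RatFunc.X) :
    ∃ D : CscData V q,
      CoreModIn S0 P' hFk hq hqM t ϖ (discEv S0 P' hFk ⟨(kctR M₀ hq hqM t).coeff 0, hR 0⟩)
        V ρ D := by
  have hq0 : (q : Qb) ≠ 0 := Nat.cast_ne_zero.mpr hq.ne_zero
  have hϖ0 : ϖ ≠ 0 := by
    rintro rfl
    rw [zero_pow (Nat.succ_ne_zero q)] at hϖq
    exact hq0 hϖq.symm
  have hϖd0 : ϖ ^ q ≠ 0 := pow_ne_zero _ hϖ0
  have hϖdA : ϖ ^ q ∈ S0.A := pow_mem hϖA q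
  have hϖdres : S0.res ⟨ϖ ^ q, hϖdA⟩ = 0 := by
    have h1 : (⟨ϖ ^ q, hϖdA⟩ : S0.A) = ⟨ϖ, hϖA⟩ ^ q := rfl
    rw [h1, map_pow, hϖres, zero_pow hq.ne_zero]
  have hchark : (q : k) = 0 := by
    have h1 : ((q : ℕ) : S0.A) = ⟨ϖ, hϖA⟩ ^ (q + 1) := by
      apply Subtype.ext
      push_cast
      exact hϖq.symm
    rw [← map_natCast S0.res, h1, map_pow, hϖres, zero_pow (Nat.succ_ne_zero q)]
  have harchd := cmod_arch_pow S0.A hϖA q hq.one_le harch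
  have DD := Dp.discData' hFk hϖd0 hϖdA hϖdres harchd
  have hlat := Dp.discLatData_of hFk hϖd0 hϖdA hϖdres harchd hV hker hconst hY
  -- the Kronecker datum
  have hϖV : algebraMap Qb (FBar M₀) ϖ ∈ V := (hV.mem_iff ϖ).mpr hϖA
  have hϖF0 : algebraMap Qb (FBar M₀) ϖ ≠ 0 := by simpa using hϖ0
  have hϖFq : algebraMap Qb (FBar M₀) ϖ ^ (q + 1) = ((q : ℕ) : FBar M₀) := by
    rw [← map_pow, hϖq, map_natCast]
  have hYV : t * (algebraMap Qb (FBar M₀) (ϖ ^ q))⁻¹ ∈ V := hlat.Y_mem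
  have hRV : ∀ i, (kctR M₀ hq hqM t).coeff i ∈ V := fun i => hlat.R_le _ (hR i)
  have hRdeg : (kctR M₀ hq hqM t).natDegree ≤ q := kctR_natDegree_le M₀ hq hqM t
  set D : CscData V q := cmodCsc V q hq.two_le (algebraMap Qb (FBar M₀) ϖ)
    (t * (algebraMap Qb (FBar M₀) (ϖ ^ q))⁻¹) (kctR M₀ hq hqM t) hϖV hϖF0 hϖFq hYV hRV hRdeg
    with hD
  have hx₁ : algebraMap Qb (FBar M₀) ϖ ^ q * (t * (algebraMap Qb (FBar M₀) (ϖ ^ q))⁻¹) = t := by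
    have h0 : algebraMap Qb (FBar M₀) (ϖ ^ q) ≠ 0 := by simpa using hϖd0
    rw [← map_pow, mul_comm t, ← mul_assoc, mul_inv_cancel₀ h0, one_mul]
  have hpsi : D.psi = kctPsi M₀ hq hqM t := by
    rw [hD, cmodCsc_psi, hx₁, kctPsi_eq]
    rfl
  have hρϖ : ρ ⟨algebraMap Qb (FBar M₀) ϖ, hϖV⟩ = 0 := by
    rw [hlat.ρ_algebraMap ϖ hϖA hϖV, hϖres, map_zero]
  have hρR0 : ρ ⟨(kctR M₀ hq hqM t).coeff 0, hRV 0⟩ =
      algebraMap k (RatFunc k) (discEv S0 P' hFk ⟨(kctR M₀ hq hqM t).coeff 0, hR 0⟩) :=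
    hb ⟨(kctR M₀ hq hqM t).coeff 0, hR 0⟩ (hRV 0)
  have hcop : Nat.Coprime q M₀ := (Nat.Prime.coprime_iff_not_dvd hq).mpr hqM
  have hroot := kctPsi_root M₀ hq hqM t
  have hroot0 : (kctPsi M₀ hq hqM t).eval₂ (wpdIota1 M₀ q).toRingHom (wpIota0 M₀ q t) = 0 :=
    wpd_root_iota0 M₀ q hcop _ t hroot
  have hroot2 : (kctPsi M₀ hq hqM t).eval₂ (wpdIota1 M₀ q).toRingHom (wpIota2 M₀ q t) = 0 :=
    wpd_root_iota2 M₀ q _ t hroot
  have hne : wpIota0 M₀ q t ≠ wpIota2 M₀ q t :=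
    wpd_iota0_ne_iota2 M₀ q hq.two_le t (cmod_t_ne_const Dp)
  have hϖF : algebraMap Qb (FBar (M₀ * q * q)) ϖ ≠ 0 := by simpa using hϖ0
  -- the roots of the scaled form
  have hscaledroot : ∀ x : FBar (M₀ * q * q),
      (kctPsi M₀ hq hqM t).eval₂ (wpdIota1 M₀ q).toRingHom x = 0 →
      D.scaled.eval₂ ((wpdIota1 M₀ q).toRingHom.comp V.subtype)
        ((x - algebraMap Qb (FBar (M₀ * q * q)) 0) / algebraMap Qb (FBar (M₀ * q * q)) ϖ) = 0 := by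
    intro x hx
    letI := algebraAlong (wpdIota1 M₀ q)
    have h1 : Polynomial.aeval x D.psi = 0 := by
      rw [hpsi, Polynomial.aeval_def]
      exact hx
    have h2 := (csc_root_iff D x).mpr h1
    rw [Polynomial.aeval_def, Polynomial.eval₂_map] at h2
    have h3 : algebraMap (FBar M₀) (FBar (M₀ * q * q)) ((D.ϖ : V) : FBar M₀) =
        algebraMap Qb (FBar (M₀ * q * q)) ϖ := (wpdIota1 M₀ q).commutes ϖ
    rw [h3] at h2
    rw [map_zero, sub_zero]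
    exact h2
  refine ⟨D, ?_⟩
  exact
    { isDiscVal := hV
      lat := ⟨Pt, Dp, hlat⟩
      ρ_surj := hsurj
      ρ_ker := hker
      ρ_const := hconst
      disc_le := hlat.R_le
      ρ_disc := hb
      scale := fun f hf => DD.isDiscVal_scale hV hf
      coe_ϖ := rfl
      u_eq := rfl
      uinv_eq := rfl
      coe_Y := rfl
      map_R := cmodCsc_map_R
      psi_eq := hpsi
      ρ_ϖ := hρϖ
      ρ_Y := hY hYV
      ρ_R0 := by
        rw [hD]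
        have h2 : (cmodCsc V q hq.two_le (algebraMap Qb (FBar M₀) ϖ)
            (t * (algebraMap Qb (FBar M₀) (ϖ ^ q))⁻¹) (kctR M₀ hq hqM t) hϖV hϖF0 hϖFq hYV hRV
            hRdeg).R.coeff 0 = ⟨(kctR M₀ hq hqM t).coeff 0, hRV 0⟩ :=
          cmodLift_coeff V _ hRV 0
        rw [h2]
        exact hρR0
      c_ne := hreg
      char := by
        rw [← map_natCast (algebraMap k (RatFunc k)), hchark, map_zero]
      chark := hchark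
      red := by
        rw [hD, cmodCsc_scaled_map ρ hρϖ, hY hYV, hρR0]
      root0 := hroot0
      root2 := hroot2
      ne := hne
      rootW := hscaledroot _ hroot0
      rootZ := hscaledroot _ hroot2
      neWZ := by
        intro h
        apply hne
        have h1 := congrArg (fun y => y * algebraMap Qb (FBar (M₀ * q * q)) ϖ) h
        simp only [wpW, wpZ, div_mul_cancel₀ _ hϖF, map_zero, sub_zero] at h1
        exact h1
      finrank := wpd_finrank_iota1 M₀ q hq hqM }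

/-- the constants `ϖ ^ q`: the hypotheses of the disc of radius `ϖ ^ q`. -/
theorem cmod_pow_hyps (S0 : RedSetup Qb (FBar M₀) k Fk0) (hq : q.Prime) {ϖ : Qb}
    (hϖq : ϖ ^ (q + 1) = (q : Qb)) (hϖA : ϖ ∈ S0.A) (hϖres : S0.res ⟨ϖ, hϖA⟩ = 0)
    (harch : ∀ c : Qb, c ≠ 0 → ∃ N : ℕ, S0.A.valuation (ϖ ^ N) < S0.A.valuation c) :
    ϖ ^ q ≠ 0 ∧ ∃ h : ϖ ^ q ∈ S0.A, S0.res ⟨ϖ ^ q, h⟩ = 0 ∧
      ∀ c : Qb, c ≠ 0 → ∃ N : ℕ, S0.A.valuation ((ϖ ^ q) ^ N) < S0.A.valuation c := by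
  have hq0 : (q : Qb) ≠ 0 := Nat.cast_ne_zero.mpr hq.ne_zero
  have hϖ0 : ϖ ≠ 0 := by
    rintro rfl
    rw [zero_pow (Nat.succ_ne_zero q)] at hϖq
    exact hq0 hϖq.symm
  refine ⟨pow_ne_zero _ hϖ0, pow_mem hϖA q, ?_, cmod_arch_pow S0.A hϖA q hq.one_le harch⟩
  have h1 : (⟨ϖ ^ q, pow_mem hϖA q⟩ : S0.A) = ⟨ϖ, hϖA⟩ ^ q := rfl
  rw [h1, map_pow, hϖres, zero_pow hq.ne_zero]

/-- **CORE-MOD, existence form**: the disc valuation `V` of radius `ϖ ^ q` at `P'`, its residue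
map `ρ` and the Kronecker datum `D` exist, with the whole bundle. -/
theorem coreMod_exists (S0 : RedSetup Qb (FBar M₀) k Fk0) (P' : Place k Fk0)
    (hFk : IsRRField k Fk0) (hq : q.Prime) (hqM : ¬ q ∣ M₀) {t : FBar M₀} {ϖ : Qb}
    {Pt : Place Qb (FBar M₀)} (Dp : DiscPoint S0 P' Pt t)
    (hϖq : ϖ ^ (q + 1) = (q : Qb)) (hϖA : ϖ ∈ S0.A) (hϖres : S0.res ⟨ϖ, hϖA⟩ = 0)
    (harch : ∀ c : Qb, c ≠ 0 → ∃ N : ℕ, S0.A.valuation (ϖ ^ N) < S0.A.valuation c)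
    (hres : Function.Surjective S0.res)
    (hR : ∀ i, (kctR M₀ hq hqM t).coeff i ∈ discRing S0 P')
    (hreg : discEv S0 P' hFk ⟨(kctR M₀ hq hqM t).coeff 0, hR 0⟩ ≠ 0) :
    ∃ (V : ValuationSubring (FBar M₀)) (ρ : V →+* RatFunc k) (D : CscData V q),
      CoreModIn S0 P' hFk hq hqM t ϖ (discEv S0 P' hFk ⟨(kctR M₀ hq hqM t).coeff 0, hR 0⟩)
        V ρ D := by
  obtain ⟨hϖd0, hϖdA, hϖdres, harchd⟩ := cmod_pow_hyps S0 hq hϖq hϖA hϖres harch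
  obtain ⟨V, ρ, hV, hlat, hsurj, hb, hY, hG, hscale⟩ :=
    Dp.exists_discLatData hFk hϖd0 hϖdA hϖdres harchd hres
  obtain ⟨D, hD⟩ := coreMod_of_discVal S0 P' hFk hq hqM Dp hϖq hϖA hϖres harch hR hreg hV hsurj
    hlat.ρ_eq_zero_iff hlat.ρ_algebraMap hb hY
  exact ⟨V, ρ, D, hD⟩

/-! ### the inputs of `core_main` (helper42) read off the bundle -/

namespace CoreModIn

variable {S0 : RedSetup Qb (FBar M₀) k Fk0} {P' : Place k Fk0} {hFk : IsRRField k Fk0}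
  {hq : q.Prime} {hqM : ¬ q ∣ M₀} {t : FBar M₀} {ϖ : Qb} {c₀ : k}
  {V : ValuationSubring (FBar M₀)} {ρ : V →+* RatFunc k} {D : CscData V q}

/-- `hc` of `core_main` / `cnpHyp_of_csc_setup`. -/
theorem ρ_uinv_mul (h : CoreModIn S0 P' hFk hq hqM t ϖ c₀ V ρ D) :
    ρ D.uinv * ρ (D.R.coeff 0) = algebraMap k (RatFunc k) c₀ := by
  rw [h.uinv_eq, map_one, one_mul, h.ρ_R0]

/-- `hx` of `core_main`: `ι₀ t` is a root of `D.psi` (algebra along `ι₁`). -/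
theorem aeval_iota0 (h : CoreModIn S0 P' hFk hq hqM t ϖ c₀ V ρ D) :
    letI := algebraAlong (wpdIota1 M₀ q)
    Polynomial.aeval (wpIota0 M₀ q t) D.psi = 0 := by
  letI := algebraAlong (wpdIota1 M₀ q)
  rw [h.psi_eq, Polynomial.aeval_def]
  exact h.root0

/-- `hz` of `core_main`: `ι₂ t` is a root of `D.psi` (algebra along `ι₁`). -/
theorem aeval_iota2 (h : CoreModIn S0 P' hFk hq hqM t ϖ c₀ V ρ D) :
    letI := algebraAlong (wpdIota1 M₀ q)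
    Polynomial.aeval (wpIota2 M₀ q t) D.psi = 0 := by
  letI := algebraAlong (wpdIota1 M₀ q)
  rw [h.psi_eq, Polynomial.aeval_def]
  exact h.root2

/-- `ι₁ ϖ = ϖ`. -/
theorem algebraMap_ϖ (h : CoreModIn S0 P' hFk hq hqM t ϖ c₀ V ρ D) :
    letI := algebraAlong (wpdIota1 M₀ q)
    algebraMap (FBar M₀) (FBar (M₀ * q * q)) (D.ϖ : FBar M₀) =
      algebraMap Qb (FBar (M₀ * q * q)) ϖ := by
  letI := algebraAlong (wpdIota1 M₀ q)
  rw [h.coe_ϖ]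
  exact (wpdIota1 M₀ q).commutes ϖ

/-- the root `x / ϖ` of `core_main` is `W = wpW M₀ q t 0 ϖ`. -/
theorem div_eq_wpW (h : CoreModIn S0 P' hFk hq hqM t ϖ c₀ V ρ D) :
    letI := algebraAlong (wpdIota1 M₀ q)
    wpIota0 M₀ q t / algebraMap (FBar M₀) (FBar (M₀ * q * q)) (D.ϖ : FBar M₀) =
      wpW M₀ q t 0 ϖ := by
  letI := algebraAlong (wpdIota1 M₀ q)
  rw [h.algebraMap_ϖ, wpW, map_zero, sub_zero]

/-- the root `z / ϖ` of `core_main` is `Zc = wpZ M₀ q t 0 ϖ`. -/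
theorem div_eq_wpZ (h : CoreModIn S0 P' hFk hq hqM t ϖ c₀ V ρ D) :
    letI := algebraAlong (wpdIota1 M₀ q)
    wpIota2 M₀ q t / algebraMap (FBar M₀) (FBar (M₀ * q * q)) (D.ϖ : FBar M₀) =
      wpZ M₀ q t 0 ϖ := by
  letI := algebraAlong (wpdIota1 M₀ q)
  rw [h.algebraMap_ϖ, wpZ, map_zero, sub_zero]

/-- `ι₁ Y = wpY M₀ q t 0 ϖ`. -/
theorem algebraMap_Y (h : CoreModIn S0 P' hFk hq hqM t ϖ c₀ V ρ D) :
    letI := algebraAlong (wpdIota1 M₀ q)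
    algebraMap (FBar M₀) (FBar (M₀ * q * q)) (D.Y : FBar M₀) = wpY M₀ q t 0 ϖ := by
  letI := algebraAlong (wpdIota1 M₀ q)
  rw [h.coe_Y, wpY, zero_pow (NeZero.ne q), map_zero, sub_zero, div_eq_mul_inv]
  show (wpdIota1 M₀ q) (t * (algebraMap Qb (FBar M₀) (ϖ ^ q))⁻¹) = _
  rw [map_mul, map_inv₀, (wpdIota1 M₀ q).commutes]

end CoreModIn

/-- the tower `ℚ̄ ⊂ F₀ ⊂ F` along `ι₁`. -/
theorem cmod_isScalarTower (M₀ q : ℕ) [NeZero M₀] [NeZero q] :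
    letI := algebraAlong (wpdIota1 M₀ q)
    IsScalarTower Qb (FBar M₀) (FBar (M₀ * q * q)) := by
  letI := algebraAlong (wpdIota1 M₀ q)
  exact IsScalarTower.of_algebraMap_eq (fun c => ((wpdIota1 M₀ q).commutes c).symm)

/-- **CORE-MOD at the constant reduction `S₁ = d1mAbs`** of the disc of radius `ϖ ^ q`
(helper6's S1-MOD, helper75's DISC-SETUP): the Kronecker datum `D : CscData S₁.Ov q` with the
whole bundle for `(S₁.Ov, S₁.ρ)`. -/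
theorem coreMod_d1mAbs (S0 : RedSetup Qb (FBar M₀) k Fk0) (P' : Place k Fk0)
    (hFk : IsRRField k Fk0) (hq : q.Prime) (hqM : ¬ q ∣ M₀) {t : FBar M₀} {ϖ : Qb}
    {Pt : Place Qb (FBar M₀)} (Dp : DiscPoint S0 P' Pt t)
    (hϖq : ϖ ^ (q + 1) = (q : Qb)) (hϖA : ϖ ∈ S0.A) (hϖres : S0.res ⟨ϖ, hϖA⟩ = 0)
    (harch : ∀ c : Qb, c ≠ 0 → ∃ N : ℕ, S0.A.valuation (ϖ ^ N) < S0.A.valuation c)
    (hres : Function.Surjective S0.res) (hFk1 : IsRRField k (RatFunc k))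
    (hR : ∀ i, (kctR M₀ hq hqM t).coeff i ∈ discRing S0 P')
    (hreg : discEv S0 P' hFk ⟨(kctR M₀ hq hqM t).coeff 0, hR 0⟩ ≠ 0)
    (hπ0 : ϖ ^ q ≠ 0) (hπA : ϖ ^ q ∈ S0.A) (hπ : S0.res ⟨ϖ ^ q, hπA⟩ = 0)
    (harchd : ∀ c : Qb, c ≠ 0 → ∃ N : ℕ, S0.A.valuation ((ϖ ^ q) ^ N) < S0.A.valuation c) :
    ∃ D : CscData (d1mAbs Dp hFk hπ0 hπA hπ harchd hres hFk1).Ov q,
      CoreModIn S0 P' hFk hq hqM t ϖ (discEv S0 P' hFk ⟨(kctR M₀ hq hqM t).coeff 0, hR 0⟩)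
        (d1mAbs Dp hFk hπ0 hπA hπ harchd hres hFk1).Ov
        (d1mAbs Dp hFk hπ0 hπA hπ harchd hres hFk1).ρ D := by
  have hspec := (Dp.discData' hFk hπ0 hπA hπ harchd).discRho_spec hres
  exact coreMod_of_discVal S0 P' hFk hq hqM Dp hϖq hϖA hϖres harch hR hreg hspec.1 hspec.2.1
    hspec.2.2.1 hspec.2.2.2.1 hspec.2.2.2.2.1 hspec.2.2.2.2.2.1

end Bundle

/-! ### the modular datum: `S0 = wpdSetup`, `t` from EX_t -/

section Datum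

variable (A : ValuationSubring Qb) (q M₀ : ℕ) [NeZero M₀] [NeZero q]
  (hq : q.Prime) (hA : A.LiesOverPrime q) (hqM : ¬ q ∣ M₀)
  (hg : genusFF Qb (modularFunctionFieldBar M₀) =
    genusFF (IsLocalRing.ResidueField A)
      (modularFunctionFieldFullC (IsLocalRing.ResidueField A) M₀))
  {P' : Place (IsLocalRing.ResidueField A)
    (modularFunctionFieldFullC (IsLocalRing.ResidueField A) M₀)}

include hq hA in
/-- a root `ϖ` of `X ^ (q + 1) = q` is a non-zero element of `m_A`. -/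
theorem cmod_pi_props {ϖ : Qb} (hϖq : ϖ ^ (q + 1) = (q : Qb)) :
    ϖ ≠ 0 ∧ ϖ ∈ A ∧ ϖ⁻¹ ∉ A := by
  have hq0 : (q : Qb) ≠ 0 := Nat.cast_ne_zero.mpr hq.ne_zero
  have hϖ0 : ϖ ≠ 0 := by
    rintro rfl
    rw [zero_pow (Nat.succ_ne_zero q)] at hϖq
    exact hq0 hϖq.symm
  have hqA : (q : Qb) ∈ A := natCast_mem A q
  have hqinv : (q : Qb)⁻¹ ∉ A := by
    have h2 : (q : Qb) ∈ A.nonunits := hA
    rw [ValuationSubring.mem_nonunits_iff_or] at h2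
    exact h2.resolve_left hq0
  refine ⟨hϖ0, wpd_mem_of_pow_mem (Nat.succ_ne_zero q) (hϖq ▸ hqA), fun hinv => ?_⟩
  apply hqinv
  rw [← hϖq, ← inv_pow]
  exact pow_mem hinv _

/-- **(KC_t) + (KCtPole)**: the coefficients of `R_t`, `t` the datum of EX_t, lie in
`R_{P'} = discRing S0 P'` for every non-cuspidal place `P'`. -/
theorem cmod_kctR_mem_discRing {t0 : LaurentSeries ℚ}
    (hP' : 0 ≤ P'.ord (Fermat.Agent.RRMod.jC (IsLocalRing.ResidueField A) M₀))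
    (E : ExTDatum A q M₀ hq hA hqM P' t0) (i : ℕ) :
    (kctR M₀ hq hqM (wpdT M₀ t0 E.mem)).coeff i ∈ discRing (wpdSetup A q M₀ hq hA hqM hg) P' := by
  refine wpd_mem_discRing A q M₀ hq hA hqM hg ?_ (fun v hv => ?_) hP'
  · exact kctR_coeff_mem_rat M₀ hq A hA hqM t0 E.int _ i
  · exact kcp_kctR_coeff M₀ hq hqM (wpdT M₀ t0 E.mem) (E.poles _) v hv i

/-- **CORE-MOD AT THE DATUM** (`S0 = wpdSetup`, `t = wpdT M₀ t0 E.mem` from EX_t at the centre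
`P'`, `a = 0`, `ϖ ^ (q + 1) = q`, `S₁ = d1mSetup` of radius `ϖ ^ q`): the Kronecker datum
`D : CscData S₁.Ov q` with the whole bundle.  The only open input is (REG) `hreg`. -/
theorem coreMod_d1mSetup {t0 : LaurentSeries ℚ}
    (hP' : 0 ≤ P'.ord (Fermat.Agent.RRMod.jC (IsLocalRing.ResidueField A) M₀))
    (E : ExTDatum A q M₀ hq hA hqM P' t0) {ϖ : Qb} (hϖq : ϖ ^ (q + 1) = (q : Qb))
    {Pt : Place Qb (modularFunctionFieldBar M₀)}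
    (Dp : DiscPoint (wpdSetup A q M₀ hq hA hqM hg) P' Pt (wpdT M₀ t0 E.mem))
    (hπ0 : ϖ ^ q ≠ 0) (hπA : ϖ ^ q ∈ A) (hπ : (ϖ ^ q)⁻¹ ∉ A)
    (hreg : discEv (wpdSetup A q M₀ hq hA hqM hg) P' (wpd_hFk A M₀)
      ⟨(kctR M₀ hq hqM (wpdT M₀ t0 E.mem)).coeff 0,
        cmod_kctR_mem_discRing A q M₀ hq hA hqM hg hP' E 0⟩ ≠ 0) :
    ∃ D : CscData (d1mSetup A q M₀ hq hA hqM hg Dp hπ0 hπA hπ).Ov q,
      CoreModIn (wpdSetup A q M₀ hq hA hqM hg) P' (wpd_hFk A M₀) hq hqM (wpdT M₀ t0 E.mem) ϖ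
        (discEv (wpdSetup A q M₀ hq hA hqM hg) P' (wpd_hFk A M₀)
          ⟨(kctR M₀ hq hqM (wpdT M₀ t0 E.mem)).coeff 0,
            cmod_kctR_mem_discRing A q M₀ hq hA hqM hg hP' E 0⟩)
        (d1mSetup A q M₀ hq hA hqM hg Dp hπ0 hπA hπ).Ov
        (d1mSetup A q M₀ hq hA hqM hg Dp hπ0 hπA hπ).ρ D := by
  obtain ⟨hϖ0, hϖA, hϖinv⟩ := cmod_pi_props A q hq hA hϖq
  exact coreMod_d1mAbs (wpdSetup A q M₀ hq hA hqM hg) P' (wpd_hFk A M₀) hq hqM Dp hϖq hϖA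
    (wpd_res_eq_zero A q M₀ hq hA hqM hg hϖA hϖinv) (wpd_arch hq hA hϖ0 hϖinv)
    (d1m_res_surjective A q M₀ hq hA hqM hg)
    (@isRRField_ratFunc (IsLocalRing.ResidueField A) _ (isAlgClosed_residue A))
    (cmod_kctR_mem_discRing A q M₀ hq hA hqM hg hP' E) hreg hπ0 hπA
    (wpd_res_eq_zero A q M₀ hq hA hqM hg hπA hπ) (wpd_arch hq hA hπ0 hπ)

end Datum


end Fermat.Agent.S36G
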