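/-
Cluster G (S36), block W-P, seat UNIQ-MOD (helper65; sub-architect helper59): the field `uniq` of
`WPOut` (`S36/HPVal/Defs.lean`, helper93) from the abstract uniqueness export
(`Lib/BadRed/HPVal/Uniq.lean`, `UniqCover.lean`) and CORE-COVER (`ccov_unique`, helper75).

Abstract part (`K ⊆ F₀`, `ι : F₀ →ₐ[K] F`, `S0` a reduction package of `F₀`, `P'` a place of the
residue field, `D : DiscData S0.A S0.res O (discRing S0 P') π t' ev` the disc data at `P'`):

* `wpum_uniqData`    : `O' ∩ K = A`, `WPCentred S0 P' ι O'`, `WPGeneric A O' (ι (t' / π))`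
                       ⟹ `UniqData` for `O'`;
* `wpum_comap_eq`, `wpum_liesOverV` : hence `O'.comap ι = V` (the disc valuation ring);
* `wpum_eq_of_unique` : hence `O' = Ow` if `Ow` is the unique valuation ring over `V` along `ι`
                       (the last clause of `core_main`);
* `wpum_eq_of_cover` : hence `O' = Ow` for every `Ow` over `V` (along `ι`) with a residually
                       independent family of `[F : ι F₀]` elements.

Modular part (`F₀ = F_{M₀}`, `F = F_{M₀ q q}`, `ι = ι₁ = wpdIota1 M₀ q`, `t' = t - a^q`,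
`π = ϖ^q`):

* `wpum_iota1_Y`, `wpum_iota1_Y0` : `ι₁ ((t - a^q) / ϖ^q) = wpY M₀ q t a ϖ`,
                       `ι₁ (t / ϖ^q) = wpY M₀ q t 0 ϖ`;
* `wpum_uniq_of_unique`, `wpum_uniq0_of_unique` : **the field `uniq` of `WPOut` / `WPVal`**, in
                       its exact shape, from the uniqueness clause of `core_main`
                       (general `a`, resp. `a = 0` with the disc data of `t` itself);
(for a residually independent family instead of the uniqueness clause use `wpum_eq_of_cover`).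
-/
import Mathlib
import Fermat.Agent.S36.HPVal.Defs
import Fermat.Agent.Lib.BadRed.HPVal.UniqCover

set_option autoImplicit false
set_option linter.style.haveILetI false
set_option linter.unusedSectionVars false
set_option synthInstance.maxHeartbeats 400000

noncomputable section
attribute [local instance 10000] SubalgebraClass.toAlgebra HahnSeries.powerSeriesAlgebra

namespace Fermat.Agent.S36G

open ModularCurve AlgebraicCurve IntermediateField Fermat.Agent.F3 Fermat.Agent.F3G
  Fermat.Agent.GaussInt Fermat.Agent.Deuring Fermat.Agent.BadRed Fermat.Agent.HPVal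
  Fermat.Agent.HP Polynomial

local notation "Qb" => AlgebraicClosure ℚ

/-! ### abstract part -/

section Abs

variable {K F₀ F k Fk0 : Type*} [Field K] [Field F₀] [Algebra K F₀] [Field F] [Algebra K F]
  [Field k] [Field Fk0] [Algebra k Fk0]
  {S0 : Fermat.Agent.S18Key.RedSetup K F₀ k Fk0} {P' : Place k Fk0} {ι : F₀ →ₐ[K] F}
  {O : Subring F₀} {π : K} {t' : F₀} {ev : discRing S0 P' →+* k}
  {O' : ValuationSubring F}

/-- the hypotheses of `WPOut.uniq` give the `UniqData` of the abstract uniqueness export. -/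
theorem wpum_uniqData (D : DiscData S0.A S0.res O (discRing S0 P') π t' ev)
    (hA : ∀ c : K, algebraMap K F c ∈ O' ↔ c ∈ S0.A)
    (hcen : WPCentred S0 P' ι O')
    (hgen : WPGeneric S0.A O' (ι (t' * (algebraMap K F₀ π)⁻¹))) :
    UniqData S0.A S0.res (discRing S0 P') π t' ι.toRingHom O' where
  mem_iff := fun c => by
    show ι (algebraMap K F₀ c) ∈ O' ↔ c ∈ S0.A
    rw [AlgHom.commutes]
    exact hA c
  B_mem := fun b hb => (hcen b hb).1
  Y_mem := by
    have h := (hgen X (fun i => by
      rw [Polynomial.coeff_X]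
      split_ifs
      · exact one_mem _
      · exact zero_mem _) ⟨1, by
        rw [Polynomial.coeff_X_one]
        exact ⟨one_ne_zero, by rw [inv_one]; exact one_mem _⟩⟩).1
    rw [Polynomial.aeval_X] at h
    exact h
  tr := fun G hG => by
    -- a coefficient which is a unit
    have hex : ∃ i, S0.res (G.coeff i) ≠ 0 := by
      by_contra hcon
      apply hG
      ext i
      rw [Polynomial.coeff_map, Polynomial.coeff_zero]
      by_contra hi
      exact hcon ⟨i, hi⟩
    obtain ⟨i, hi⟩ := hex
    have hunit : IsUnit (G.coeff i) := by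
      by_contra hnu
      exact hi ((D.res_eq_zero_iff _).mpr hnu)
    obtain ⟨u, hu⟩ := hunit
    have hcoe0 : ((G.coeff i : S0.A) : K) ≠ 0 := by
      intro h0
      apply hi
      have : G.coeff i = 0 := Subtype.ext h0
      rw [this, map_zero]
    have hinv : ((G.coeff i : S0.A) : K)⁻¹ ∈ S0.A := by
      have h1 : (((u⁻¹ : (↥S0.A)ˣ) : S0.A) : K) * ((G.coeff i : S0.A) : K) = 1 := by
        have h2 : ((u⁻¹ : (↥S0.A)ˣ) : S0.A) * G.coeff i = 1 := by
          rw [← hu]
          exact u.inv_mul
        exact congrArg Subtype.val h2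
      rw [← eq_inv_of_mul_eq_one_left h1]
      exact (u⁻¹ : (↥S0.A)ˣ).1.2
    have h := (hgen (G.map S0.A.subtype) (fun j => by
      rw [Polynomial.coeff_map]
      exact (G.coeff j).2) ⟨i, by
        rw [Polynomial.coeff_map]
        exact ⟨hcoe0, hinv⟩⟩).2
    have e : Polynomial.aeval (ι (t' * (algebraMap K F₀ π)⁻¹)) (G.map S0.A.subtype) =
        ι.toRingHom (eval₂ ((algebraMap K F₀).comp S0.A.subtype)
          (t' * (algebraMap K F₀ π)⁻¹) G) := by
      rw [Polynomial.aeval_def, Polynomial.eval₂_map, Polynomial.hom_eval₂]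
      congr 1
      ext c
      show algebraMap K F (c : K) = ι (algebraMap K F₀ (c : K))
      rw [AlgHom.commutes]
    rw [← e]
    exact h

/-- **the restriction of `O'` to `ι F₀` is the disc valuation ring.** -/
theorem wpum_comap_eq (D : DiscData S0.A S0.res O (discRing S0 P') π t' ev)
    {V : ValuationSubring F₀} (hV : IsDiscVal S0.A (discRing S0 P') π t' ev V)
    (hA : ∀ c : K, algebraMap K F c ∈ O' ↔ c ∈ S0.A)
    (hcen : WPCentred S0 P' ι O')
    (hgen : WPGeneric S0.A O' (ι (t' * (algebraMap K F₀ π)⁻¹))) :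
    O'.comap ι.toRingHom = V :=
  D.unq_comap_eq hV (wpum_uniqData D hA hcen hgen)

/-- `O'` lies over the disc valuation ring, for the algebra structure along `ι`. -/
theorem wpum_liesOverV (D : DiscData S0.A S0.res O (discRing S0 P') π t' ev)
    {V : ValuationSubring F₀} (hV : IsDiscVal S0.A (discRing S0 P') π t' ev V)
    (hA : ∀ c : K, algebraMap K F c ∈ O' ↔ c ∈ S0.A)
    (hcen : WPCentred S0 P' ι O')
    (hgen : WPGeneric S0.A O' (ι (t' * (algebraMap K F₀ π)⁻¹))) :
    letI := algebraAlong ι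
    LiesOverV V O' :=
  wpum_comap_eq D hV hA hcen hgen

/-- **uniqueness**: `O' = Ow` if `Ow` is the unique valuation ring of `F` over the disc valuation
ring along `ι` (the last clause of `core_main`). -/
theorem wpum_eq_of_unique (D : DiscData S0.A S0.res O (discRing S0 P') π t' ev)
    {V : ValuationSubring F₀} (hV : IsDiscVal S0.A (discRing S0 P') π t' ev V)
    {Ow : ValuationSubring F}
    (huniq : letI := algebraAlong ι; ∀ O'' : ValuationSubring F, LiesOverV V O'' → O'' = Ow)
    (hA : ∀ c : K, algebraMap K F c ∈ O' ↔ c ∈ S0.A)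
    (hcen : WPCentred S0 P' ι O')
    (hgen : WPGeneric S0.A O' (ι (t' * (algebraMap K F₀ π)⁻¹))) :
    O' = Ow :=
  huniq O' (wpum_liesOverV D hV hA hcen hgen)

/-- **uniqueness**: `O' = Ow` for every valuation ring `Ow` of `F` over the disc valuation ring
(along `ι`) with a residually independent family of `[F : ι F₀]` elements. -/
theorem wpum_eq_of_cover [Infinite k] (D : DiscData S0.A S0.res O (discRing S0 P') π t' ev)
    (hres : Function.Surjective S0.res)
    {V : ValuationSubring F₀} (hV : IsDiscVal S0.A (discRing S0 P') π t' ev V)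
    {Ow : ValuationSubring F}
    (hfd : letI := algebraAlong ι; FiniteDimensional F₀ F)
    (hO : letI := algebraAlong ι; LiesOverV V Ow)
    {κ : Type*} [Fintype κ] {x : κ → F}
    (hx : letI := algebraAlong ι; ResIndep V Ow x)
    (hcard : letI := algebraAlong ι; Fintype.card κ = Module.finrank F₀ F)
    (hA : ∀ c : K, algebraMap K F c ∈ O' ↔ c ∈ S0.A)
    (hcen : WPCentred S0 P' ι O')
    (hgen : WPGeneric S0.A O' (ι (t' * (algebraMap K F₀ π)⁻¹))) :
    O' = Ow := by
  letI := algebraAlong ι
  haveI := hfd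
  exact D.unq_eq_of_cover' hres hV hO hx hcard (wpum_uniqData D hA hcen hgen)

end Abs

/-! ### modular part -/

section Mod

variable (M₀ q : ℕ) [NeZero M₀] [NeZero q]

/-- `ι₁ ((t - a^q) / ϖ^q) = Y`. -/
theorem wpum_iota1_Y (t : FBar M₀) (a ϖ : Qb) :
    wpdIota1 M₀ q ((t - algebraMap Qb (FBar M₀) (a ^ q)) *
      (algebraMap Qb (FBar M₀) (ϖ ^ q))⁻¹) = wpY M₀ q t a ϖ := by
  rw [wpY, map_mul, map_sub, map_inv₀, AlgHom.commutes, AlgHom.commutes, div_eq_mul_inv]

/-- `ι₁ (t / ϖ^q) = Y` for `a = 0`. -/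
theorem wpum_iota1_Y0 (t : FBar M₀) (ϖ : Qb) :
    wpdIota1 M₀ q (t * (algebraMap Qb (FBar M₀) (ϖ ^ q))⁻¹) = wpY M₀ q t 0 ϖ := by
  rw [wpY, map_mul, map_inv₀, AlgHom.commutes, div_eq_mul_inv, zero_pow (NeZero.ne q), map_zero,
    sub_zero]

variable {M₀ q}
variable {A : ValuationSubring Qb}
  {S0 : Fermat.Agent.S18Key.RedSetup Qb (FBar M₀) (IsLocalRing.ResidueField A)
    ↥(modularFunctionFieldFullC (IsLocalRing.ResidueField A) M₀)}
  {P' : Place (IsLocalRing.ResidueField A)
    ↥(modularFunctionFieldFullC (IsLocalRing.ResidueField A) M₀)}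
  {t : FBar M₀} {a ϖ : Qb} {O : Subring (FBar M₀)}
  {ev : discRing S0 P' →+* IsLocalRing.ResidueField A}
  {V : ValuationSubring (FBar M₀)} {Ow : ValuationSubring (FBar (M₀ * q * q))}

/-- **the field `uniq` of `WPOut`** (exact shape), from the disc data at `P'` for
`(t - a^q, ϖ^q)` and the uniqueness of `Ow` over the disc valuation ring along `ι₁`. -/
theorem wpum_uniq_of_unique (hS0A : S0.A = A)
    (D : DiscData S0.A S0.res O (discRing S0 P') (ϖ ^ q)
      (t - algebraMap Qb (FBar M₀) (a ^ q)) ev)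
    (hV : IsDiscVal S0.A (discRing S0 P') (ϖ ^ q) (t - algebraMap Qb (FBar M₀) (a ^ q)) ev V)
    (huniq : letI := algebraAlong (wpdIota1 M₀ q);
      ∀ O'' : ValuationSubring (FBar (M₀ * q * q)), LiesOverV V O'' → O'' = Ow) :
    ∀ O' : ValuationSubring (FBar (M₀ * q * q)),
      (∀ c : Qb, algebraMap Qb (FBar (M₀ * q * q)) c ∈ O' ↔ c ∈ A) →
      WPCentred S0 P' (wpdIota1 M₀ q) O' → WPGeneric A O' (wpY M₀ q t a ϖ) → O' = Ow := by
  intro O' hA hcen hgen
  refine wpum_eq_of_unique (ι := wpdIota1 M₀ q) D hV huniq ?_ hcen ?_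
  · intro c
    rw [hS0A]
    exact hA c
  · rw [wpum_iota1_Y, hS0A]
    exact hgen

/-- **the field `uniq` of `WPOut` / `WPVal` for `a = 0`** (exact shape), from the disc data at
`P'` for `(t, ϖ^q)` and the uniqueness of `Ow` over the disc valuation ring along `ι₁`. -/
theorem wpum_uniq0_of_unique (hS0A : S0.A = A)
    (D : DiscData S0.A S0.res O (discRing S0 P') (ϖ ^ q) t ev)
    (hV : IsDiscVal S0.A (discRing S0 P') (ϖ ^ q) t ev V)
    (huniq : letI := algebraAlong (wpdIota1 M₀ q);
      ∀ O'' : ValuationSubring (FBar (M₀ * q * q)), LiesOverV V O'' → O'' = Ow) :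
    ∀ O' : ValuationSubring (FBar (M₀ * q * q)),
      (∀ c : Qb, algebraMap Qb (FBar (M₀ * q * q)) c ∈ O' ↔ c ∈ A) →
      WPCentred S0 P' (wpdIota1 M₀ q) O' → WPGeneric A O' (wpY M₀ q t 0 ϖ) → O' = Ow := by
  intro O' hA hcen hgen
  refine wpum_eq_of_unique (ι := wpdIota1 M₀ q) D hV huniq ?_ hcen ?_
  · intro c
    rw [hS0A]
    exact hA c
  · rw [wpum_iota1_Y0, hS0A]
    exact hgen

end Mod

end Fermat.Agent.S36G
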