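/-
Cluster G (S36), block W-P, seat VAL (helper93; sub-architect helper59), part 1: THE DATUM.

The assembly of `WPOut` (`Defs.lean`) at `S0 = wpdSetup` (DISC-MOD, helper10) is split in two:

* the DATUM part `(D)`: `t` (EX_t, helper84: `ExTDatum`, `t̄ (P) = 0`, so `a = 0`), `ϖ`
  (`wpd_exists_pi`), `P' = Φ P` (CENTRES, helper79) -- proved HERE from the landed seats;
* the VALUE part: `structure WPVal` = the fields `(V), (L), (H), (OLD), (N), (U)` of `WPOut` for a
  GIVEN datum `(P', t, a, ϖ)`.  `WPValStatement M₀ q` is the exact modular target of the seats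
  CORE / CORE-MOD / VAL-IN / OLD / UNIQ.

* `isGaussRed_wpdSetup`   : `wpdSetup` is a Gauss reduction package (`IsGaussRed`);
* `wpdT_rat`              : the datum `t = wpdT M t0 h` is rational (`galFun`-fixed);
* `wpdT_mem_discRing_ss`  : `t ∈ R_Q` for every supersingular `Q`;
* `WPVal`, `WPOut.ofVal`  : value part + datum facts ⟹ `WPOut`;
* `WPExists M₀ q`         : a `WPOut` at `wpdSetup` at every supersingular place;
* `wpExists_of_val`       : `ExTStatement q M₀ → WPValStatement M₀ q → WPExists M₀ q`.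
-/
import Mathlib
import Fermat.Agent.S36.HPVal.Defs
import Fermat.Agent.S36.HPVal.DiscMod
import Fermat.Agent.S36.HPVal.Centres
import Fermat.Agent.S36.Seed.OldSep

set_option autoImplicit false
set_option linter.style.haveILetI false
set_option linter.unusedSectionVars false
set_option linter.unusedVariables false
set_option synthInstance.maxHeartbeats 400000

noncomputable section
attribute [local instance 10000] SubalgebraClass.toAlgebra HahnSeries.powerSeriesAlgebra

namespace Fermat.Agent.S36G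

open ModularCurve AlgebraicCurve IntermediateField Fermat.Agent.F3 Fermat.Agent.F3G
  Fermat.Agent.GaussInt Fermat.Agent.Deuring Fermat.Agent.BadRed Fermat.Agent.HPVal
  Fermat.Agent.HP

local notation "Qb" => AlgebraicClosure ℚ

/-! ### the reduction package `wpdSetup` and the datum `t` -/

section Setup

variable (A : ValuationSubring Qb) (q M : ℕ) [NeZero M]
  (hq : q.Prime) (hA : A.LiesOverPrime q) (hqM : ¬ q ∣ M)
  (hg : genusFF Qb (modularFunctionFieldBar M) =
    genusFF (IsLocalRing.ResidueField A)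
      (modularFunctionFieldFullC (IsLocalRing.ResidueField A) M))

/-- `wpdSetup` is a Gauss reduction package. -/
theorem isGaussRed_wpdSetup : IsGaussRed M A (wpdSetup A q M hq hA hqM hg) where
  A_eq := rfl
  res_eq := fun _ _ _ => rfl
  mem_iff := fun _ => Iff.rfl
  coe_red := fun f hf => by
    rw [wpdSetup_red]
    exact coe_modularValSetup_red A q M hq hA hqM hf

/-- the datum `t` is rational: fixed by the coefficientwise Galois action. -/
theorem wpdT_rat (t0 : LaurentSeries ℚ) (h : t0 ∈ modularFunctionFieldFull M)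
    (τ : Qb ≃ₐ[ℚ] Qb) : galFun M τ (wpdT M t0 h) = wpdT M t0 h :=
  Subtype.ext (by
    rw [coe_arithmeticGalois_smul]
    exact coeffMap_coeffEmb τ t0)

/-- the datum `t` lies in `R_Q` for every supersingular `Q`. -/
theorem wpdT_mem_discRing_ss {P : Place (IsLocalRing.ResidueField A)
      ↥(modularFunctionFieldFullC (IsLocalRing.ResidueField A) M)} {t0 : LaurentSeries ℚ}
    (D : ExTDatum A q M hq hA hqM P t0)
    (Q : Place (IsLocalRing.ResidueField A)
      ↥(modularFunctionFieldFullC (IsLocalRing.ResidueField A) M))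
    (hQ : IsSSPlace (IsLocalRing.ResidueField A) M q Q) :
    wpdT M t0 D.mem ∈ discRing (wpdSetup A q M hq hA hqM hg) Q :=
  wpd_mem_discRing A q M hq hA hqM hg (D.mem_Ov _) (D.poles _)
    (seedOld_ord_jC_nonneg M hq hA hQ)

end Setup

/-! ### the value part of `WPOut` -/

/-- **The value part of `WPOut`** for a given datum `(P', t, a, ϖ)`: the fields `(V)`, `(L)`,
`(H)`, `(OLD)`, `(N)`, `(U)`. -/
structure WPVal (M₀ q : ℕ) [NeZero M₀] [NeZero q] (A : ValuationSubring Qb)
    (S0 : Fermat.Agent.S18Key.RedSetup Qb (FBar M₀) (IsLocalRing.ResidueField A)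
      ↥(modularFunctionFieldFullC (IsLocalRing.ResidueField A) M₀))
    (P P' : Place (IsLocalRing.ResidueField A)
      ↥(modularFunctionFieldFullC (IsLocalRing.ResidueField A) M₀))
    (t : FBar M₀) (a ϖ : Qb)
    (FkP : Type) [Field FkP] [Algebra (IsLocalRing.ResidueField A) FkP] where
  /-- **(V)** the constant reduction `w_P` -/
  S : ValSetup Qb (FBar (M₀ * q * q)) (IsLocalRing.ResidueField A) FkP
  A_eq : S.A = A
  res_eq : ∀ (c : Qb) (h : c ∈ S.A) (h' : c ∈ A), S.res ⟨c, h⟩ = IsLocalRing.residue A ⟨c, h'⟩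
  /-- **(L)** the lattice property -/
  lat : HasLattice S
  /-- **(H)** the curve `H_P` -/
  H : HPCurve (IsLocalRing.ResidueField A) FkP q
  W_mem : wpW M₀ q t a ϖ ∈ S.Ov
  Z_mem : wpZ M₀ q t a ϖ ∈ S.Ov
  Y_mem : wpY M₀ q t a ϖ ∈ S.Ov
  red_W : S.red (wpW M₀ q t a ϖ) = H.X1
  red_Z : S.red (wpZ M₀ q t a ϖ) = H.X2
  red_Y : S.red (wpY M₀ q t a ϖ) = H.Yf
  /-- **(OLD)** -/
  old0 : WPOld S0 P (wpIota0 M₀ q) S
  old1 : WPOld S0 P' (wpdIota1 M₀ q) S
  old2 : WPOld S0 P (wpIota2 M₀ q) S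
  /-- **(N)** -/
  res_Y : ∀ g : FBar M₀, wpdIota1 M₀ q g ∈ S.Ov →
    S.red (wpdIota1 M₀ q g) ∈ (IsLocalRing.ResidueField A)⟮H.Yf⟯
  /-- **(U)** -/
  uniq : ∀ O' : ValuationSubring (FBar (M₀ * q * q)),
    (∀ c : Qb, algebraMap Qb (FBar (M₀ * q * q)) c ∈ O' ↔ c ∈ A) →
    WPCentred S0 P' (wpdIota1 M₀ q) O' → WPGeneric A O' (wpY M₀ q t a ϖ) → O' = S.Ov

/-- value part + datum facts ⟹ `WPOut`. -/
def WPOut.ofVal {M₀ q : ℕ} [NeZero M₀] [NeZero q] {A : ValuationSubring Qb}
    {S0 : Fermat.Agent.S18Key.RedSetup Qb (FBar M₀) (IsLocalRing.ResidueField A)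
      ↥(modularFunctionFieldFullC (IsLocalRing.ResidueField A) M₀)}
    {P P' : Place (IsLocalRing.ResidueField A)
      ↥(modularFunctionFieldFullC (IsLocalRing.ResidueField A) M₀)}
    {t : FBar M₀} {a ϖ : Qb}
    {FkP : Type} [Field FkP] [Algebra (IsLocalRing.ResidueField A) FkP]
    (V : WPVal M₀ q A S0 P P' t a ϖ FkP)
    (ss' : IsSSPlace (IsLocalRing.ResidueField A) M₀ q P')
    (t_rat : ∀ τ : Qb ≃ₐ[ℚ] Qb, galFun M₀ τ t = t)
    (t_mem : ∀ Q : Place (IsLocalRing.ResidueField A)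
        ↥(modularFunctionFieldFullC (IsLocalRing.ResidueField A) M₀),
      IsSSPlace (IsLocalRing.ResidueField A) M₀ q Q → t ∈ discRing S0 Q)
    (a_mem : a ∈ A) (a_pow : a ^ (q ^ 2) = a)
    (ord_t : P.ord (S0.red t -
      algebraMap (IsLocalRing.ResidueField A)
        ↥(modularFunctionFieldFullC (IsLocalRing.ResidueField A) M₀)
        (IsLocalRing.residue A ⟨a, a_mem⟩)) = 1)
    (ord_t' : P'.ord (S0.red t -
      algebraMap (IsLocalRing.ResidueField A)
        ↥(modularFunctionFieldFullC (IsLocalRing.ResidueField A) M₀)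
        (IsLocalRing.residue A ⟨a ^ q, pow_mem a_mem q⟩)) = 1)
    (ϖ_pow : ϖ ^ (q + 1) = (q : Qb)) : WPOut M₀ q A S0 P FkP where
  S := V.S
  A_eq := V.A_eq
  res_eq := V.res_eq
  lat := V.lat
  t := t
  a := a
  ϖ := ϖ
  P' := P'
  ss' := ss'
  t_rat := t_rat
  t_mem := t_mem
  a_mem := a_mem
  a_pow := a_pow
  ord_t := ord_t
  ord_t' := ord_t'
  ϖ_pow := ϖ_pow
  H := V.H
  W_mem := V.W_mem
  Z_mem := V.Z_mem
  Y_mem := V.Y_mem
  red_W := V.red_W
  red_Z := V.red_Z
  red_Y := V.red_Y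
  old0 := V.old0
  old1 := V.old1
  old2 := V.old2
  res_Y := V.res_Y
  uniq := V.uniq

/-! ### the statements -/

/-- **W-P at `wpdSetup`**: a `WPOut` at every supersingular place, for the reduction package
`wpdSetup` of DISC-MOD (which has LIFT and `deg`: `wpd_gr`, `wpd_deg`). -/
def WPExists (M₀ q : ℕ) [NeZero M₀] [NeZero q] : Prop :=
  ∀ (hq : q.Prime) (hqM : ¬ q ∣ M₀) (A : ValuationSubring Qb) (hA : A.LiesOverPrime q)
    (hg : genusFF Qb (modularFunctionFieldBar M₀) =
      genusFF (IsLocalRing.ResidueField A)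
        (modularFunctionFieldFullC (IsLocalRing.ResidueField A) M₀))
    (P : Place (IsLocalRing.ResidueField A)
      ↥(modularFunctionFieldFullC (IsLocalRing.ResidueField A) M₀)),
    IsSSPlace (IsLocalRing.ResidueField A) M₀ q P →
    ∃ (FkP : Type) (_ : Field FkP) (_ : Algebra (IsLocalRing.ResidueField A) FkP),
      Nonempty (WPOut M₀ q A (wpdSetup A q M₀ hq hA hqM hg) P FkP)

/-- **the modular target of CORE / CORE-MOD / VAL-IN / OLD / UNIQ**: for the datum `t` of EX_t
at a supersingular `P` (`t̄ (P) = 0`, `a = 0`), the twist `P' = Φ P` and any `ϖ` with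
`ϖ ^ (q + 1) = q`, the value part exists. -/
def WPValStatement (M₀ q : ℕ) [NeZero M₀] [NeZero q] : Prop :=
  ∀ (hq : q.Prime) (hqM : ¬ q ∣ M₀) (A : ValuationSubring Qb) (hA : A.LiesOverPrime q)
    (hg : genusFF Qb (modularFunctionFieldBar M₀) =
      genusFF (IsLocalRing.ResidueField A)
        (modularFunctionFieldFullC (IsLocalRing.ResidueField A) M₀))
    [Fact q.Prime] [CharP (IsLocalRing.ResidueField A) q]
    [PerfectRing (IsLocalRing.ResidueField A) q]
    (P : Place (IsLocalRing.ResidueField A)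
      ↥(modularFunctionFieldFullC (IsLocalRing.ResidueField A) M₀)),
    IsSSPlace (IsLocalRing.ResidueField A) M₀ q P →
    ∀ (t0 : LaurentSeries ℚ) (D : ExTDatum A q M₀ hq hA hqM P t0) (ϖ : Qb),
      ϖ ^ (q + 1) = (q : Qb) →
      ∃ (FkP : Type) (_ : Field FkP) (_ : Algebra (IsLocalRing.ResidueField A) FkP),
        Nonempty (WPVal M₀ q A (wpdSetup A q M₀ hq hA hqM hg) P
          (frobAut (IsLocalRing.ResidueField A) M₀ q • P) (wpdT M₀ t0 D.mem) 0 ϖ FkP)

/-! ### the assembly of the datum -/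

/-- **VAL, part 1**: EX_t + the value part ⟹ `WPOut` at every supersingular place. -/
theorem wpExists_of_val (M₀ q : ℕ) [NeZero M₀] [NeZero q] (hT : ExTStatement q M₀)
    (hV : WPValStatement M₀ q) : WPExists M₀ q := by
  intro hq hqM A hA hg P hP
  haveI : Fact q.Prime := ⟨hq⟩
  haveI : IsAlgClosed (IsLocalRing.ResidueField A) := isAlgClosed_residue A
  haveI : CharP (IsLocalRing.ResidueField A) q := Fermat.Agent.FrobTrace.charP_residueField A hA
  haveI : PerfectRing (IsLocalRing.ResidueField A) q := inferInstance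
  obtain ⟨t0, D⟩ := hT A hq hA hqM hg P (seedOld_ord_jC_nonneg M₀ hq hA hP)
  obtain ⟨ϖ, hϖ, -, -, -⟩ := wpd_exists_pi (A := A) hq hA
  obtain ⟨FkP, i₁, i₂, ⟨V⟩⟩ := hV hq hqM A hA hg P hP t0 D ϖ hϖ
  refine ⟨FkP, i₁, i₂, ⟨?_⟩⟩
  have hres0 : IsLocalRing.residue A ⟨(0 : Qb), A.zero_mem⟩ = 0 := map_zero _
  have hres0' : IsLocalRing.residue A ⟨(0 : Qb) ^ q, pow_mem A.zero_mem q⟩ = 0 := by
    have e : (⟨(0 : Qb) ^ q, pow_mem A.zero_mem q⟩ : A) = 0 :=
      Subtype.ext (zero_pow hq.ne_zero)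
    rw [e, map_zero]
  refine WPOut.ofVal V (centres_isSS_frob _ M₀ q hP) (wpdT_rat M₀ t0 D.mem)
    (wpdT_mem_discRing_ss A q M₀ hq hA hqM hg D) A.zero_mem
    (zero_pow (pow_ne_zero 2 hq.ne_zero)) ?_ ?_ hϖ
  · rw [hres0, map_zero, sub_zero, wpdSetup_red]
    exact D.unif _
  · rw [hres0', map_zero, sub_zero, wpdSetup_red]
    exact D.frob.unif _

end Fermat.Agent.S36G
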