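/-
Cluster G (S36), block W-P, seat VAL (helper93; sub-architect helper59), part 2: THE VALUE PART.

The assembly of `WPVal` (`ValDatum.lean`) from the landed seats:

* CORE (`Lib/BadRed/HPVal/Core.lean`, `CoreK.lean`, helper42): `core_main_ratFunc`;
* CORE-MOD (`S36/HPVal/CoreMod.lean`, helper16): the bundle `CoreModIn`;
* UNIQ-MOD (`S36/HPVal/UniqMod.lean`, helper65): `wpum_uniq0_of_unique`;
* DISC-MOD (`S36/HPVal/DiscModG.lean`, helper10): `IsGaussRed.discData`, `res_surjective`;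
* OLD (`S36/Seed/OldMod.lean`, helper57, helper30): the shape `old1 ⟹ old0 ∧ old2`.

Statements:

* `wpvSetup1`, `wpvSetup1_hasLattice` : the disc valuation `(V, ρ)` of the bundle as a constant
  reduction `S₁ : ValSetup ℚ̄ F₀ k k(X)` with the lattice property;
* `WPOldStep S0 P P'`    : the shape of OLD-MOD: for EVERY constant reduction `S` of `F`,
  `old1` at `P'` gives `old0` and `old2` at `P`;
* `wpv_of_coreModIn`     : **bundle + OLD ⟹ `WPVal`** (any Gauss reduction package `S0`);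
* `WPCoreModExists M₀ q`, `WPOldExists M₀ q` : the two modular inputs at `wpdSetup`;
* `wpValStatement_of`    : `WPCoreModExists → WPOldExists → WPValStatement M₀ q`;
* `wpExists_of`          : `ExTStatement → WPCoreModExists → WPOldExists → WPExists M₀ q`.
-/
import Mathlib
import Fermat.Agent.S36.HPVal.ValDatum
import Fermat.Agent.S36.HPVal.CoreMod
import Fermat.Agent.S36.HPVal.DiscModG
import Fermat.Agent.S36.HPVal.Disc1Mod
import Fermat.Agent.S36.HPVal.UniqMod
import Fermat.Agent.S36.Seed.OldMod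
import Fermat.Agent.Lib.BadRed.HPVal.CoreK
import Fermat.Agent.Lib.BadRed.HPVal.DiscLatWrap
import Fermat.Agent.Lib.BadRed.HPVal.DiscSetup

set_option autoImplicit false
set_option linter.style.haveILetI false
set_option linter.unusedSectionVars false
set_option linter.unusedVariables false
set_option synthInstance.maxHeartbeats 400000

noncomputable section
attribute [local instance 10000] SubalgebraClass.toAlgebra HahnSeries.powerSeriesAlgebra

namespace Fermat.Agent.S36G

open ModularCurve AlgebraicCurve IntermediateField Fermat.Agent.F3 Fermat.Agent.F3G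
  Fermat.Agent.GaussInt Fermat.Agent.Deuring Fermat.Agent.BadRed Fermat.Agent.HPVal
  Fermat.Agent.HP Fermat.Agent.S18Key Fermat.Agent.RR Fermat.Agent.S36

local notation "Qb" => AlgebraicClosure ℚ

/-! ### the disc valuation of the bundle as a constant reduction -/

section Setup1

variable {M₀ q : ℕ} [NeZero M₀] [NeZero q] {k Fk0 : Type*} [Field k] [Field Fk0] [Algebra k Fk0]
  {S0 : RedSetup Qb (FBar M₀) k Fk0} {P' : Place k Fk0} {hFk : IsRRField k Fk0}
  {hq : q.Prime} {hqM : ¬ q ∣ M₀} {t : FBar M₀} {ϖ : Qb} {c₀ : k}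
  {V : ValuationSubring (FBar M₀)} {ρ : V →+* RatFunc k} {D : CscData V q}

/-- **the disc valuation `(V, ρ)` of the bundle as a constant reduction** of `F₀ = F_{M₀}`. -/
def wpvSetup1 [IsAlgClosed k] (hCM : CoreModIn S0 P' hFk hq hqM t ϖ c₀ V ρ D)
    (hres : Function.Surjective S0.res) : ValSetup Qb (FBar M₀) k (RatFunc k) where
  A := S0.A
  Ov := V
  res := S0.res
  ρ := ρ
  hF := S0.hF
  hFk := isRRField_ratFunc k
  res_surj := hres
  ρ_surj := hCM.ρ_surj
  mem_Ov_iff := hCM.isDiscVal.mem_iff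
  ρ_algebraMap := hCM.ρ_const
  ρ_eq_zero_iff := hCM.ρ_ker
  scale := hCM.scale

/-- the lattice property of the disc valuation of the bundle. -/
theorem wpvSetup1_hasLattice [IsAlgClosed k] (hCM : CoreModIn S0 P' hFk hq hqM t ϖ c₀ V ρ D)
    (hres : Function.Surjective S0.res) : HasLattice (wpvSetup1 hCM hres) := by
  obtain ⟨Pt, -, hL⟩ := hCM.lat
  exact hasLattice_of_discLat (wpvSetup1 hCM hres) hL

end Setup1

/-! ### the shape of OLD -/

section Old

variable {M₀ q : ℕ} [NeZero M₀] [NeZero q] {A : ValuationSubring Qb}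

/-- **the shape of OLD-MOD** (`oldMod_old02_iff_ready`): for EVERY constant reduction `S` of
`F = F_{M₀ q q}`, `old1` at `P'` gives `old0` and `old2` at `P`. -/
def WPOldStep (S0 : RedSetup Qb (FBar M₀) (IsLocalRing.ResidueField A)
      ↥(modularFunctionFieldFullC (IsLocalRing.ResidueField A) M₀))
    (P P' : Place (IsLocalRing.ResidueField A)
      ↥(modularFunctionFieldFullC (IsLocalRing.ResidueField A) M₀)) : Prop :=
  ∀ (FkP : Type) [Field FkP] [Algebra (IsLocalRing.ResidueField A) FkP]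
    (S : ValSetup Qb (FBar (M₀ * q * q)) (IsLocalRing.ResidueField A) FkP),
    WPOld S0 P' (wpdIota1 M₀ q) S →
      WPOld S0 P (wpIota0 M₀ q) S ∧ WPOld S0 P (wpIota2 M₀ q) S

end Old

/-! ### the constants -/

section Const

variable {A : ValuationSubring Qb} {q : ℕ}

/-- the radius `ϖ ^ q`, `ϖ ^ (q + 1) = q`: a non-zero element of `m_A`. -/
theorem wpv_radius (hq : q.Prime) (hA : A.LiesOverPrime q) {ϖ : Qb}
    (hϖ : ϖ ^ (q + 1) = (q : Qb)) :
    ϖ ^ q ≠ 0 ∧ ϖ ^ q ∈ A ∧ (ϖ ^ q)⁻¹ ∉ A := by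
  have hq0 : (q : Qb) ≠ 0 := Nat.cast_ne_zero.mpr hq.ne_zero
  have hϖ0 : ϖ ≠ 0 := by
    rintro rfl
    rw [zero_pow (Nat.succ_ne_zero q)] at hϖ
    exact hq0 hϖ.symm
  have hqA : (q : Qb) ∈ A := natCast_mem A q
  have hqinv : (q : Qb)⁻¹ ∉ A := by
    have h2 : (q : Qb) ∈ A.nonunits := hA
    rw [ValuationSubring.mem_nonunits_iff_or] at h2
    exact h2.resolve_left hq0
  have hϖA : ϖ ∈ A := wpd_mem_of_pow_mem (Nat.succ_ne_zero q) (hϖ ▸ hqA)
  have hϖinv : ϖ⁻¹ ∉ A := fun hinv => hqinv (by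
    rw [← hϖ, ← inv_pow]
    exact pow_mem hinv _)
  exact d1m_pow_props hϖ0 hϖA hϖinv hq.ne_zero

end Const

/-! ### bundle + OLD ⟹ the value part -/

section Main

variable {M₀ q : ℕ} [NeZero M₀] [NeZero q] {A : ValuationSubring Qb}
  {S0 : RedSetup Qb (FBar M₀) (IsLocalRing.ResidueField A)
    ↥(modularFunctionFieldFullC (IsLocalRing.ResidueField A) M₀)}
  {P P' : Place (IsLocalRing.ResidueField A)
    ↥(modularFunctionFieldFullC (IsLocalRing.ResidueField A) M₀)}
  {hq : q.Prime} {hqM : ¬ q ∣ M₀} {t : FBar M₀} {ϖ : Qb} {c₀ : IsLocalRing.ResidueField A}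
  {V : ValuationSubring (FBar M₀)} {ρ : V →+* RatFunc (IsLocalRing.ResidueField A)}
  {D : CscData V q}

/-- **VAL, part 2: the bundle of CORE-MOD and OLD give the value part of `WPOut`**, for any Gauss
reduction package `S0` of `F_{M₀}` at `A ∣ q`. -/
theorem wpv_of_coreModIn (hS : IsGaussRed M₀ A S0) (hA : A.LiesOverPrime q)
    (hϖ : ϖ ^ (q + 1) = (q : Qb))
    (hCM : CoreModIn S0 P' (wpd_hFk A M₀) hq hqM t ϖ c₀ V ρ D)
    (hOld : WPOldStep (q := q) S0 P P') :
    ∃ (FkP : Type) (_ : Field FkP) (_ : Algebra (IsLocalRing.ResidueField A) FkP),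
      Nonempty (WPVal M₀ q A S0 P P' t 0 ϖ FkP) := by
  haveI : IsAlgClosed (IsLocalRing.ResidueField A) := isAlgClosed_residue A
  letI : Algebra (FBar M₀) (FBar (M₀ * q * q)) := algebraAlong (wpdIota1 M₀ q)
  haveI : IsScalarTower Qb (FBar M₀) (FBar (M₀ * q * q)) := isScalarTower_along (wpdIota1 M₀ q)
  have hF : IsRRField Qb (FBar (M₀ * q * q)) := Fermat.Agent.RRMod.isRRField_bar (M₀ * q * q)
  have hL1 := wpvSetup1_hasLattice hCM hS.res_surjective
  have hx : D.psi.eval₂ (algebraMap (FBar M₀) (FBar (M₀ * q * q))) (wpIota0 M₀ q t) = 0 := by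
    rw [hCM.psi_eq]
    exact hCM.root0
  have hz : D.psi.eval₂ (algebraMap (FBar M₀) (FBar (M₀ * q * q))) (wpIota2 M₀ q t) = 0 := by
    rw [hCM.psi_eq]
    exact hCM.root2
  obtain ⟨FkP, i₁, i₂, S, H, ιk, hAeq, hres, hlat, hlies, hιk, hred, hW, hZ, hrW, hrZ, hYf, -,
      hresY, -, huniq⟩ :=
    core_main_ratFunc (wpvSetup1 hCM hS.res_surjective) hL1 hF hq hCM.char hCM.finrank.2 D
      hCM.coe_ϖ hCM.uinv_eq hCM.ρ_Y hCM.ρ_R0 hCM.c_ne hx hz hCM.ne
  -- the coordinates
  have eW : wpW M₀ q t 0 ϖ =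
      wpIota0 M₀ q t * (algebraMap Qb (FBar (M₀ * q * q)) ϖ)⁻¹ := by
    rw [wpW, map_zero, sub_zero, div_eq_mul_inv]
  have eZ : wpZ M₀ q t 0 ϖ =
      wpIota2 M₀ q t * (algebraMap Qb (FBar (M₀ * q * q)) ϖ)⁻¹ := by
    rw [wpZ, map_zero, sub_zero, div_eq_mul_inv]
  have eY : wpY M₀ q t 0 ϖ = algebraMap (FBar M₀) (FBar (M₀ * q * q)) (D.Y : FBar M₀) := by
    rw [hCM.coe_Y]
    exact (wpum_iota1_Y0 M₀ q t ϖ).symm
  have hY1 : (wpvSetup1 hCM hS.res_surjective).red (D.Y : FBar M₀) = RatFunc.X := by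
    rw [ValSetup.red_of_mem (wpvSetup1 hCM hS.res_surjective) D.Y.2]
    exact hCM.ρ_Y
  -- (OLD) at the centre of `ι₁`
  have hold1 : WPOld S0 P' (wpdIota1 M₀ q) S := by
    intro g hg c hc
    have hgV : g ∈ V := hCM.disc_le g hg
    refine ⟨(hlies.mem_iff g).2 hgV, ?_⟩
    have h1 := hred g hgV
    rw [ValSetup.red_of_mem (wpvSetup1 hCM hS.res_surjective) hgV] at h1
    have h2 : (wpvSetup1 hCM hS.res_surjective).ρ ⟨g, hgV⟩ =
        algebraMap (IsLocalRing.ResidueField A) (RatFunc (IsLocalRing.ResidueField A))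
          (discEv S0 P' (wpd_hFk A M₀) ⟨g, hg⟩) := hCM.ρ_disc ⟨g, hg⟩ hgV
    rw [h2, hιk, oldMod_discEv_eq_of_valAt S0 P' (wpd_hFk A M₀) ⟨g, hg⟩ hc] at h1
    exact h1
  obtain ⟨hold0, hold2⟩ := hOld FkP S hold1
  -- the disc data at `P'`
  obtain ⟨Pt, hPt, -⟩ := hCM.lat
  obtain ⟨hπ0, hπA, hπinv⟩ := wpv_radius hq hA hϖ
  have hDD := hS.discData hq hA hPt hπ0 hπA hπinv
  refine ⟨FkP, i₁, i₂, ⟨?_⟩⟩
  exact
    { S := S
      A_eq := hAeq.trans hS.A_eq
      res_eq := fun c h h' =>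
        (hres c h ((hS.mem_A_iff c).mpr h')).trans (hS.res_eq c ((hS.mem_A_iff c).mpr h') h')
      lat := hlat
      H := H
      W_mem := by rw [eW]; exact hW
      Z_mem := by rw [eZ]; exact hZ
      Y_mem := by rw [eY]; exact (hlies.mem_iff _).2 D.Y.2
      red_W := by rw [eW]; exact hrW
      red_Z := by rw [eZ]; exact hrZ
      red_Y := by rw [eY, hred _ D.Y.2, hY1]; exact hYf
      old0 := hold0
      old1 := hold1
      old2 := hold2
      res_Y := fun g hg => hresY g ((hlies.mem_iff g).1 hg)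
      uniq := wpum_uniq0_of_unique hS.A_eq hDD hCM.isDiscVal huniq }

end Main

/-! ### the statement at `wpdSetup` -/

section Final

variable (M₀ q : ℕ) [NeZero M₀] [NeZero q]

/-- **the modular input of CORE-MOD** at `wpdSetup`: for the datum `t` of EX_t at a supersingular
`P`, the twist `P' = Φ P` and `ϖ ^ (q + 1) = q`, the bundle `CoreModIn` exists. -/
def WPCoreModExists : Prop :=
  ∀ (hq : q.Prime) (hqM : ¬ q ∣ M₀) (A : ValuationSubring Qb) (hA : A.LiesOverPrime q)
    (hg : genusFF Qb (modularFunctionFieldBar M₀) =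
      genusFF (IsLocalRing.ResidueField A)
        (modularFunctionFieldFullC (IsLocalRing.ResidueField A) M₀))
    [Fact q.Prime] [CharP (IsLocalRing.ResidueField A) q]
    [PerfectRing (IsLocalRing.ResidueField A) q]
    (P : Place (IsLocalRing.ResidueField A)
      ↥(modularFunctionFieldFullC (IsLocalRing.ResidueField A) M₀)),
    IsSSPlace (IsLocalRing.ResidueField A) M₀ q P →
    ∀ (t0 : LaurentSeries ℚ) (D : ExTDatum A q M₀ hq hA hqM P t0) (ϖ : Qb),
      ϖ ^ (q + 1) = (q : Qb) →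
      ∃ (c₀ : IsLocalRing.ResidueField A) (V : ValuationSubring (FBar M₀))
        (ρ : V →+* RatFunc (IsLocalRing.ResidueField A)) (Dc : CscData V q),
        CoreModIn (wpdSetup A q M₀ hq hA hqM hg)
          (frobAut (IsLocalRing.ResidueField A) M₀ q • P) (wpd_hFk A M₀) hq hqM
          (wpdT M₀ t0 D.mem) ϖ c₀ V ρ Dc

/-- **the modular input of OLD** at `wpdSetup`: `old1` at `P' = Φ P` gives `old0`, `old2` at
the supersingular place `P`. -/
def WPOldExists : Prop :=
  ∀ (hq : q.Prime) (hqM : ¬ q ∣ M₀) (A : ValuationSubring Qb) (hA : A.LiesOverPrime q)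
    (hg : genusFF Qb (modularFunctionFieldBar M₀) =
      genusFF (IsLocalRing.ResidueField A)
        (modularFunctionFieldFullC (IsLocalRing.ResidueField A) M₀))
    [Fact q.Prime] [CharP (IsLocalRing.ResidueField A) q]
    [PerfectRing (IsLocalRing.ResidueField A) q]
    (P : Place (IsLocalRing.ResidueField A)
      ↥(modularFunctionFieldFullC (IsLocalRing.ResidueField A) M₀)),
    IsSSPlace (IsLocalRing.ResidueField A) M₀ q P →
    WPOldStep (q := q) (wpdSetup A q M₀ hq hA hqM hg) P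
      (frobAut (IsLocalRing.ResidueField A) M₀ q • P)

/-- **VAL, part 2**: CORE-MOD + OLD ⟹ the value part at every supersingular place. -/
theorem wpValStatement_of (hC : WPCoreModExists M₀ q) (hO : WPOldExists M₀ q) :
    WPValStatement M₀ q := by
  intro hq hqM A hA hg _ _ _ P hP t0 D ϖ hϖ
  obtain ⟨c₀, V, ρ, Dc, hCM⟩ := hC hq hqM A hA hg P hP t0 D ϖ hϖ
  exact wpv_of_coreModIn (isGaussRed_wpdSetup A q M₀ hq hA hqM hg) hA hϖ hCM
    (hO hq hqM A hA hg P hP)

/-- **W-P, the assembly**: EX_t + CORE-MOD + OLD ⟹ a `WPOut` at every supersingular place. -/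
theorem wpExists_of (hT : ExTStatement q M₀) (hC : WPCoreModExists M₀ q)
    (hO : WPOldExists M₀ q) : WPExists M₀ q :=
  wpExists_of_val M₀ q hT (wpValStatement_of M₀ q hC hO)

end Final

end Fermat.Agent.S36G
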