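/-
Cluster G (S36, Carayol at `q² ∥ M`), block W-P (sub-architect helper59), seat REG-BRIDGE
(helper72): **from REG to the hypothesis `c₀ ≠ 0` of CORE-MOD.**

REG (helper89, `S36/HPVal/RegKC.lean` `reg_kc_final`, `RegWire.lean`) proves, in the language of
`GaussInt.modularValSetup`:  the reduction of the constant term `r₀ = (kctR M hq hqM t).coeff 0`
of the Kronecker remainder has a VALUE `c ≠ 0` at the supersingular place `P`,

  `∃ c ≠ 0, ValAt P ((modularValSetup A q M hq hA hqM).red r₀) c`.

CORE-MOD (helper16, `S36/HPVal/CoreMod.lean`, field `c_ne` of `CoreModIn`) needs, for ANY Gauss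
reduction package `S0` (`IsGaussRed M A S0`), the evaluation of the disc ring:

  `discEv S0 P hFk ⟨r₀, _⟩ ≠ 0`.

* `rbr_valAt_discEv`        : `ValAt P (S.red g) (discEv S P hFk g)` for `g ∈ R_P` (abstract);
* `rbr_discEv_eq_of_valAt`  : a value of the reduction IS the evaluation (abstract);
* `rbr_discEv_ne_zero_of_valAt` : a nonzero value gives `discEv ≠ 0` (abstract);
* `rbr_discEv_eq`, `rbr_discEv_ne_zero` : the same for a Gauss reduction package, with the value
                               taken for `modularValSetup` (the shape of REG);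
* `rbr_kctR_eq`, `rbr_kctR_ne_zero` : the instance `r₀ = (kctR M hq hqM t).coeff 0`
                               (= `c_ne` / `ρ_R0` of `CoreModIn`).
The level language `(M, q)` is the one of `kctR`; REG is stated with `M = D.R`, `q = D.Q` for
`D : ALData`: `subst` the two equalities `D.Q = q`, `D.R = M` before applying.
-/
import Mathlib
import Fermat.Agent.S36.HPVal.DiscModG
import Fermat.Agent.S36.HPVal.KCt
import Fermat.Agent.Lib.BadRed.Nodal.Setup

set_option autoImplicit false
set_option linter.style.haveILetI false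
set_option linter.unusedSectionVars false
set_option linter.unusedVariables false
set_option synthInstance.maxHeartbeats 400000

noncomputable section
attribute [local instance 10000] SubalgebraClass.toAlgebra HahnSeries.powerSeriesAlgebra

namespace Fermat.Agent.S36G

open ModularCurve AlgebraicCurve Fermat.Agent.Deuring Fermat.Agent.GaussInt Fermat.Agent.FF
  Fermat.Agent.HPVal Fermat.Agent.S18Key Fermat.Agent.RR Fermat.Agent.BadRed

local notation "Qb" => AlgebraicClosure ℚ

/-! ### abstract part: values and the evaluation of the disc ring -/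

section Abs

variable {K F k Fk : Type*} [Field K] [Field F] [Algebra K F] [Field k] [Field Fk] [Algebra k Fk]
  {S : RedSetup K F k Fk} {P : Place k Fk}

/-- the reduction of a function of `R_P` lies in the valuation ring of `P`. -/
theorem rbr_red_mem (g : discRing S P) : S.red (g : F) ∈ P.toValuationSubring :=
  Fermat.Agent.S24Res.mem_of_ord_nonneg P (ord_red_nonneg_of_mem g.2)

/-- the evaluation is a value of the reduction. -/
theorem rbr_valAt_discEv (hFk : IsRRField k Fk) (g : discRing S P) :
    ValAt P (S.red (g : F)) (discEv S P hFk g) := by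
  rw [discEv_apply]
  exact valueAt_spec hFk P (rbr_red_mem g)

/-- **a value of the reduction is the evaluation.** -/
theorem rbr_discEv_eq_of_valAt (hFk : IsRRField k Fk) (g : discRing S P) {c : k}
    (h : ValAt P (S.red (g : F)) c) : discEv S P hFk g = c := by
  rw [discEv_apply]
  exact (valueAt_eq_iff hFk P (rbr_red_mem g) c).mpr h

/-- a nonzero value of the reduction gives a nonzero evaluation. -/
theorem rbr_discEv_ne_zero_of_valAt (hFk : IsRRField k Fk) (g : discRing S P) {c : k}
    (hc : c ≠ 0) (h : ValAt P (S.red (g : F)) c) : discEv S P hFk g ≠ 0 := by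
  rw [rbr_discEv_eq_of_valAt hFk g h]
  exact hc

end Abs

/-! ### modular part: Gauss reduction packages -/

section Mod

variable {A : ValuationSubring Qb} {q M : ℕ} [NeZero M]
  {S0 : RedSetup Qb (modularFunctionFieldBar M) (IsLocalRing.ResidueField A)
    ↥(modularFunctionFieldFullC (IsLocalRing.ResidueField A) M)}
  {P : Place (IsLocalRing.ResidueField A)
    ↥(modularFunctionFieldFullC (IsLocalRing.ResidueField A) M)}

/-- **REG-BRIDGE, value form**: a value of the `modularValSetup`-reduction of `r ∈ R_P` is the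
evaluation `discEv S0 P r`, for every Gauss reduction package `S0`. -/
theorem rbr_discEv_eq (hS : IsGaussRed M A S0) (hq : q.Prime) (hA : A.LiesOverPrime q)
    (hqM : ¬ q ∣ M)
    (hFk : IsRRField (IsLocalRing.ResidueField A)
      ↥(modularFunctionFieldFullC (IsLocalRing.ResidueField A) M))
    {r : modularFunctionFieldBar M} (hr : r ∈ discRing S0 P) {c : IsLocalRing.ResidueField A}
    (h : ValAt P ((modularValSetup A q M hq hA hqM).red r) c) :
    discEv S0 P hFk ⟨r, hr⟩ = c := by
  apply rbr_discEv_eq_of_valAt hFk ⟨r, hr⟩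
  show ValAt P (S0.red r) c
  rw [hS.red_eq hq hA hqM r]
  exact h

/-- **REG-BRIDGE**: a NONZERO value of the `modularValSetup`-reduction of `r ∈ R_P` gives
`discEv S0 P r ≠ 0`. -/
theorem rbr_discEv_ne_zero (hS : IsGaussRed M A S0) (hq : q.Prime) (hA : A.LiesOverPrime q)
    (hqM : ¬ q ∣ M)
    (hFk : IsRRField (IsLocalRing.ResidueField A)
      ↥(modularFunctionFieldFullC (IsLocalRing.ResidueField A) M))
    {r : modularFunctionFieldBar M} (hr : r ∈ discRing S0 P)
    (h : ∃ c : IsLocalRing.ResidueField A, c ≠ 0 ∧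
      ValAt P ((modularValSetup A q M hq hA hqM).red r) c) :
    discEv S0 P hFk ⟨r, hr⟩ ≠ 0 := by
  obtain ⟨c, hc, hv⟩ := h
  rw [rbr_discEv_eq hS hq hA hqM hFk hr hv]
  exact hc

/-- the converse direction: the evaluation is a value of the `modularValSetup`-reduction. -/
theorem rbr_valAt_modular (hS : IsGaussRed M A S0) (hq : q.Prime) (hA : A.LiesOverPrime q)
    (hqM : ¬ q ∣ M)
    (hFk : IsRRField (IsLocalRing.ResidueField A)
      ↥(modularFunctionFieldFullC (IsLocalRing.ResidueField A) M))
    {r : modularFunctionFieldBar M} (hr : r ∈ discRing S0 P) :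
    ValAt P ((modularValSetup A q M hq hA hqM).red r) (discEv S0 P hFk ⟨r, hr⟩) := by
  rw [← hS.red_eq hq hA hqM r]
  exact rbr_valAt_discEv hFk ⟨r, hr⟩

variable [NeZero q]

/-- **REG-BRIDGE for the Kronecker remainder, value form** (`ρ_R0` of `CoreModIn`). -/
theorem rbr_kctR_eq (hS : IsGaussRed M A S0) (hq : q.Prime) (hA : A.LiesOverPrime q)
    (hqM : ¬ q ∣ M)
    (hFk : IsRRField (IsLocalRing.ResidueField A)
      ↥(modularFunctionFieldFullC (IsLocalRing.ResidueField A) M))
    (t : modularFunctionFieldBar M)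
    (hR0 : (Fermat.Agent.S36.kctR M hq hqM t).coeff 0 ∈ discRing S0 P)
    {c : IsLocalRing.ResidueField A}
    (h : ValAt P ((modularValSetup A q M hq hA hqM).red
      ((Fermat.Agent.S36.kctR M hq hqM t).coeff 0)) c) :
    discEv S0 P hFk ⟨(Fermat.Agent.S36.kctR M hq hqM t).coeff 0, hR0⟩ = c :=
  rbr_discEv_eq hS hq hA hqM hFk hR0 h

/-- **REG-BRIDGE for the Kronecker remainder** (`c_ne` of `CoreModIn`): the conclusion of REG
(`reg_kc_final` / `reg_final`) gives `c₀ = (r̄₀)(P) ≠ 0`. -/
theorem rbr_kctR_ne_zero (hS : IsGaussRed M A S0) (hq : q.Prime) (hA : A.LiesOverPrime q)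
    (hqM : ¬ q ∣ M)
    (hFk : IsRRField (IsLocalRing.ResidueField A)
      ↥(modularFunctionFieldFullC (IsLocalRing.ResidueField A) M))
    (t : modularFunctionFieldBar M)
    (hR0 : (Fermat.Agent.S36.kctR M hq hqM t).coeff 0 ∈ discRing S0 P)
    (h : ∃ c : IsLocalRing.ResidueField A, c ≠ 0 ∧
      ValAt P ((modularValSetup A q M hq hA hqM).red
        ((Fermat.Agent.S36.kctR M hq hqM t).coeff 0)) c) :
    discEv S0 P hFk ⟨(Fermat.Agent.S36.kctR M hq hqM t).coeff 0, hR0⟩ ≠ 0 :=
  rbr_discEv_ne_zero hS hq hA hqM hFk hR0 h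

end Mod

end Fermat.Agent.S36G
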