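/-
Cluster G (S36), block W-P, seat CORE-MOD, final wiring (helper16; sub-architect helper59).

**`WPCoreModExists M₀ q`** (the CORE-MOD input of `Val.lean`, helper93) **from REG**.

* `WPRegAt M₀ q`            : (REG) in the `(M₀, q)` language of `kctR`: at every supersingular
                              place `P'` and for every datum `t` of EX_t at `P'`, the reduction of
                              the constant term `r₀ = (kctR M₀ hq hqM t).coeff 0` of the Kronecker
                              remainder has a value `c ≠ 0` at `P'`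
                              (= the conclusion of `reg_final` / `reg_kc_final`, helper89);
* `wpCoreMod_at`            : the bundle `CoreModIn` at ONE supersingular centre `P'` from the
                              REG value at `P'`;
* `wpCoreModExists_of_reg`  : `WPRegAt M₀ q → WPCoreModExists M₀ q`
                              (centre `P' = Φ P`, datum `D.frob`);
* `wpValStatement_of_reg`, `wpExists_of_reg` : the corresponding forms of
                              `wpValStatement_of`, `wpExists_of`.
-/
import Mathlib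
import Fermat.Agent.S36.HPVal.Val
import Fermat.Agent.S36.HPVal.RegBridge
import Fermat.Agent.S36.HPVal.Centres

set_option autoImplicit false
set_option linter.style.haveILetI false
set_option linter.unusedSectionVars false
set_option linter.unusedVariables false
set_option synthInstance.maxHeartbeats 400000

noncomputable section

namespace Fermat.Agent.S36G

open ModularCurve AlgebraicCurve Fermat.Agent.F3 Fermat.Agent.F3G Fermat.Agent.GaussInt
  Fermat.Agent.Deuring Fermat.Agent.BadRed Fermat.Agent.HPVal Fermat.Agent.S18Key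
  Fermat.Agent.RR Fermat.Agent.S36

local notation "Qb" => AlgebraicClosure ℚ

attribute [local instance 10000] SubalgebraClass.toAlgebra HahnSeries.powerSeriesAlgebra

section Final

variable (M₀ q : ℕ) [NeZero M₀] [NeZero q]

/-- **(REG) at every supersingular place**, in the `(M₀, q)` language: the reduction of the
constant term of the Kronecker remainder `R_t` has a NONZERO value at `P'`, for every datum `t`
of EX_t at `P'`. -/
def WPRegAt : Prop :=
  ∀ (hq : q.Prime) (hqM : ¬ q ∣ M₀) (A : ValuationSubring Qb) (hA : A.LiesOverPrime q)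
    (hg : genusFF Qb (modularFunctionFieldBar M₀) =
      genusFF (IsLocalRing.ResidueField A)
        (modularFunctionFieldFullC (IsLocalRing.ResidueField A) M₀))
    [Fact q.Prime] [CharP (IsLocalRing.ResidueField A) q]
    [PerfectRing (IsLocalRing.ResidueField A) q]
    (P' : Place (IsLocalRing.ResidueField A)
      ↥(modularFunctionFieldFullC (IsLocalRing.ResidueField A) M₀)),
    IsSSPlace (IsLocalRing.ResidueField A) M₀ q P' →
    ∀ (t0 : LaurentSeries ℚ) (E : ExTDatum A q M₀ hq hA hqM P' t0),
      ∃ c : IsLocalRing.ResidueField A, c ≠ 0 ∧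
        ValAt P' ((modularValSetup A q M₀ hq hA hqM).red
          ((kctR M₀ hq hqM (wpdT M₀ t0 E.mem)).coeff 0)) c

variable {M₀ q}

/-- **the bundle at one supersingular centre `P'`** from the REG value at `P'`. -/
theorem wpCoreMod_at (hq : q.Prime) (hqM : ¬ q ∣ M₀) (A : ValuationSubring Qb)
    (hA : A.LiesOverPrime q)
    (hg : genusFF Qb (modularFunctionFieldBar M₀) =
      genusFF (IsLocalRing.ResidueField A)
        (modularFunctionFieldFullC (IsLocalRing.ResidueField A) M₀))
    {P' : Place (IsLocalRing.ResidueField A)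
      ↥(modularFunctionFieldFullC (IsLocalRing.ResidueField A) M₀)}
    (hP' : IsSSPlace (IsLocalRing.ResidueField A) M₀ q P')
    {t0 : LaurentSeries ℚ} (E : ExTDatum A q M₀ hq hA hqM P' t0) {ϖ : Qb}
    (hϖ : ϖ ^ (q + 1) = (q : Qb))
    (hreg : ∃ c : IsLocalRing.ResidueField A, c ≠ 0 ∧
      ValAt P' ((modularValSetup A q M₀ hq hA hqM).red
        ((kctR M₀ hq hqM (wpdT M₀ t0 E.mem)).coeff 0)) c) :
    ∃ (c₀ : IsLocalRing.ResidueField A) (V : ValuationSubring (FBar M₀))
      (ρ : V →+* RatFunc (IsLocalRing.ResidueField A)) (Dc : CscData V q),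
      CoreModIn (wpdSetup A q M₀ hq hA hqM hg) P' (wpd_hFk A M₀) hq hqM
        (wpdT M₀ t0 E.mem) ϖ c₀ V ρ Dc := by
  have hnc : 0 ≤ P'.ord (Fermat.Agent.RRMod.jC (IsLocalRing.ResidueField A) M₀) :=
    seedOld_ord_jC_nonneg M₀ hq hA hP'
  obtain ⟨Pt, Dp⟩ := wpd_discPoint_of_exT A q M₀ hq hA hqM hg hnc E
  obtain ⟨hϖ0, hϖA, hϖinv⟩ := cmod_pi_props A q hq hA hϖ
  have hR := cmod_kctR_mem_discRing A q M₀ hq hA hqM hg hnc E
  have hne := rbr_kctR_ne_zero (isGaussRed_wpdSetup A q M₀ hq hA hqM hg) hq hA hqM
    (wpd_hFk A M₀) (wpdT M₀ t0 E.mem) (hR 0) hreg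
  obtain ⟨V, ρ, Dc, h⟩ := coreMod_exists (wpdSetup A q M₀ hq hA hqM hg) P' (wpd_hFk A M₀) hq hqM
    Dp hϖ hϖA (wpd_res_eq_zero A q M₀ hq hA hqM hg hϖA hϖinv) (wpd_arch hq hA hϖ0 hϖinv)
    (d1m_res_surjective A q M₀ hq hA hqM hg) hR hne
  exact ⟨_, V, ρ, Dc, h⟩

variable (M₀ q)

/-- **CORE-MOD, final form**: REG ⟹ the CORE-MOD input of `Val.lean`. -/
theorem wpCoreModExists_of_reg (hReg : WPRegAt M₀ q) : WPCoreModExists M₀ q := by
  intro hq hqM A hA hg _ _ _ P hP t0 D ϖ hϖ
  have hP' : IsSSPlace (IsLocalRing.ResidueField A) M₀ q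
      (frobAut (IsLocalRing.ResidueField A) M₀ q • P) :=
    centres_isSS_frob (IsLocalRing.ResidueField A) M₀ q hP
  exact wpCoreMod_at hq hqM A hA hg hP' D.frob hϖ (hReg hq hqM A hA hg _ hP' t0 D.frob)

/-- REG + OLD ⟹ the value part of W-P at every supersingular place. -/
theorem wpValStatement_of_reg (hReg : WPRegAt M₀ q) (hO : WPOldExists M₀ q) :
    WPValStatement M₀ q :=
  wpValStatement_of M₀ q (wpCoreModExists_of_reg M₀ q hReg) hO

/-- EX_t + REG + OLD ⟹ a `WPOut` at every supersingular place. -/
theorem wpExists_of_reg (hT : ExTStatement q M₀) (hReg : WPRegAt M₀ q)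
    (hO : WPOldExists M₀ q) : WPExists M₀ q :=
  wpExists_of M₀ q hT (wpCoreModExists_of_reg M₀ q hReg) hO

end Final

end Fermat.Agent.S36G
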