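/-
Cluster G (S36), block W-P, seat EX_t, ABSTRACT half (helper41; the reduction half `ExTRed.lean`
and the final wiring are helper84's).

`Fk / k` a function field in the sense of the Riemann-Roch library, `P` a place.

* `exT_exists_ord_one` (B1): for `D ≥ 0` of positive degree with `P ∉ supp D` and all large `m`
  there is `f ∈ L(m D)` with `ord_P f = 1`;
* `exT_selection` (B2): if `f` with `ord_P f = 1` lies in the `k`-span of a set `E` of functions
  regular at `P`, then some `e ∈ E` has `ord_P (e - c) = 1` for a constant `c`;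
* `exT_minpoly_trick` (B3): if `ord_P (e - c) = 1` and `c` is algebraic over the prime field
  `ZMod q`, there is a MONIC `μ ∈ ℤ[X]` with `ord_P (μ(e)) = 1`;
* `exT_abs`: the three steps together.
-/
import Mathlib
import Fermat.Agent.Lib.RR.Weil

set_option autoImplicit false

noncomputable section
attribute [local instance 10000] SubalgebraClass.toAlgebra HahnSeries.powerSeriesAlgebra

namespace Fermat.Agent.S36G

open AlgebraicCurve Polynomial Fermat.Agent.RR Fermat.Agent.S24Res

variable {k Fk : Type*} [Field k] [Field Fk] [Algebra k Fk]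

/-! ### elementary `ord` lemmas -/

theorem exT_ord_neg (P : Place k Fk) (x : Fk) : P.ord (-x) = P.ord x := by
  rcases eq_or_ne x 0 with rfl | hx
  · simp
  have h1 : algebraMap k Fk (-1) ≠ 0 := by
    rw [map_neg, map_one]
    exact neg_ne_zero.mpr one_ne_zero
  have h2 : -x = algebraMap k Fk (-1) * x := by
    rw [map_neg, map_one]
    ring
  rw [h2, P.ord_mul h1 hx, ord_algebraMap, zero_add]

theorem exT_ord_smul (P : Place k Fk) {l : k} (hl : l ≠ 0) (x : Fk) :
    P.ord (l • x) = P.ord x := by
  rcases eq_or_ne x 0 with rfl | hx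
  · simp
  have h1 : algebraMap k Fk l ≠ 0 := by
    intro h0
    exact hl ((map_eq_zero (algebraMap k Fk)).mp h0)
  rw [Algebra.smul_def, P.ord_mul h1 hx, ord_algebraMap, zero_add]

/-- the set of `x` with `x = 0` or `n ≤ ord x` is stable under addition. -/
theorem exT_ge_add (P : Place k Fk) (n : ℤ) {x y : Fk} (hx : x = 0 ∨ n ≤ P.ord x)
    (hy : y = 0 ∨ n ≤ P.ord y) : x + y = 0 ∨ n ≤ P.ord (x + y) := by
  rcases eq_or_ne (x + y) 0 with h0 | h0
  · exact Or.inl h0
  right
  rcases eq_or_ne x 0 with rfl | hx0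
  · rw [zero_add] at h0 ⊢
    exact hy.resolve_left h0
  rcases eq_or_ne y 0 with rfl | hy0
  · rw [add_zero]
    exact hx.resolve_left hx0
  have h1 := ord_add_ge P hx0 hy0 h0
  have h2 := hx.resolve_left hx0
  have h3 := hy.resolve_left hy0
  exact (le_min h2 h3).trans h1

/-! ### (B1) Riemann-Roch: a function with a simple zero at `P` and poles in `m D` -/

/-- **(B1)** -/
theorem exT_exists_ord_one (h : IsRRField k Fk) (D : Divisor k Fk)
    (hdeg : 0 < Divisor.degree D) (P : Place k Fk) (hP : D P = 0) :
    ∃ m₀ : ℕ, ∀ m : ℕ, m₀ ≤ m → ∃ f ∈ riemannRochSpace (m • D), P.ord f = 1 := by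
  classical
  refine ⟨2 * genusFF k Fk + 1, fun m hm => ?_⟩
  set E : Divisor k Fk := m • D - Finsupp.single P 2 with hE
  have hdegE : Divisor.degree E = (m : ℤ) * Divisor.degree D - 2 := by
    rw [hE, map_sub, map_nsmul, Divisor.degree_single, h.deg_one]
    simp
  have hmD : (m : ℤ) ≤ (m : ℤ) * Divisor.degree D := by
    have h1 : (1 : ℤ) ≤ Divisor.degree D := hdeg
    have h2 : (0 : ℤ) ≤ (m : ℤ) := Int.natCast_nonneg m
    nlinarith
  have hm' : (2 * (genusFF k Fk : ℤ) + 1) ≤ (m : ℤ) := by exact_mod_cast hm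
  have hgt : 2 * (genusFF k Fk : ℤ) - 2 < Divisor.degree E := by
    rw [hdegE]
    linarith
  have hgt' : 2 * (genusFF k Fk : ℤ) - 2 < Divisor.degree (E + Finsupp.single P 1) := by
    rw [degree_add_single h]
    linarith
  have h1 := ell_of_degree_gt h hgt
  have h2 := ell_of_degree_gt h hgt'
  rw [degree_add_single h] at h2
  have h3 : ell (E + Finsupp.single P 1) = ell E + 1 := by
    have : (ell (E + Finsupp.single P 1) : ℤ) = (ell E : ℤ) + 1 := by linarith
    exact_mod_cast this
  obtain ⟨f, hf, hfE⟩ := (ell_add_single_eq_iff h E P).mp h3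
  obtain ⟨-, hord⟩ := ord_eq_of_mem_add_single_of_not_mem hf hfE
  refine ⟨f, ?_, ?_⟩
  · refine riemannRochSpace_mono ?_ hf
    rw [hE]
    intro v
    simp only [Finsupp.coe_add, Finsupp.coe_sub, Pi.add_apply, Pi.sub_apply]
    by_cases hv : v = P
    · subst hv
      simp
    · rw [Finsupp.single_apply, Finsupp.single_apply, if_neg (Ne.symm hv),
        if_neg (Ne.symm hv)]
      simp
  · rw [hord, hE]
    simp only [Finsupp.coe_sub, Pi.sub_apply, Finsupp.coe_smul, Pi.smul_apply,
      Finsupp.single_eq_same, hP]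
    simp

/-! ### (B2) selection from a spanning set -/

/-- **(B2)** -/
theorem exT_selection (h : IsRRField k Fk) (P : Place k Fk) (E : Set Fk)
    (hE : ∀ e ∈ E, 0 ≤ P.ord e) {f : Fk} (hf : f ∈ Submodule.span k E) (hord : P.ord f = 1) :
    ∃ e ∈ E, ∃ c : k, P.ord (e - algebraMap k Fk c) = 1 := by
  by_contra hcon
  push Not at hcon
  -- every element of the span is congruent to a constant modulo `m_P ^ 2`
  have key : ∀ x ∈ Submodule.span k E,
      ∃ c : k, x - algebraMap k Fk c = 0 ∨ 2 ≤ P.ord (x - algebraMap k Fk c) := by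
    intro x hx
    induction hx using Submodule.span_induction with
    | mem e he =>
      obtain ⟨c, hc⟩ := exists_const_sub h P (hE e he)
      refine ⟨c, ?_⟩
      rcases hc with hc | hc
      · left
        rw [hc, sub_self]
      · right
        have := hcon e he c
        omega
    | zero =>
      exact ⟨0, Or.inl (by simp)⟩
    | add x y _ _ hx hy =>
      obtain ⟨c, hc⟩ := hx
      obtain ⟨d, hd⟩ := hy
      refine ⟨c + d, ?_⟩
      have := exT_ge_add P 2 hc hd
      have heq : x + y - algebraMap k Fk (c + d) =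
          (x - algebraMap k Fk c) + (y - algebraMap k Fk d) := by
        rw [map_add]
        ring
      rw [heq]
      exact this
    | smul l x _ hx =>
      obtain ⟨c, hc⟩ := hx
      refine ⟨l * c, ?_⟩
      have heq : l • x - algebraMap k Fk (l * c) = l • (x - algebraMap k Fk c) := by
        rw [map_mul, smul_sub, Algebra.smul_def, Algebra.smul_def]
      rw [heq]
      rcases eq_or_ne l 0 with rfl | hl
      · left
        simp
      rcases hc with hc | hc
      · left
        rw [hc, smul_zero]
      · right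
        rw [exT_ord_smul P hl]
        exact hc
  obtain ⟨c, hc⟩ := key f hf
  have hf0 : f ≠ 0 := by
    rintro rfl
    simp at hord
  -- `c = f - (f - c)` has order `≥ 1`, so `c = 0`
  have hc0 : c = 0 := by
    by_contra hc0
    have hcne : algebraMap k Fk c ≠ 0 := fun h0 => hc0 ((map_eq_zero (algebraMap k Fk)).mp h0)
    have hordc : P.ord (algebraMap k Fk c) = 0 := ord_algebraMap P c
    rcases hc with hc | hc
    · rw [sub_eq_zero] at hc
      rw [hc, hordc] at hord
      exact zero_ne_one hord
    · have hne : f - algebraMap k Fk c ≠ 0 := by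
        intro h0
        rw [h0] at hc
        simp at hc
      have hneg : -(f - algebraMap k Fk c) ≠ 0 := neg_ne_zero.mpr hne
      have hsum : f + -(f - algebraMap k Fk c) = algebraMap k Fk c := by ring
      have h1 := ord_add_ge P hf0 hneg (by rw [hsum]; exact hcne)
      rw [hsum, hordc, exT_ord_neg, hord] at h1
      have : (1 : ℤ) ≤ min 1 (P.ord (f - algebraMap k Fk c)) := le_min le_rfl (by omega)
      omega
  subst hc0
  rw [map_zero, sub_zero] at hc
  rcases hc with hc | hc
  · exact hf0 hc
  · omega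

/-! ### (B3) the minimal polynomial trick -/

/-- a separable polynomial over a field with a root `c` factors as `(X - c) g`, `g(c) ≠ 0`. -/
theorem exT_factor {ν : k[X]} (hsep : ν.Separable) {c : k} (hroot : ν.eval c = 0) :
    ∃ g : k[X], ν = (X - C c) * g ∧ g.eval c ≠ 0 := by
  have hdvd : X - C c ∣ ν := dvd_iff_isRoot.mpr hroot
  obtain ⟨g, hg⟩ := hdvd
  refine ⟨g, hg, ?_⟩
  intro hg0
  have h1 : (derivative ν).eval c = 0 := by
    rw [hg, derivative_mul]
    simp [hg0]
  have h2 := hsep.eval₂_derivative_ne_zero (RingHom.id k) (x := c) (by simpa using hroot)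
  apply h2
  simpa using h1

/-- **(B3)** -/
theorem exT_minpoly_trick (q : ℕ) [Fact q.Prime] [Algebra (ZMod q) k] (P : Place k Fk)
    {e : Fk} {c : k} (hc : IsAlgebraic (ZMod q) c)
    (hord : P.ord (e - algebraMap k Fk c) = 1) :
    ∃ μ : ℤ[X], μ.Monic ∧ P.ord (Polynomial.eval₂ (Int.castRingHom Fk) e μ) = 1 := by
  classical
  -- the minimal polynomial of `c` and a monic integral lift
  set ν₀ : (ZMod q)[X] := minpoly (ZMod q) c with hν₀
  have hint : IsIntegral (ZMod q) c := hc.isIntegral
  have hmonic₀ : ν₀.Monic := minpoly.monic hint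
  have hsep₀ : ν₀.Separable := PerfectField.separable_of_irreducible (minpoly.irreducible hint)
  have hlift : ν₀ ∈ Polynomial.lifts (Int.castRingHom (ZMod q)) := by
    rw [Polynomial.lifts_iff_coeff_lifts]
    intro n
    exact ZMod.intCast_surjective _
  obtain ⟨μ, hμmap, -, hμmonic⟩ := Polynomial.lifts_and_degree_eq_and_monic hlift hmonic₀
  refine ⟨μ, hμmonic, ?_⟩
  -- the polynomial over `k`
  set ν : k[X] := ν₀.map (algebraMap (ZMod q) k) with hν
  have hsep : ν.Separable := hsep₀.map
  have hroot : ν.eval c = 0 := by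
    rw [hν, eval_map, ← aeval_def]
    exact minpoly.aeval (ZMod q) c
  obtain ⟨g, hg, hgc⟩ := exT_factor hsep hroot
  -- `μ(e) = (e - c) g(e)`
  have hhom : (Int.castRingHom Fk) =
      ((algebraMap k Fk).comp (algebraMap (ZMod q) k)).comp (Int.castRingHom (ZMod q)) :=
    RingHom.ext_int _ _
  have hev : Polynomial.eval₂ (Int.castRingHom Fk) e μ =
      (e - algebraMap k Fk c) * (g.map (algebraMap k Fk)).eval e := by
    rw [hhom, ← Polynomial.eval_map, ← Polynomial.map_map, hμmap, ← Polynomial.map_map,
      ← hν, hg, Polynomial.map_mul, Polynomial.eval_mul]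
    simp
  -- `e` and `e - c` in the valuation ring
  have hec0 : e - algebraMap k Fk c ≠ 0 := by
    intro h0
    rw [h0] at hord
    simp at hord
  have hecO : e - algebraMap k Fk c ∈ P.toValuationSubring :=
    mem_of_ord_nonneg P (by omega)
  have hcO : algebraMap k Fk c ∈ P.toValuationSubring := P.algebraMap_mem' c
  have heO : e ∈ P.toValuationSubring := by
    have := add_mem hecO hcO
    simpa using this
  set O := P.toValuationSubring with hO
  set a : O := ⟨e, heO⟩ with ha
  set b : O := algebraMap k O c with hb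
  have hbcoe : (b : Fk) = algebraMap k Fk c := rfl
  have hab : a - b ∈ IsLocalRing.maximalIdeal O := by
    have hne : a - b ≠ 0 := by
      intro h0
      apply hec0
      exact congrArg (Subtype.val) h0
    rw [mem_maximalIdeal_iff_ord_pos P hne]
    have : ((a - b : O) : Fk) = e - algebraMap k Fk c := rfl
    rw [this, hord]
    exact one_pos
  -- `g(a)` is a unit of the valuation ring
  set p : O[X] := g.map (algebraMap k O) with hp
  have hpb : p.eval b = algebraMap k O (g.eval c) := by
    rw [hp, hb, Polynomial.eval_map, Polynomial.eval₂_at_apply]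
  have hunit : IsUnit (p.eval b) := by
    rw [hpb]
    exact (isUnit_iff_ne_zero.mpr hgc).map _
  have hdiff : p.eval a - p.eval b ∈ IsLocalRing.maximalIdeal O := by
    obtain ⟨w, hw⟩ := Polynomial.sub_dvd_eval_sub a b p
    rw [hw]
    exact Ideal.mul_mem_right _ _ hab
  have hunit_a : IsUnit (p.eval a) := by
    rw [← IsLocalRing.notMem_maximalIdeal]
    intro hmem
    have : p.eval b ∈ IsLocalRing.maximalIdeal O := by
      have := Ideal.sub_mem _ hmem hdiff
      simpa using this
    exact (IsLocalRing.notMem_maximalIdeal.mpr hunit) this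
  have hcomp : O.subtype.comp (algebraMap k O) = algebraMap k Fk := RingHom.ext fun _ => rfl
  have hcoe : ((p.eval a : O) : Fk) = (g.map (algebraMap k Fk)).eval e := by
    rw [hp, Polynomial.eval_map, Polynomial.eval_map, ← hcomp]
    exact Polynomial.hom_eval₂ g (algebraMap k O) O.subtype a
  have hordg : P.ord ((g.map (algebraMap k Fk)).eval e) = 0 := by
    rw [← hcoe]
    exact ord_eq_zero_of_isUnit P hunit_a
  have hg0 : (g.map (algebraMap k Fk)).eval e ≠ 0 := by
    rw [← hcoe]
    intro h0
    have : (p.eval a : O) = 0 := Subtype.ext h0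
    rw [this] at hunit_a
    exact not_isUnit_zero hunit_a
  rw [hev, P.ord_mul hec0 hg0, hord, hordg, add_zero]

/-! ### the three steps together -/

/-- **EX_t, abstract form**: if the Riemann-Roch spaces `L(m D)` (`D` of positive degree,
`P ∉ supp D`) lie, for arbitrarily large `m`, in the `k`-span of a set `E` of functions regular at
`P`, then there are `e ∈ E` and a monic `μ ∈ ℤ[X]` with `ord_P (μ(e)) = 1`. -/
theorem exT_abs (h : IsRRField k Fk) (q : ℕ) [Fact q.Prime] [Algebra (ZMod q) k]
    (halg : ∀ c : k, IsAlgebraic (ZMod q) c)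
    (D : Divisor k Fk) (hdeg : 0 < Divisor.degree D) (P : Place k Fk) (hP : D P = 0)
    (E : Set Fk) (hE : ∀ e ∈ E, 0 ≤ P.ord e)
    (hspan : ∀ m : ℕ, ∃ m' : ℕ, m ≤ m' ∧ riemannRochSpace (m' • D) ≤ Submodule.span k E) :
    ∃ e ∈ E, ∃ μ : ℤ[X], μ.Monic ∧ P.ord (Polynomial.eval₂ (Int.castRingHom Fk) e μ) = 1 := by
  obtain ⟨m₀, hm₀⟩ := exT_exists_ord_one h D hdeg P hP
  obtain ⟨m', hm', hle⟩ := hspan m₀
  obtain ⟨f, hf, hord⟩ := hm₀ m' hm'
  obtain ⟨e, he, c, hc⟩ := exT_selection h P E hE (hle hf) hord
  obtain ⟨μ, hμ, hμord⟩ := exT_minpoly_trick q P (halg c) hc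
  exact ⟨e, he, μ, hμ, hμord⟩

end Fermat.Agent.S36G
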