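/-
Cluster G (S36), block W-P, seat EX_t, part (A3) (helper41): the DEURING part.

`S = GaussInt.modularValSetup A q M0` the Gauss valuation of `F0 = ℚ̄ · F_{M0}` at a place `A ∣ q`,
`q ∤ M0`, with residue field `k`, under genus equality (good reduction):

* `exT_redDiv_poleDiv`   : `r_* (j)_∞ = (j̄)_∞` for every Deuring reduction map `r`;
* `exT_redSpace_poleDiv` : `red (L(m (j)_∞) ∩ Ov) = L_k (m (j̄)_∞)` for `m ≥ 2 g`;
* `exT_poleDiv_apply_eq_zero`, `exT_degree_poleDiv_jC_pos`, `exT_poleDiv_jC_nonneg`: the divisor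
  `(j̄)_∞` is effective of positive degree and does not contain the non-cuspidal places.
-/
import Mathlib
import Fermat.Agent.Lib.BadRed.Mod.OldSep

set_option autoImplicit false
set_option linter.style.haveILetI false
set_option synthInstance.maxHeartbeats 400000

noncomputable section
attribute [local instance 10000] SubalgebraClass.toAlgebra HahnSeries.powerSeriesAlgebra

namespace Fermat.Agent.S36G

open ModularCurve AlgebraicCurve Fermat.Agent.RR Fermat.Agent.Deuring Fermat.Agent.FF
  Fermat.Agent.GaussInt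

variable (A : ValuationSubring (AlgebraicClosure ℚ)) (q M0 : ℕ) [NeZero M0]
  (hq : q.Prime) (hA : A.LiesOverPrime q) (hqM : ¬ q ∣ M0)

/-- `r_* (j)_∞ = (j̄)_∞` for every Deuring reduction map of the Gauss valuation. -/
theorem exT_redDiv_poleDiv
    {r : Place (AlgebraicClosure ℚ) (modularFunctionFieldBar M0) →
      Place (IsLocalRing.ResidueField A)
        (modularFunctionFieldFullC (IsLocalRing.ResidueField A) M0)}
    (hr : IsReduction (modularValSetup A q M0 hq hA hqM) r) :
    redDiv r (poleDiv (modularValSetup A q M0 hq hA hqM).hF (Fermat.Agent.S24.jBar M0)) =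
      poleDiv (modularValSetup A q M0 hq hA hqM).hFk
        (Fermat.Agent.RRMod.jC (IsLocalRing.ResidueField A) M0) := by
  haveI := isAlgClosed_residue A
  have hred := Fermat.Agent.BadRed.oldSep_red_jBar A q M0 hq hA hqM
  have hx0 : (modularValSetup A q M0 hq hA hqM).red (Fermat.Agent.S24.jBar M0) ≠ 0 := by
    intro h0
    have htr := Fermat.Agent.RRMod.transcendental_jC (IsLocalRing.ResidueField A) M0
    rw [← hred, h0] at htr
    exact htr isAlgebraic_zero
  have hdeg : Divisor.degree (poleDiv (modularValSetup A q M0 hq hA hqM).hF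
        (Fermat.Agent.S24.jBar M0)) ≤
      Divisor.degree (poleDiv (modularValSetup A q M0 hq hA hqM).hFk
        ((modularValSetup A q M0 hq hA hqM).red (Fermat.Agent.S24.jBar M0))) := by
    rw [hred]
    exact ((Fermat.Agent.BadRed.oldSep_degree_poleDiv_jBar M0).trans
      (Fermat.Agent.BadRed.oldSep_degree_poleDiv_jC A q M0 hq hA hqM).symm).le
  have h := Fermat.Agent.BadRed.oldSep_redDiv_poleDiv hr
    (Fermat.Agent.BadRed.oldSep_jBar_mem A q M0 hq hA hqM) hx0 hdeg
  rw [hred] at h
  exact h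

/-- `deg (j̄)_∞ > 0`. -/
theorem exT_degree_poleDiv_jC_pos :
    0 < Divisor.degree (poleDiv (modularValSetup A q M0 hq hA hqM).hFk
      (Fermat.Agent.RRMod.jC (IsLocalRing.ResidueField A) M0)) := by
  rw [Fermat.Agent.BadRed.oldSep_degree_poleDiv_jC A q M0 hq hA hqM]
  exact_mod_cast Fermat.Agent.GoodRed.index_Gamma0_pos M0

/-- `deg (j)_∞ > 0`. -/
theorem exT_degree_poleDiv_jBar_pos :
    0 < Divisor.degree (poleDiv (modularValSetup A q M0 hq hA hqM).hF
      (Fermat.Agent.S24.jBar M0)) := by
  rw [Fermat.Agent.BadRed.oldSep_degree_poleDiv_jBar M0]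
  exact_mod_cast Fermat.Agent.GoodRed.index_Gamma0_pos M0

/-- `(j̄)_∞` is effective. -/
theorem exT_poleDiv_jC_nonneg :
    0 ≤ poleDiv (modularValSetup A q M0 hq hA hqM).hFk
      (Fermat.Agent.RRMod.jC (IsLocalRing.ResidueField A) M0) :=
  poleDiv_nonneg _ _

/-- the non-cuspidal places are not in the support of `(j̄)_∞`. -/
theorem exT_poleDiv_apply_eq_zero
    {P : Place (IsLocalRing.ResidueField A)
      (modularFunctionFieldFullC (IsLocalRing.ResidueField A) M0)}
    (hP : 0 ≤ P.ord (Fermat.Agent.RRMod.jC (IsLocalRing.ResidueField A) M0)) :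
    (poleDiv (modularValSetup A q M0 hq hA hqM).hFk
      (Fermat.Agent.RRMod.jC (IsLocalRing.ResidueField A) M0)) P = 0 := by
  rw [poleDiv_apply, max_eq_right (by omega)]

/-- **(A3)**: `red (L(m (j)_∞) ∩ Ov) = L_k (m (j̄)_∞)` for `m ≥ 2 g`, under genus equality. -/
theorem exT_redSpace_poleDiv
    (hg : genusFF (AlgebraicClosure ℚ) ↥(modularFunctionFieldBar M0) =
      genusFF (IsLocalRing.ResidueField A)
        ↥(modularFunctionFieldFullC (IsLocalRing.ResidueField A) M0))
    (m : ℕ) (hm : 2 * genusFF (AlgebraicClosure ℚ) ↥(modularFunctionFieldBar M0) ≤ m) :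
    redSpace (modularValSetup A q M0 hq hA hqM)
        (riemannRochSpace (m • poleDiv (modularValSetup A q M0 hq hA hqM).hF
          (Fermat.Agent.S24.jBar M0))) =
      riemannRochSpace (m • poleDiv (modularValSetup A q M0 hq hA hqM).hFk
        (Fermat.Agent.RRMod.jC (IsLocalRing.ResidueField A) M0)) := by
  haveI := isAlgClosed_residue A
  haveI := infinite_residue A
  obtain ⟨r, hr⟩ := exists_isReduction (modularValSetup A q M0 hq hA hqM)
    (hasLattice_modularValSetup A q M0 hq hA hqM) hg
  have hpole := exT_redDiv_poleDiv A q M0 hq hA hqM hr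
  have hpos := exT_degree_poleDiv_jBar_pos A q M0 hq hA hqM
  have hdeg : 2 * (genusFF (AlgebraicClosure ℚ) ↥(modularFunctionFieldBar M0) : ℤ) ≤
      Divisor.degree (m • poleDiv (modularValSetup A q M0 hq hA hqM).hF
        (Fermat.Agent.S24.jBar M0)) := by
    rw [map_nsmul, nsmul_eq_mul]
    have h1 : (2 * genusFF (AlgebraicClosure ℚ) ↥(modularFunctionFieldBar M0) : ℤ) ≤ (m : ℤ) := by
      exact_mod_cast hm
    have h2 : (0 : ℤ) ≤ (m : ℤ) := Int.natCast_nonneg m
    nlinarith
  rw [hr.gr _ hdeg, Finsupp.mapDomain_smul]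
  have h3 : Finsupp.mapDomain r (poleDiv (modularValSetup A q M0 hq hA hqM).hF
      (Fermat.Agent.S24.jBar M0)) =
      poleDiv (modularValSetup A q M0 hq hA hqM).hFk
        (Fermat.Agent.RRMod.jC (IsLocalRing.ResidueField A) M0) := hpole
  rw [h3]

end Fermat.Agent.S36G
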