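/-
Cluster G (S36), block W-P, seat EX_t (WP-EXT-a, helper84): BOUNDED DENOMINATORS.

A rational modular function `t0 ∈ F_{M0} ⊆ ℚ((X))` whose poles (on the curve over `ℚ̄`) are poles
of `j` has bounded denominators: `c · t0 ∈ ℤ((X))` for some integer `c ≠ 0`  (`exT_bdd`).

Proof.  (1) `t0` is integral over `ℚ̄[j]` (`RRHur.mem_integralClosure_of_forall_mem`), hence over
`ℚ[j]` (transitivity, `exT_isIntegralElem_of_adjoin`), so `c · t0` is integral over `ℤ[j]`
(`exT_clear_denoms`), a fortiori over `ℤ((X))`.  (2) `t0` is a quotient of two elements of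
`ℤ((X))` (`exTFrac_of_mem_full`: `F_{M0} = ℚ(j(X^d))`).  (3) `ℤ[[X]]` is a UFD (Mathlib), so
`ℤ((X))` is integrally closed (`exT_mem_range_of_isIntegralElem`).

NOTE: integrality over `ℤ((X))` alone does not suffice (`√(p² + X)`), and Gauss-integrality alone
does not either (`1 / (p j + 1)`).
-/
import Mathlib
import Fermat.Prelude.Def_ModularCurve_LaurentCoeff
import Fermat.Agent.E.S15.CuspRedInt
import Fermat.Agent.Lib.RR.Hurwitz.LocalTrace
import Fermat.Agent.S24.GlobalDatum

set_option autoImplicit false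
set_option linter.style.haveILetI false
set_option linter.unusedSectionVars false
set_option linter.unusedVariables false
set_option synthInstance.maxHeartbeats 400000

open ModularCurve Polynomial AlgebraicCurve

noncomputable section
attribute [local instance 10000] SubalgebraClass.toAlgebra HahnSeries.powerSeriesAlgebra

namespace Fermat.Agent.S36G

/-! ### (3) `ℤ((X))` is integrally closed -/

/-- `ℤ((X))` is integrally closed. -/
theorem exT_isIntegrallyClosed_laurentInt : IsIntegrallyClosed (LaurentSeries ℤ) := by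
  haveI : IsIntegrallyClosed (PowerSeries ℤ) := inferInstance
  refine isIntegrallyClosed_of_isLocalization (R := PowerSeries ℤ) (S := LaurentSeries ℤ)
    (Submonoid.powers (PowerSeries.X : PowerSeries ℤ)) ?_
  intro x hx
  obtain ⟨n, rfl⟩ := hx
  exact mem_nonZeroDivisors_of_ne_zero (pow_ne_zero _ PowerSeries.X_ne_zero)

theorem exT_coeffMap_int_injective :
    Function.Injective (coeffMap (Int.castRingHom ℚ)) := by
  intro x y h
  ext n
  have := congrArg (fun z => z.coeff n) h
  simp only [coeffMap_coeff] at this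
  exact Int.cast_injective this

/-- **normality of `ℤ((X))` inside `ℚ((X))`**: a series which is a quotient of integral series
and integral over `ℤ((X))` is integral. -/
theorem exT_mem_range_of_isIntegralElem (g : LaurentSeries ℚ)
    (hfrac : ∃ P Q : LaurentSeries ℤ, Q ≠ 0 ∧
      g * coeffMap (Int.castRingHom ℚ) Q = coeffMap (Int.castRingHom ℚ) P)
    (hint : (coeffMap (Int.castRingHom ℚ)).IsIntegralElem g) :
    ∃ Z : LaurentSeries ℤ, coeffMap (Int.castRingHom ℚ) Z = g := by
  haveI := exT_isIntegrallyClosed_laurentInt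
  obtain ⟨P, Q, hQ, hPQ⟩ := hfrac
  obtain ⟨p, hp, hp0⟩ := hint
  set ι := coeffMap (Int.castRingHom ℚ) with hι
  have hinj : Function.Injective ι := exT_coeffMap_int_injective
  let φ : FractionRing (LaurentSeries ℤ) →+* LaurentSeries ℚ := IsFractionRing.lift hinj
  have hφ : ∀ z : LaurentSeries ℤ, φ (algebraMap _ _ z) = ι z := fun z =>
    IsFractionRing.lift_algebraMap hinj z
  have hQ' : ι Q ≠ 0 := fun h => hQ (hinj (by rw [h, map_zero]))
  have hQ'' : algebraMap (LaurentSeries ℤ) (FractionRing (LaurentSeries ℤ)) Q ≠ 0 := by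
    intro h
    apply hQ
    exact (IsFractionRing.injective (LaurentSeries ℤ) (FractionRing (LaurentSeries ℤ)))
      (by rw [h, map_zero])
  set x : FractionRing (LaurentSeries ℤ) :=
    algebraMap _ _ P / algebraMap _ _ Q with hx
  have hφx : φ x = g := by
    rw [hx, map_div₀, hφ, hφ, ← hPQ, mul_div_cancel_right₀ _ hQ']
  have hxint : IsIntegral (LaurentSeries ℤ) x := by
    refine ⟨p, hp, ?_⟩
    apply φ.injective
    rw [map_zero, Polynomial.hom_eval₂, hφx]
    have : φ.comp (algebraMap (LaurentSeries ℤ) (FractionRing (LaurentSeries ℤ))) = ι :=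
      RingHom.ext hφ
    rw [this]
    exact hp0
  obtain ⟨Z, hZ⟩ := IsIntegrallyClosed.algebraMap_eq_of_integral hxint
  exact ⟨Z, by rw [← hφ, hZ, hφx]⟩

/-! ### (2) quotients of integral series -/

/-- `g` is a quotient of two integral series. -/
def ExTFrac (g : LaurentSeries ℚ) : Prop :=
  ∃ P Q : LaurentSeries ℤ, Q ≠ 0 ∧
    g * coeffMap (Int.castRingHom ℚ) Q = coeffMap (Int.castRingHom ℚ) P

theorem ExTFrac.of_int (Z : LaurentSeries ℤ) : ExTFrac (coeffMap (Int.castRingHom ℚ) Z) :=
  ⟨Z, 1, one_ne_zero, by rw [map_one, mul_one]⟩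

theorem exT_algebraMap_eq_single (c : ℚ) :
    algebraMap ℚ (LaurentSeries ℚ) c = HahnSeries.single 0 c := by
  have h1 : algebraMap ℚ (PowerSeries ℚ) c = PowerSeries.C c := by simp
  rw [HahnSeries.algebraMap_apply', h1, HahnSeries.ofPowerSeries_C]
  rfl

theorem ExTFrac.algebraMap (c : ℚ) : ExTFrac (algebraMap ℚ (LaurentSeries ℚ) c) := by
  refine ⟨HahnSeries.single 0 c.num, HahnSeries.single 0 (c.den : ℤ), ?_, ?_⟩
  · intro h
    have h1 := congrArg (fun z => z.coeff 0) h
    simp only [HahnSeries.coeff_single_same, HahnSeries.coeff_zero] at h1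
    exact c.den_ne_zero (by exact_mod_cast h1)
  · rw [exT_algebraMap_eq_single, coeffMap_single, coeffMap_single, HahnSeries.single_mul_single]
    congr 1
    simp only [eq_intCast, Int.cast_natCast]
    exact Rat.mul_den_eq_num c

theorem ExTFrac.add {g h : LaurentSeries ℚ} (hg : ExTFrac g) (hh : ExTFrac h) :
    ExTFrac (g + h) := by
  obtain ⟨P, Q, hQ, e⟩ := hg
  obtain ⟨P', Q', hQ', e'⟩ := hh
  refine ⟨P * Q' + P' * Q, Q * Q', mul_ne_zero hQ hQ', ?_⟩
  rw [map_add, map_mul, map_mul, map_mul, ← e, ← e']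
  ring

theorem ExTFrac.mul {g h : LaurentSeries ℚ} (hg : ExTFrac g) (hh : ExTFrac h) :
    ExTFrac (g * h) := by
  obtain ⟨P, Q, hQ, e⟩ := hg
  obtain ⟨P', Q', hQ', e'⟩ := hh
  refine ⟨P * P', Q * Q', mul_ne_zero hQ hQ', ?_⟩
  rw [map_mul, map_mul, ← e, ← e']
  ring

theorem ExTFrac.inv {g : LaurentSeries ℚ} (hg : ExTFrac g) : ExTFrac g⁻¹ := by
  rcases eq_or_ne g 0 with rfl | hg0
  · rw [inv_zero]
    exact ⟨0, 1, one_ne_zero, by simp⟩
  obtain ⟨P, Q, hQ, e⟩ := hg
  have hQ' : coeffMap (Int.castRingHom ℚ) Q ≠ 0 := fun h =>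
    hQ (exT_coeffMap_int_injective (by rw [h, map_zero]))
  have hP : P ≠ 0 := by
    rintro rfl
    rw [map_zero] at e
    exact (mul_ne_zero hg0 hQ') e
  refine ⟨Q, P, hP, ?_⟩
  rw [← e]
  field_simp

/-- every rational modular function is a quotient of two integral series. -/
theorem exTFrac_of_mem_full (N : ℕ) {g : LaurentSeries ℚ} (hg : g ∈ modularFunctionFieldFull N) :
    ExTFrac g := by
  unfold modularFunctionFieldFull at hg
  induction hg using IntermediateField.adjoin_induction with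
  | mem x hx =>
    obtain ⟨d, hd, -, rfl⟩ := hx
    have e : coeffMap (Int.castRingHom ℚ) (Fermat.Agent.ES15C.jdSer ℤ d) = qExpand ℚ d jq := by
      rw [Fermat.Agent.ES15C.coeffMap_jdSer]
      rfl
    rw [← e]
    exact ExTFrac.of_int _
  | algebraMap c => exact ExTFrac.algebraMap c
  | add x y _ _ hx hy => exact hx.add hy
  | inv x _ hx => exact hx.inv
  | mul x y _ _ hx hy => exact hx.mul hy

/-! ### (1) integrality -/

/-- clearing denominators: integral over `ℚ[x]` implies a multiple is integral over `ℤ[x]`. -/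
theorem exT_clear_denoms {S : Type*} [CommRing S] [Algebra ℚ S] (x t : S)
    (hint : (Polynomial.eval₂RingHom (algebraMap ℚ S) x).IsIntegralElem t) :
    ∃ c : ℤ, c ≠ 0 ∧
      (Polynomial.eval₂RingHom (Int.castRingHom S) x).IsIntegralElem ((c : S) * t) := by
  letI : Algebra ℤ[X] ℚ[X] := Polynomial.algebra ℤ ℚ
  haveI : IsLocalization ((nonZeroDivisors ℤ).map (C : ℤ →+* ℤ[X])) ℚ[X] :=
    Polynomial.isLocalization (nonZeroDivisors ℤ) ℚ
  letI : Algebra ℚ[X] S := (Polynomial.eval₂RingHom (algebraMap ℚ S) x).toAlgebra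
  letI : Algebra ℤ[X] S := (Polynomial.eval₂RingHom (Int.castRingHom S) x).toAlgebra
  haveI : IsScalarTower ℤ[X] ℚ[X] S := by
    refine IsScalarTower.of_algebraMap_eq fun p => ?_
    show Polynomial.eval₂ (Int.castRingHom S) x p =
      Polynomial.eval₂ (algebraMap ℚ S) x (p.map (algebraMap ℤ ℚ))
    rw [Polynomial.eval₂_map]
    congr 1
    exact RingHom.ext_int _ _
  have hx : IsIntegral ℚ[X] t := hint
  obtain ⟨⟨m, hm⟩, hmint⟩ := IsIntegral.exists_multiple_integral_of_isLocalization
    ((nonZeroDivisors ℤ).map (C : ℤ →+* ℤ[X])) t hx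
  obtain ⟨d, hd, rfl⟩ := hm
  refine ⟨d, nonZeroDivisors.ne_zero hd, ?_⟩
  have e : ((⟨C d, ⟨d, hd, rfl⟩⟩ : (nonZeroDivisors ℤ).map (C : ℤ →+* ℤ[X])) • t : S) =
      (d : S) * t := by
    rw [Submonoid.smul_def, Algebra.smul_def]
    show Polynomial.eval₂ (Int.castRingHom S) x (C d) * t = _
    rw [Polynomial.eval₂_C]
    rfl
  rw [e] at hmint
  exact hmint

/-- transitivity: an element integral over `K[x]` (`K / ℚ` algebraic) is integral over `ℚ[x]`. -/
theorem exT_isIntegralElem_of_adjoin {K F : Type*} [Field K] [Field F] [Algebra K F]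
    [Algebra ℚ K] [Algebra.IsIntegral ℚ K]
    (x u : F) (hu : IsIntegral (Algebra.adjoin K {x}) u) :
    (Polynomial.eval₂RingHom ((algebraMap K F).comp (algebraMap ℚ K)) x).IsIntegralElem u := by
  set ψ : ℚ[X] →+* F := Polynomial.eval₂RingHom ((algebraMap K F).comp (algebraMap ℚ K)) x
    with hψ
  letI : Algebra ℚ[X] F := ψ.toAlgebra
  -- constants are integral
  have h1 : ∀ c : K, algebraMap K F c ∈ integralClosure ℚ[X] F := by
    intro c
    obtain ⟨p, hp, hp0⟩ := Algebra.IsIntegral.isIntegral (R := ℚ) c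
    refine ⟨p.map (C : ℚ →+* ℚ[X]), hp.map _, ?_⟩
    rw [Polynomial.eval₂_map]
    have e : (algebraMap ℚ[X] F).comp (C : ℚ →+* ℚ[X]) =
        (algebraMap K F).comp (algebraMap ℚ K) := by
      ext r
      show ψ (C r) = _
      rw [hψ, Polynomial.coe_eval₂RingHom, Polynomial.eval₂_C]
    rw [e, ← Polynomial.hom_eval₂, hp0, map_zero]
  have h2 : x ∈ integralClosure ℚ[X] F := by
    have e : x = algebraMap ℚ[X] F X := by
      show x = ψ X
      rw [hψ, Polynomial.coe_eval₂RingHom, Polynomial.eval₂_X]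
    rw [e]
    exact isIntegral_algebraMap
  have h3 : ∀ y ∈ Algebra.adjoin K {x}, y ∈ integralClosure ℚ[X] F := by
    intro y hy
    induction hy using Algebra.adjoin_induction with
    | mem z hz =>
      rw [Set.mem_singleton_iff] at hz
      rw [hz]
      exact h2
    | algebraMap c => exact h1 c
    | add a b _ _ ha hb => exact add_mem ha hb
    | mul a b _ _ ha hb => exact mul_mem ha hb
  -- `u` is integral over the integral closure
  obtain ⟨p, hp, hp0⟩ := hu
  let θ : (Algebra.adjoin K {x}) →+* (integralClosure ℚ[X] F) :=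
    { toFun := fun y => ⟨(y : F), h3 y y.2⟩
      map_one' := rfl
      map_mul' := fun _ _ => rfl
      map_zero' := rfl
      map_add' := fun _ _ => rfl }
  have h4 : IsIntegral (integralClosure ℚ[X] F) u := by
    refine ⟨p.map θ, hp.map θ, ?_⟩
    rw [Polynomial.eval₂_map]
    exact hp0
  exact isIntegral_trans (R := ℚ[X]) (A := integralClosure ℚ[X] F) u h4

/-! ### the modular statement -/

local notation "Qb" => AlgebraicClosure ℚ

theorem exT_algebraMap_eq_single' {K : Type*} [Field K] (c : K) :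
    algebraMap K (LaurentSeries K) c = HahnSeries.single 0 c := by
  have h1 : algebraMap K (PowerSeries K) c = PowerSeries.C c := by simp
  rw [HahnSeries.algebraMap_apply', h1, HahnSeries.ofPowerSeries_C]
  rfl

/-- a function with poles only at the poles of `j` is integral over `ℚ[j]` (as a series). -/
theorem exT_isIntegralElem_rat (M0 : ℕ) [NeZero M0] {t0 : LaurentSeries ℚ}
    (hmem : coeffEmb Qb t0 ∈ modularFunctionFieldBar M0)
    (hpoles : ∀ Q : Place Qb (modularFunctionFieldBar M0),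
      0 ≤ Q.ord (Fermat.Agent.S24.jBar M0) →
        0 ≤ Q.ord (⟨coeffEmb Qb t0, hmem⟩ : modularFunctionFieldBar M0)) :
    (Polynomial.eval₂RingHom (algebraMap ℚ (LaurentSeries ℚ)) jq).IsIntegralElem t0 := by
  haveI := Fermat.Agent.S24.finiteDimensional_adjoin_jBar M0
  haveI : Algebra.IsIntegral ℚ Qb := (AlgebraicClosure.isAlgebraic ℚ).isIntegral
  have hu : IsIntegral (Algebra.adjoin Qb {Fermat.Agent.S24.jBar M0})
      (⟨coeffEmb Qb t0, hmem⟩ : modularFunctionFieldBar M0) :=
    Fermat.Agent.RRHur.mem_integralClosure_of_forall_mem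
      (Fermat.Agent.S24.transcendental_jBar M0) _
      (fun Q hQ => Fermat.Agent.S24Res.mem_of_ord_nonneg Q (hpoles Q hQ))
  obtain ⟨p, hp, hp0⟩ := exT_isIntegralElem_of_adjoin (K := Qb) _ _ hu
  refine ⟨p, hp, ?_⟩
  set v : modularFunctionFieldBar M0 →+* LaurentSeries Qb :=
    (IntermediateField.val (modularFunctionFieldBar M0)).toRingHom with hv
  have h1 := congrArg v hp0
  rw [map_zero, Polynomial.hom_eval₂] at h1
  have e : v.comp (Polynomial.eval₂RingHom
      ((algebraMap Qb (modularFunctionFieldBar M0)).comp (algebraMap ℚ Qb))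
        (Fermat.Agent.S24.jBar M0)) =
      (coeffEmb Qb).comp (Polynomial.eval₂RingHom (algebraMap ℚ (LaurentSeries ℚ)) jq) := by
    apply Polynomial.ringHom_ext
    · intro r
      simp only [RingHom.comp_apply, Polynomial.coe_eval₂RingHom, Polynomial.eval₂_C]
      show algebraMap Qb (LaurentSeries Qb) (algebraMap ℚ Qb r) = _
      rw [exT_algebraMap_eq_single', exT_algebraMap_eq_single']
      unfold coeffEmb
      rw [coeffMap_single]
    · simp only [RingHom.comp_apply, Polynomial.coe_eval₂RingHom, Polynomial.eval₂_X]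
      rfl
  rw [e] at h1
  have h2 : v (⟨coeffEmb Qb t0, hmem⟩ : modularFunctionFieldBar M0) = coeffEmb Qb t0 := rfl
  rw [h2, ← Polynomial.hom_eval₂] at h1
  exact (coeffEmb Qb).injective (by rw [h1, map_zero])

/-- **bounded denominators**: a rational modular function with poles only at the cusps is
`c⁻¹ ·` an element of `ℤ((X))`. -/
theorem exT_bdd (M0 : ℕ) [NeZero M0] {t0 : LaurentSeries ℚ}
    (hmem : t0 ∈ modularFunctionFieldFull M0)
    (hpoles : ∀ Q : Place Qb (modularFunctionFieldBar M0),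
      0 ≤ Q.ord (Fermat.Agent.S24.jBar M0) →
        0 ≤ Q.ord (⟨coeffEmb Qb t0, coeffEmb_mem_laurentBaseChange Qb hmem⟩ :
          modularFunctionFieldBar M0)) :
    ∃ c : ℤ, c ≠ 0 ∧ ∃ Z : LaurentSeries ℤ,
      coeffMap (Int.castRingHom ℚ) Z = (c : LaurentSeries ℚ) * t0 := by
  have h1 := exT_isIntegralElem_rat M0 (coeffEmb_mem_laurentBaseChange Qb hmem) hpoles
  obtain ⟨c, hc, p, hp, hp0⟩ := exT_clear_denoms jq t0 h1
  refine ⟨c, hc, ?_⟩
  apply exT_mem_range_of_isIntegralElem
  · have hc' : ExTFrac ((c : LaurentSeries ℚ)) := by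
      have := ExTFrac.of_int (c : LaurentSeries ℤ)
      rwa [map_intCast] at this
    exact hc'.mul (exTFrac_of_mem_full M0 hmem)
  · set χ : ℤ[X] →+* LaurentSeries ℤ :=
      Polynomial.eval₂RingHom (Int.castRingHom (LaurentSeries ℤ)) (jqModC ℤ) with hχ
    refine ⟨p.map χ, hp.map χ, ?_⟩
    rw [Polynomial.eval₂_map]
    have e : (coeffMap (Int.castRingHom ℚ)).comp χ =
        Polynomial.eval₂RingHom (Int.castRingHom (LaurentSeries ℚ)) jq := by
      apply Polynomial.ringHom_ext
      · intro r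
        simp only [hχ, RingHom.comp_apply, Polynomial.coe_eval₂RingHom, Polynomial.eval₂_C]
        simp
      · simp only [hχ, RingHom.comp_apply, Polynomial.coe_eval₂RingHom, Polynomial.eval₂_X]
        rw [coeffMap_jqModC]
        rfl
    rw [e]
    exact hp0

/-- **bounded denominators**, coefficient form. -/
theorem exT_bdd_coeff (M0 : ℕ) [NeZero M0] {t0 : LaurentSeries ℚ}
    (hmem : t0 ∈ modularFunctionFieldFull M0)
    (hpoles : ∀ Q : Place Qb (modularFunctionFieldBar M0),
      0 ≤ Q.ord (Fermat.Agent.S24.jBar M0) →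
        0 ≤ Q.ord (⟨coeffEmb Qb t0, coeffEmb_mem_laurentBaseChange Qb hmem⟩ :
          modularFunctionFieldBar M0)) :
    ∃ c : ℤ, c ≠ 0 ∧ ∀ n : ℤ, ∃ z : ℤ, (c : ℚ) * t0.coeff n = z := by
  obtain ⟨c, hc, Z, hZ⟩ := exT_bdd M0 hmem hpoles
  refine ⟨c, hc, fun n => ⟨Z.coeff n, ?_⟩⟩
  have h := congrArg (fun z => z.coeff n) hZ
  simp only [coeffMap_coeff] at h
  have e : ((c : LaurentSeries ℚ) * t0).coeff n = (c : ℚ) * t0.coeff n := by
    have e1 : (c : LaurentSeries ℚ) = HahnSeries.single 0 (c : ℚ) := by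
      rw [← exT_algebraMap_eq_single', map_intCast]
    rw [e1, HahnSeries.coeff_single_zero_mul]
  rw [e] at h
  rw [← h]
  simp

end Fermat.Agent.S36G
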