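/-
Cluster G (S36), block W-P, seat EX_t (WP-EXT-a, helper84): the RATIONAL INTEGRAL ORTHONORMAL BASIS.

`S` the Gauss valuation of `F = ℚ̄ · F_{M0}` at a place `A` of `ℚ̄` over `q ∤ M0`.
For a finite-dimensional `G_ℚ`-stable `ℚ̄`-subspace `U` of `F` whose elements have poles only at the
poles of `j` (e.g. `U = L(m · (j)_∞)`):

* `exT_pivot` : `U` has a basis `w_1, …, w_n` of RATIONAL functions (`w_i = coeffEmb t_i`,
  `t_i ∈ F_{M0}`) with `q`-INTEGRAL `q`-expansions, lying in `S.Ov`, whose reductions are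
  `k`-linearly independent;
* `exT_redSpace_eq_span` : hence `redSpace S U` is the `k`-span of the reductions `S.red (w_i)`.

Proof: Galois descent (`S17.RatDesc`), bounded denominators (`ExTBdd.lean`) and the pivot basis
(`PeuD.pivot_basis`, `PeuD.pivot_max_of_discrete`).
-/
import Mathlib
import Fermat.Agent.Lib.GaussInt.ModularInst
import Fermat.Agent.Lib.BadRed.PeuD.Pivot
import Fermat.Agent.Lib.BadRed.PeuD.GaussFix
import Fermat.Agent.Lib.FF.RedRat.Trans
import Fermat.Agent.Lib.Deuring.RedSpace
import Fermat.Agent.S17.Rat.Modular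
import Fermat.Agent.S36.HPVal.ExTBdd

set_option autoImplicit false
set_option linter.style.haveILetI false
set_option linter.unusedSectionVars false
set_option linter.unusedVariables false
set_option synthInstance.maxHeartbeats 400000
set_option maxHeartbeats 1000000

open ModularCurve AlgebraicCurve HahnSeries Fermat.Agent.Deuring Fermat.Agent.GaussInt
  Fermat.Agent.PeuD Fermat.Agent.S17

noncomputable section
attribute [local instance 10000] SubalgebraClass.toAlgebra HahnSeries.powerSeriesAlgebra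

namespace Fermat.Agent.S36G

local notation "Qb" => AlgebraicClosure ℚ

variable (A : ValuationSubring Qb) (q M0 : ℕ) [NeZero M0]
  (hq : q.Prime) (hA : A.LiesOverPrime q) (hqM : ¬ q ∣ M0)

/-! ### integral elements and their reductions -/

/-- a function with `A`-integral `q`-expansion is Gauss-integral. -/
theorem exT_mem_Ov_of_int (f : modularFunctionFieldBar M0)
    (h : ∀ n, (f : LaurentSeries Qb).coeff n ∈ A) :
    f ∈ (modularValSetup A q M0 hq hA hqM).Ov :=
  (mem_modularValSetup_Ov_iff A q M0 hq hA hqM f).mpr (gf_mem_of_int f.2 h)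

/-- the reduction of a function with `A`-integral `q`-expansion is the coefficientwise
reduction. -/
theorem exT_red_coeff (f : modularFunctionFieldBar M0)
    (h : ∀ n, (f : LaurentSeries Qb).coeff n ∈ A) (n : ℤ) :
    (((modularValSetup A q M0 hq hA hqM).red f :
        modularFunctionFieldFullC (IsLocalRing.ResidueField A) M0) :
        LaurentSeries (IsLocalRing.ResidueField A)).coeff n =
      IsLocalRing.residue A ⟨(f : LaurentSeries Qb).coeff n, h n⟩ := by
  have hmem : (f : LaurentSeries Qb) ∈ gaussSub A (modularFunctionFieldBar M0) :=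
    gf_mem_of_int f.2 h
  rw [coe_modularValSetup_red A q M0 hq hA hqM hmem]
  have hemb : emb A (liftA A (f : LaurentSeries Qb) h) = (f : LaurentSeries Qb) :=
    emb_liftA A _ h
  have hF : emb A (liftA A (f : LaurentSeries Qb) h) ∈ modularFunctionFieldBar M0 := by
    rw [hemb]
    exact f.2
  have h2 := gaussResFun_emb (A := A) hF
  rw [hemb] at h2
  rw [h2]
  rfl

/-! ### the coefficient functionals -/

/-- the `n`-th coefficient of the `q`-expansion, as a linear functional. -/
def exTLam (n : ℤ) : modularFunctionFieldBar M0 →ₗ[Qb] Qb where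
  toFun f := (f : LaurentSeries Qb).coeff n
  map_add' f g := rfl
  map_smul' c f := by
    show ((c • f : modularFunctionFieldBar M0) : LaurentSeries Qb).coeff n = c • _
    rw [Algebra.smul_def]
    show (algebraMap Qb (LaurentSeries Qb) c * (f : LaurentSeries Qb)).coeff n = c • _
    rw [exT_algebraMap_eq_single', HahnSeries.coeff_single_zero_mul, smul_eq_mul]

@[simp] theorem exTLam_apply (n : ℤ) (f : modularFunctionFieldBar M0) :
    exTLam M0 n f = (f : LaurentSeries Qb).coeff n := rfl

/-- the `n`-th coefficient of the `q`-expansion in characteristic `q`. -/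
def exTLamC (k : Type*) [Field k] (n : ℤ) : modularFunctionFieldFullC k M0 →ₗ[k] k where
  toFun f := (f : LaurentSeries k).coeff n
  map_add' f g := rfl
  map_smul' c f := by
    show ((c • f : modularFunctionFieldFullC k M0) : LaurentSeries k).coeff n = c • _
    rw [Algebra.smul_def]
    show (algebraMap k (LaurentSeries k) c * (f : LaurentSeries k)).coeff n = c • _
    rw [exT_algebraMap_eq_single', HahnSeries.coeff_single_zero_mul, smul_eq_mul]


/-! ### rational functions -/

section Rational

variable {M0}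

/-- the `ℚ`-span of a family of `G_ℚ`-fixed functions consists of functions with rational
coefficients. -/
theorem exT_rat_of_span {n : ℕ} (b : Fin n → modularFunctionFieldBar M0)
    (hb : ∀ (i : Fin n) (σ : GQ),
      arithmeticGalois (modularFunctionFieldFull M0) σ • b i = b i)
    {f : modularFunctionFieldBar M0} (hf : f ∈ Submodule.span ℚ (Set.range b)) (m : ℤ) :
    ∃ c : ℚ, exTLam M0 m f = algebraMap ℚ Qb c := by
  induction hf using Submodule.span_induction with
  | mem x hx =>
    obtain ⟨i, rfl⟩ := hx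
    obtain ⟨c, hc⟩ := RatDesc.coeff_rat_of_fixed _ (b i) (hb i) m
    exact ⟨c, hc.symm⟩
  | zero => exact ⟨0, by simp⟩
  | add x y _ _ hx hy =>
    obtain ⟨c, hc⟩ := hx
    obtain ⟨d, hd⟩ := hy
    exact ⟨c + d, by rw [map_add, hc, hd, map_add]⟩
  | smul a x _ hx =>
    obtain ⟨c, hc⟩ := hx
    exact ⟨a * c, by rw [pivot_lam_smul, hc, map_mul]⟩

/-- DESCENT: a function with rational coefficients is a rational modular function. -/
theorem exT_exists_rat (A : ValuationSubring Qb) {f : modularFunctionFieldBar M0}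
    (hrat : ∀ m, ∃ c : ℚ, exTLam M0 m f = algebraMap ℚ Qb c) :
    ∃ t0 : LaurentSeries ℚ, t0 ∈ modularFunctionFieldFull M0 ∧
      coeffEmb Qb t0 = (f : LaurentSeries Qb) := by
  obtain ⟨z, hz⟩ := Fermat.Agent.FF.RedRat.exists_coeffEmb_eq (L := Qb)
    (f := (f : LaurentSeries Qb)) (fun n => by
      obtain ⟨c, hc⟩ := hrat n
      exact ⟨c, hc.symm⟩)
  refine ⟨z, Fermat.Agent.FF.RedRat.mem_of_coeffEmb_mem (A := A)
    (isIntGen_modularFunctionFieldFull M0) ?_, hz⟩
  rw [hz]
  exact f.2

end Rational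

/-! ### discreteness of the valuation on `ℚ` -/

section Disc

include hq hA

theorem exT_val_rat_eq_zpow {c : ℚ} (hc : c ≠ 0) :
    ∃ e : ℤ, A.valuation (algebraMap ℚ Qb c) = A.valuation ((q : ℕ) : Qb) ^ e := by
  have hnum : c.num ≠ 0 := Rat.num_ne_zero.mpr hc
  have hden : (c.den : ℤ) ≠ 0 := by exact_mod_cast c.den_ne_zero
  obtain ⟨e₁, he₁⟩ := valuation_intCast_eq_pow hq hA (K := Qb) hnum
  obtain ⟨e₂, he₂⟩ := valuation_intCast_eq_pow hq hA (K := Qb) hden
  have hcK : algebraMap ℚ Qb c = ((c.num : ℤ) : Qb) / (((c.den : ℤ)) : Qb) := by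
    conv_lhs => rw [← Rat.num_div_den c]
    simp
  have hq0 : A.valuation ((q : ℕ) : Qb) ≠ 0 := by
    rw [Valuation.ne_zero_iff]
    exact_mod_cast hq.ne_zero
  refine ⟨(e₁ : ℤ) - (e₂ : ℤ), ?_⟩
  rw [hcK, map_div₀, he₁, he₂, zpow_sub₀ hq0, zpow_natCast, zpow_natCast]

end Disc


/-! ### the pivot basis -/

section Pivot

variable {M0}

/-- **the rational integral orthonormal basis** of a `G_ℚ`-stable space of functions with poles at
the cusps only. -/
theorem exT_pivot (U : Submodule Qb (modularFunctionFieldBar M0)) [FiniteDimensional Qb U]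
    (hU : ∀ σ : GQ, ∀ f ∈ U, arithmeticGalois (modularFunctionFieldFull M0) σ • f ∈ U)
    (hpoles : ∀ f ∈ U, ∀ Q : Place Qb (modularFunctionFieldBar M0),
      0 ≤ Q.ord (Fermat.Agent.S24.jBar M0) → 0 ≤ Q.ord f) :
    ∃ (n : ℕ) (w : Fin n → modularFunctionFieldBar M0),
      (∀ i, w i ∈ U) ∧ (∀ i m, (w i : LaurentSeries Qb).coeff m ∈ A) ∧
      (∀ i, ∃ t0 : LaurentSeries ℚ, t0 ∈ modularFunctionFieldFull M0 ∧
        coeffEmb Qb t0 = (w i : LaurentSeries Qb)) ∧
      Submodule.span Qb (Set.range w) = U ∧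
      LinearIndependent (IsLocalRing.ResidueField A)
        (fun i => (modularValSetup A q M0 hq hA hqM).red (w i)) := by
  classical
  obtain ⟨n, b, hbli, hbspan, hbfix⟩ :=
    RatDesc.exists_fixed_family_general (modularFunctionFieldFull M0) U hU
  set V0 : Submodule ℚ (modularFunctionFieldBar M0) := Submodule.span ℚ (Set.range b) with hV0
  have hV0U : ∀ f ∈ V0, f ∈ U := by
    intro f hf
    induction hf using Submodule.span_induction with
    | mem x hx =>
      obtain ⟨i, rfl⟩ := hx
      rw [← hbspan]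
      exact Submodule.subset_span ⟨i, rfl⟩
    | zero => exact zero_mem _
    | add x y _ _ hx hy => exact add_mem hx hy
    | smul a x _ hx =>
      rw [← algebraMap_smul Qb a x]
      exact U.smul_mem _ hx
  have hrat : ∀ f ∈ V0, ∀ m, ∃ c : ℚ, exTLam M0 m f = algebraMap ℚ Qb c :=
    fun f hf m => exT_rat_of_span b hbfix hf m
  have hπ : A.valuation ((q : ℕ) : Qb) < 1 := valuation_prime_lt_one hq hA
  have hπ0 : ((q : ℕ) : Qb) ≠ 0 := by exact_mod_cast hq.ne_zero
  have hbdd : ∀ f ∈ V0, ∃ N : ℤ, ∀ m,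
      A.valuation (exTLam M0 m f) ≤ A.valuation ((q : ℕ) : Qb) ^ N := by
    intro f hf
    obtain ⟨t0, ht0, hcoe⟩ := exT_exists_rat A (hrat f hf)
    have hfeq : (⟨coeffEmb Qb t0, coeffEmb_mem_laurentBaseChange Qb ht0⟩ :
        modularFunctionFieldBar M0) = f := Subtype.ext hcoe
    obtain ⟨c, hc, hz⟩ := exT_bdd_coeff M0 ht0 (fun Q hQ => by
      rw [hfeq]
      exact hpoles f (hV0U f hf) Q hQ)
    obtain ⟨e, he⟩ := valuation_intCast_eq_pow hq hA (K := Qb) hc
    refine ⟨-(e : ℤ), fun m => ?_⟩
    obtain ⟨z, hzm⟩ := hz m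
    have h1 : exTLam M0 m f = algebraMap ℚ Qb (t0.coeff m) := by
      rw [exTLam_apply, ← hcoe, coeffEmb_coeff]
    have h2 : (c : Qb) * algebraMap ℚ Qb (t0.coeff m) = (z : Qb) := by
      have := congrArg (algebraMap ℚ Qb) hzm
      simpa using this
    have hc0 : (c : Qb) ≠ 0 := by exact_mod_cast hc
    have hvc0 : A.valuation (c : Qb) ≠ 0 := (Valuation.ne_zero_iff _).mpr hc0
    have h3 : A.valuation (exTLam M0 m f) = A.valuation (z : Qb) / A.valuation (c : Qb) := by
      rw [h1, ← h2, map_mul, mul_div_cancel_left₀ _ hvc0]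
    have h4 : A.valuation (z : Qb) ≤ 1 := (A.valuation_le_one_iff _).mpr (intCast_mem A z)
    rw [h3, zpow_neg, zpow_natCast, ← he, div_eq_mul_inv]
    exact mul_le_of_le_one_left' h4
  have H : PivotHyp A.valuation (exTLam M0) V0 :=
    pivot_max_of_discrete hrat hπ0 hπ
      (fun c hc => exT_val_rat_eq_zpow A q hq hA hc)
      (fun f _ h0 => Subtype.ext (HahnSeries.ext (funext h0)))
      hbdd
  have hfg : V0.FG := Submodule.fg_span (Set.finite_range b)
  obtain ⟨s, e, hP⟩ := pivot_basis H hfg
  let w : Fin s.card → modularFunctionFieldBar M0 := fun j => e ((s.equivFin.symm j : s) : ℤ)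
  have hws : ∀ j, ((s.equivFin.symm j : s) : ℤ) ∈ s := fun j => (s.equivFin.symm j).2
  have hwV0 : ∀ j, w j ∈ V0 := fun j => hP.mem _ (hws j)
  have hwint : ∀ j m, (w j : LaurentSeries Qb).coeff m ∈ A := fun j m =>
    (A.valuation_le_one_iff _).mp (hP.le_one _ (hws j) m)
  refine ⟨s.card, w, fun j => hV0U _ (hwV0 j), hwint,
    fun j => exT_exists_rat A (hrat _ (hwV0 j)), ?_, ?_⟩
  · apply le_antisymm
    · rw [Submodule.span_le]
      rintro _ ⟨j, rfl⟩
      exact hV0U _ (hwV0 j)
    · rw [← hbspan, Submodule.span_le]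
      rintro _ ⟨i, rfl⟩
      have hbi : b i ∈ V0 := Submodule.subset_span ⟨i, rfl⟩
      rw [hP.span] at hbi
      have hle : Submodule.span ℚ (e '' (s : Set ℤ)) ≤
          (Submodule.span Qb (Set.range w)).restrictScalars ℚ := by
        rw [Submodule.span_le]
        rintro _ ⟨i, hi, rfl⟩
        refine Submodule.subset_span ⟨s.equivFin ⟨i, hi⟩, ?_⟩
        show e ((s.equivFin.symm (s.equivFin ⟨i, hi⟩) : s) : ℤ) = e i
        rw [Equiv.symm_apply_apply]
      exact hle hbi
  · rw [Fintype.linearIndependent_iff]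
    intro x hx j₀
    have h1 := congrArg (exTLamC M0 (IsLocalRing.ResidueField A)
      ((s.equivFin.symm j₀ : s) : ℤ)) hx
    rw [map_sum, map_zero] at h1
    have h2 : ∀ j, exTLamC M0 (IsLocalRing.ResidueField A) ((s.equivFin.symm j₀ : s) : ℤ)
        (x j • (modularValSetup A q M0 hq hA hqM).red (w j)) = if j = j₀ then x j else 0 := by
      intro j
      rw [map_smul]
      show x j • (((modularValSetup A q M0 hq hA hqM).red (w j) :
        modularFunctionFieldFullC (IsLocalRing.ResidueField A) M0) :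
        LaurentSeries (IsLocalRing.ResidueField A)).coeff _ = _
      rw [exT_red_coeff A q M0 hq hA hqM (w j) (hwint j)]
      by_cases hj : j = j₀
      · subst hj
        rw [if_pos rfl]
        have h3 : (w j : LaurentSeries Qb).coeff ((s.equivFin.symm j : s) : ℤ) = 1 :=
          hP.pivot_self _ (hws j)
        have h4 : (⟨(w j : LaurentSeries Qb).coeff ((s.equivFin.symm j : s) : ℤ),
            hwint j _⟩ : A) = 1 := Subtype.ext h3
        rw [h4, map_one, smul_eq_mul, mul_one]
      · rw [if_neg hj]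
        have hne : ((s.equivFin.symm j₀ : s) : ℤ) ≠ ((s.equivFin.symm j : s) : ℤ) := by
          intro h
          apply hj
          have := Subtype.ext h
          exact (s.equivFin.symm.injective this).symm
        have h3 : (w j : LaurentSeries Qb).coeff ((s.equivFin.symm j₀ : s) : ℤ) = 0 :=
          hP.pivot_ne _ (hws j₀) _ (hws j) hne
        have h4 : (⟨(w j : LaurentSeries Qb).coeff ((s.equivFin.symm j₀ : s) : ℤ),
            hwint j _⟩ : A) = 0 := Subtype.ext h3
        rw [h4, map_zero, smul_zero]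
    rw [Finset.sum_congr rfl (fun j _ => h2 j), Finset.sum_ite_eq' Finset.univ j₀,
      if_pos (Finset.mem_univ _)] at h1
    exact h1

/-- the reduction of `U` is the span of the reductions of the rational integral basis. -/
theorem exT_redSpace_eq_span (U : Submodule Qb (modularFunctionFieldBar M0))
    [FiniteDimensional Qb U]
    (hU : ∀ σ : GQ, ∀ f ∈ U, arithmeticGalois (modularFunctionFieldFull M0) σ • f ∈ U)
    (hpoles : ∀ f ∈ U, ∀ Q : Place Qb (modularFunctionFieldBar M0),
      0 ≤ Q.ord (Fermat.Agent.S24.jBar M0) → 0 ≤ Q.ord f) :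
    ∃ (n : ℕ) (w : Fin n → modularFunctionFieldBar M0),
      (∀ i, w i ∈ U) ∧ (∀ i m, (w i : LaurentSeries Qb).coeff m ∈ A) ∧
      (∀ i, ∃ t0 : LaurentSeries ℚ, t0 ∈ modularFunctionFieldFull M0 ∧
        coeffEmb Qb t0 = (w i : LaurentSeries Qb)) ∧
      redSpace (modularValSetup A q M0 hq hA hqM) U =
        Submodule.span (IsLocalRing.ResidueField A)
          (Set.range fun i => (modularValSetup A q M0 hq hA hqM).red (w i)) := by
  obtain ⟨n, w, hwU, hwint, hwrat, hspan, hli⟩ := exT_pivot A q hq hA hqM U hU hpoles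
  refine ⟨n, w, hwU, hwint, hwrat, ?_⟩
  rw [← hspan]
  exact redSpace_span _ w (fun i => exT_mem_Ov_of_int A q M0 hq hA hqM (w i) (hwint i)) hli

end Pivot

end Fermat.Agent.S36G
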