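/-
Cluster G (S36), block W-P, seat EX_t, sub-seat ExTPoly (helper51, for helper84's `ExT.lean`):
the class "rational, `A`-integral `q`-expansion, poles in `L(m • (j)_∞)`" is stable under a
polynomial `μ ∈ ℤ[X]`, and the reduction commutes with `μ`.

* `exT_int_eval₂`   : `A`-integral Laurent series are stable under `μ ∈ ℤ[X]` (abstract)
* `exT_rr_eval₂`    : `w ∈ L(m • D)`, `D ≥ 0` ⟹ `μ(w) ∈ L((deg μ · m) • D)` (abstract)
* `exT_poly_rat`    : (P1)
* `exT_poly_red`    : (P2)
* `exT_poly_poles`  : (P3)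
-/
import Mathlib
import Fermat.Agent.Lib.Deuring.Construct
import Fermat.Agent.Lib.RR.Riemann
import Fermat.Agent.S36.HPVal.ExTRed

set_option autoImplicit false
set_option linter.unusedSectionVars false
set_option linter.unusedVariables false
set_option synthInstance.maxHeartbeats 400000
set_option maxHeartbeats 1000000

open ModularCurve AlgebraicCurve Polynomial Fermat.Agent.Deuring Fermat.Agent.GaussInt
  Fermat.Agent.RR

noncomputable section
attribute [local instance 10000] SubalgebraClass.toAlgebra HahnSeries.powerSeriesAlgebra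

namespace Fermat.Agent.S36G

local notation "Qb" => AlgebraicClosure ℚ

/-! ### abstract closure lemmas -/

/-- `A`-integral Laurent series are stable under integral polynomials. -/
theorem exT_int_eval₂ {K : Type*} [Field K] (A : ValuationSubring K) {P : LaurentSeries K}
    (hP : ∀ n, P.coeff n ∈ A) (μ : ℤ[X]) (n : ℤ) :
    (eval₂ (Int.castRingHom (LaurentSeries K)) P μ).coeff n ∈ A := by
  have h1 : eval₂ (Int.castRingHom (LaurentSeries K)) P μ =
      emb A (eval₂ (Int.castRingHom (LaurentSeries A)) (liftA A P hP) μ) := by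
    rw [Polynomial.hom_eval₂, emb_liftA]
    congr 1
    exact RingHom.ext_int _ _
  rw [h1]
  exact ((eval₂ (Int.castRingHom (LaurentSeries A)) (liftA A P hP) μ).coeff n).2

/-- powers stay in the multiples of the pole bound. -/
theorem exT_rr_pow {K F : Type*} [Field K] [Field F] [Algebra K F] {D : Divisor K F}
    (hD : 0 ≤ D) {m : ℕ} {w : F} (hw : w ∈ riemannRochSpace (m • D)) (i : ℕ) :
    w ^ i ∈ riemannRochSpace ((i * m) • D) := by
  induction i with
  | zero =>
    rw [pow_zero, zero_mul, zero_smul]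
    exact one_mem_riemannRochSpace_of_nonneg le_rfl
  | succ i ih =>
    rw [pow_succ, add_mul, one_mul, add_smul]
    exact mul_mem_riemannRochSpace_add ih hw

/-- `w ∈ L(m • D)`, `D ≥ 0` ⟹ `μ(w) ∈ L((deg μ · m) • D)`. -/
theorem exT_rr_eval₂ {K F : Type*} [Field K] [Field F] [Algebra K F] {D : Divisor K F}
    (hD : 0 ≤ D) {m : ℕ} {w : F} (hw : w ∈ riemannRochSpace (m • D)) (μ : ℤ[X]) :
    eval₂ (Int.castRingHom F) w μ ∈ riemannRochSpace ((μ.natDegree * m) • D) := by
  rw [Polynomial.eval₂_eq_sum_range]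
  refine Submodule.sum_mem _ fun i hi => ?_
  have hi' : i ≤ μ.natDegree := Nat.lt_succ_iff.mp (Finset.mem_range.mp hi)
  have hle : (i * m) • D ≤ (μ.natDegree * m) • D :=
    nsmul_le_nsmul_left hD (Nat.mul_le_mul_right m hi')
  have hpow : w ^ i ∈ riemannRochSpace ((μ.natDegree * m) • D) :=
    riemannRochSpace_mono hle (exT_rr_pow hD hw i)
  have e : Int.castRingHom F (μ.coeff i) * w ^ i = ((μ.coeff i : ℤ) : K) • w ^ i := by
    rw [Algebra.smul_def, map_intCast, eq_intCast]
  rw [e]
  exact Submodule.smul_mem _ _ hpow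

/-! ### the three closure lemmas of `ExT.lean` -/

variable (A : ValuationSubring Qb) (q M0 : ℕ) [NeZero M0]
  (hq : q.Prime) (hA : A.LiesOverPrime q) (hqM : ¬ q ∣ M0)

/-- **(P1)** rationality and integrality are stable under `μ ∈ ℤ[X]`. -/
theorem exT_poly_rat {t0 : LaurentSeries ℚ} (ht0 : t0 ∈ modularFunctionFieldFull M0)
    (hint : ∀ n, algebraMap ℚ Qb (t0.coeff n) ∈ A) (μ : ℤ[X]) :
    eval₂ (Int.castRingHom (LaurentSeries ℚ)) t0 μ ∈ modularFunctionFieldFull M0 ∧
    (∀ n, algebraMap ℚ Qb ((eval₂ (Int.castRingHom (LaurentSeries ℚ)) t0 μ).coeff n) ∈ A) ∧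
    coeffEmb Qb (eval₂ (Int.castRingHom (LaurentSeries ℚ)) t0 μ)
      = eval₂ (Int.castRingHom (LaurentSeries Qb)) (coeffEmb Qb t0) μ := by
  have hc : coeffEmb Qb (eval₂ (Int.castRingHom (LaurentSeries ℚ)) t0 μ)
      = eval₂ (Int.castRingHom (LaurentSeries Qb)) (coeffEmb Qb t0) μ := by
    rw [Polynomial.hom_eval₂]
    congr 1
    exact RingHom.ext_int _ _
  refine ⟨?_, fun n => ?_, hc⟩
  · rw [Polynomial.eval₂_eq_sum_range]
    refine sum_mem fun i _ => mul_mem ?_ (pow_mem ht0 i)
    rw [eq_intCast]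
    exact intCast_mem _ _
  · have h1 : algebraMap ℚ Qb ((eval₂ (Int.castRingHom (LaurentSeries ℚ)) t0 μ).coeff n) =
        (coeffEmb Qb (eval₂ (Int.castRingHom (LaurentSeries ℚ)) t0 μ)).coeff n := rfl
    rw [h1, hc]
    exact exT_int_eval₂ A (P := coeffEmb Qb t0) hint μ n

/-- the coercion to Laurent series commutes with `μ`. -/
theorem exTPoly_coe_eval₂ (w : modularFunctionFieldBar M0) (μ : ℤ[X]) :
    ((eval₂ (Int.castRingHom (modularFunctionFieldBar M0)) w μ : modularFunctionFieldBar M0) :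
        LaurentSeries Qb) =
      eval₂ (Int.castRingHom (LaurentSeries Qb)) (w : LaurentSeries Qb) μ := by
  have h := Polynomial.hom_eval₂ μ (Int.castRingHom (modularFunctionFieldBar M0))
    ((modularFunctionFieldBar M0).val : modularFunctionFieldBar M0 →+* LaurentSeries Qb) w
  have e : ((modularFunctionFieldBar M0).val :
      modularFunctionFieldBar M0 →+* LaurentSeries Qb).comp
        (Int.castRingHom (modularFunctionFieldBar M0)) = Int.castRingHom (LaurentSeries Qb) :=
    RingHom.ext_int _ _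
  rw [e] at h
  exact h

/-- **(P2)** integrality is stable under `μ ∈ ℤ[X]` and the reduction commutes with `μ`. -/
theorem exT_poly_red (w : modularFunctionFieldBar M0)
    (hw : ∀ n, (w : LaurentSeries Qb).coeff n ∈ A) (μ : ℤ[X]) :
    (∀ n, ((eval₂ (Int.castRingHom (modularFunctionFieldBar M0)) w μ :
        modularFunctionFieldBar M0) : LaurentSeries Qb).coeff n ∈ A) ∧
    (modularValSetup A q M0 hq hA hqM).red
        (eval₂ (Int.castRingHom (modularFunctionFieldBar M0)) w μ)
      = eval₂ (Int.castRingHom (modularFunctionFieldFullC (IsLocalRing.ResidueField A) M0))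
          ((modularValSetup A q M0 hq hA hqM).red w) μ := by
  refine ⟨fun n => ?_, ?_⟩
  · rw [exTPoly_coe_eval₂]
    exact exT_int_eval₂ A hw μ n
  · set S := modularValSetup A q M0 hq hA hqM with hS
    have hwOv : w ∈ S.Ov := exT_mem_Ov_of_int A q M0 hq hA hqM w hw
    have h1 : eval₂ (Int.castRingHom (modularFunctionFieldBar M0)) w μ =
        ((eval₂ (Int.castRingHom S.Ov) (⟨w, hwOv⟩ : S.Ov) μ : S.Ov) :
          modularFunctionFieldBar M0) := by
      have h := Polynomial.hom_eval₂ μ (Int.castRingHom S.Ov) S.Ov.subtype (⟨w, hwOv⟩ : S.Ov)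
      have e : S.Ov.subtype.comp (Int.castRingHom S.Ov) =
          Int.castRingHom (modularFunctionFieldBar M0) := RingHom.ext_int _ _
      rw [e] at h
      exact h.symm
    rw [h1, S.red_of_mem (Subtype.mem _), S.red_of_mem hwOv]
    have h2 := Polynomial.hom_eval₂ μ (Int.castRingHom S.Ov) S.ρ (⟨w, hwOv⟩ : S.Ov)
    have e2 : S.ρ.comp (Int.castRingHom S.Ov) =
        Int.castRingHom (modularFunctionFieldFullC (IsLocalRing.ResidueField A) M0) :=
      RingHom.ext_int _ _
    rw [e2] at h2
    exact h2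

/-- **(P3)** the pole bound `L(m • (j)_∞)` under `μ ∈ ℤ[X]`. -/
theorem exT_poly_poles (m : ℕ) (w : modularFunctionFieldBar M0)
    (hw : w ∈ riemannRochSpace
      (m • poleDiv (modularValSetup A q M0 hq hA hqM).hF (Fermat.Agent.S24.jBar M0)))
    (μ : ℤ[X]) :
    eval₂ (Int.castRingHom (modularFunctionFieldBar M0)) w μ ∈
      riemannRochSpace ((μ.natDegree * m) •
        poleDiv (modularValSetup A q M0 hq hA hqM).hF (Fermat.Agent.S24.jBar M0)) :=
  exT_rr_eval₂ (poleDiv_nonneg _ _) hw μ

end Fermat.Agent.S36G
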