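/-
Cluster G (S36), block W-P, seat EX_t (WP-EXT-a, helper84): EXISTENCE OF THE DATUM `t`.

`exT : ExTStatement q M0` — for a prime `q ∤ M0`, a place `A` of `ℚ̄` over `q`, under good reduction
(genus equality), and every place `P` of `F_{M0,k}` which is not a pole of `j̄`, there is a RATIONAL
modular function `t0` of level `M0` with `q`-integral `q`-expansion and poles at the cusps only,
whose reduction is a uniformiser at `P`.

Proof: `ExTBdd.lean` (bounded denominators), `ExTRed.lean` (rational integral orthonormal basis of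
`L(m (j)_∞)`), `ExTDeu.lean` (helper41: Deuring, `red L(m (j)_∞) = L_k(m (j̄)_∞)`), `ExTAbs.lean`
(helper41: Riemann-Roch on the special fibre, selection, minimal polynomial trick), `ExTPoly.lean`
(helper51: stability under integral polynomials).
-/
import Mathlib
import Fermat.Agent.S36.HPVal.ExTDefs
import Fermat.Agent.S36.HPVal.ExTAbs
import Fermat.Agent.S36.HPVal.ExTRed
import Fermat.Agent.S36.HPVal.ExTDeu
import Fermat.Agent.S36.HPVal.ExTPoly
import Fermat.Agent.Lib.BadRed.PeuD.ResLift
import Fermat.Agent.Lib.GenusEq.Inputs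
import Fermat.Agent.Lib.RR.Hurwitz.Count

set_option autoImplicit false
set_option linter.style.haveILetI false
set_option linter.unusedSectionVars false
set_option linter.unusedVariables false
set_option synthInstance.maxHeartbeats 400000
set_option maxHeartbeats 1000000

open ModularCurve AlgebraicCurve HahnSeries Polynomial Fermat.Agent.Deuring Fermat.Agent.GaussInt
  Fermat.Agent.RR Fermat.Agent.S17

noncomputable section
attribute [local instance 10000] SubalgebraClass.toAlgebra HahnSeries.powerSeriesAlgebra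

namespace Fermat.Agent.S36G

local notation "Qb" => AlgebraicClosure ℚ

variable (A : ValuationSubring Qb) (q M0 : ℕ) [NeZero M0]
  (hq : q.Prime) (hA : A.LiesOverPrime q) (hqM : ¬ q ∣ M0)

/-! ### the pole divisor of `j` -/

/-- `j` is `G_ℚ`-fixed. -/
theorem exT_smul_jBar (σ : GQ) :
    arithmeticGalois (modularFunctionFieldFull M0) σ • Fermat.Agent.S24.jBar M0 =
      Fermat.Agent.S24.jBar M0 := by
  apply Subtype.ext
  rw [coe_arithmeticGalois_smul]
  ext n
  rw [coeffMap_coeff]
  show σ ((coeffEmb Qb jq).coeff n) = (coeffEmb Qb jq).coeff n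
  rw [coeffEmb_coeff]
  exact σ.commutes _

/-- `L(m (j)_∞)` is `G_ℚ`-stable. -/
theorem exT_rr_stable (h : IsRRField Qb (modularFunctionFieldBar M0)) (m : ℕ) (σ : GQ)
    (f : modularFunctionFieldBar M0)
    (hf : f ∈ riemannRochSpace (m • poleDiv h (Fermat.Agent.S24.jBar M0))) :
    arithmeticGalois (modularFunctionFieldFull M0) σ • f ∈
      riemannRochSpace (m • poleDiv h (Fermat.Agent.S24.jBar M0)) := by
  rw [mem_riemannRochSpace_iff] at hf ⊢
  intro v
  rcases hf ((arithmeticGalois (modularFunctionFieldFull M0) σ)⁻¹ • v) with h0 | h0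
  · left
    rw [h0, smul_zero]
  · right
    have h1 := SemilinearAut.ord_smul (arithmeticGalois (modularFunctionFieldFull M0) σ)
      ((arithmeticGalois (modularFunctionFieldFull M0) σ)⁻¹ • v) f
    rw [smul_inv_smul] at h1
    have h2 := SemilinearAut.ord_smul (arithmeticGalois (modularFunctionFieldFull M0) σ)
      ((arithmeticGalois (modularFunctionFieldFull M0) σ)⁻¹ • v) (Fermat.Agent.S24.jBar M0)
    rw [smul_inv_smul, exT_smul_jBar] at h2
    rw [h1]
    simp only [Finsupp.smul_apply, poleDiv_apply] at h0 ⊢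
    rw [h2]
    exact h0

/-- the elements of `L(m (j)_∞)` have poles only at the poles of `j`. -/
theorem exT_rr_poles (h : IsRRField Qb (modularFunctionFieldBar M0)) (m : ℕ)
    (f : modularFunctionFieldBar M0)
    (hf : f ∈ riemannRochSpace (m • poleDiv h (Fermat.Agent.S24.jBar M0)))
    (Q : Place Qb (modularFunctionFieldBar M0)) (hQ : 0 ≤ Q.ord (Fermat.Agent.S24.jBar M0)) :
    0 ≤ Q.ord f := by
  rw [mem_riemannRochSpace_iff] at hf
  rcases hf Q with h0 | h0
  · rw [h0, Place.ord_zero]
  · simp only [Finsupp.smul_apply, poleDiv_apply] at h0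
    have h1 : max (-Q.ord (Fermat.Agent.S24.jBar M0)) 0 = 0 := max_eq_right (by omega)
    rw [h1, smul_zero, neg_zero] at h0
    exact h0


/-! ### the core: existence of `t` from the Deuring input and the polynomial stability -/

section Core

variable {M0}

/-- the coercion of an integral polynomial in `w`. -/
theorem exT_coe_eval₂ (w : modularFunctionFieldBar M0) (μ : ℤ[X]) :
    ((eval₂ (Int.castRingHom (modularFunctionFieldBar M0)) w μ : modularFunctionFieldBar M0) :
      LaurentSeries Qb) = eval₂ (Int.castRingHom (LaurentSeries Qb)) (w : LaurentSeries Qb) μ := by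
  have h := Polynomial.hom_eval₂ μ (Int.castRingHom (modularFunctionFieldBar M0))
    (IntermediateField.val (modularFunctionFieldBar M0)).toRingHom w
  have e : (IntermediateField.val (modularFunctionFieldBar M0)).toRingHom.comp
      (Int.castRingHom (modularFunctionFieldBar M0)) = Int.castRingHom (LaurentSeries Qb) :=
    RingHom.ext_int _ _
  rw [e] at h
  exact h

theorem exT_core
    (hDeu : ∀ m : ℕ, 2 * genusFF Qb ↥(modularFunctionFieldBar M0) ≤ m →
      redSpace (modularValSetup A q M0 hq hA hqM)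
          (riemannRochSpace (m • poleDiv (modularValSetup A q M0 hq hA hqM).hF
            (Fermat.Agent.S24.jBar M0))) =
        riemannRochSpace (m • poleDiv (modularValSetup A q M0 hq hA hqM).hFk
          (Fermat.Agent.RRMod.jC (IsLocalRing.ResidueField A) M0)))
    (hP1 : ∀ {t0 : LaurentSeries ℚ}, t0 ∈ modularFunctionFieldFull M0 →
      (∀ n, algebraMap ℚ Qb (t0.coeff n) ∈ A) → ∀ μ : ℤ[X],
        eval₂ (Int.castRingHom (LaurentSeries ℚ)) t0 μ ∈ modularFunctionFieldFull M0 ∧
        (∀ n, algebraMap ℚ Qb ((eval₂ (Int.castRingHom (LaurentSeries ℚ)) t0 μ).coeff n) ∈ A) ∧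
        coeffEmb Qb (eval₂ (Int.castRingHom (LaurentSeries ℚ)) t0 μ) =
          eval₂ (Int.castRingHom (LaurentSeries Qb)) (coeffEmb Qb t0) μ)
    (hP2 : ∀ (w : modularFunctionFieldBar M0), (∀ n, (w : LaurentSeries Qb).coeff n ∈ A) →
      ∀ μ : ℤ[X],
        (modularValSetup A q M0 hq hA hqM).red
            (eval₂ (Int.castRingHom (modularFunctionFieldBar M0)) w μ) =
          eval₂ (Int.castRingHom (modularFunctionFieldFullC (IsLocalRing.ResidueField A) M0))
            ((modularValSetup A q M0 hq hA hqM).red w) μ)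
    (hP3 : ∀ (m : ℕ) (w : modularFunctionFieldBar M0),
      w ∈ riemannRochSpace (m • poleDiv (modularValSetup A q M0 hq hA hqM).hF
        (Fermat.Agent.S24.jBar M0)) → ∀ μ : ℤ[X],
        eval₂ (Int.castRingHom (modularFunctionFieldBar M0)) w μ ∈
          riemannRochSpace ((μ.natDegree * m) • poleDiv (modularValSetup A q M0 hq hA hqM).hF
            (Fermat.Agent.S24.jBar M0)))
    (P : Place (IsLocalRing.ResidueField A)
      (modularFunctionFieldFullC (IsLocalRing.ResidueField A) M0))
    (hP : 0 ≤ P.ord (Fermat.Agent.RRMod.jC (IsLocalRing.ResidueField A) M0)) :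
    ∃ t0 : LaurentSeries ℚ, ExTDatum A q M0 hq hA hqM P t0 := by
  classical
  haveI : IsAlgClosed (IsLocalRing.ResidueField A) := isAlgClosed_residue A
  haveI : Fact q.Prime := ⟨hq⟩
  haveI : CharP (IsLocalRing.ResidueField A) q := Fermat.Agent.PeuD.resLift_charP A hq hA
  letI : Algebra (ZMod q) (IsLocalRing.ResidueField A) := ZMod.algebra _ q
  have halg : ∀ c : IsLocalRing.ResidueField A, IsAlgebraic (ZMod q) c := by
    intro c
    obtain ⟨a, rfl⟩ := IsLocalRing.residue_surjective c
    exact Fermat.Agent.PeuD.resLift_isAlgebraic A a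
  set S := modularValSetup A q M0 hq hA hqM with hS
  set D0 := poleDiv S.hF (Fermat.Agent.S24.jBar M0) with hD0
  set Dbar := poleDiv S.hFk (Fermat.Agent.RRMod.jC (IsLocalRing.ResidueField A) M0) with hDbar
  -- the divisor of poles of `j̄`
  have hDbarP : Dbar P = 0 := by
    rw [hDbar, poleDiv_apply]
    exact max_eq_right (by omega)
  have hdeg : 0 < Divisor.degree Dbar := by
    haveI := Fermat.Agent.RRMod.finiteDimensional_fullC' (IsLocalRing.ResidueField A) M0
    rw [hDbar, Fermat.Agent.RRHur.degree_poleDiv_eq_finrank S.hFk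
      (Fermat.Agent.RRMod.transcendental_jC (IsLocalRing.ResidueField A) M0)]
    exact_mod_cast Module.finrank_pos
  -- the set of reductions of the rational integral functions with poles at the cusps
  set E : Set (modularFunctionFieldFullC (IsLocalRing.ResidueField A) M0) :=
    {y | ∃ (m : ℕ) (w : modularFunctionFieldBar M0), w ∈ riemannRochSpace (m • D0) ∧
      (∀ n, (w : LaurentSeries Qb).coeff n ∈ A) ∧
      (∃ t0 : LaurentSeries ℚ, t0 ∈ modularFunctionFieldFull M0 ∧
        coeffEmb Qb t0 = (w : LaurentSeries Qb)) ∧ y = S.red w} with hEdef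
  have hmono : ∀ {m m' : ℕ}, m ≤ m' → riemannRochSpace (m • D0) ≤ riemannRochSpace (m' • D0) := by
    intro m m' hmm
    apply riemannRochSpace_mono
    rw [Finsupp.le_def]
    intro v
    simp only [Finsupp.smul_apply, nsmul_eq_mul]
    have h0 : 0 ≤ D0 v := by
      have := Finsupp.le_def.mp (poleDiv_nonneg S.hF (Fermat.Agent.S24.jBar M0)) v
      simpa using this
    have h1 : (m : ℤ) ≤ (m' : ℤ) := by exact_mod_cast hmm
    exact mul_le_mul_of_nonneg_right h1 h0
  have hE : ∀ e ∈ E, 0 ≤ P.ord e := by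
    rintro e ⟨m, w, hwL, hwint, -, rfl⟩
    set m' := max m (2 * genusFF Qb ↥(modularFunctionFieldBar M0)) with hm'
    have h1 : w ∈ riemannRochSpace (m' • D0) := hmono (le_max_left _ _) hwL
    have h2 : S.red w ∈ redSpace S (riemannRochSpace (m' • D0)) :=
      red_mem_redSpace S _ h1 (exT_mem_Ov_of_int A q M0 hq hA hqM w hwint)
    rw [hDeu m' (le_max_right _ _), mem_riemannRochSpace_iff] at h2
    rcases h2 P with h0 | h0
    · rw [h0, Place.ord_zero]
    · simp only [Finsupp.smul_apply] at h0
      rw [hDbarP, smul_zero, neg_zero] at h0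
      exact h0
  have hspan : ∀ m : ℕ, ∃ m' : ℕ, m ≤ m' ∧
      riemannRochSpace (m' • Dbar) ≤ Submodule.span (IsLocalRing.ResidueField A) E := by
    intro m
    refine ⟨max m (2 * genusFF Qb ↥(modularFunctionFieldBar M0)), le_max_left _ _, ?_⟩
    set m' := max m (2 * genusFF Qb ↥(modularFunctionFieldBar M0)) with hm'
    haveI : FiniteDimensional Qb (riemannRochSpace (m' • D0)) :=
      finite_riemannRochSpace S.hF _
    obtain ⟨n, w, hwU, hwint, hwrat, hred⟩ := exT_redSpace_eq_span A q hq hA hqM
      (riemannRochSpace (m' • D0)) (fun σ f hf => exT_rr_stable M0 S.hF m' σ f hf)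
      (fun f hf Q hQ => exT_rr_poles M0 S.hF m' f hf Q hQ)
    rw [← hDeu m' (le_max_right _ _), hred]
    apply Submodule.span_mono
    rintro _ ⟨i, rfl⟩
    exact ⟨m', w i, hwU i, hwint i, hwrat i, rfl⟩
  obtain ⟨e, he, μ, hμ, hμord⟩ := exT_abs S.hFk q halg Dbar hdeg P hDbarP E hE hspan
  obtain ⟨m, w, hwL, hwint, ⟨t0w, ht0w, hcoe⟩, rfl⟩ := he
  have hintw : ∀ n, algebraMap ℚ Qb (t0w.coeff n) ∈ A := by
    intro n
    have := hwint n
    rwa [← hcoe, coeffEmb_coeff] at this
  obtain ⟨ht0, hint, hemb⟩ := hP1 ht0w hintw μ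
  set t0 := eval₂ (Int.castRingHom (LaurentSeries ℚ)) t0w μ with ht0def
  have hid : ∀ h : coeffEmb Qb t0 ∈ modularFunctionFieldBar M0,
      (⟨coeffEmb Qb t0, h⟩ : modularFunctionFieldBar M0) =
        eval₂ (Int.castRingHom (modularFunctionFieldBar M0)) w μ := by
    intro h
    apply Subtype.ext
    rw [exT_coe_eval₂, ← hcoe]
    exact hemb
  refine ⟨t0, ⟨ht0, hint, ?_, ?_, ?_, ?_⟩⟩
  · intro h
    exact exT_mem_Ov_of_int A q M0 hq hA hqM _ (fun n => hint n)
  · intro h n hn
    exact exT_red_coeff A q M0 hq hA hqM ⟨coeffEmb Qb t0, h⟩ (fun n => hint n) n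
  · intro h Q hQ
    rw [hid h]
    exact exT_rr_poles M0 S.hF (μ.natDegree * m) _ (hP3 m w hwL μ) Q hQ
  · intro h
    rw [hid h, hP2 w hwint μ]
    exact hμord

end Core

/-! ### the theorem -/

/-- **EX_t**: the datum `t` of W-P exists at every non-cuspidal place. -/
theorem exT : ExTStatement q M0 := by
  intro A hq hA hqM hg P hP
  exact exT_core A q hq hA hqM
    (fun m hm => exT_redSpace_poleDiv A q M0 hq hA hqM hg m hm)
    (fun ht0 hint μ => exT_poly_rat A M0 ht0 hint μ)
    (fun w hw μ => (exT_poly_red A q M0 hq hA hqM w hw μ).2)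
    (fun m w hw μ => exT_poly_poles A q M0 hq hA hqM m w hw μ)
    P hP

end Fermat.Agent.S36G
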