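/-
Cluster G (S36), W-P wave, seat REG-23 (helper9): the multiplicity of EVERY node of `X₀(q R)`
mod `q` is `12`, also at `q = 2, 3`.

`D : ALData` (`q = D.Q` prime, `R = D.R`, `q ∤ R`), `A | q`, `k` the residue field,
`ū = red_{v_∞}(u)` the reduction of the coordinate `u = fwU D` (expansion `ssFun k q`),
`ε_i = ord_i (ū) = kpEps D A hq hA hqR i` the multiplicity of the node `i`.

* `reg23_ord_red_u`       : `q ∈ {2, 3}`, AUX (`q = 2 → 3 ∣ R`, `q = 3 → 2 ∣ R`), `ν₂(R) = 0` if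
                             `q = 3`, `ν₃(R) = 0` if `q = 2`:  `ord_P ū = 12` at every zero `P`;
* `reg23_kpEps_eq_twelve` : the same as `kpEps .. i = 12`;
* `reg23_kpEps_eq_twelve'`: with `AuxLevelOK D.Q D.R`;
* `reg_kpEps_eq_twelve`   : ALL primes `q` (`q ≥ 5`: `R38.r38_kpEps_eq_twelve`), hypotheses
                             `AuxLevelOK D.Q D.R`, `ν₂(R) = ν₃(R) = 0`;
* `reg_not_dvd_kpEps`     : `q ≥ 5`-free corollary is FALSE at `q = 2, 3` (`q ∣ 12`); instead
                             `reg_kpEps_pos : 0 < ε_i`.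

Proof: `S36G.hno23_ord_ssFun` (helper27, S36/Genus/Hno23.lean) at `u := ū`, with
`BadRed.fw_coe_red_uF` (`ū` has expansion `ssFun k q`).
-/
import Mathlib
import Fermat.Agent.S36.Genus.Hno23
import Fermat.Agent.R38.P.Eps
import Fermat.Agent.E.Desc.Kp.ModDefs
import Fermat.Agent.Lib.BadRed.Final.UHyp

set_option autoImplicit false
set_option linter.style.haveILetI false
set_option linter.unusedSectionVars false
set_option synthInstance.maxHeartbeats 400000
set_option maxHeartbeats 1000000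

noncomputable section
attribute [local instance 10000] SubalgebraClass.toAlgebra HahnSeries.powerSeriesAlgebra

namespace Fermat.Agent.S36G

open IntermediateField ModularCurve AlgebraicCurve Fermat.Agent.AtkinLehner Fermat.Agent.Deuring
  Fermat.Agent.RR Fermat.Agent.BadRed Fermat.Agent.EKp Fermat.Agent.R38

local notation "Qb" => AlgebraicClosure ℚ

attribute [local instance] Fermat.Agent.BadRed.fwFintype

variable (D : ALData) [NeZero D.Q] [NeZero D.R] [NeZero (D.Q * D.R)]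
  (A : ValuationSubring Qb) (hq : D.Q.Prime) (hA : A.LiesOverPrime D.Q) (hqR : ¬ D.Q ∣ D.R)
  [Fact D.Q.Prime] [CharP (IsLocalRing.ResidueField A) D.Q]
  [PerfectRing (IsLocalRing.ResidueField A) D.Q]

/-- **REG-23, place form**: `ord_P ū = 12` at every zero `P` of `ū` (`q = 2, 3`). -/
theorem reg23_ord_red_u (hq23 : D.Q = 2 ∨ D.Q = 3)
    (h2 : D.Q = 2 → 3 ∣ D.R) (h3 : D.Q = 3 → 2 ∣ D.R)
    (hν2 : D.Q = 3 → nuTwo D.R = 0) (hν3 : D.Q = 2 → nuThree D.R = 0)
    (P : Place (IsLocalRing.ResidueField A)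
      (modularFunctionFieldFullC (IsLocalRing.ResidueField A) D.R))
    (hP : 0 < P.ord ((kpS D A hq hA hqR).red (fwU D))) :
    P.ord ((kpS D A hq hA hqR).red (fwU D)) = 12 := by
  have hred := fw_coe_red_uF D A hq hA (kpS D A hq hA hqR)
    (isGaussSetup_gaussSetupBad D hq hqR A hA)
  exact hno23_ord_ssFun D.R hq23 hqR h2 h3 hν2 hν3 hA P _ hred hP

/-- **REG-23**: the multiplicity of every node is `12` at `q = 2, 3`. -/
theorem reg23_kpEps_eq_twelve (hq23 : D.Q = 2 ∨ D.Q = 3)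
    (h2 : D.Q = 2 → 3 ∣ D.R) (h3 : D.Q = 3 → 2 ∣ D.R)
    (hν2 : D.Q = 3 → nuTwo D.R = 0) (hν3 : D.Q = 2 → nuThree D.R = 0)
    (i : kpIota D A hq hA hqR) : kpEps D A hq hA hqR i = 12 := by
  have h12 := reg23_ord_red_u D A hq hA hqR hq23 h2 h3 hν2 hν3 i.1 i.2
  have hc := kpEps_cast D A hq hA hqR i
  have hZ : ((kpEps D A hq hA hqR i : ℕ) : ℤ) = 12 := by
    rw [hc]
    exact h12
  exact_mod_cast hZ

/-- **REG-23**, with the auxiliary-level hypothesis `AuxLevelOK`. -/
theorem reg23_kpEps_eq_twelve' (hq23 : D.Q = 2 ∨ D.Q = 3) (haux : AuxLevelOK D.Q D.R)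
    (hν2 : nuTwo D.R = 0) (hν3 : nuThree D.R = 0)
    (i : kpIota D A hq hA hqR) : kpEps D A hq hA hqR i = 12 :=
  reg23_kpEps_eq_twelve D A hq hA hqR hq23 haux.1 haux.2 (fun _ => hν2) (fun _ => hν3) i

/-- a prime is `2`, `3` or `≥ 5`. -/
theorem reg23_prime_cases {q : ℕ} (hq : q.Prime) : (q = 2 ∨ q = 3) ∨ 5 ≤ q := by
  rcases Nat.lt_or_ge q 5 with h | h
  · left
    have h2 := hq.two_le
    interval_cases q
    · exact Or.inl rfl
    · exact Or.inr rfl
    · exact absurd hq (by decide)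
  · exact Or.inr h

/-- **REG, all primes**: the multiplicity of every node of `X₀(q R)` mod `q` is `12`
(`AuxLevelOK q R`, `ν₂(R) = ν₃(R) = 0`). -/
theorem reg_kpEps_eq_twelve (haux : AuxLevelOK D.Q D.R)
    (hν2 : nuTwo D.R = 0) (hν3 : nuThree D.R = 0)
    (i : kpIota D A hq hA hqR) : kpEps D A hq hA hqR i = 12 := by
  rcases reg23_prime_cases hq with h23 | h5
  · exact reg23_kpEps_eq_twelve' D A hq hA hqR h23 haux hν2 hν3 i
  · exact r38_kpEps_eq_twelve D A hq hA hqR h5 hν2 hν3 i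

/-- **REG, all primes, place form**: `ord_P ū = 12` at every zero `P` of `ū`. -/
theorem reg_ord_red_u (haux : AuxLevelOK D.Q D.R)
    (hν2 : nuTwo D.R = 0) (hν3 : nuThree D.R = 0)
    (P : Place (IsLocalRing.ResidueField A)
      (modularFunctionFieldFullC (IsLocalRing.ResidueField A) D.R))
    (hP : 0 < P.ord ((kpS D A hq hA hqR).red (fwU D))) :
    P.ord ((kpS D A hq hA hqR).red (fwU D)) = 12 := by
  have h12 := reg_kpEps_eq_twelve D A hq hA hqR haux hν2 hν3 ⟨P, hP⟩
  have hc := kpEps_cast D A hq hA hqR ⟨P, hP⟩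
  have hc' : ((kpEps D A hq hA hqR ⟨P, hP⟩ : ℕ) : ℤ) =
      P.ord ((kpS D A hq hA hqR).red (fwU D)) := hc
  rw [← hc', h12]
  rfl

/-- the multiplicity of a node is positive. -/
theorem reg_kpEps_pos (haux : AuxLevelOK D.Q D.R)
    (hν2 : nuTwo D.R = 0) (hν3 : nuThree D.R = 0)
    (i : kpIota D A hq hA hqR) : 0 < kpEps D A hq hA hqR i := by
  rw [reg_kpEps_eq_twelve D A hq hA hqR haux hν2 hν3 i]
  norm_num

end Fermat.Agent.S36G
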