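/-
S36, G wave, block W-P, seat REG / RegR (helper28; split of helper59, shapes of helper89):
**the coefficients of the remainder `R_t` of the datum `t` of EX_t are Gauss-integral and their
reductions are regular at every non-cuspidal place `P`** (they lie in `R_P = discRing S0 P`).

* `regR_mem_discRing` : `(kctR t).coeff n ∈ discRing (wpdSetup ..) P`;
* `regR`              : the shape consumed by `RegWire.lean` (helper89).

Inputs: `kctR_coeff_mem_rat` (helper87, `KCtRat.lean`), `kcp_kctR_coeff` (`KCtPole.lean`),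
`wpd_mem_discRing` (helper10, `DiscMod.lean`), `ord_red_nonneg_of_mem` (helper51, `DiscTaylor.lean`).
-/
import Mathlib
import Fermat.Agent.S36.HPVal.KCtRat
import Fermat.Agent.S36.HPVal.KCtPole
import Fermat.Agent.S36.HPVal.DiscMod

set_option autoImplicit false
set_option linter.style.haveILetI false
set_option linter.unusedSectionVars false
set_option linter.unusedVariables false
set_option synthInstance.maxHeartbeats 400000

noncomputable section
attribute [local instance 10000] SubalgebraClass.toAlgebra HahnSeries.powerSeriesAlgebra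

namespace Fermat.Agent.S36G

open ModularCurve AlgebraicCurve Fermat.Agent.GaussInt Fermat.Agent.Deuring Fermat.Agent.AtkinLehner
  Fermat.Agent.BadRed Fermat.Agent.HPVal Polynomial

local notation "Qb" => AlgebraicClosure ℚ

section General

variable (A : ValuationSubring Qb) (q M : ℕ) [NeZero M] [NeZero q]
  (hq : q.Prime) (hA : A.LiesOverPrime q) (hqM : ¬ q ∣ M)
  (hg : genusFF Qb (modularFunctionFieldBar M) =
    genusFF (IsLocalRing.ResidueField A)
      (modularFunctionFieldFullC (IsLocalRing.ResidueField A) M))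
  {P : Place (IsLocalRing.ResidueField A)
    (modularFunctionFieldFullC (IsLocalRing.ResidueField A) M)}
  {t0 : LaurentSeries ℚ}

/-- the coefficients of `R_t` are Gauss-integral (the form with `wpdT`). -/
theorem regR_mem_Ov (hT : ExTDatum A q M hq hA hqM P t0) (n : ℕ) :
    (Fermat.Agent.S36.kctR M hq hqM (wpdT M t0 hT.mem)).coeff n ∈
      (modularValSetup A q M hq hA hqM).Ov :=
  Fermat.Agent.S36.kctR_coeff_mem_rat M hq A hA hqM t0 hT.int (wpdT M t0 hT.mem).2 n

/-- the coefficients of `R_t` have poles only at the poles of `j`. -/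
theorem regR_poles (hT : ExTDatum A q M hq hA hqM P t0) (n : ℕ)
    (v : Place Qb (modularFunctionFieldBar M)) (hv : 0 ≤ v.ord (Fermat.Agent.S24.jBar M)) :
    0 ≤ v.ord ((Fermat.Agent.S36.kctR M hq hqM (wpdT M t0 hT.mem)).coeff n) :=
  Fermat.Agent.S36.kcp_kctR_coeff M hq hqM (wpdT M t0 hT.mem)
    (hT.poles (wpdT M t0 hT.mem).2) v hv n

/-- **the coefficients of `R_t` lie in `R_P`**, for every non-cuspidal place `P`. -/
theorem regR_mem_discRing (hT : ExTDatum A q M hq hA hqM P t0)
    {P' : Place (IsLocalRing.ResidueField A)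
      (modularFunctionFieldFullC (IsLocalRing.ResidueField A) M)}
    (hP' : 0 ≤ P'.ord (Fermat.Agent.RRMod.jC (IsLocalRing.ResidueField A) M)) (n : ℕ) :
    (Fermat.Agent.S36.kctR M hq hqM (wpdT M t0 hT.mem)).coeff n ∈
      discRing (wpdSetup A q M hq hA hqM hg) P' :=
  wpd_mem_discRing A q M hq hA hqM hg (regR_mem_Ov A q M hq hA hqM hT n)
    (regR_poles A q M hq hA hqM hT n) hP'

/-- the same for `Ψ_t` itself. -/
theorem regPsi_poles (hT : ExTDatum A q M hq hA hqM P t0) (n : ℕ)
    (v : Place Qb (modularFunctionFieldBar M)) (hv : 0 ≤ v.ord (Fermat.Agent.S24.jBar M)) :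
    0 ≤ v.ord ((Fermat.Agent.S36.kctPsi M hq hqM (wpdT M t0 hT.mem)).coeff n) :=
  Fermat.Agent.S36.kcp_kctPsi_coeff M hq hqM (wpdT M t0 hT.mem)
    (hT.poles (wpdT M t0 hT.mem).2) v hv n

end General

section Kp

variable (D : ALData) [NeZero D.Q] [NeZero D.R]
  (A : ValuationSubring Qb) (hq : D.Q.Prime) (hA : A.LiesOverPrime D.Q) (hqR : ¬ D.Q ∣ D.R)
  {P : Place (IsLocalRing.ResidueField A)
    (modularFunctionFieldFullC (IsLocalRing.ResidueField A) D.R)}
  {t0 : LaurentSeries ℚ}

/-- **RegR** (shape of helper89's `RegWire.lean`): the coefficients of `R_t` are Gauss-integral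
and their reductions are regular at the non-cuspidal place `P`. -/
theorem regR
    (hg : genusFF Qb (modularFunctionFieldBar D.R) =
      genusFF (IsLocalRing.ResidueField A)
        (modularFunctionFieldFullC (IsLocalRing.ResidueField A) D.R))
    (hT : ExTDatum A D.Q D.R hq hA hqR P t0)
    (hP : 0 ≤ P.ord (Fermat.Agent.RRMod.jC (IsLocalRing.ResidueField A) D.R)) (n : ℕ) :
    (Fermat.Agent.S36.kctR D.R hq hqR (wpdT D.R t0 hT.mem)).coeff n ∈
        (modularValSetup A D.Q D.R hq hA hqR).Ov ∧
    0 ≤ P.ord ((modularValSetup A D.Q D.R hq hA hqR).red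
      ((Fermat.Agent.S36.kctR D.R hq hqR (wpdT D.R t0 hT.mem)).coeff n)) := by
  refine ⟨regR_mem_Ov A D.Q D.R hq hA hqR hT n, ?_⟩
  have h := ord_red_nonneg_of_mem (regR_mem_discRing A D.Q D.R hq hA hqR hg hT hP n)
  rw [wpdSetup_red] at h
  exact h

end Kp

end Fermat.Agent.S36G
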