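/-
Cluster G (S36, Carayol at `q² ∥ M`), block W-P (sub-architect helper59), seat WP-REG (helper89):
**the constant `c = r̄₀(P) ≠ 0`** of `H_P : (Y - W^q) W = c`, from the Kronecker form.

`D : ALData`, `q = D.Q`, `F₀ = F_R`, `F = F_{qR}`, `α, β : F₀ → F` the degeneracy maps, `t ∈ F₀`.
Kronecker form (KC_t, helper87): `Ψ = (X - t^q)(X^q - t) + q R ∈ F₀[X]`, `Ψ^α (β t) = 0`, `R` with
Gauss-integral coefficients.  Then with `z = α t - (β t)^q`, `δ = (β t - (α t)^q) / q`:

* `regEps_eq_of_kc`, `regEps_eq_eval₂` : `δ z = R^α (β t)`;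
* `red_eval₂_alphaQ`                   : `red_∞ (R^α (b)) = ∑ r̄_i · (red_∞ b)^i`;
* `reg_value_of_ord`                   : (simple pole) × (simple zero) has a value `≠ 0`;
* `reg_pole_self_of_s₂`                : a simple pole of a Frobenius-fixed function at `Frob⁻¹ • P`
                                         is a simple pole at `P`;
* `reg_frob_fix`                       : coefficients in `𝔽_q` ⟹ fixed by the coefficientwise Frobenius;
* `reg_kc_final`                       : **`r̄₀ = red (R.coeff 0)` has a value `c ≠ 0` at `P`**, for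
  `t̄` a uniformiser at `P` (value `0`), `red_∞ (β t) = t̄^q`, `red_∞ δ` with a simple pole at `P`
  (`reg_simple_pole_ss` of Reg.lean, or the local form of helper26), `r̄_i` regular at `P`.
-/
import Mathlib
import Fermat.Agent.S36.HPVal.Reg
import Fermat.Agent.Lib.BadRed.Mod.OldRed
import Fermat.Agent.Lib.BadRed.Mod.FrobAut

set_option autoImplicit false
set_option linter.style.haveILetI false
set_option linter.unusedSectionVars false
set_option linter.unusedVariables false
set_option synthInstance.maxHeartbeats 400000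

noncomputable section
attribute [local instance 10000] SubalgebraClass.toAlgebra HahnSeries.powerSeriesAlgebra

namespace Fermat.Agent.S36G

open IntermediateField ModularCurve AlgebraicCurve Fermat.Agent.F3 Fermat.Agent.F3G
  Fermat.Agent.GaussInt Fermat.Agent.AtkinLehner Fermat.Agent.Deuring Fermat.Agent.RR
  Fermat.Agent.BadRed Fermat.Agent.EKp Fermat.Agent.PeuD Polynomial

local notation "Qb" => AlgebraicClosure ℚ

/-! ### generic lemmas on places -/

section Abs

variable {k Fk : Type*} [Field k] [Field Fk] [Algebra k Fk]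

/-- (simple pole) × (simple zero) has a nonzero value. -/
theorem reg_value_of_ord (h : IsRRField k Fk) (P : Place k Fk) {d z : Fk} (hd : P.ord d = -1)
    (hz : P.ord z = 1) : ∃ c : k, c ≠ 0 ∧ ValAt P (d * z) c := by
  have hd0 : d ≠ 0 := by
    rintro rfl
    rw [Place.ord_zero] at hd
    omega
  have hz0 : z ≠ 0 := by
    rintro rfl
    rw [Place.ord_zero] at hz
    omega
  have hord : P.ord (d * z) = 0 := by
    rw [Place.ord_mul _ hd0 hz0, hd, hz]
    norm_num
  obtain ⟨c, hc⟩ := Fermat.Agent.BadRed.Gluing.exists_valAt h P hord.ge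
  refine ⟨c, ?_, hc⟩
  rintro rfl
  rcases (valAt_zero_right_iff _ _).mp hc with h0 | h0
  · exact mul_ne_zero hd0 hz0 h0
  · rw [hord] at h0
    exact lt_irrefl _ h0

/-- the value of `∑ r_i f^i` at a zero of `f` is the value of `r₀`. -/
theorem reg_valAt_sum_pow (P : Place k Fk) (n : ℕ) (r : ℕ → Fk) (c : ℕ → k)
    (hr : ∀ i, ValAt P (r i) (c i)) {f : Fk} (hf : ValAt P f 0) :
    ValAt P (∑ i ∈ Finset.range (n + 1), r i * f ^ i) (c 0) := by
  have h1 : ValAt P (∑ i ∈ Finset.range (n + 1), r i * f ^ i)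
      (∑ i ∈ Finset.range (n + 1), c i * (0 : k) ^ i) :=
    ValAt.sum _ _ _ fun i _ =>
      Fermat.Agent.BadRed.Gluing.valAt_mul (hr i) (Fermat.Agent.BadRed.Gluing.valAt_pow hf i)
  have e : ∑ i ∈ Finset.range (n + 1), c i * (0 : k) ^ i = c 0 := by
    rw [Finset.sum_eq_single 0]
    · rw [pow_zero, mul_one]
    · intro i _ hi
      rw [zero_pow hi, mul_zero]
    · intro h0
      exact absurd (Finset.mem_range.mpr (Nat.succ_pos n)) h0
  rwa [e] at h1

/-- a function with positive order has the value `0`. -/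
theorem reg_valAt_zero_of_ord_pos (P : Place k Fk) {f : Fk} (hf : 0 < P.ord f) : ValAt P f 0 :=
  (valAt_zero_right_iff _ _).mpr (Or.inr hf)

/-- the reduction of a finite sum of integral elements. -/
theorem reg_red_sum {K F : Type*} [Field K] [Field F] [Algebra K F] (S : ValSetup K F k Fk)
    {J : Type*} (s : Finset J) (f : J → F) (hf : ∀ j ∈ s, f j ∈ S.Ov) :
    ∑ j ∈ s, f j ∈ S.Ov ∧ S.red (∑ j ∈ s, f j) = ∑ j ∈ s, S.red (f j) := by
  classical
  induction s using Finset.induction_on with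
  | empty =>
    refine ⟨by simp, ?_⟩
    rw [Finset.sum_empty, Finset.sum_empty, S.red_zero]
  | insert a s ha ih =>
    obtain ⟨h1, h2⟩ := ih fun j hj => hf j (Finset.mem_insert_of_mem hj)
    have ha' := hf a (Finset.mem_insert_self a s)
    rw [Finset.sum_insert ha, Finset.sum_insert ha]
    exact ⟨add_mem ha' h1, by rw [S.red_add ha' h1, h2]⟩

end Abs

/-! ### the Frobenius -/

section Frob

variable (k : Type*) [Field k] (N₀ q : ℕ) [NeZero N₀] [Fact q.Prime] [CharP k q] [PerfectRing k q]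

/-- a function with coefficients in `𝔽_q` is fixed by the coefficientwise Frobenius. -/
theorem reg_frob_fix (f : modularFunctionFieldFullC k N₀)
    (h : ∀ n : ℤ, ((f : LaurentSeries k).coeff n) ^ q = (f : LaurentSeries k).coeff n) :
    frobAut k N₀ q • f = f := by
  apply Subtype.ext
  rw [coe_frobAut_smul]
  ext n
  rw [coeffMap_coeff]
  exact h n

/-- a simple pole of a Frobenius-fixed function at `Frob⁻¹ • P` is a simple pole at `P`. -/
theorem reg_pole_self_of_s₂ {f : modularFunctionFieldFullC k N₀}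
    (hF : frobAut k N₀ q • f = f)
    (P : Place k (modularFunctionFieldFullC k N₀)) {n : ℤ}
    (h : ((frobAut k N₀ q)⁻¹ • P).ord f = n) : P.ord f = n := by
  rw [← Fermat.Agent.BadRed.Gluing.sl_ord_smul, hF] at h
  exact h

end Frob

/-! ### the Kronecker form -/

section KC

variable (D : ALData) [NeZero D.Q] [NeZero D.R] [NeZero (D.Q * D.R)]

/-- the Kronecker relation gives `δ z = E`. -/
theorem regEps_eq_of_kc (t : modularFunctionFieldBar D.R)
    (E : modularFunctionFieldBar (D.Q * D.R))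
    (hkc : (betaQ D t - alphaQ D t ^ D.Q) * (betaQ D t ^ D.Q - alphaQ D t) +
      (D.Q : modularFunctionFieldBar (D.Q * D.R)) * E = 0) : regEps D t = E := by
  have hq0 : (D.Q : modularFunctionFieldBar (D.Q * D.R)) ≠ 0 := by
    have h1 : ((D.Q : Qb)) ≠ 0 := by exact_mod_cast NeZero.ne D.Q
    have h2 := (_root_.map_ne_zero (algebraMap Qb (modularFunctionFieldBar (D.Q * D.R)))).mpr h1
    rwa [map_natCast] at h2
  unfold regEps regDelta regZ
  rw [map_natCast]
  field_simp
  linear_combination (-1 : modularFunctionFieldBar (D.Q * D.R)) * hkc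

/-- the Kronecker form `Ψ = (X - t^q)(X^q - t) + q R`, `Ψ^α (β t) = 0`, gives `δ z = R^α (β t)`. -/
theorem regEps_eq_eval₂ (t : modularFunctionFieldBar D.R)
    (R Ψ : Polynomial (modularFunctionFieldBar D.R))
    (hΨ : Ψ = (X - C (t ^ D.Q)) * (X ^ D.Q - C t) +
      C (D.Q : modularFunctionFieldBar D.R) * R)
    (hroot : Ψ.eval₂ (alphaQ D : modularFunctionFieldBar D.R →+*
      modularFunctionFieldBar (D.Q * D.R)) (betaQ D t) = 0) :
    regEps D t = R.eval₂ (alphaQ D : modularFunctionFieldBar D.R →+*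
      modularFunctionFieldBar (D.Q * D.R)) (betaQ D t) := by
  apply regEps_eq_of_kc
  rw [hΨ] at hroot
  simpa [eval₂_add, eval₂_mul, eval₂_sub, eval₂_pow, eval₂_X, eval₂_C, map_pow, map_natCast]
    using hroot

end KC

/-! ### the reduction of `R^α (b)` and the final statement -/

section Final

variable (D : ALData) [NeZero D.Q] [NeZero D.R] [NeZero (D.Q * D.R)]
  (A : ValuationSubring Qb) (hq : D.Q.Prime) (hA : A.LiesOverPrime D.Q) (hqR : ¬ D.Q ∣ D.R)
  [Fact D.Q.Prime] [CharP (IsLocalRing.ResidueField A) D.Q]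
  [PerfectRing (IsLocalRing.ResidueField A) D.Q]

/-- `red_∞ (R^α (b)) = ∑ r̄_i (red_∞ b)^i`. -/
theorem red_eval₂_alphaQ (R : Polynomial (modularFunctionFieldBar D.R))
    (hR : ∀ n, R.coeff n ∈ (modularValSetup A D.Q D.R hq hA hqR).Ov)
    {b : modularFunctionFieldBar (D.Q * D.R)} (hb : b ∈ (kpS D A hq hA hqR).Ov) :
    R.eval₂ (alphaQ D : modularFunctionFieldBar D.R →+*
        modularFunctionFieldBar (D.Q * D.R)) b ∈ (kpS D A hq hA hqR).Ov ∧
      (kpS D A hq hA hqR).red (R.eval₂ (alphaQ D : modularFunctionFieldBar D.R →+*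
        modularFunctionFieldBar (D.Q * D.R)) b) =
      ∑ i ∈ Finset.range (R.natDegree + 1),
        (modularValSetup A D.Q D.R hq hA hqR).red (R.coeff i) * (kpS D A hq hA hqR).red b ^ i := by
  have hS := isGaussSetup_gaussSetupBad D hq hqR A hA
  have hmem : ∀ i, alphaQ D (R.coeff i) ∈ (kpS D A hq hA hqR).Ov := fun i =>
    alphaQ_mem_Ov D A hq hA hqR (kpS D A hq hA hqR) hS _ (hR i)
  have hterm : ∀ i ∈ Finset.range (R.natDegree + 1),
      alphaQ D (R.coeff i) * b ^ i ∈ (kpS D A hq hA hqR).Ov := fun i _ =>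
    mul_mem (hmem i) (pow_mem hb _)
  obtain ⟨h1, h2⟩ := reg_red_sum (kpS D A hq hA hqR) (Finset.range (R.natDegree + 1))
    (fun i => alphaQ D (R.coeff i) * b ^ i) hterm
  have e : R.eval₂ (alphaQ D : modularFunctionFieldBar D.R →+*
      modularFunctionFieldBar (D.Q * D.R)) b =
      ∑ i ∈ Finset.range (R.natDegree + 1), alphaQ D (R.coeff i) * b ^ i := by
    rw [eval₂_eq_sum_range]
    rfl
  rw [e]
  refine ⟨h1, ?_⟩
  rw [h2]
  refine Finset.sum_congr rfl fun i _ => ?_
  rw [(kpS D A hq hA hqR).red_mul (hmem i) (pow_mem hb _), (kpS D A hq hA hqR).red_pow hb,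
    red_alphaQ D A hq hA hqR (kpS D A hq hA hqR) hS _ (hR i)]

variable {D A hq hA hqR}

/-- `red_∞ z = t̄ - t̄^(q²)` has a simple zero where `t̄` has one. -/
theorem reg_ord_red_regZ {t : modularFunctionFieldBar D.R}
    (halpha : alphaQ D t ∈ (kpS D A hq hA hqR).Ov) (hbeta : betaQ D t ∈ (kpS D A hq hA hqR).Ov)
    (hfrob : (kpS D A hq hA hqR).red (betaQ D t) = (kpS D A hq hA hqR).red (alphaQ D t) ^ D.Q)
    (P : Place (IsLocalRing.ResidueField A)
      (modularFunctionFieldFullC (IsLocalRing.ResidueField A) D.R))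
    (hP : P.ord ((kpS D A hq hA hqR).red (alphaQ D t)) = 1) :
    P.ord ((kpS D A hq hA hqR).red (regZ D t)) = 1 := by
  have e : (kpS D A hq hA hqR).red (regZ D t) =
      (kpS D A hq hA hqR).red (alphaQ D t) - (kpS D A hq hA hqR).red (alphaQ D t) ^ (D.Q ^ 2) := by
    unfold regZ
    rw [(kpS D A hq hA hqR).red_sub halpha (pow_mem hbeta _),
      (kpS D A hq hA hqR).red_pow hbeta, hfrob, ← pow_mul, pow_two]
  rw [e]
  refine reg_ord_sub_pow D.Q P (c := 0) (zero_pow (pow_ne_zero _ (NeZero.ne D.Q))) ?_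
  rw [map_zero, sub_zero]
  exact hP

/-- **REG, final form**: the constant term `r₀` of `R` (Kronecker form of `t`) reduces to a
function with a NONZERO value at `P`. -/
theorem reg_kc_final {t : modularFunctionFieldBar D.R}
    (halpha : alphaQ D t ∈ (kpS D A hq hA hqR).Ov) (hbeta : betaQ D t ∈ (kpS D A hq hA hqR).Ov)
    (hdelta : regDelta D t ∈ (kpS D A hq hA hqR).Ov)
    (hfrob : (kpS D A hq hA hqR).red (betaQ D t) = (kpS D A hq hA hqR).red (alphaQ D t) ^ D.Q)
    (P : Place (IsLocalRing.ResidueField A)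
      (modularFunctionFieldFullC (IsLocalRing.ResidueField A) D.R))
    (hP : P.ord ((kpS D A hq hA hqR).red (alphaQ D t)) = 1)
    (hpole : P.ord ((kpS D A hq hA hqR).red (regDelta D t)) = -1)
    (R Ψ : Polynomial (modularFunctionFieldBar D.R))
    (hΨ : Ψ = (X - C (t ^ D.Q)) * (X ^ D.Q - C t) +
      C (D.Q : modularFunctionFieldBar D.R) * R)
    (hroot : Ψ.eval₂ (alphaQ D : modularFunctionFieldBar D.R →+*
      modularFunctionFieldBar (D.Q * D.R)) (betaQ D t) = 0)
    (hRmem : ∀ n, R.coeff n ∈ (modularValSetup A D.Q D.R hq hA hqR).Ov)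
    (hRreg : ∀ n, 0 ≤ P.ord ((modularValSetup A D.Q D.R hq hA hqR).red (R.coeff n))) :
    ∃ c : IsLocalRing.ResidueField A, c ≠ 0 ∧
      ValAt P ((modularValSetup A D.Q D.R hq hA hqR).red (R.coeff 0)) c := by
  haveI := Fermat.Agent.GaussInt.isAlgClosed_residue A
  have hRR := Fermat.Agent.RRMod.isRRField_fullC' (IsLocalRing.ResidueField A) D.R
  have hz := reg_ord_red_regZ halpha hbeta hfrob P hP
  obtain ⟨c, hc0, hc⟩ := reg_value_of_ord hRR P hpole hz
  have hzmem : regZ D t ∈ (kpS D A hq hA hqR).Ov := sub_mem halpha (pow_mem hbeta _)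
  have e1 : (kpS D A hq hA hqR).red (regEps D t) =
      (kpS D A hq hA hqR).red (regDelta D t) * (kpS D A hq hA hqR).red (regZ D t) :=
    (kpS D A hq hA hqR).red_mul hdelta hzmem
  rw [← e1, regEps_eq_eval₂ D t R Ψ hΨ hroot,
    (red_eval₂_alphaQ D A hq hA hqR R hRmem hbeta).2] at hc
  have hval : ∀ i, ∃ ci : IsLocalRing.ResidueField A,
      ValAt P ((modularValSetup A D.Q D.R hq hA hqR).red (R.coeff i)) ci := fun i =>
    Fermat.Agent.BadRed.Gluing.exists_valAt hRR P (hRreg i)
  choose ci hci using hval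
  have hb0 : ValAt P ((kpS D A hq hA hqR).red (betaQ D t)) 0 := by
    apply reg_valAt_zero_of_ord_pos
    rw [hfrob, Fermat.Agent.BadRed.Gluing.ord_pow_nat, hP, mul_one]
    exact_mod_cast Nat.pos_of_ne_zero (NeZero.ne D.Q)
  have hsum := reg_valAt_sum_pow P R.natDegree
    (fun i => (modularValSetup A D.Q D.R hq hA hqR).red (R.coeff i)) ci hci hb0
  have := ValAt.unique hsum hc
  exact ⟨ci 0, this ▸ hc0, hci 0⟩

end Final

end Fermat.Agent.S36G
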