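/-
Cluster G (S36, Carayol at `q² ∥ M`), block W-P (sub-architect helper59), seat WP-REG (helper89):
**REG, local wiring at ONE supersingular place `P`.**

`D : ALData`, `q = D.Q`, `t ∈ F_R` with `t̄` a uniformiser at `P` (value `0`), fixed by the
coefficientwise Frobenius.  The thickness at `P` is `ord_P (red u) = 12` (`u = Δ(z)/Δ(qz)`).

* `regw_coordLoc`  : the LOCAL coordinate datum (`S36Reg.CoordLoc`, helper26) of `z = α t - (β t)^q`
                     at a node `i₀` of the modular seed;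
* `regw_pole_s₂`   : `red_∞ δ` has a simple pole at `s₂ i₀ = Frob⁻¹ • i₀`;
* `regw_pole`      : `red_∞ δ` has a simple pole at `P` (node `i₀ = Frob • P`);
* `regw_final`     : **`r̄₀ = red (R.coeff 0)` has a value `c ≠ 0` at `P`** for the Kronecker form
                     `Ψ = (X - t^q)(X^q - t) + q R`, `Ψ^α (β t) = 0`.
-/
import Mathlib
import Fermat.Agent.S36.HPVal.RegKC
import Fermat.Agent.S36.Reg.CoordLoc

set_option autoImplicit false
set_option linter.style.haveILetI false
set_option linter.unusedSectionVars false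
set_option linter.unusedVariables false
set_option synthInstance.maxHeartbeats 400000
set_option maxHeartbeats 2000000

noncomputable section
attribute [local instance 10000] SubalgebraClass.toAlgebra HahnSeries.powerSeriesAlgebra

namespace Fermat.Agent.S36G

open IntermediateField ModularCurve AlgebraicCurve Fermat.Agent.F3 Fermat.Agent.F3G
  Fermat.Agent.GaussInt Fermat.Agent.AtkinLehner Fermat.Agent.Deuring Fermat.Agent.RR
  Fermat.Agent.BadRed Fermat.Agent.EKp Fermat.Agent.PeuD Polynomial Fermat.Agent.S36Reg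

local notation "Qb" => AlgebraicClosure ℚ

attribute [local instance] Fermat.Agent.BadRed.fwFintype

variable (D : ALData) [NeZero D.Q] [NeZero D.R] [NeZero (D.Q * D.R)]
  (A : ValuationSubring Qb) (hq : D.Q.Prime) (hA : A.LiesOverPrime D.Q) (hqR : ¬ D.Q ∣ D.R)
  [Fact D.Q.Prime] [CharP (IsLocalRing.ResidueField A) D.Q]
  [PerfectRing (IsLocalRing.ResidueField A) D.Q]

variable {D A hq hA hqR}
variable {haux : AuxLevelOK D.Q D.R} {t : modularFunctionFieldBar D.R}

/-- the thickness at the Frobenius image of a supersingular place. -/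
theorem regw_ord_frob (P : Place (IsLocalRing.ResidueField A)
      (modularFunctionFieldFullC (IsLocalRing.ResidueField A) D.R)) :
    (frobAut (IsLocalRing.ResidueField A) D.R D.Q • P).ord ((kpS D A hq hA hqR).red (fwU D)) =
      P.ord ((kpS D A hq hA hqR).red (fwU D)) :=
  ord_frobAut_smul_of_coe_ssFun _ _ _ D.Q
    (fw_coe_red_uF D A hq hA (kpS D A hq hA hqR) (isGaussSetup_gaussSetupBad D hq hqR A hA)) P

/-- **the local coordinate datum** at the node `i₀`. -/
theorem regw_coordLoc (i₀ : kpIota D A hq hA hqR)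
    (heps : i₀.1.ord ((kpS D A hq hA hqR).red (fwU D)) = 12)
    (halpha : alphaQ D t ∈ (kpS D A hq hA hqR).Ov) (hbeta : betaQ D t ∈ (kpS D A hq hA hqR).Ov)
    (hdelta : regDelta D t ∈ (kpS D A hq hA hqR).Ov)
    (hnp : ∀ Q : Place Qb (modularFunctionFieldBar (D.Q * D.R)),
      (kpSeed D A hq hA hqR haux).rmap Q = none →
        0 ≤ Q.ord (alphaQ D t) ∧ 0 ≤ Q.ord (betaQ D t))
    (hnode : i₀.1.ord ((kpS D A hq hA hqR).red (regZ D t)) = 1) :
    CoordLoc (kpSeed D A hq hA hqR haux) (fwU D) (fwPi D) (D.Q : Qb) 12 (regZ D t) i₀ := by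
  have h1 : ((kpSeed D A hq hA hqR haux).s₁ i₀).ord
      ((kpSeed D A hq hA hqR haux).S₁.red (fwU D)) = ((12 : ℕ) : ℤ) := by
    refine (wu_eps₁ D A hq hA hqR haux i₀).trans ?_
    rw [kpEps_cast D A hq hA hqR i₀, heps]
    norm_num
  have h2 : ((kpSeed D A hq hA hqR haux).s₂ i₀).ord
      ((kpSeed D A hq hA hqR haux).S₂.red
        (algebraMap Qb (modularFunctionFieldBar (D.Q * D.R)) (fwPi D) * (fwU D)⁻¹)) =
      ((12 : ℕ) : ℤ) := by
    refine (wu_eps₂ D A hq hA hqR haux i₀).trans ?_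
    rw [kpEps_cast D A hq hA hqR i₀, heps]
    norm_num
  have h3 : regZ D t ∈ (kpSeed D A hq hA hqR haux).S₁.Ov :=
    sub_mem halpha (pow_mem hbeta _)
  have h4 : regZ D t / algebraMap Qb (modularFunctionFieldBar (D.Q * D.R)) (D.Q : Qb) ∈
      (kpSeed D A hq hA hqR haux).S₂.Ov := by
    show regZ D t / algebraMap Qb (modularFunctionFieldBar (D.Q * D.R)) (D.Q : Qb) ∈
      (valSetupZero D (kpS D A hq hA hqR)).Ov
    rw [mem_valSetupZero_Ov, atkinLehner_regZ_div]
    exact hdelta
  have h5 : NoPoleAtNode (kpSeed D A hq hA hqR haux) i₀ (regZ D t) := by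
    intro Q hQ
    apply Fermat.Agent.S24Res.ord_nonneg_of_mem
    exact sub_mem (Fermat.Agent.FF.mem_of_ord_nonneg' Q (hnp Q hQ.1).1)
      (pow_mem (Fermat.Agent.FF.mem_of_ord_nonneg' Q (hnp Q hQ.1).2) _)
  exact ⟨wu_annulus D A hq hA hqR haux, by norm_num, wu_val_pi D A hq hA hqR haux, h1, h2, h3, h4,
    h5, hnode⟩

/-- **LOCAL REGULARITY**: `red_∞ δ` has a simple pole at the second branch `s₂ i₀` of the node. -/
theorem regw_pole_s₂ (i₀ : kpIota D A hq hA hqR)
    (heps : i₀.1.ord ((kpS D A hq hA hqR).red (fwU D)) = 12)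
    (halpha : alphaQ D t ∈ (kpS D A hq hA hqR).Ov) (hbeta : betaQ D t ∈ (kpS D A hq hA hqR).Ov)
    (hdelta : regDelta D t ∈ (kpS D A hq hA hqR).Ov)
    (hnp : ∀ Q : Place Qb (modularFunctionFieldBar (D.Q * D.R)),
      (kpSeed D A hq hA hqR haux).rmap Q = none →
        0 ≤ Q.ord (alphaQ D t) ∧ 0 ≤ Q.ord (betaQ D t))
    (hnode : i₀.1.ord ((kpS D A hq hA hqR).red (regZ D t)) = 1) :
    ((kpSeed D A hq hA hqR haux).s₂ i₀).ord ((kpS D A hq hA hqR).red (regDelta D t)) = -1 := by
  haveI := infinite_residue A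
  haveI := fw_nonempty D A hq hA (kpS D A hq hA hqR) (isGaussSetup_gaussSetupBad D hq hqR A hA)
  have h := (regw_coordLoc (haux := haux) i₀ heps halpha hbeta hdelta hnp hnode).ord₂
  have e : (kpSeed D A hq hA hqR haux).S₂.red
      (regZ D t / algebraMap Qb (modularFunctionFieldBar (D.Q * D.R)) (D.Q : Qb)) =
      (kpS D A hq hA hqR).red (regDelta D t) := by
    show (valSetupZero D (kpS D A hq hA hqR)).red _ = _
    rw [valSetupZero_red, atkinLehner_regZ_div]
  rwa [e] at h

/-- **LOCAL REGULARITY at `P`**: `red_∞ δ` has a simple pole at the supersingular place `P`, for `t̄`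
a Frobenius-fixed uniformiser at `P`. -/
theorem regw_pole (P : Place (IsLocalRing.ResidueField A)
      (modularFunctionFieldFullC (IsLocalRing.ResidueField A) D.R))
    (heps : P.ord ((kpS D A hq hA hqR).red (fwU D)) = 12)
    (halpha : alphaQ D t ∈ (kpS D A hq hA hqR).Ov) (hbeta : betaQ D t ∈ (kpS D A hq hA hqR).Ov)
    (hdelta : regDelta D t ∈ (kpS D A hq hA hqR).Ov)
    (hfrob : (kpS D A hq hA hqR).red (betaQ D t) = (kpS D A hq hA hqR).red (alphaQ D t) ^ D.Q)
    (hnp : ∀ Q : Place Qb (modularFunctionFieldBar (D.Q * D.R)),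
      (kpSeed D A hq hA hqR haux).rmap Q = none →
        0 ≤ Q.ord (alphaQ D t) ∧ 0 ≤ Q.ord (betaQ D t))
    (hP : P.ord ((kpS D A hq hA hqR).red (alphaQ D t)) = 1)
    (hFix : frobAut (IsLocalRing.ResidueField A) D.R D.Q • (kpS D A hq hA hqR).red (alphaQ D t) =
      (kpS D A hq hA hqR).red (alphaQ D t)) :
    P.ord ((kpS D A hq hA hqR).red (regDelta D t)) = -1 := by
  have hss : 0 < P.ord ((kpS D A hq hA hqR).red (fwU D)) := by
    rw [heps]
    norm_num
  set j : kpIota D A hq hA hqR := ⟨P, hss⟩ with hj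
  have heps' : (regFrobNode (hqR := hqR) j).1.ord ((kpS D A hq hA hqR).red (fwU D)) = 12 := by
    show (frobAut (IsLocalRing.ResidueField A) D.R D.Q • P).ord _ = 12
    rw [regw_ord_frob, heps]
  have hFix' : (frobAut (IsLocalRing.ResidueField A) D.R D.Q)⁻¹ •
      (kpS D A hq hA hqR).red (alphaQ D t) = (kpS D A hq hA hqR).red (alphaQ D t) :=
    inv_smul_eq_iff.mpr hFix.symm
  have hP' : (frobAut (IsLocalRing.ResidueField A) D.R D.Q • P).ord
      ((kpS D A hq hA hqR).red (alphaQ D t)) = 1 := by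
    have h1 := Fermat.Agent.BadRed.Gluing.sl_ord_smul
      ((frobAut (IsLocalRing.ResidueField A) D.R D.Q)⁻¹) P ((kpS D A hq hA hqR).red (alphaQ D t))
    rw [hFix', inv_inv] at h1
    rw [← h1]
    exact hP
  have hnode : (regFrobNode (hqR := hqR) j).1.ord ((kpS D A hq hA hqR).red (regZ D t)) = 1 :=
    reg_ord_red_regZ halpha hbeta hfrob _ hP'
  have h := regw_pole_s₂ (haux := haux) (regFrobNode (hqR := hqR) j) heps' halpha hbeta hdelta
    hnp hnode
  rwa [regFrobNode_s₂] at h

/-- **REG, final local form**: for the Kronecker form `Ψ = (X - t^q)(X^q - t) + q R`,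
`Ψ^α (β t) = 0`, the reduction of the constant term `R.coeff 0` has a NONZERO value at `P`. -/
theorem regw_final (P : Place (IsLocalRing.ResidueField A)
      (modularFunctionFieldFullC (IsLocalRing.ResidueField A) D.R))
    (heps : P.ord ((kpS D A hq hA hqR).red (fwU D)) = 12)
    (hnp : ∀ Q : Place Qb (modularFunctionFieldBar (D.Q * D.R)),
      (kpSeed D A hq hA hqR haux).rmap Q = none →
        0 ≤ Q.ord (alphaQ D t) ∧ 0 ≤ Q.ord (betaQ D t))
    (hE : alphaQ D t ∈ (kpS D A hq hA hqR).Ov ∧ betaQ D t ∈ (kpS D A hq hA hqR).Ov ∧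
      regDelta D t ∈ (kpS D A hq hA hqR).Ov ∧
      (kpS D A hq hA hqR).red (betaQ D t) = (kpS D A hq hA hqR).red (alphaQ D t) ^ D.Q ∧
      P.ord ((kpS D A hq hA hqR).red (alphaQ D t)) = 1 ∧
      frobAut (IsLocalRing.ResidueField A) D.R D.Q • (kpS D A hq hA hqR).red (alphaQ D t) =
        (kpS D A hq hA hqR).red (alphaQ D t))
    (R Ψ : Polynomial (modularFunctionFieldBar D.R))
    (hΨ : Ψ = (X - C (t ^ D.Q)) * (X ^ D.Q - C t) +
      C (D.Q : modularFunctionFieldBar D.R) * R)
    (hroot : Ψ.eval₂ (alphaQ D : modularFunctionFieldBar D.R →+*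
      modularFunctionFieldBar (D.Q * D.R)) (betaQ D t) = 0)
    (hR : ∀ n, R.coeff n ∈ (modularValSetup A D.Q D.R hq hA hqR).Ov ∧
      0 ≤ P.ord ((modularValSetup A D.Q D.R hq hA hqR).red (R.coeff n))) :
    ∃ c : IsLocalRing.ResidueField A, c ≠ 0 ∧
      ValAt P ((modularValSetup A D.Q D.R hq hA hqR).red (R.coeff 0)) c := by
  obtain ⟨halpha, hbeta, hdelta, hfrob, hP, hFix⟩ := hE
  have hpole := regw_pole (haux := haux) P heps halpha hbeta hdelta hfrob hnp hP hFix
  exact reg_kc_final halpha hbeta hdelta hfrob P hP hpole R Ψ hΨ hroot (fun n => (hR n).1)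
    (fun n => (hR n).2)

end Fermat.Agent.S36G
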