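/-
Cluster G (S36, Carayol at `q² ∥ M`), block W-P (sub-architect helper59), seat WP-REG (helper89):
**REG, the final modular statement** at a supersingular place `P` of `X₀(M₀)` mod `q`.

`D : ALData`, `q = D.Q`, `M₀ = D.R`, `A | q`, `t = wpdT M₀ t0` the datum of EX_t at `P`
(`ExTDatum`: rational, `q`-integral, cuspidal poles, `t̄` a uniformiser at `P`),
`Ψ_t = (X - t^q)(X^q - t) + q R_t` the Kronecker form (`kctPsi`, `kctR`, helper87).

* `regf_isFrobInt` : `ExTDatum ⟹ IsFrobInt` (helper45's datum, expansion `kctLift`);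
* `regf_exT`       : the integrality / Frobenius inputs of `regw_final`;
* `reg_final`      : **`red (R_t.coeff 0)` has a NONZERO value at `P`** (thickness `12` at `P`);
* `reg_final_ss`   : the same for `P` supersingular with `ord_P u = 12` for every `u` with
                     expansion `ssFun` (the shape of `hno23` / `IgTotRam.hno`).
-/
import Mathlib
import Fermat.Agent.S36.HPVal.RegWire
import Fermat.Agent.S36.HPVal.RegNoPole
import Fermat.Agent.S36.HPVal.RegR
import Fermat.Agent.S36.HPVal.RegRoot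
import Fermat.Agent.S36.Reg.RegInt
import Fermat.Agent.S36.HPVal.KCtRat
import Fermat.Agent.S36.Seed.OldSep

set_option autoImplicit false
set_option linter.style.haveILetI false
set_option linter.unusedSectionVars false
set_option linter.unusedVariables false
set_option synthInstance.maxHeartbeats 400000
set_option maxHeartbeats 2000000

noncomputable section
attribute [local instance 10000] SubalgebraClass.toAlgebra HahnSeries.powerSeriesAlgebra

namespace Fermat.Agent.S36G

open IntermediateField ModularCurve AlgebraicCurve Fermat.Agent.F3 Fermat.Agent.F3G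
  Fermat.Agent.GaussInt Fermat.Agent.AtkinLehner Fermat.Agent.Deuring Fermat.Agent.RR
  Fermat.Agent.BadRed Fermat.Agent.EKp Fermat.Agent.PeuD Polynomial

local notation "Qb" => AlgebraicClosure ℚ

attribute [local instance] Fermat.Agent.BadRed.fwFintype

variable (D : ALData) [NeZero D.Q] [NeZero D.R] [NeZero (D.Q * D.R)]
  (A : ValuationSubring Qb) (hq : D.Q.Prime) (hA : A.LiesOverPrime D.Q) (hqR : ¬ D.Q ∣ D.R)
  [Fact D.Q.Prime] [CharP (IsLocalRing.ResidueField A) D.Q]
  [PerfectRing (IsLocalRing.ResidueField A) D.Q]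
  {P : Place (IsLocalRing.ResidueField A)
    (modularFunctionFieldFullC (IsLocalRing.ResidueField A) D.R)}
  {t0 : LaurentSeries ℚ}

/-- the datum of EX_t has a Frobenius-stable integral expansion. -/
theorem regf_isFrobInt (hT : ExTDatum A D.Q D.R hq hA hqR P t0) :
    Fermat.Agent.S36RegN.IsFrobInt D A (wpdT D.R t0 hT.mem)
      (Fermat.Agent.S36.kctLift A t0 hT.int) :=
  ⟨Fermat.Agent.S36.emb_kctLift A t0 hT.int,
    Fermat.Agent.S36.kct_frobStable_rat A hq hA t0 hT.int⟩

/-- the integrality and Frobenius inputs of `regw_final`, from EX_t. -/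
theorem regf_exT (hT : ExTDatum A D.Q D.R hq hA hqR P t0) :
    alphaQ D (wpdT D.R t0 hT.mem) ∈ (kpS D A hq hA hqR).Ov ∧
    betaQ D (wpdT D.R t0 hT.mem) ∈ (kpS D A hq hA hqR).Ov ∧
    regDelta D (wpdT D.R t0 hT.mem) ∈ (kpS D A hq hA hqR).Ov ∧
    (kpS D A hq hA hqR).red (betaQ D (wpdT D.R t0 hT.mem)) =
      (kpS D A hq hA hqR).red (alphaQ D (wpdT D.R t0 hT.mem)) ^ D.Q ∧
    P.ord ((kpS D A hq hA hqR).red (alphaQ D (wpdT D.R t0 hT.mem))) = 1 ∧
    frobAut (IsLocalRing.ResidueField A) D.R D.Q •
        (kpS D A hq hA hqR).red (alphaQ D (wpdT D.R t0 hT.mem)) =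
      (kpS D A hq hA hqR).red (alphaQ D (wpdT D.R t0 hT.mem)) := by
  have hS := isGaussSetup_gaussSetupBad D hq hqR A hA
  have h := regf_isFrobInt D A hq hA hqR hT
  refine ⟨h.alpha_mem hS, h.beta_mem hS, h.delta_mem hS hA, h.red_beta hS, ?_, ?_⟩
  · have hmem : wpdT D.R t0 hT.mem ∈ (modularValSetup A D.Q D.R hq hA hqR).Ov := hT.mem_Ov _
    rw [red_alphaQ D A hq hA hqR (kpS D A hq hA hqR) hS (wpdT D.R t0 hT.mem) hmem]
    exact hT.unif _
  · apply Subtype.ext
    rw [coe_frobAut_smul]
    exact h.coeffMap_frobenius_red_alpha hS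

/-- **REG, final form** (thickness `12` at `P`). -/
theorem reg_final (haux : AuxLevelOK D.Q D.R)
    (hg : genusFF Qb (modularFunctionFieldBar D.R) =
      genusFF (IsLocalRing.ResidueField A)
        (modularFunctionFieldFullC (IsLocalRing.ResidueField A) D.R))
    (hT : ExTDatum A D.Q D.R hq hA hqR P t0)
    (heps : P.ord ((kpS D A hq hA hqR).red (fwU D)) = 12) :
    ∃ c : IsLocalRing.ResidueField A, c ≠ 0 ∧
      ValAt P ((modularValSetup A D.Q D.R hq hA hqR).red
        ((Fermat.Agent.S36.kctR D.R hq hqR (wpdT D.R t0 hT.mem)).coeff 0)) c := by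
  have hS := isGaussSetup_gaussSetupBad D hq hqR A hA
  have hss : IsSSPlace (IsLocalRing.ResidueField A) D.R D.Q P :=
    ⟨_, fw_coe_red_uF D A hq hA (kpS D A hq hA hqR) hS, by rw [heps]; norm_num⟩
  have hP := seedOld_ord_jC_nonneg D.R hq hA hss
  exact regw_final (haux := haux) P heps
    (fun Q hQ => reg_noPole D A hq hA hqR haux _ (hT.poles _) Q hQ)
    (regf_exT D A hq hA hqR hT) _ _ (regRoot_eq D hq hqR _) (regRoot D hq hqR _)
    (fun n => regR D A hq hA hqR hg hT hP n)

/-- **REG, final form** at a supersingular place, with the thickness in the shape of `hno`. -/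
theorem reg_final_ss (haux : AuxLevelOK D.Q D.R)
    (hg : genusFF Qb (modularFunctionFieldBar D.R) =
      genusFF (IsLocalRing.ResidueField A)
        (modularFunctionFieldFullC (IsLocalRing.ResidueField A) D.R))
    (hT : ExTDatum A D.Q D.R hq hA hqR P t0)
    (hno : ∀ u : modularFunctionFieldFullC (IsLocalRing.ResidueField A) D.R,
      (u : LaurentSeries (IsLocalRing.ResidueField A)) = ssFun (IsLocalRing.ResidueField A) D.Q →
        P.ord u = 12) :
    ∃ c : IsLocalRing.ResidueField A, c ≠ 0 ∧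
      ValAt P ((modularValSetup A D.Q D.R hq hA hqR).red
        ((Fermat.Agent.S36.kctR D.R hq hqR (wpdT D.R t0 hT.mem)).coeff 0)) c :=
  reg_final D A hq hA hqR haux hg hT
    (hno _ (fw_coe_red_uF D A hq hA (kpS D A hq hA hqR)
      (isGaussSetup_gaussSetupBad D hq hqR A hA)))

end Fermat.Agent.S36G
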