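/-
Cluster G (S36), block W-P, seat CORE-MOD, final wiring (helper16; sub-architect helper59).

**(REG) in the `(M₀, q)` language, and the unconditional CORE-MOD input of `Val.lean`.**

Rigidity of the auxiliary level: `ν₂(M₀) = ν₃(M₀) = 0` and `AuxLevelOK q M₀` (`3 ∣ M₀` if
`q = 2`, `2 ∣ M₀` if `q = 3`)
(no elliptic points on `X₀(M₀)` mod `q`: the thickness of every supersingular point is `12`).

* `regAt_ss`        : `reg_final` (helper89) at a supersingular place in the sense of
                      `IsSSPlace`, with the thickness `12` from `reg_ord_red_u` (helper9);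
* `wpRegAt`         : `WPRegAt M₀ q` (the level `(D.Q, D.R)` of `ALData` is `(q, M₀)` after
                      `subst`);
* `wpCoreModExists` : `WPCoreModExists M₀ q`, UNCONDITIONAL under rigidity;
* `wpExists_of_old` : `WPOldExists M₀ q → WPExists M₀ q` under rigidity (EX_t = `exT`).
-/
import Mathlib
import Fermat.Agent.S36.HPVal.RegFinal
import Fermat.Agent.S36.HPVal.Reg23
import Fermat.Agent.S36.HPVal.CoreModFinal
import Fermat.Agent.S36.HPVal.ExT

set_option autoImplicit false
set_option linter.style.haveILetI false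
set_option linter.unusedSectionVars false
set_option linter.unusedVariables false
set_option synthInstance.maxHeartbeats 400000

noncomputable section

namespace Fermat.Agent.S36G

open IntermediateField ModularCurve AlgebraicCurve Fermat.Agent.F3 Fermat.Agent.F3G
  Fermat.Agent.GaussInt Fermat.Agent.AtkinLehner Fermat.Agent.Deuring Fermat.Agent.RR
  Fermat.Agent.BadRed Fermat.Agent.EKp Fermat.Agent.PeuD

local notation "Qb" => AlgebraicClosure ℚ

attribute [local instance 10000] SubalgebraClass.toAlgebra HahnSeries.powerSeriesAlgebra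

attribute [local instance] Fermat.Agent.BadRed.fwFintype

section DLevel

variable (D : ALData) [NeZero D.Q] [NeZero D.R] [NeZero (D.Q * D.R)]
  (A : ValuationSubring Qb) (hq : D.Q.Prime) (hA : A.LiesOverPrime D.Q) (hqR : ¬ D.Q ∣ D.R)
  [Fact D.Q.Prime] [CharP (IsLocalRing.ResidueField A) D.Q]
  [PerfectRing (IsLocalRing.ResidueField A) D.Q]
  {P : Place (IsLocalRing.ResidueField A)
    (modularFunctionFieldFullC (IsLocalRing.ResidueField A) D.R)}
  {t0 : LaurentSeries ℚ}

/-- a supersingular place is a zero of `ū`, `u = Δ(z) / Δ(qz)`. -/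
theorem regAt_ord_pos (hss : IsSSPlace (IsLocalRing.ResidueField A) D.R D.Q P) :
    0 < P.ord ((kpS D A hq hA hqR).red (fwU D)) := by
  obtain ⟨u, hu, hpos⟩ := hss
  have h1 : u = (kpS D A hq hA hqR).red (fwU D) :=
    Subtype.ext (hu.trans (fw_coe_red_uF D A hq hA (kpS D A hq hA hqR)
      (isGaussSetup_gaussSetupBad D hq hqR A hA)).symm)
  rw [← h1]
  exact hpos

/-- **REG at a supersingular place** (rigid auxiliary level): the reduction of the constant term
of the Kronecker remainder of the datum `t` of EX_t has a nonzero value at `P`. -/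
theorem regAt_ss (haux : AuxLevelOK D.Q D.R) (hν2 : nuTwo D.R = 0) (hν3 : nuThree D.R = 0)
    (hg : genusFF Qb (modularFunctionFieldBar D.R) =
      genusFF (IsLocalRing.ResidueField A)
        (modularFunctionFieldFullC (IsLocalRing.ResidueField A) D.R))
    (hss : IsSSPlace (IsLocalRing.ResidueField A) D.R D.Q P)
    (hT : ExTDatum A D.Q D.R hq hA hqR P t0) :
    ∃ c : IsLocalRing.ResidueField A, c ≠ 0 ∧
      ValAt P ((modularValSetup A D.Q D.R hq hA hqR).red
        ((Fermat.Agent.S36.kctR D.R hq hqR (wpdT D.R t0 hT.mem)).coeff 0)) c :=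
  reg_final D A hq hA hqR haux hg hT
    (reg_ord_red_u D A hq hA hqR haux hν2 hν3 P (regAt_ord_pos D A hq hA hqR hss))

end DLevel

section Final

variable (M₀ q : ℕ) [NeZero M₀] [NeZero q]

/-- **(REG) at every supersingular place**, `(M₀, q)` language, under rigidity. -/
theorem wpRegAt (haux : AuxLevelOK q M₀) (hν2 : nuTwo M₀ = 0) (hν3 : nuThree M₀ = 0) :
    WPRegAt M₀ q := by
  intro hq hqM A hA hg _ _ _ P' hP' t0 E
  obtain ⟨D, hQ, hR⟩ := ALData.exists_of_coprime (Q := q) (R := M₀)
    (Nat.pos_of_ne_zero (NeZero.ne q)) (Nat.pos_of_ne_zero (NeZero.ne M₀))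
    ((Nat.Prime.coprime_iff_not_dvd hq).mpr hqM)
  subst hQ
  subst hR
  haveI : NeZero (D.Q * D.R) := ⟨mul_ne_zero (NeZero.ne _) (NeZero.ne _)⟩
  exact regAt_ss D A hq hA hqM haux hν2 hν3 hg hP' E

/-- **CORE-MOD, unconditional** (rigid auxiliary level): the CORE-MOD input of `Val.lean`. -/
theorem wpCoreModExists (haux : AuxLevelOK q M₀) (hν2 : nuTwo M₀ = 0) (hν3 : nuThree M₀ = 0) :
    WPCoreModExists M₀ q :=
  wpCoreModExists_of_reg M₀ q (wpRegAt M₀ q haux hν2 hν3)

/-- **W-P from OLD** (rigid auxiliary level): a `WPOut` at every supersingular place. -/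
theorem wpExists_of_old (haux : AuxLevelOK q M₀) (hν2 : nuTwo M₀ = 0) (hν3 : nuThree M₀ = 0)
    (hO : WPOldExists M₀ q) : WPExists M₀ q :=
  wpExists_of M₀ q (exT q M₀) (wpCoreModExists M₀ q haux hν2 hν3) hO

end Final

end Fermat.Agent.S36G
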