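/-
Cluster G (S36), block W-P: THE FINAL EXPORT (helper59, sub-architect of W-P).

`q` a prime, `q ∤ M₀`, `M₀` a RIGID auxiliary level (`AuxLevelOK q M₀`, `ν₂(M₀) = ν₃(M₀) = 0`: no
elliptic points, so that every supersingular point of `X₀(M₀)` mod `q` has thickness `12`).
Then at every place `A ∣ q` of `ℚ̄` and every supersingular place `P` of `X₀(M₀)` mod `A` there is
a `WPOut` (`S36/HPVal/Defs.lean`): the constant reduction `w_P` of `F_{M₀ q q}` whose residue
field is the function field of `H_P : X₁ X₂ (X₁ - X₂)^(q-1) = c`, with the lattice property, the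
old functions reducing to constants, and the uniqueness export.

* `wpExists_aux`   : `AuxLevelOK q M₀ → nuTwo M₀ = 0 → nuThree M₀ = 0 → WPExists M₀ q`;
* `wpExistsAt_aux` : the same with exported witnesses (`WPExistsAt M₀ q`, `S36/HPVal/ValAt.lean`):
                     ONE root `ϖ` of `X ^ (q + 1) = q` for all `P`, `O.a = 0`,
                     `O.P' = frobAut • P`.

Producers: EX_t (`exT`, helper84/41/51), DISC (helper51/47/29/10/6/75), CORE (`core_main`,
helper42/83/94/75/70/97), KC_t (helper87/28), REG (`reg_final`, helper89/26/45/33/9/84/87/28/72),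
CORE-MOD (helper16), UNIQ (helper65), VAL (helper93), OLD (`oldFin_wpOldExists_main`,
helper30/57/62/24/1/69).
-/
import Mathlib
import Fermat.Agent.S36.HPVal.RegAt
import Fermat.Agent.S36.HPVal.ValAt
import Fermat.Agent.S36.Seed.OldFinal3

set_option autoImplicit false
set_option linter.unusedSectionVars false
set_option linter.unusedVariables false
set_option synthInstance.maxHeartbeats 400000

noncomputable section

namespace Fermat.Agent.S36G

open IntermediateField ModularCurve AlgebraicCurve Fermat.Agent.F3 Fermat.Agent.F3G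
  Fermat.Agent.GaussInt Fermat.Agent.AtkinLehner Fermat.Agent.Deuring Fermat.Agent.RR
  Fermat.Agent.BadRed Fermat.Agent.EKp Fermat.Agent.PeuD

variable (M₀ q : ℕ) [NeZero M₀] [NeZero q]

/-- **W-P, the final export**: for a rigid auxiliary level `M₀` there is a `WPOut` at every
supersingular place of `X₀(M₀)` mod `q` (at the reduction package `wpdSetup`). -/
theorem wpExists_aux (haux : AuxLevelOK q M₀) (hν2 : nuTwo M₀ = 0) (hν3 : nuThree M₀ = 0) :
    WPExists M₀ q :=
  wpExists_of_old M₀ q haux hν2 hν3 (oldFin_wpOldExists_main M₀ q haux)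

/-- **W-P, the final export with exported witnesses**: for every root `ϖ` of `X ^ (q + 1) = q`
and every supersingular place `P` a `WPOut` `O` with `O.ϖ = ϖ`, `O.a = 0`,
`O.P' = frobAut • P`. -/
theorem wpExistsAt_aux (haux : AuxLevelOK q M₀) (hν2 : nuTwo M₀ = 0) (hν3 : nuThree M₀ = 0) :
    WPExistsAt M₀ q :=
  wpExistsAt_of M₀ q (exT q M₀) (wpCoreModExists M₀ q haux hν2 hν3)
    (oldFin_wpOldExists_main M₀ q haux)

end Fermat.Agent.S36G
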