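import Mathlib
import Fermat.Agent.Lib.Deuring.Basic
import Fermat.Agent.Lib.BadRed.Nodal.RRNodal

set_option autoImplicit false
set_option linter.unusedSectionVars false

/-!
# Cluster G (S36), W-P, seat DIST part 2 (helper78): incomparability of the valuation rings
`w_P` vs `w_P'` and `w_P` vs `v_m`

For `GraphCore.indep` the valuation rings of the vertices of the modular graph must be pairwise
incomparable.  This file: the pairs `(P, P')` (two supersingular points) and `(m, P)`.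
(helper19, `S36/HPVal/Dist.lean`: the pairs `(∞, 0)`, `(∞ | 0, P)`.)

Abstract (any two constant reductions `S₁`, `S₂` of `F / K` over the same valuation ring of `K`):

* `distP_not_le_of_red` : a function `g ∈ O₁ ∩ O₂` whose two reductions are DIFFERENT constants
  separates `O₁` and `O₂` (both ways);
* `distP_not_le_of_scaled` : a function `x` with `x / c₁` a unit of `O₁`, `x / c₂` a unit of `O₂`
  and `v(c₁) < v(d) < v(c₂)` for a constant `d` separates `O₁` and `O₂` (both ways);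
* `distP_unif` : `ϖ ^ (q + 1) = q`, `q` a nonunit of `A`  ⟹  `ϖ` is a nonunit of `A`.

The two pairs, hypotheses as Props:

* `DistPOld S₀ ι P SP` : old functions reduce to constants on `w_P` (seat WP-OLD, helper30);
* `distP_hor_hor` : `w_P`, `w_P'` are incomparable if some integral old function takes different
  values at `P` and `P'` (T: `Mod/OldSep.exists_oldSep_two`);
* `distP_mid_hor` : `v_m(u₂) = 12 = v(q ^ 12)` and `w_P(u₂) = 12 q / (q + 1) = v(ϖ ^ (12 q))`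
  ⟹  `v_m`, `w_P` are incomparable.
-/

noncomputable section
attribute [local instance 10000] SubalgebraClass.toAlgebra HahnSeries.powerSeriesAlgebra

open AlgebraicCurve Fermat.Agent.RR Fermat.Agent.Deuring

namespace Fermat.Agent.S36G

open Fermat.Agent.BadRed

variable {K F k Fk₁ Fk₂ : Type*} [Field K] [Field F] [Algebra K F] [Field k]
  [Field Fk₁] [Algebra k Fk₁] [Field Fk₂] [Algebra k Fk₂]

/-! ### abstract part -/

/-- one direction of `distP_not_le_of_red`. -/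
theorem distP_not_le_of_red_aux (S₁ : ValSetup K F k Fk₁) (S₂ : ValSetup K F k Fk₂)
    (hA : S₁.A = S₂.A)
    (hres : ∀ (c : K) (h₁ : c ∈ S₁.A) (h₂ : c ∈ S₂.A), S₁.res ⟨c, h₁⟩ = S₂.res ⟨c, h₂⟩)
    {g : F} (hg₁ : g ∈ S₁.Ov) (hg₂ : g ∈ S₂.Ov) {a₁ a₂ : k}
    (h₁ : S₁.red g = algebraMap k Fk₁ a₁) (h₂ : S₂.red g = algebraMap k Fk₂ a₂)
    (hne : a₁ ≠ a₂) : ¬ S₂.Ov ≤ S₁.Ov := by
  obtain ⟨⟨c, hc⟩, hca⟩ := S₁.res_surj a₁
  have hc₂ : c ∈ S₂.A := hA ▸ hc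
  set x : F := g - algebraMap K F c with hx
  have hx₁ : x ∈ S₁.Ov := sub_mem hg₁ (S₁.algebraMap_mem hc)
  have hx₂ : x ∈ S₂.Ov := sub_mem hg₂ (S₂.algebraMap_mem hc₂)
  have hr₁ : S₁.red x = 0 := by
    rw [hx, S₁.red_sub hg₁ (S₁.algebraMap_mem hc), h₁, S₁.red_algebraMap hc, hca, sub_self]
  have hr₂ : S₂.red x ≠ 0 := by
    rw [hx, S₂.red_sub hg₂ (S₂.algebraMap_mem hc₂), h₂, S₂.red_algebraMap hc₂, ← hres c hc hc₂,
      hca, ← map_sub]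
    intro h0
    have h1 : a₂ - a₁ = 0 := (map_eq_zero (algebraMap k Fk₂)).mp h0
    exact hne (sub_eq_zero.mp h1).symm
  have hx0 : x ≠ 0 := S₂.ne_zero_of_red_ne_zero hr₂
  intro hle
  have hinv₂ : x⁻¹ ∈ S₂.Ov := S₂.inv_mem_of_red_ne_zero hr₂
  exact ((S₁.red_eq_zero_iff hx₁ hx0).mp hr₁) (hle hinv₂)

/-- **separation by the values of a function**: a function which is integral for both valuations
and whose two reductions are different constants separates the two valuation rings. -/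
theorem distP_not_le_of_red (S₁ : ValSetup K F k Fk₁) (S₂ : ValSetup K F k Fk₂)
    (hA : S₁.A = S₂.A)
    (hres : ∀ (c : K) (h₁ : c ∈ S₁.A) (h₂ : c ∈ S₂.A), S₁.res ⟨c, h₁⟩ = S₂.res ⟨c, h₂⟩)
    {g : F} (hg₁ : g ∈ S₁.Ov) (hg₂ : g ∈ S₂.Ov) {a₁ a₂ : k}
    (h₁ : S₁.red g = algebraMap k Fk₁ a₁) (h₂ : S₂.red g = algebraMap k Fk₂ a₂)
    (hne : a₁ ≠ a₂) : ¬ S₁.Ov ≤ S₂.Ov ∧ ¬ S₂.Ov ≤ S₁.Ov :=
  ⟨distP_not_le_of_red_aux S₂ S₁ hA.symm (fun c h₂ h₁ => (hres c h₁ h₂).symm) hg₂ hg₁ h₂ h₁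
      (Ne.symm hne),
    distP_not_le_of_red_aux S₁ S₂ hA hres hg₁ hg₂ h₁ h₂ hne⟩

/-- **separation by the valuation of a function**: `x / c₁` a unit of `O₁`, `x / c₂` a unit of
`O₂`, and a constant `d` with `v(c₁) < v(d) < v(c₂)` (i.e. `d / c₁` and `c₂ / d` are nonunits of
`A`). -/
theorem distP_not_le_of_scaled (S₁ : ValSetup K F k Fk₁) (S₂ : ValSetup K F k Fk₂)
    (hA : S₁.A = S₂.A) {x : F} {c₁ c₂ d : K} (hc₁ : c₁ ≠ 0) (hc₂ : c₂ ≠ 0) (hd : d ≠ 0)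
    (hu₁ : S₁.red (x / algebraMap K F c₁) ≠ 0) (hu₂ : S₂.red (x / algebraMap K F c₂) ≠ 0)
    (h1 : d / c₁ ∈ S₁.A) (h1' : (d / c₁)⁻¹ ∉ S₁.A)
    (h2 : c₂ / d ∈ S₁.A) (h2' : (c₂ / d)⁻¹ ∉ S₁.A) :
    ¬ S₁.Ov ≤ S₂.Ov ∧ ¬ S₂.Ov ≤ S₁.Ov := by
  have hx0 : x ≠ 0 := by
    rintro rfl
    rw [zero_div] at hu₁
    exact hu₁ S₁.red_zero
  have hc₁' : algebraMap K F c₁ ≠ 0 := (map_ne_zero _).mpr hc₁
  have hc₂' : algebraMap K F c₂ ≠ 0 := (map_ne_zero _).mpr hc₂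
  have hd' : algebraMap K F d ≠ 0 := (map_ne_zero _).mpr hd
  have hm₁ := S₁.mem_of_red_ne_zero hu₁
  have hi₁ := S₁.inv_mem_of_red_ne_zero hu₁
  have hm₂ := S₂.mem_of_red_ne_zero hu₂
  have hi₂ := S₂.inv_mem_of_red_ne_zero hu₂
  have h2A : c₂ / d ∈ S₂.A := hA ▸ h2
  have h2A' : (c₂ / d)⁻¹ ∉ S₂.A := fun h => h2' (hA ▸ h)
  constructor
  · -- `y = d / x ∈ O₁`, `∉ O₂`
    intro hle
    have hy₁ : algebraMap K F d / x ∈ S₁.Ov := by
      have e : algebraMap K F d / x = (x / algebraMap K F c₁)⁻¹ * algebraMap K F (d / c₁) := by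
        rw [map_div₀]
        field_simp
      rw [e]
      exact mul_mem hi₁ (S₁.algebraMap_mem h1)
    have hy₂ := hle hy₁
    have hbad : algebraMap K F ((c₂ / d)⁻¹) ∈ S₂.Ov := by
      have e : algebraMap K F ((c₂ / d)⁻¹) = (algebraMap K F d / x) * (x / algebraMap K F c₂) := by
        rw [map_inv₀, map_div₀]
        field_simp
      rw [e]
      exact mul_mem hy₂ hm₂
    exact h2A' ((S₂.mem_Ov_iff _).mp hbad)
  · -- `y = x / d ∈ O₂`, `∉ O₁`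
    intro hle
    have hy₂ : x / algebraMap K F d ∈ S₂.Ov := by
      have e : x / algebraMap K F d = (x / algebraMap K F c₂) * algebraMap K F (c₂ / d) := by
        rw [map_div₀]
        field_simp
      rw [e]
      exact mul_mem hm₂ (S₂.algebraMap_mem h2A)
    have hy₁ := hle hy₂
    have hbad : algebraMap K F ((d / c₁)⁻¹) ∈ S₁.Ov := by
      have e : algebraMap K F ((d / c₁)⁻¹) = (x / algebraMap K F d) * (x / algebraMap K F c₁)⁻¹ := by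
        rw [map_inv₀, map_div₀]
        field_simp
      rw [e]
      exact mul_mem hy₁ hi₁
    exact h1' ((S₁.mem_Ov_iff _).mp hbad)

/-- a root of a nonunit is a nonunit: `ϖ ^ (n + 1) = c`, `c ∈ A`, `c⁻¹ ∉ A`  ⟹  `ϖ ∈ A`,
`ϖ⁻¹ ∉ A`. -/
theorem distP_unif (A : ValuationSubring K) {ϖ c : K} {n : ℕ} (hϖ : ϖ ^ (n + 1) = c)
    (hc : c ∈ A) (hc' : c⁻¹ ∉ A) : ϖ ∈ A ∧ ϖ⁻¹ ∉ A := by
  have hv : A.valuation c < 1 := by
    have h1 : A.valuation c ≤ 1 := (A.valuation_le_one_iff c).mpr hc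
    refine lt_of_le_of_ne h1 fun h => hc' ?_
    rw [← A.valuation_le_one_iff, map_inv₀, h, inv_one]
  have hvϖ : A.valuation ϖ < 1 := by
    by_contra hge
    push Not at hge
    have h2 : 1 ≤ A.valuation ϖ ^ (n + 1) := one_le_pow₀ hge
    rw [← map_pow, hϖ] at h2
    exact absurd hv (not_lt.mpr h2)
  refine ⟨(A.valuation_le_one_iff ϖ).mp hvϖ.le, fun hinv => ?_⟩
  have h3 : A.valuation ϖ⁻¹ ≤ 1 := (A.valuation_le_one_iff _).mpr hinv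
  have hϖ0 : ϖ ≠ 0 := by
    rintro rfl
    rw [zero_pow (Nat.succ_ne_zero n)] at hϖ
    rw [← hϖ, inv_zero] at hc'
    exact hc' (zero_mem A)
  rw [map_inv₀] at h3
  have hpos : 0 < A.valuation ϖ := (Valuation.pos_iff _).mpr hϖ0
  rw [inv_le_one₀ hpos] at h3
  exact absurd hvϖ (not_lt.mpr h3)

/-- powers of a nonunit: `ϖ ^ (n + 1)` is a nonunit of `A`. -/
theorem distP_unif_pow (A : ValuationSubring K) {ϖ : K} (h : ϖ ∈ A) (h' : ϖ⁻¹ ∉ A) (n : ℕ) :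
    ϖ ^ (n + 1) ∈ A ∧ (ϖ ^ (n + 1))⁻¹ ∉ A := by
  refine ⟨pow_mem h _, fun hinv => h' ?_⟩
  have e : ϖ⁻¹ = (ϖ ^ (n + 1))⁻¹ * ϖ ^ n := by
    have hϖ0 : ϖ ≠ 0 := by
      rintro rfl
      rw [inv_zero] at h'
      exact h' (zero_mem A)
    rw [pow_succ]
    field_simp
  rw [e]
  exact mul_mem hinv (pow_mem h n)

/-! ### the pair `(P, P')` -/

section HorHor

variable {F₀ Fk₀ : Type*} [Field F₀] [Algebra K F₀] [Field Fk₀] [Algebra k Fk₀]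

/-- **(WP-OLD)**, the form used here: the old functions (the image of `ι : F₀ → F`) which are
integral at level `M₀` and whose reduction takes the value `a` at `P` are integral for `w_P`, with
reduction the CONSTANT `a`. -/
def DistPOld (S₀ : ValSetup K F₀ k Fk₀) (ι : F₀ →+* F) (P : Place k Fk₀)
    (SP : ValSetup K F k Fk₁) : Prop :=
  ∀ g₀ : F₀, g₀ ∈ S₀.Ov → ∀ a : k, ValAt P (S₀.red g₀) a →
    ι g₀ ∈ SP.Ov ∧ SP.red (ι g₀) = algebraMap k Fk₁ a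

/-- **`w_P` and `w_P'` are incomparable** (`P ≠ P'`): from (WP-OLD) at `P` and at `P'` and an
integral old function taking different values at `P` and at `P'`. -/
theorem distP_hor_hor (S₀ : ValSetup K F₀ k Fk₀) (ι : F₀ →+* F) {P P' : Place k Fk₀}
    (SP : ValSetup K F k Fk₁) (SP' : ValSetup K F k Fk₂) (hA : SP.A = SP'.A)
    (hres : ∀ (c : K) (h₁ : c ∈ SP.A) (h₂ : c ∈ SP'.A), SP.res ⟨c, h₁⟩ = SP'.res ⟨c, h₂⟩)
    (hold : DistPOld S₀ ι P SP) (hold' : DistPOld S₀ ι P' SP')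
    (hsep : ∃ g₀ : F₀, g₀ ∈ S₀.Ov ∧ ∃ a a' : k, ValAt P (S₀.red g₀) a ∧
      ValAt P' (S₀.red g₀) a' ∧ a ≠ a') :
    ¬ SP.Ov ≤ SP'.Ov ∧ ¬ SP'.Ov ≤ SP.Ov := by
  obtain ⟨g₀, hg₀, a, a', ha, ha', hne⟩ := hsep
  obtain ⟨h1, h2⟩ := hold g₀ hg₀ a ha
  obtain ⟨h1', h2'⟩ := hold' g₀ hg₀ a' ha'
  exact distP_not_le_of_red SP SP' hA hres h1 h1' h2 h2' hne

end HorHor

/-! ### the pair `(m, P)` -/

/-- **`v_m` and `w_P` are incomparable**: `u₂ / q ^ 12` is a unit for `v_m` and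
`u₂ / ϖ ^ (12 q)` is a unit for `w_P`, `ϖ ^ (q + 1) = q` a nonunit of `A`. -/
theorem distP_mid_hor (Sm : ValSetup K F k Fk₁) (SP : ValSetup K F k Fk₂) (hA : SP.A = Sm.A)
    {q : ℕ} {ϖ : K} (hϖ : ϖ ^ (q + 1) = (q : K)) (hqA : (q : K) ∈ SP.A)
    (hqA' : ((q : K))⁻¹ ∉ SP.A) {u₂ : F}
    (hm : Sm.red (u₂ / algebraMap K F ((q : K) ^ 12)) ≠ 0)
    (hP : SP.red (u₂ / algebraMap K F (ϖ ^ (12 * q))) ≠ 0) :
    ¬ SP.Ov ≤ Sm.Ov ∧ ¬ Sm.Ov ≤ SP.Ov := by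
  obtain ⟨hϖA, hϖA'⟩ := distP_unif SP.A hϖ hqA hqA'
  have hϖ0 : ϖ ≠ 0 := by
    rintro rfl
    rw [inv_zero] at hϖA'
    exact hϖA' (zero_mem _)
  have hq0 : (q : K) ≠ 0 := by
    rw [← hϖ]
    exact pow_ne_zero _ hϖ0
  have e1 : ϖ ^ (12 * q + 1) / ϖ ^ (12 * q) = ϖ ^ (0 + 1) := by
    rw [pow_succ, zero_add, pow_one]
    field_simp
  have e2 : (q : K) ^ 12 / ϖ ^ (12 * q + 1) = ϖ ^ (10 + 1) := by
    rw [← hϖ, ← pow_mul]
    have : (q + 1) * 12 = (12 * q + 1) + 11 := by ring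
    rw [this, pow_add]
    field_simp
  refine distP_not_le_of_scaled SP Sm hA (c₁ := ϖ ^ (12 * q)) (c₂ := (q : K) ^ 12)
    (d := ϖ ^ (12 * q + 1)) (pow_ne_zero _ hϖ0) (pow_ne_zero _ hq0) (pow_ne_zero _ hϖ0) hP hm
    ?_ ?_ ?_ ?_
  · rw [e1]; exact (distP_unif_pow SP.A hϖA hϖA' 0).1
  · rw [e1]; exact (distP_unif_pow SP.A hϖA hϖA' 0).2
  · rw [e2]; exact (distP_unif_pow SP.A hϖA hϖA' 10).1
  · rw [e2]; exact (distP_unif_pow SP.A hϖA hϖA' 10).2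

/-- general exponents: `x / ϖ ^ a` a unit of `O₁`, `x / ϖ ^ b` a unit of `O₂`, `a + 2 ≤ b`. -/
theorem distP_not_le_of_pow (S₁ : ValSetup K F k Fk₁) (S₂ : ValSetup K F k Fk₂)
    (hA : S₁.A = S₂.A) {ϖ : K} (hϖA : ϖ ∈ S₁.A) (hϖA' : ϖ⁻¹ ∉ S₁.A) {x : F} {a b : ℕ}
    (hab : a + 2 ≤ b)
    (hu₁ : S₁.red (x / algebraMap K F (ϖ ^ a)) ≠ 0)
    (hu₂ : S₂.red (x / algebraMap K F (ϖ ^ b)) ≠ 0) :
    ¬ S₁.Ov ≤ S₂.Ov ∧ ¬ S₂.Ov ≤ S₁.Ov := by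
  have hϖ0 : ϖ ≠ 0 := by
    rintro rfl
    rw [inv_zero] at hϖA'
    exact hϖA' (zero_mem _)
  obtain ⟨m, rfl⟩ : ∃ m, b = a + 1 + (m + 1) := ⟨b - a - 2, by omega⟩
  have e1 : ϖ ^ (a + 1) / ϖ ^ a = ϖ ^ (0 + 1) := by
    rw [pow_succ, zero_add, pow_one]
    field_simp
  have e2 : ϖ ^ (a + 1 + (m + 1)) / ϖ ^ (a + 1) = ϖ ^ (m + 1) := by
    rw [pow_add]
    field_simp
  refine distP_not_le_of_scaled S₁ S₂ hA (c₁ := ϖ ^ a) (c₂ := ϖ ^ (a + 1 + (m + 1)))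
    (d := ϖ ^ (a + 1)) (pow_ne_zero _ hϖ0) (pow_ne_zero _ hϖ0) (pow_ne_zero _ hϖ0) hu₁ hu₂
    ?_ ?_ ?_ ?_
  · rw [e1]; exact (distP_unif_pow S₁.A hϖA hϖA' 0).1
  · rw [e1]; exact (distP_unif_pow S₁.A hϖA hϖA' 0).2
  · rw [e2]; exact (distP_unif_pow S₁.A hϖA hϖA' m).1
  · rw [e2]; exact (distP_unif_pow S₁.A hϖA hϖA' m).2

end Fermat.Agent.S36G
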