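import Mathlib
import Fermat.Agent.S36.HPVal.DistP
import Fermat.Agent.Lib.BadRed.HPVal.RestrAbs
import Fermat.Agent.Lib.BadRed.Mod.OldSep

set_option autoImplicit false
set_option linter.style.haveILetI false
set_option linter.unusedSectionVars false

/-!
# Cluster G (S36), W-P, seat DIST part 2, corrected hypothesis shape (helper78)

`DistPOld` of `DistP.lean` quantifies over ALL Gauss-integral old functions whose reduction is
regular at `P`; that hypothesis is too strong (helper95, helper59: TRAP 1, `g₀ = 1 + ϖ / t`).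
This file gives the pair `(P, P')` of the table `GraphCore.indep` with the CORRECT hypothesis
shapes:

* `distP_hor_hor_restr` : from two `HPVal.RestrOld` statements (the output shape of WP-OLD,
  `S36/Seed/Old.lean`, `wpo_restrOld`) and one function `s ∈ B ∩ B'` with `ev s ≠ ev' s`;
* `DistPOldOn S₀ ι C P SP` : (WP-OLD) for the old functions satisfying `C` only;
* `distP_hor_hor_on` : abstract, from `DistPOldOn` at `P` and at `P'` and a separating function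
  satisfying `C`;
* `distPOldOn_of_restrOld` : `RestrOld ι SP.Ov SP.ρ B ev` ⟹ `DistPOldOn S₀ ι C P SP`, if `C`
  implies `∈ B` and `ev` is the value of the reduction at `P`;
* `distP_hor_hor_cusp` / `distP_hor_hor_cusp_of_ne` : modular, `C` = cuspidal poles only,
  separating function = T's `exists_oldSep_two`.
-/

noncomputable section
attribute [local instance 10000] SubalgebraClass.toAlgebra HahnSeries.powerSeriesAlgebra

open AlgebraicCurve IntermediateField Fermat.Agent.RR Fermat.Agent.Deuring Fermat.Agent.FF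

namespace Fermat.Agent.S36G

open Fermat.Agent.BadRed ModularCurve Fermat.Agent.GaussInt Fermat.Agent.HPVal

set_option synthInstance.maxHeartbeats 400000

/-! ### abstract part -/

section Abs

variable {K F k Fk₁ Fk₂ : Type*} [Field K] [Field F] [Algebra K F] [Field k]
  [Field Fk₁] [Algebra k Fk₁] [Field Fk₂] [Algebra k Fk₂]
  {F₀ : Type*} [Field F₀]

/-- **`w_P` and `w_P'` are incomparable**, from (WP-OLD) in the shape `HPVal.RestrOld` at `P` and
at `P'` and ONE old function `s ∈ B ∩ B'` with different values `ev s ≠ ev' s`. -/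
theorem distP_hor_hor_restr (ι : F₀ →+* F)
    (SP : ValSetup K F k Fk₁) (SP' : ValSetup K F k Fk₂) (hA : SP.A = SP'.A)
    (hres : ∀ (c : K) (h₁ : c ∈ SP.A) (h₂ : c ∈ SP'.A), SP.res ⟨c, h₁⟩ = SP'.res ⟨c, h₂⟩)
    {B B' : Subring F₀} {ev : B →+* k} {ev' : B' →+* k}
    (hold : RestrOld ι SP.Ov SP.ρ B ev) (hold' : RestrOld ι SP'.Ov SP'.ρ B' ev')
    {s : F₀} (hs : s ∈ B) (hs' : s ∈ B') (hne : ev ⟨s, hs⟩ ≠ ev' ⟨s, hs'⟩) :
    ¬ SP.Ov ≤ SP'.Ov ∧ ¬ SP'.Ov ≤ SP.Ov := by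
  obtain ⟨h1, h2⟩ := hold ⟨s, hs⟩
  obtain ⟨h1', h2'⟩ := hold' ⟨s, hs'⟩
  refine distP_not_le_of_red SP SP' hA hres h1 h1' ?_ ?_ hne
  · rw [SP.red_of_mem h1]
    exact h2
  · rw [SP'.red_of_mem h1']
    exact h2'

variable {Fk₀ : Type*} [Field Fk₀] [Algebra k Fk₀] [Algebra K F₀]

/-- **(WP-OLD)**, corrected shape: the old functions `ι g₀`, `g₀` integral at level `M₀` AND
satisfying `C` (= "no pole on the residue disc of `P`", e.g. cuspidal poles only), whose reduction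
takes the value `a` at `P`, are integral for `w_P`, with reduction the CONSTANT `a`. -/
def DistPOldOn (S₀ : ValSetup K F₀ k Fk₀) (ι : F₀ →+* F) (C : F₀ → Prop) (P : Place k Fk₀)
    (SP : ValSetup K F k Fk₁) : Prop :=
  ∀ g₀ : F₀, g₀ ∈ S₀.Ov → C g₀ → ∀ a : k, ValAt P (S₀.red g₀) a →
    ι g₀ ∈ SP.Ov ∧ SP.red (ι g₀) = algebraMap k Fk₁ a

/-- the wrong shape implies the corrected one (for the record). -/
theorem DistPOld.on {S₀ : ValSetup K F₀ k Fk₀} {ι : F₀ →+* F} {P : Place k Fk₀}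
    {SP : ValSetup K F k Fk₁} (h : DistPOld S₀ ι P SP) (C : F₀ → Prop) :
    DistPOldOn S₀ ι C P SP :=
  fun g₀ hg₀ _ a ha => h g₀ hg₀ a ha

/-- monotonicity in the class `C`. -/
theorem DistPOldOn.mono {S₀ : ValSetup K F₀ k Fk₀} {ι : F₀ →+* F} {P : Place k Fk₀}
    {SP : ValSetup K F k Fk₁} {C C' : F₀ → Prop} (h : DistPOldOn S₀ ι C P SP)
    (hC : ∀ g₀, C' g₀ → C g₀) : DistPOldOn S₀ ι C' P SP :=
  fun g₀ hg₀ hc a ha => h g₀ hg₀ (hC g₀ hc) a ha

/-- from the shape `HPVal.RestrOld` (seat WP-OLD) to `DistPOldOn`: `C` implies `∈ B`, and `ev` is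
the value of the reduction at `P`. -/
theorem distPOldOn_of_restrOld (S₀ : ValSetup K F₀ k Fk₀) (ι : F₀ →+* F) (C : F₀ → Prop)
    (P : Place k Fk₀) (SP : ValSetup K F k Fk₁) {B : Subring F₀} {ev : B →+* k}
    (hold : RestrOld ι SP.Ov SP.ρ B ev)
    (hCB : ∀ g₀ : F₀, g₀ ∈ S₀.Ov → C g₀ → g₀ ∈ B)
    (hev : ∀ (b : B) (a : k), ValAt P (S₀.red (b : F₀)) a → ev b = a) :
    DistPOldOn S₀ ι C P SP := by
  intro g₀ hg₀ hc a ha
  obtain ⟨h1, h2⟩ := hold ⟨g₀, hCB g₀ hg₀ hc⟩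
  refine ⟨h1, ?_⟩
  rw [SP.red_of_mem h1, h2, hev ⟨g₀, hCB g₀ hg₀ hc⟩ a ha]

/-- **`w_P` and `w_P'` are incomparable** (`P ≠ P'`): from (WP-OLD) on the class `C` at `P` and at
`P'` and an integral old function of the class `C` taking different values at `P` and at `P'`. -/
theorem distP_hor_hor_on (S₀ : ValSetup K F₀ k Fk₀) (ι : F₀ →+* F) (C : F₀ → Prop)
    {P P' : Place k Fk₀}
    (SP : ValSetup K F k Fk₁) (SP' : ValSetup K F k Fk₂) (hA : SP.A = SP'.A)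
    (hres : ∀ (c : K) (h₁ : c ∈ SP.A) (h₂ : c ∈ SP'.A), SP.res ⟨c, h₁⟩ = SP'.res ⟨c, h₂⟩)
    (hold : DistPOldOn S₀ ι C P SP) (hold' : DistPOldOn S₀ ι C P' SP')
    (hsep : ∃ g₀ : F₀, g₀ ∈ S₀.Ov ∧ C g₀ ∧ ∃ a a' : k, ValAt P (S₀.red g₀) a ∧
      ValAt P' (S₀.red g₀) a' ∧ a ≠ a') :
    ¬ SP.Ov ≤ SP'.Ov ∧ ¬ SP'.Ov ≤ SP.Ov := by
  obtain ⟨g₀, hg₀, hc, a, a', ha, ha', hne⟩ := hsep
  obtain ⟨h1, h2⟩ := hold g₀ hg₀ hc a ha
  obtain ⟨h1', h2'⟩ := hold' g₀ hg₀ hc a' ha'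
  exact distP_not_le_of_red SP SP' hA hres h1 h1' h2 h2' hne

end Abs

/-! ### modular part -/

local notation "Qb" => AlgebraicClosure ℚ

variable (A : ValuationSubring Qb) (q N₀ : ℕ) [NeZero N₀]
  (hq : q.Prime) (hA : A.LiesOverPrime q) (hqN : ¬ q ∣ N₀)
  {F : Type*} [Field F] [Algebra Qb F]
  {Fk₁ Fk₂ : Type*} [Field Fk₁] [Algebra (IsLocalRing.ResidueField A) Fk₁]
  [Field Fk₂] [Algebra (IsLocalRing.ResidueField A) Fk₂]

/-- the class of the old functions with CUSPIDAL poles only. -/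
def DistPCuspidal (g₀ : modularFunctionFieldBar N₀) : Prop :=
  ∀ v : Place Qb (modularFunctionFieldBar N₀),
    0 ≤ v.ord (Fermat.Agent.S24.jBar N₀) → 0 ≤ v.ord g₀

/-- **`w_P` and `w_P'` are incomparable** for two different non-cuspidal places `P`, `P'` of the
reduction of `X₀(N₀)` at `q ∤ N₀` (genus equality as a hypothesis); (WP-OLD) is needed for the old
functions with cuspidal poles only. -/
theorem distP_hor_hor_cusp
    (hg : genusFF Qb (modularFunctionFieldBar N₀) =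
      genusFF (IsLocalRing.ResidueField A)
        (modularFunctionFieldFullC (IsLocalRing.ResidueField A) N₀))
    {P P' : Place (IsLocalRing.ResidueField A)
      (modularFunctionFieldFullC (IsLocalRing.ResidueField A) N₀)} (hPP' : P ≠ P')
    (hP : 0 ≤ P.ord (Fermat.Agent.RRMod.jC (IsLocalRing.ResidueField A) N₀))
    (hP' : 0 ≤ P'.ord (Fermat.Agent.RRMod.jC (IsLocalRing.ResidueField A) N₀))
    (ι : modularFunctionFieldBar N₀ →+* F)
    (SP : ValSetup Qb F (IsLocalRing.ResidueField A) Fk₁)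
    (SP' : ValSetup Qb F (IsLocalRing.ResidueField A) Fk₂) (hAA : SP.A = SP'.A)
    (hres : ∀ (c : Qb) (h₁ : c ∈ SP.A) (h₂ : c ∈ SP'.A), SP.res ⟨c, h₁⟩ = SP'.res ⟨c, h₂⟩)
    (hold : DistPOldOn (modularValSetup A q N₀ hq hA hqN) ι (DistPCuspidal N₀) P SP)
    (hold' : DistPOldOn (modularValSetup A q N₀ hq hA hqN) ι (DistPCuspidal N₀) P' SP') :
    ¬ SP.Ov ≤ SP'.Ov ∧ ¬ SP'.Ov ≤ SP.Ov := by
  obtain ⟨g₀, hg₀, hc, -, h0, h1⟩ := exists_oldSep_two A q N₀ hq hA hqN hg hPP' hP hP'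
  exact distP_hor_hor_on (modularValSetup A q N₀ hq hA hqN) ι (DistPCuspidal N₀) SP SP' hAA hres
    hold hold' ⟨g₀, hg₀, hc, 0, 1, h0, h1, zero_ne_one⟩

/-- `w_P`, `w_P'` incomparable, `q ∉ {2, 3}`. -/
theorem distP_hor_hor_cusp_of_ne (h2 : q ≠ 2) (h3 : q ≠ 3)
    {P P' : Place (IsLocalRing.ResidueField A)
      (modularFunctionFieldFullC (IsLocalRing.ResidueField A) N₀)} (hPP' : P ≠ P')
    (hP : 0 ≤ P.ord (Fermat.Agent.RRMod.jC (IsLocalRing.ResidueField A) N₀))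
    (hP' : 0 ≤ P'.ord (Fermat.Agent.RRMod.jC (IsLocalRing.ResidueField A) N₀))
    (ι : modularFunctionFieldBar N₀ →+* F)
    (SP : ValSetup Qb F (IsLocalRing.ResidueField A) Fk₁)
    (SP' : ValSetup Qb F (IsLocalRing.ResidueField A) Fk₂) (hAA : SP.A = SP'.A)
    (hres : ∀ (c : Qb) (h₁ : c ∈ SP.A) (h₂ : c ∈ SP'.A), SP.res ⟨c, h₁⟩ = SP'.res ⟨c, h₂⟩)
    (hold : DistPOldOn (modularValSetup A q N₀ hq hA hqN) ι (DistPCuspidal N₀) P SP)
    (hold' : DistPOldOn (modularValSetup A q N₀ hq hA hqN) ι (DistPCuspidal N₀) P' SP') :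
    ¬ SP.Ov ≤ SP'.Ov ∧ ¬ SP'.Ov ≤ SP.Ov :=
  distP_hor_hor_cusp A q N₀ hq hA hqN
    (Fermat.Agent.GoodRed.genusFF_modular_eq N₀ hq hA hqN h2 h3) hPP' hP hP' ι SP SP' hAA hres
    hold hold'

end Fermat.Agent.S36G
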