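import Mathlib
import Fermat.Agent.S36.HPVal.DistP
import Fermat.Agent.Lib.BadRed.Mod.OldSep

set_option autoImplicit false
set_option linter.style.haveILetI false
set_option linter.unusedSectionVars false

/-!
# Cluster G (S36), W-P, seat DIST part 2, modular wiring (helper78)

`S₀ = modularValSetup A q N₀` the Gauss valuation of `F₀ = FBar(N₀)` (`q ∤ N₀`), `P ≠ P'` two
non-cuspidal places of its residue field, `ι : F₀ → F` any ring homomorphism (the old functions),
`SP`, `SP'` constant reductions of `F` with (WP-OLD) at `P` resp. `P'`.  Then the valuation rings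
of `SP` and `SP'` are incomparable: the separating old function is T's `exists_oldSep_two`.

* `distP_hor_hor_modular` : with the genus equality at level `N₀` as a hypothesis;
* `distP_hor_hor_of_ne` : `q ∉ {2, 3}`.
-/

noncomputable section
attribute [local instance 10000] SubalgebraClass.toAlgebra HahnSeries.powerSeriesAlgebra

open AlgebraicCurve IntermediateField Fermat.Agent.RR Fermat.Agent.Deuring Fermat.Agent.FF

namespace Fermat.Agent.S36G

open Fermat.Agent.BadRed ModularCurve Fermat.Agent.GaussInt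

set_option synthInstance.maxHeartbeats 400000

local notation "Qb" => AlgebraicClosure ℚ

variable (A : ValuationSubring Qb) (q N₀ : ℕ) [NeZero N₀]
  (hq : q.Prime) (hA : A.LiesOverPrime q) (hqN : ¬ q ∣ N₀)
  {F : Type*} [Field F] [Algebra Qb F]
  {Fk₁ Fk₂ : Type*} [Field Fk₁] [Algebra (IsLocalRing.ResidueField A) Fk₁]
  [Field Fk₂] [Algebra (IsLocalRing.ResidueField A) Fk₂]

/-- **`w_P` and `w_P'` are incomparable** for two different non-cuspidal places `P`, `P'` of the
reduction of `X₀(N₀)` at `q ∤ N₀` (genus equality as a hypothesis). -/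
theorem distP_hor_hor_modular
    (hg : genusFF Qb (modularFunctionFieldBar N₀) =
      genusFF (IsLocalRing.ResidueField A)
        (modularFunctionFieldFullC (IsLocalRing.ResidueField A) N₀))
    {P P' : Place (IsLocalRing.ResidueField A)
      (modularFunctionFieldFullC (IsLocalRing.ResidueField A) N₀)} (hPP' : P ≠ P')
    (hP : 0 ≤ P.ord (Fermat.Agent.RRMod.jC (IsLocalRing.ResidueField A) N₀))
    (hP' : 0 ≤ P'.ord (Fermat.Agent.RRMod.jC (IsLocalRing.ResidueField A) N₀))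
    (ι : modularFunctionFieldBar N₀ →+* F)
    (SP : ValSetup Qb F (IsLocalRing.ResidueField A) Fk₁)
    (SP' : ValSetup Qb F (IsLocalRing.ResidueField A) Fk₂) (hAA : SP.A = SP'.A)
    (hres : ∀ (c : Qb) (h₁ : c ∈ SP.A) (h₂ : c ∈ SP'.A), SP.res ⟨c, h₁⟩ = SP'.res ⟨c, h₂⟩)
    (hold : DistPOld (modularValSetup A q N₀ hq hA hqN) ι P SP)
    (hold' : DistPOld (modularValSetup A q N₀ hq hA hqN) ι P' SP') :
    ¬ SP.Ov ≤ SP'.Ov ∧ ¬ SP'.Ov ≤ SP.Ov := by
  obtain ⟨g₀, hg₀, -, -, h0, h1⟩ := exists_oldSep_two A q N₀ hq hA hqN hg hPP' hP hP'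
  exact distP_hor_hor (modularValSetup A q N₀ hq hA hqN) ι SP SP' hAA hres hold hold'
    ⟨g₀, hg₀, 0, 1, h0, h1, zero_ne_one⟩

/-- `w_P`, `w_P'` incomparable, `q ∉ {2, 3}`. -/
theorem distP_hor_hor_of_ne (h2 : q ≠ 2) (h3 : q ≠ 3)
    {P P' : Place (IsLocalRing.ResidueField A)
      (modularFunctionFieldFullC (IsLocalRing.ResidueField A) N₀)} (hPP' : P ≠ P')
    (hP : 0 ≤ P.ord (Fermat.Agent.RRMod.jC (IsLocalRing.ResidueField A) N₀))
    (hP' : 0 ≤ P'.ord (Fermat.Agent.RRMod.jC (IsLocalRing.ResidueField A) N₀))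
    (ι : modularFunctionFieldBar N₀ →+* F)
    (SP : ValSetup Qb F (IsLocalRing.ResidueField A) Fk₁)
    (SP' : ValSetup Qb F (IsLocalRing.ResidueField A) Fk₂) (hAA : SP.A = SP'.A)
    (hres : ∀ (c : Qb) (h₁ : c ∈ SP.A) (h₂ : c ∈ SP'.A), SP.res ⟨c, h₁⟩ = SP'.res ⟨c, h₂⟩)
    (hold : DistPOld (modularValSetup A q N₀ hq hA hqN) ι P SP)
    (hold' : DistPOld (modularValSetup A q N₀ hq hA hqN) ι P' SP') :
    ¬ SP.Ov ≤ SP'.Ov ∧ ¬ SP'.Ov ≤ SP.Ov :=
  distP_hor_hor_modular A q N₀ hq hA hqN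
    (Fermat.Agent.GoodRed.genusFF_modular_eq N₀ hq hA hqN h2 h3) hPP' hP hP' ι SP SP' hAA hres
    hold hold'

end Fermat.Agent.S36G
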