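/-
Cluster G (S36), block W-P, seat REG, leaf RegExT (helper84; sub-architect helper59, wirer helper89).

**The datum of EX_t in the `kp` language of REG**: for `hT : ExTDatum A q R hq hA hqR P t0` and
`t := wpdT R t0 hT.mem ∈ F_R`, `S = kpS D A hq hA hqR` (`= v_∞` at level `q R`):

* `α t, β t, δ = (β t - (α t)^q) / q ∈ S.Ov`  (Frobenius congruence, helper45's `IsFrobInt`);
* `red (β t) = red (α t) ^ q`;
* `ord_P (red (α t)) = 1`  (`red (α t) = t̄`, the uniformiser at `P`);
* `red (α t)` is fixed by the coefficientwise Frobenius.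

`regExT_isFrobInt` : the `IsFrobInt` datum itself (`z = liftA` of the `q`-expansion).
`regExT`           : the six statements, in the exact shape consumed by `RegWire.lean` (helper89).
-/
import Mathlib
import Fermat.Agent.S36.HPVal.ExTDefs
import Fermat.Agent.S36.HPVal.DiscMod
import Fermat.Agent.S36.HPVal.RegKC
import Fermat.Agent.S36.Reg.RegInt
import Fermat.Agent.Lib.BadRed.Mod.OldRed
import Fermat.Agent.E.Desc.Kp.ModDefs

set_option autoImplicit false
set_option linter.style.haveILetI false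
set_option linter.unusedSectionVars false
set_option linter.unusedVariables false
set_option synthInstance.maxHeartbeats 400000

noncomputable section
attribute [local instance 10000] SubalgebraClass.toAlgebra HahnSeries.powerSeriesAlgebra

namespace Fermat.Agent.S36G

open ModularCurve AlgebraicCurve Fermat.Agent.GaussInt Fermat.Agent.AtkinLehner Fermat.Agent.Deuring
  Fermat.Agent.BadRed Fermat.Agent.EKp Polynomial

local notation "Qb" => AlgebraicClosure ℚ

variable (D : ALData) [NeZero D.Q] [NeZero D.R] [NeZero (D.Q * D.R)]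
  (A : ValuationSubring Qb) (hq : D.Q.Prime) (hA : A.LiesOverPrime D.Q) (hqR : ¬ D.Q ∣ D.R)
  [Fact D.Q.Prime] [CharP (IsLocalRing.ResidueField A) D.Q]
  [PerfectRing (IsLocalRing.ResidueField A) D.Q]
  {P : Place (IsLocalRing.ResidueField A)
    (modularFunctionFieldFullC (IsLocalRing.ResidueField A) D.R)}
  {t0 : LaurentSeries ℚ}

/-- the `q`-expansion of the datum is `A`-integral. -/
theorem regExT_int (hT : ExTDatum A D.Q D.R hq hA hqR P t0) (n : ℤ) :
    ((wpdT D.R t0 hT.mem : modularFunctionFieldBar D.R) : LaurentSeries Qb).coeff n ∈ A := by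
  rw [coe_wpdT, coeffEmb_coeff]
  exact hT.int n

/-- the integral expansion `z ∈ A((x))` of the datum. -/
def regExTZ (hT : ExTDatum A D.Q D.R hq hA hqR P t0) : LaurentSeries A :=
  liftA A ((wpdT D.R t0 hT.mem : modularFunctionFieldBar D.R) : LaurentSeries Qb)
    (regExT_int D A hq hA hqR hT)

/-- **the datum of EX_t is Frobenius-integral** (helper45's `IsFrobInt`). -/
theorem regExT_isFrobInt (hT : ExTDatum A D.Q D.R hq hA hqR P t0) :
    Fermat.Agent.S36RegN.IsFrobInt D A (wpdT D.R t0 hT.mem) (regExTZ D A hq hA hqR hT) := by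
  refine Fermat.Agent.S36RegN.isFrobInt_of_rat D A hA _ _ (emb_liftA A _ _) ?_
  intro n
  refine ⟨t0.coeff n, ?_⟩
  rw [regExTZ, liftA_coeff]
  show ((wpdT D.R t0 hT.mem : modularFunctionFieldBar D.R) : LaurentSeries Qb).coeff n = _
  rw [coe_wpdT, coeffEmb_coeff]
  rfl

/-- **RegExT**: the inputs `halpha`, `hbeta`, `hdelta`, `hfrob`, `hP` of `reg_kc_final` and the
Frobenius invariance of `t̄`, from the datum of EX_t. -/
theorem regExT (hT : ExTDatum A D.Q D.R hq hA hqR P t0) :
    alphaQ D (wpdT D.R t0 hT.mem) ∈ (kpS D A hq hA hqR).Ov ∧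
    betaQ D (wpdT D.R t0 hT.mem) ∈ (kpS D A hq hA hqR).Ov ∧
    regDelta D (wpdT D.R t0 hT.mem) ∈ (kpS D A hq hA hqR).Ov ∧
    (kpS D A hq hA hqR).red (betaQ D (wpdT D.R t0 hT.mem)) =
      (kpS D A hq hA hqR).red (alphaQ D (wpdT D.R t0 hT.mem)) ^ D.Q ∧
    P.ord ((kpS D A hq hA hqR).red (alphaQ D (wpdT D.R t0 hT.mem))) = 1 ∧
    frobAut (IsLocalRing.ResidueField A) D.R D.Q •
        (kpS D A hq hA hqR).red (alphaQ D (wpdT D.R t0 hT.mem)) =
      (kpS D A hq hA hqR).red (alphaQ D (wpdT D.R t0 hT.mem)) := by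
  have hS : IsGaussSetup (D.Q * D.R) D.R A (kpS D A hq hA hqR) :=
    isGaussSetup_gaussSetupBad D hq hqR A hA
  have hF := regExT_isFrobInt D A hq hA hqR hT
  refine ⟨hF.alpha_mem hS, hF.beta_mem hS, hF.delta_mem hS hA, hF.red_beta hS, ?_, ?_⟩
  · have hmem : wpdT D.R t0 hT.mem ∈ (modularValSetup A D.Q D.R hq hA hqR).Ov := hT.mem_Ov _
    rw [red_alphaQ D A hq hA hqR _ hS (wpdT D.R t0 hT.mem) hmem]
    exact hT.unif _
  · apply reg_frob_fix
    intro n
    have h := hF.coeffMap_frobenius_red_alpha hS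
    have h2 := congrArg (fun s : LaurentSeries (IsLocalRing.ResidueField A) => s.coeff n) h
    simp only [coeffMap_coeff, frobenius_def] at h2
    exact h2

end Fermat.Agent.S36G
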