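/-
Cluster G (S36, Carayol at `q² ∥ M`), block W-P, seat REG, sub-seat RegRoot (helper87; final
wiring helper89, sub-architect helper59).

**The Kronecker form `Ψ_t` of KC_t in the language of cluster T** (`kp` language): the levels
`D.R * D.Q` (Prelude: `heckeAlphaBar`, `heckeBetaBar`) and `D.Q * D.R` (`alphaQ`, `betaQ`) are
identified through the coercion to `LaurentSeries`.

* `regRoot`    : `Ψ_t ^ α (β t) = 0` for `α = alphaQ D`, `β = betaQ D`;
* `regRoot_eq` : `Ψ_t = (X - t ^ q) (X ^ q - t) + q R_t`;
* `regRoot_R`  : `p ^ α (β t)` evaluated with `alphaQ`, `betaQ` has the same `q`-expansion as with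
                 `heckeAlphaBar`, `heckeBetaBar` (any polynomial `p` over `F_R`).
These are the inputs `hΨ`, `hroot` of `reg_kc_final` (`S36/HPVal/RegKC.lean`) for
`Ψ = kctPsi D.R hq hqR t`, `R = kctR D.R hq hqR t`.
-/
import Mathlib
import Fermat.Agent.S36.HPVal.KCt
import Fermat.Agent.Lib.BadRed.Mod.ALDegeneracy

set_option autoImplicit false
set_option linter.style.haveILetI false
set_option linter.unusedSectionVars false
set_option linter.unusedVariables false
set_option synthInstance.maxHeartbeats 400000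

noncomputable section
attribute [local instance 10000] SubalgebraClass.toAlgebra HahnSeries.powerSeriesAlgebra

namespace Fermat.Agent.S36G

open ModularCurve AlgebraicCurve Fermat.Agent.GaussInt Fermat.Agent.AtkinLehner Polynomial

local notation "Qb" => AlgebraicClosure ℚ

section RegRoot

/-- the coercion to `q`-expansions of a finite sum. -/
theorem regRoot_coe_sum (N : ℕ) [NeZero N] (s : Finset ℕ) (f : ℕ → modularFunctionFieldBar N) :
    ((∑ i ∈ s, f i : modularFunctionFieldBar N) : LaurentSeries Qb) =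
      ∑ i ∈ s, (f i : LaurentSeries Qb) := by
  classical
  induction s using Finset.induction_on with
  | empty => simp
  | insert a s ha ih =>
    rw [Finset.sum_insert ha, Finset.sum_insert ha, ← ih]
    rfl

variable (D : ALData) [NeZero D.Q] [NeZero D.R] [NeZero (D.Q * D.R)]

/-- the `q`-expansion of `p ^ α (x)`, `α = alphaQ D`. -/
theorem regRoot_coe_alphaQ (p : Polynomial (modularFunctionFieldBar D.R))
    (x : modularFunctionFieldBar (D.Q * D.R)) :
    ((p.eval₂ (alphaQ D : modularFunctionFieldBar D.R →+*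
        modularFunctionFieldBar (D.Q * D.R)) x : modularFunctionFieldBar (D.Q * D.R)) :
      LaurentSeries Qb) =
    ∑ i ∈ Finset.range (p.natDegree + 1),
      ((p.coeff i : modularFunctionFieldBar D.R) : LaurentSeries Qb) *
        (x : LaurentSeries Qb) ^ i := by
  rw [Polynomial.eval₂_eq_sum_range, regRoot_coe_sum]
  refine Finset.sum_congr rfl fun i _ => ?_
  have h : ((alphaQ D : modularFunctionFieldBar D.R →+*
        modularFunctionFieldBar (D.Q * D.R)) (p.coeff i)) = alphaQ D (p.coeff i) := rfl
  rw [h]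
  have h2 : ((alphaQ D (p.coeff i) * x ^ i : modularFunctionFieldBar (D.Q * D.R)) :
      LaurentSeries Qb) = ((alphaQ D (p.coeff i) : modularFunctionFieldBar (D.Q * D.R)) :
      LaurentSeries Qb) * (x : LaurentSeries Qb) ^ i := rfl
  rw [h2, coe_alphaQ]

/-- the `q`-expansion of `p ^ α (y)`, `α = heckeAlphaBar`. -/
theorem regRoot_coe_heckeAlpha (p : Polynomial (modularFunctionFieldBar D.R))
    (y : modularFunctionFieldBar (D.R * D.Q)) :
    ((p.eval₂ (heckeAlphaBar Qb D.R D.Q : modularFunctionFieldBar D.R →+*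
        modularFunctionFieldBar (D.R * D.Q)) y : modularFunctionFieldBar (D.R * D.Q)) :
      LaurentSeries Qb) =
    ∑ i ∈ Finset.range (p.natDegree + 1),
      ((p.coeff i : modularFunctionFieldBar D.R) : LaurentSeries Qb) *
        (y : LaurentSeries Qb) ^ i := by
  rw [Polynomial.eval₂_eq_sum_range, regRoot_coe_sum]
  refine Finset.sum_congr rfl fun i _ => ?_
  have h : ((heckeAlphaBar Qb D.R D.Q : modularFunctionFieldBar D.R →+*
        modularFunctionFieldBar (D.R * D.Q)) (p.coeff i)) =
      heckeAlphaBar Qb D.R D.Q (p.coeff i) := rfl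
  rw [h]
  have h2 : ((heckeAlphaBar Qb D.R D.Q (p.coeff i) * y ^ i :
      modularFunctionFieldBar (D.R * D.Q)) : LaurentSeries Qb) =
      ((heckeAlphaBar Qb D.R D.Q (p.coeff i) : modularFunctionFieldBar (D.R * D.Q)) :
      LaurentSeries Qb) * (y : LaurentSeries Qb) ^ i := rfl
  rw [h2, coe_heckeAlphaBar]

/-- evaluation of a polynomial over `F_R` at a function of level `Q R` along `alphaQ`, resp. at a
function of level `R Q` along `heckeAlphaBar`: the same `q`-expansion. -/
theorem regRoot_coe_eval₂ (p : Polynomial (modularFunctionFieldBar D.R))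
    (x : modularFunctionFieldBar (D.Q * D.R)) (y : modularFunctionFieldBar (D.R * D.Q))
    (hxy : (x : LaurentSeries Qb) = (y : LaurentSeries Qb)) :
    ((p.eval₂ (alphaQ D : modularFunctionFieldBar D.R →+*
        modularFunctionFieldBar (D.Q * D.R)) x : modularFunctionFieldBar (D.Q * D.R)) :
      LaurentSeries Qb) =
    ((p.eval₂ (heckeAlphaBar Qb D.R D.Q : modularFunctionFieldBar D.R →+*
        modularFunctionFieldBar (D.R * D.Q)) y : modularFunctionFieldBar (D.R * D.Q)) :
      LaurentSeries Qb) := by
  rw [regRoot_coe_alphaQ, regRoot_coe_heckeAlpha, hxy]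

/-- the same for `x = betaQ D t`, `y = heckeBetaBar t`. -/
theorem regRoot_R (p : Polynomial (modularFunctionFieldBar D.R))
    (t : modularFunctionFieldBar D.R) :
    ((p.eval₂ (alphaQ D : modularFunctionFieldBar D.R →+*
        modularFunctionFieldBar (D.Q * D.R)) (betaQ D t) : modularFunctionFieldBar (D.Q * D.R)) :
      LaurentSeries Qb) =
    ((p.eval₂ (heckeAlphaBar Qb D.R D.Q : modularFunctionFieldBar D.R →+*
        modularFunctionFieldBar (D.R * D.Q)) (heckeBetaBar Qb D.R D.Q t) :
        modularFunctionFieldBar (D.R * D.Q)) : LaurentSeries Qb) :=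
  regRoot_coe_eval₂ D p _ _ (coe_betaQ_eq_heckeBetaBar D t)

variable (hq : D.Q.Prime) (hqR : ¬ D.Q ∣ D.R)

/-- **`β t` is a root of `Ψ_t`** (coefficients through `α`), in the language of cluster T. -/
theorem regRoot (t : modularFunctionFieldBar D.R) :
    (Fermat.Agent.S36.kctPsi D.R hq hqR t).eval₂
      (alphaQ D : modularFunctionFieldBar D.R →+* modularFunctionFieldBar (D.Q * D.R))
      (betaQ D t) = 0 := by
  have h0 : (((0 : modularFunctionFieldBar (D.R * D.Q)) : LaurentSeries Qb)) = 0 := rfl
  have h0' : (((0 : modularFunctionFieldBar (D.Q * D.R)) : LaurentSeries Qb)) = 0 := rfl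
  apply Subtype.ext
  rw [regRoot_R D _ t, Fermat.Agent.S36.kctPsi_root D.R hq hqR t, h0, h0']

/-- **the Kronecker form** `Ψ_t = (X - t ^ q) (X ^ q - t) + q R_t`. -/
theorem regRoot_eq (t : modularFunctionFieldBar D.R) :
    Fermat.Agent.S36.kctPsi D.R hq hqR t =
      (X - C (t ^ D.Q)) * (X ^ D.Q - C t) +
        C (D.Q : modularFunctionFieldBar D.R) * Fermat.Agent.S36.kctR D.R hq hqR t :=
  Fermat.Agent.S36.kctPsi_eq D.R hq hqR t

end RegRoot

end Fermat.Agent.S36G
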