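import Mathlib

set_option autoImplicit false
set_option linter.unusedSectionVars false
set_option linter.unusedVariables false
set_option linter.style.haveILetI false

/-!
# S36 (cluster G), block W-P, seat TEICH+SHIFT, part (T2): shift of the Kronecker form  (helper65)

Pure algebra over a commutative ring `B`, `q` a prime number.

The Kronecker form is `Ψ = (X - t₁^q) (X^q - t₁) + q R`.  For `a ∈ B` with `a^(q²) = a` and
`x₁ := t₁ - a^q` the shifted polynomial `Ψ(X + a)` has the SAME form in the variable `x₁`: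

  `Ψ(X + a) = (X - x₁^q) (X^q - x₁) + q Rs`,   `Rs(0) = R(a) + x₁ * b`.

* `wps_pow_shift`       : `(x + a^q)^q = x^q + a + q x b` if `a^(q²) = a`;
* `wps_shift`           : the statement above, with `Rs(0) = R(a) + x₁ * b`;
* `wps_shift_subring`   : the same for polynomials over a ring `F` whose data lie in a subring
  `O` (`t₁, a ∈ O`, coefficients of `R` in `O`): then `b ∈ O` and the coefficients of `Rs` are
  in `O` (for `O` = a valuation ring, a ring of regular functions, ...);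
* `wps_shift_natDegree` : `natDegree Rs ≤ q` if `B` is a domain, `(q : B) ≠ 0` and `Ψ` is monic of
  degree `q + 1`;
* `wps_shift_root`      : `Ψ(X + a)(x - a) = Ψ(x)`;
* `wps_shift_monic`     : `Ψ(X + a)` is monic if `Ψ` is.
-/

noncomputable section
attribute [local instance 10000] SubalgebraClass.toAlgebra HahnSeries.powerSeriesAlgebra

namespace Fermat.Agent.S36G

open Polynomial

variable {B : Type*} [CommRing B] {q : ℕ}

/-- `(x + a^q)^q = x^q + a + q x b` if `a^(q²) = a`. -/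
theorem wps_pow_shift (hq : q.Prime) (x a : B) (ha : a ^ (q ^ 2) = a) :
    ∃ b : B, (x + a ^ q) ^ q = x ^ q + a + (q : B) * x * b := by
  obtain ⟨r, hr⟩ := exists_add_pow_prime_eq hq x (a ^ q)
  refine ⟨a ^ q * r, ?_⟩
  rw [hr, ← pow_mul, ← sq, ha]
  ring

/-- `(X + a)^q = X^q + a^q + q X g`. -/
theorem wps_X_add_pow (hq : q.Prime) (a : B) :
    ∃ g : B[X], (X + C a) ^ q = X ^ q + C (a ^ q) + C (q : B) * X * g := by
  obtain ⟨r, hr⟩ := exists_add_pow_prime_eq hq (X : B[X]) (C a)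
  refine ⟨C a * r, ?_⟩
  rw [hr, C_pow]
  have e : ((q : ℕ) : B[X]) = C (q : B) := by simp
  rw [e]
  ring

/-- **shift of the Kronecker form.** -/
theorem wps_shift (hq : q.Prime) (t₁ a : B) (ha : a ^ (q ^ 2) = a) (R Ψ : B[X])
    (hΨ : Ψ = (X - C (t₁ ^ q)) * (X ^ q - C t₁) + C (q : B) * R) :
    ∃ (Rs : B[X]) (b : B),
      Ψ.comp (X + C a) =
        (X - C ((t₁ - a ^ q) ^ q)) * (X ^ q - C (t₁ - a ^ q)) + C (q : B) * Rs ∧
      Rs.eval 0 = R.eval a + (t₁ - a ^ q) * b := by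
  obtain ⟨x₁, hx₁⟩ : ∃ x₁ : B, x₁ = t₁ - a ^ q := ⟨_, rfl⟩
  rw [← hx₁]
  have ht₁ : t₁ = x₁ + a ^ q := by rw [hx₁]; ring
  obtain ⟨b₁, hb₁⟩ := wps_pow_shift hq x₁ a ha
  obtain ⟨g, hg⟩ := wps_X_add_pow hq a
  refine ⟨R.comp (X + C a) + (X - C (x₁ ^ q)) * (X * g) - C (x₁ * b₁) * (X ^ q - C x₁) -
      C (q : B) * C (x₁ * b₁) * (X * g), x₁ * b₁, ?_, ?_⟩
  · rw [hΨ]
    simp only [add_comp, mul_comp, sub_comp, X_comp, C_comp, pow_comp]
    rw [hg]
    have e1 : C (t₁ ^ q) = C (x₁ ^ q) + C a + C (q : B) * C (x₁ * b₁) := by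
      rw [ht₁, hb₁]
      simp only [map_add, map_mul]
      ring
    have e2 : C t₁ = C x₁ + C (a ^ q) := by
      rw [← map_add, ← ht₁]
    rw [e1, e2]
    ring
  · simp only [eval_add, eval_sub, eval_mul, eval_comp, eval_X, eval_C, eval_pow, zero_add,
      zero_mul, mul_zero, sub_zero, add_zero]
    rw [zero_pow hq.ne_zero]
    ring

/-- **shift of the Kronecker form, subring version**: if `t₁, a` and the coefficients of `R` lie
in the subring `O`, then so do `b` and the coefficients of `Rs`. -/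
theorem wps_shift_subring {F : Type*} [CommRing F] (hq : q.Prime) (O : Subring F)
    {t₁ a : F} (ht : t₁ ∈ O) (haO : a ∈ O) (ha : a ^ (q ^ 2) = a) (R Ψ : F[X])
    (hR : ∀ i, R.coeff i ∈ O)
    (hΨ : Ψ = (X - C (t₁ ^ q)) * (X ^ q - C t₁) + C (q : F) * R) :
    ∃ (Rs : F[X]) (b : F), b ∈ O ∧ (∀ i, Rs.coeff i ∈ O) ∧
      Ψ.comp (X + C a) =
        (X - C ((t₁ - a ^ q) ^ q)) * (X ^ q - C (t₁ - a ^ q)) + C (q : F) * Rs ∧
      Rs.eval 0 = R.eval a + (t₁ - a ^ q) * b := by
  have hR' : (↑R.coeffs : Set F) ⊆ O := by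
    intro c hc
    rw [Finset.mem_coe, mem_coeffs_iff] at hc
    obtain ⟨n, -, rfl⟩ := hc
    exact hR n
  set R₀ : (↥O)[X] := R.toSubring O hR' with hR₀
  have hmapR : R₀.map O.subtype = R := map_toSubring R O hR'
  set t' : ↥O := ⟨t₁, ht⟩ with ht'
  set a' : ↥O := ⟨a, haO⟩ with ha'
  have haa : a' ^ (q ^ 2) = a' := Subtype.ext (by simpa using ha)
  obtain ⟨Rs₀, b₀, h1, h2⟩ := wps_shift hq t' a' haa R₀
    ((X - C (t' ^ q)) * (X ^ q - C t') + C (q : ↥O) * R₀) rfl
  refine ⟨Rs₀.map O.subtype, (b₀ : F), b₀.2, ?_, ?_, ?_⟩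
  · intro i
    rw [coeff_map]
    exact (Rs₀.coeff i).2
  · have h3 := congrArg (Polynomial.map O.subtype) h1
    rw [Polynomial.map_comp] at h3
    simp only [Polynomial.map_add, Polynomial.map_mul, Polynomial.map_sub, Polynomial.map_pow,
      Polynomial.map_X, Polynomial.map_C, hmapR] at h3
    have e1 : O.subtype (t' ^ q) = t₁ ^ q := by simp [ht']
    have e2 : O.subtype t' = t₁ := rfl
    have e3 : O.subtype a' = a := rfl
    have e4 : O.subtype ((q : ℕ) : ↥O) = (q : F) := by simp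
    have e5 : O.subtype ((t' - a' ^ q) ^ q) = (t₁ - a ^ q) ^ q := by simp [ht', ha']
    have e6 : O.subtype (t' - a' ^ q) = t₁ - a ^ q := by simp [ht', ha']
    rw [e1, e2, e3, e4, e5, e6] at h3
    rw [hΨ]
    exact h3
  · have h4 := congrArg O.subtype h2
    have e7 : O.subtype (Rs₀.eval 0) = (Rs₀.map O.subtype).eval 0 := by
      rw [← Polynomial.eval_map_apply, map_zero]
    have e8 : O.subtype (R₀.eval a') = R.eval a := by
      rw [← Polynomial.eval_map_apply, hmapR]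
      rfl
    rw [map_add, map_mul, e8] at h4
    rw [← e7, h4]
    simp [ht', ha']

/-- `x` is a root of `Ψ` iff `x - a` is a root of `Ψ(X + a)`. -/
theorem wps_shift_root (Ψ : B[X]) (a x : B) :
    (Ψ.comp (X + C a)).eval (x - a) = Ψ.eval x := by
  rw [eval_comp, eval_add, eval_X, eval_C, sub_add_cancel]

/-- the shifted polynomial is monic of the same degree (over a nontrivial ring). -/
theorem wps_shift_monic [Nontrivial B] (Ψ : B[X]) (hΨ : Ψ.Monic) (a : B) :
    (Ψ.comp (X + C a)).Monic := by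
  exact hΨ.comp_X_add_C a

theorem wps_shift_natDegree_comp [IsDomain B] (Ψ : B[X]) (a : B) :
    (Ψ.comp (X + C a)).natDegree = Ψ.natDegree := by
  rw [natDegree_comp, natDegree_X_add_C, mul_one]

/-- the remainder of a Kronecker form has degree `≤ q`. -/
theorem wps_natDegree_le [IsDomain B] (hq : q.Prime) (hqB : (q : B) ≠ 0) (x₁ y : B)
    (Ψ Rs : B[X]) (hm : Ψ.Monic) (hd : Ψ.natDegree = q + 1)
    (h : Ψ = (X - C y) * (X ^ q - C x₁) + C (q : B) * Rs) : Rs.natDegree ≤ q := by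
  have h1 : C (q : B) * Rs = Ψ - (X - C y) * (X ^ q - C x₁) := by
    rw [h]
    ring
  have hm2 : ((X - C y) * (X ^ q - C x₁) : B[X]).Monic :=
    (monic_X_sub_C y).mul (monic_X_pow_sub_C x₁ hq.ne_zero)
  have hd2 : ((X - C y) * (X ^ q - C x₁) : B[X]).natDegree = q + 1 := by
    rw [(monic_X_sub_C y).natDegree_mul (monic_X_pow_sub_C x₁ hq.ne_zero), natDegree_X_sub_C,
      natDegree_X_pow_sub_C]
    ring
  have h2 : (Ψ - (X - C y) * (X ^ q - C x₁)).natDegree < q + 1 := by
    have hdeg : (Ψ - (X - C y) * (X ^ q - C x₁)).degree < Ψ.degree := by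
      apply degree_sub_lt_left
      · rw [degree_eq_natDegree hm.ne_zero, degree_eq_natDegree hm2.ne_zero, hd, hd2]
      · exact hm.ne_zero
      · rw [hm.leadingCoeff, hm2.leadingCoeff]
    by_cases h0 : Ψ - (X - C y) * (X ^ q - C x₁) = 0
    · rw [h0, natDegree_zero]
      omega
    · rw [degree_eq_natDegree h0, degree_eq_natDegree hm.ne_zero, hd] at hdeg
      exact_mod_cast hdeg
  rw [← h1, natDegree_C_mul hqB] at h2
  omega

/-- **degree of the shifted remainder**: `natDegree Rs ≤ q`. -/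
theorem wps_shift_natDegree [IsDomain B] (hq : q.Prime) (hqB : (q : B) ≠ 0) (x₁ y a : B)
    (Ψ Rs : B[X]) (hm : Ψ.Monic) (hd : Ψ.natDegree = q + 1)
    (h : Ψ.comp (X + C a) = (X - C y) * (X ^ q - C x₁) + C (q : B) * Rs) :
    Rs.natDegree ≤ q :=
  wps_natDegree_le hq hqB x₁ y (Ψ.comp (X + C a)) Rs (hm.comp_X_add_C a)
    (by rw [wps_shift_natDegree_comp, hd]) h

end Fermat.Agent.S36G
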