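/-
Cluster G (S36), block W-P, seat SWAP, adapter to the shape of `CoreFunAt` (helper2).

In `CoreFunAt N₁ q c P n` / `CoreBundle.hStep12` / `hF2` (`N₁ = M₀ * q`) the Atkin–Lehner datum
comes as `(D : ALData) (hM : M₀ * q * q = D.Q * D.R) (hDQ : D.Q = q ^ 2)`.  `SwapWire.lean` asks for
`hQ : D.Q = q * q`, `hR : D.R = M₀`.  This file derives them and restates (SWAP) in the
`CoreFunAt` shape.

* `swapCore_hQ`, `swapCore_hR` : `D.Q = q * q`, `D.R = M₀`;
* `swapCore_hyp`     : `WpswHyp M₀ q (wAt D hM)`;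
* `swapCore_iota0/1/2`, `swapCore_W/Z/Y` : the action of `wAt D hM` on the old copies and on the
  coordinates;
* `swapCore_mem_iff` : `wAt D hM f ∈ O_{w_P} ↔ f ∈ O_{w_P}`;
* `swapCore_final`   : **(SWAP)** for `wAt D hM`.
-/
import Fermat.Agent.S36.HPVal.SwapWire

set_option autoImplicit false
set_option linter.style.haveILetI false
set_option linter.unusedSectionVars false
set_option linter.unusedVariables false
set_option synthInstance.maxHeartbeats 400000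

noncomputable section
attribute [local instance 10000] SubalgebraClass.toAlgebra HahnSeries.powerSeriesAlgebra

namespace Fermat.Agent.S36G

open ModularCurve AlgebraicCurve IntermediateField Fermat.Agent.F3 Fermat.Agent.F3G
  Fermat.Agent.GaussInt Fermat.Agent.Deuring Fermat.Agent.BadRed Fermat.Agent.HPVal Fermat.Agent.HP
  Fermat.Agent.AtkinLehner

local notation "Qb" => AlgebraicClosure ℚ

section Core

variable {M₀ q : ℕ} [NeZero M₀] [NeZero q] {A : ValuationSubring Qb}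
  {S0 : Fermat.Agent.S18Key.RedSetup Qb (FBar M₀) (IsLocalRing.ResidueField A)
    ↥(modularFunctionFieldFullC (IsLocalRing.ResidueField A) M₀)}
  {P : Place (IsLocalRing.ResidueField A)
    ↥(modularFunctionFieldFullC (IsLocalRing.ResidueField A) M₀)}
  {FkP : Type} [Field FkP] [Algebra (IsLocalRing.ResidueField A) FkP]

theorem swapCore_hQ (D : ALData) (hDQ : D.Q = q ^ 2) : D.Q = q * q := by
  rw [hDQ, sq]

theorem swapCore_hR (D : ALData) (hM : M₀ * q * q = D.Q * D.R) (hDQ : D.Q = q ^ 2) :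
    D.R = M₀ := by
  have hq0 : 0 < q * q := Nat.mul_pos (Nat.pos_of_ne_zero (NeZero.ne q))
    (Nat.pos_of_ne_zero (NeZero.ne q))
  have h : q * q * D.R = q * q * M₀ := by
    rw [← swapCore_hQ D hDQ, ← hM, swapCore_hQ D hDQ]
    ring
  exact Nat.eq_of_mul_eq_mul_left hq0 h

/-- the Atkin–Lehner involution of `CoreFunAt` satisfies the hypotheses of (SWAP). -/
theorem swapCore_hyp (D : ALData) (hM : M₀ * q * q = D.Q * D.R) (hDQ : D.Q = q ^ 2) :
    WpswHyp M₀ q (wAt D hM) :=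
  wpswHyp_wAt D (swapCore_hQ D hDQ) (swapCore_hR D hM hDQ) hM

theorem swapCore_iota0 (D : ALData) (hM : M₀ * q * q = D.Q * D.R) (hDQ : D.Q = q ^ 2)
    (x : FBar M₀) : wAt D hM (wpIota0 M₀ q x) = wpIota2 M₀ q x :=
  (swapCore_hyp D hM hDQ).swap0 x

theorem swapCore_iota1 (D : ALData) (hM : M₀ * q * q = D.Q * D.R) (hDQ : D.Q = q ^ 2)
    (x : FBar M₀) : wAt D hM (wpdIota1 M₀ q x) = wpdIota1 M₀ q x :=
  (swapCore_hyp D hM hDQ).fix1 x

theorem swapCore_iota2 (D : ALData) (hM : M₀ * q * q = D.Q * D.R) (hDQ : D.Q = q ^ 2)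
    (x : FBar M₀) : wAt D hM (wpIota2 M₀ q x) = wpIota0 M₀ q x :=
  (swapCore_hyp D hM hDQ).swap2 x

theorem swapCore_W (D : ALData) (hM : M₀ * q * q = D.Q * D.R) (hDQ : D.Q = q ^ 2)
    (t : FBar M₀) (a ϖ : Qb) : wAt D hM (wpW M₀ q t a ϖ) = wpZ M₀ q t a ϖ :=
  (swapCore_hyp D hM hDQ).map_W t a ϖ

theorem swapCore_Z (D : ALData) (hM : M₀ * q * q = D.Q * D.R) (hDQ : D.Q = q ^ 2)
    (t : FBar M₀) (a ϖ : Qb) : wAt D hM (wpZ M₀ q t a ϖ) = wpW M₀ q t a ϖ :=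
  (swapCore_hyp D hM hDQ).map_Z t a ϖ

theorem swapCore_Y (D : ALData) (hM : M₀ * q * q = D.Q * D.R) (hDQ : D.Q = q ^ 2)
    (t : FBar M₀) (a ϖ : Qb) : wAt D hM (wpY M₀ q t a ϖ) = wpY M₀ q t a ϖ :=
  (swapCore_hyp D hM hDQ).map_Y t a ϖ

/-- **`w_{q²}` stabilises `O_{w_P}`** (`CoreFunAt` shape). -/
theorem swapCore_mem_iff (hq : q.Prime) (hA : A.LiesOverPrime q) (O : WPOut M₀ q A S0 P FkP)
    (D : ALData) (hM : M₀ * q * q = D.Q * D.R) (hDQ : D.Q = q ^ 2)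
    (f : FBar (M₀ * q * q)) : wAt D hM f ∈ O.S.Ov ↔ f ∈ O.S.Ov :=
  swapWire_mem_iff hq hA O D (swapCore_hQ D hDQ) (swapCore_hR D hM hDQ) hM f

/-- **(SWAP)** for the Atkin–Lehner involution of `CoreFunAt`: a `k`-automorphism `σ` of the
residue field `k(H_P)` with `red (w f) = σ (red f)` on `O_{w_P}`, `σ X₁ = X₂`, `σ X₂ = X₁`,
`σ Ȳ = Ȳ`. -/
theorem swapCore_final (hq : q.Prime) (hA : A.LiesOverPrime q) (O : WPOut M₀ q A S0 P FkP)
    (D : ALData) (hM : M₀ * q * q = D.Q * D.R) (hDQ : D.Q = q ^ 2) :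
    ∃ σ : FkP ≃ₐ[IsLocalRing.ResidueField A] FkP,
      (∀ f ∈ O.S.Ov, wAt D hM f ∈ O.S.Ov ∧ O.S.red (wAt D hM f) = σ (O.S.red f)) ∧
      σ O.H.X1 = O.H.X2 ∧ σ O.H.X2 = O.H.X1 ∧ σ O.H.Yf = O.H.Yf :=
  swapWire_final hq hA O D (swapCore_hQ D hDQ) (swapCore_hR D hM hDQ) hM

/-- the automorphism `σ` of (SWAP) is an involution of the residue field. -/
theorem swapCore_final_invol (hq : q.Prime) (hA : A.LiesOverPrime q) (O : WPOut M₀ q A S0 P FkP)
    (D : ALData) (hM : M₀ * q * q = D.Q * D.R) (hDQ : D.Q = q ^ 2) :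
    ∃ σ : FkP ≃ₐ[IsLocalRing.ResidueField A] FkP,
      (∀ f ∈ O.S.Ov, wAt D hM f ∈ O.S.Ov ∧ O.S.red (wAt D hM f) = σ (O.S.red f)) ∧
      σ O.H.X1 = O.H.X2 ∧ σ O.H.X2 = O.H.X1 ∧ σ O.H.Yf = O.H.Yf ∧ ∀ x, σ (σ x) = x := by
  obtain ⟨σ, h1, h2, h3, h4⟩ := swapCore_final hq hA O D hM hDQ
  refine ⟨σ, h1, h2, h3, h4, ?_⟩
  -- `σ ∘ σ` fixes `X₁`, `X₂`, which generate the residue field over `k`
  intro x
  have hx : x ∈ IntermediateField.adjoin (IsLocalRing.ResidueField A) {O.H.X1, O.H.X2} := by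
    rw [O.H.gen]
    exact IntermediateField.mem_top
  induction hx using IntermediateField.adjoin_induction with
  | mem y hy =>
    rcases hy with rfl | hy
    · rw [h2, h3]
    · rw [Set.mem_singleton_iff] at hy
      subst hy
      rw [h3, h2]
  | algebraMap c => rw [AlgEquiv.commutes, AlgEquiv.commutes]
  | add y z _ _ hy hz => rw [map_add, map_add, hy, hz]
  | inv y _ hy => rw [map_inv₀, map_inv₀, hy]
  | mul y z _ _ hy hz => rw [map_mul, map_mul, hy, hz]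

end Core

end Fermat.Agent.S36G
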