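/-
Cluster G (S36), block W-P, seat UNIQ-MOD part 2 (helper65): the field `uniq` of `WPVal` /
`WPOut` AT THE MODULAR DATUM of `Val.lean` (helper93):

  `S0 = wpdSetup A q M₀ ..` (helper10),  `S₁ = d1mSetup .. D ..` the disc valuation at `P'` of
  radius `π = ϖ ^ q` (helper6, `Disc1Mod.lean`),  `a = 0`,

from the uniqueness clause of `core_main` (helper42): `∀ O'', LiesOverV S₁.Ov O'' → O'' = Ow`
(algebra structure along `ι₁ = wpdIota1 M₀ q`).

* `wpum_uniq0_d1m` : the field `uniq`, exact shape.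
-/
import Mathlib
import Fermat.Agent.S36.HPVal.UniqMod
import Fermat.Agent.S36.HPVal.Disc1Mod

set_option autoImplicit false
set_option linter.style.haveILetI false
set_option linter.unusedSectionVars false
set_option synthInstance.maxHeartbeats 400000

noncomputable section
attribute [local instance 10000] SubalgebraClass.toAlgebra HahnSeries.powerSeriesAlgebra

namespace Fermat.Agent.S36G

open ModularCurve AlgebraicCurve IntermediateField Fermat.Agent.F3 Fermat.Agent.F3G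
  Fermat.Agent.GaussInt Fermat.Agent.Deuring Fermat.Agent.BadRed Fermat.Agent.HPVal
  Fermat.Agent.HP Polynomial

local notation "Qb" => AlgebraicClosure ℚ

variable (A : ValuationSubring Qb) (q M₀ : ℕ) [NeZero M₀] [NeZero q]
  (hq : q.Prime) (hA : A.LiesOverPrime q) (hqM : ¬ q ∣ M₀)
  (hg : genusFF Qb (modularFunctionFieldBar M₀) =
    genusFF (IsLocalRing.ResidueField A)
      (modularFunctionFieldFullC (IsLocalRing.ResidueField A) M₀))
  {P' : Place (IsLocalRing.ResidueField A)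
    (modularFunctionFieldFullC (IsLocalRing.ResidueField A) M₀)}
  {Pt : Place Qb (modularFunctionFieldBar M₀)} {t : modularFunctionFieldBar M₀}

/-- **the field `uniq` of `WPVal` at the modular datum** (`a = 0`, radius `ϖ ^ q`), from the
uniqueness clause of `core_main` over `S₁ = d1mSetup`. -/
theorem wpum_uniq0_d1m (D : DiscPoint (wpdSetup A q M₀ hq hA hqM hg) P' Pt t) {ϖ : Qb}
    (hπ0 : ϖ ^ q ≠ 0) (hπA : ϖ ^ q ∈ A) (hπ : (ϖ ^ q)⁻¹ ∉ A)
    {Ow : ValuationSubring (FBar (M₀ * q * q))}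
    (huniq : letI := algebraAlong (wpdIota1 M₀ q);
      ∀ O'' : ValuationSubring (FBar (M₀ * q * q)),
        LiesOverV (d1mSetup A q M₀ hq hA hqM hg D hπ0 hπA hπ).Ov O'' → O'' = Ow) :
    ∀ O' : ValuationSubring (FBar (M₀ * q * q)),
      (∀ c : Qb, algebraMap Qb (FBar (M₀ * q * q)) c ∈ O' ↔ c ∈ A) →
      WPCentred (wpdSetup A q M₀ hq hA hqM hg) P' (wpdIota1 M₀ q) O' →
      WPGeneric A O' (wpY M₀ q t 0 ϖ) → O' = Ow :=
  wpum_uniq0_of_unique (S0 := wpdSetup A q M₀ hq hA hqM hg) rfl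
    (d1m_discData A q M₀ hq hA hqM hg D hπ0 hπA hπ)
    (d1m_isDiscVal A q M₀ hq hA hqM hg D hπ0 hπA hπ) huniq

/-- the same with the hypotheses on `ϖ` itself. -/
theorem wpum_uniq0_d1m' (D : DiscPoint (wpdSetup A q M₀ hq hA hqM hg) P' Pt t) {ϖ : Qb}
    (hϖ0 : ϖ ≠ 0) (hϖA : ϖ ∈ A) (hϖ : ϖ⁻¹ ∉ A)
    {Ow : ValuationSubring (FBar (M₀ * q * q))}
    (huniq : letI := algebraAlong (wpdIota1 M₀ q);
      ∀ O'' : ValuationSubring (FBar (M₀ * q * q)),
        LiesOverV (d1mSetup A q M₀ hq hA hqM hg D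
          (d1m_pow_props hϖ0 hϖA hϖ (NeZero.ne q)).1
          (d1m_pow_props hϖ0 hϖA hϖ (NeZero.ne q)).2.1
          (d1m_pow_props hϖ0 hϖA hϖ (NeZero.ne q)).2.2).Ov O'' → O'' = Ow) :
    ∀ O' : ValuationSubring (FBar (M₀ * q * q)),
      (∀ c : Qb, algebraMap Qb (FBar (M₀ * q * q)) c ∈ O' ↔ c ∈ A) →
      WPCentred (wpdSetup A q M₀ hq hA hqM hg) P' (wpdIota1 M₀ q) O' →
      WPGeneric A O' (wpY M₀ q t 0 ϖ) → O' = Ow :=
  wpum_uniq0_d1m A q M₀ hq hA hqM hg D _ _ _ huniq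

end Fermat.Agent.S36G
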